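import Mathlib
import Fermat.Prelude.Def_ModularCurve_GenusNumerics

/-!
# S20: shared definitions

Modular forms for `Γ₀(N)` as *predicates on functions* `ℍ → ℂ`, so that all weights live in the
same ambient vector space and products need no casts.
-/

set_option autoImplicit false

noncomputable section

open UpperHalfPlane ModularForm CongruenceSubgroup Matrix.SpecialLinearGroup
open scoped MatrixGroups Manifold

namespace Fermat.Agent.S20

/-- The coset space `SL(2,ℤ) / Γ₀(N)` (left cosets), with the left action of `SL(2,ℤ)`. -/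
abbrev X0 (N : ℕ) : Type := SL(2, ℤ) ⧸ Gamma0 N

instance instFiniteX0 (N : ℕ) [NeZero N] : Finite (X0 N) :=
  Subgroup.finite_quotient_of_finiteIndex

instance instFintypeX0 (N : ℕ) [NeZero N] : Fintype (X0 N) := Fintype.ofFinite _

instance instDecidableEqX0 (N : ℕ) : DecidableEq (X0 N) := Classical.decEq _

/-- `f` is (the underlying function of) a modular form of weight `k` for `Γ₀(N)`. -/
structure IsMF (N : ℕ) (k : ℤ) (f : ℍ → ℂ) : Prop where
  slash : ∀ γ ∈ Gamma0 N, f ∣[k] γ = f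
  holo : MDiff f
  bdd : ∀ γ : SL(2, ℤ), IsBoundedAtImInfty (f ∣[k] γ)

/-- `f` is (the underlying function of) a cusp form of weight `k` for `Γ₀(N)`. -/
structure IsCF (N : ℕ) (k : ℤ) (f : ℍ → ℂ) : Prop where
  slash : ∀ γ ∈ Gamma0 N, f ∣[k] γ = f
  holo : MDiff f
  zero : ∀ γ : SL(2, ℤ), IsZeroAtImInfty (f ∣[k] γ)

theorem IsCF.isMF {N : ℕ} {k : ℤ} {f : ℍ → ℂ} (h : IsCF N k f) : IsMF N k f :=
  ⟨h.slash, h.holo, fun γ => (h.zero γ).isBoundedAtImInfty⟩

section bridge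

variable {N : ℕ} [NeZero N] {k : ℤ}

theorem isMF_coe (f : ModularForm (Gamma0 N) k) : IsMF N k f where
  slash γ hγ := by
    rw [SL_slash]
    exact SlashInvariantForm.slash_action_eqn f _ (Subgroup.mem_map_of_mem _ hγ)
  holo := f.holo'
  bdd γ := ModularFormClass.bdd_at_infty_slash f γ

theorem isCF_coe (f : CuspForm (Gamma0 N) k) : IsCF N k f where
  slash γ hγ := by
    rw [SL_slash]
    exact SlashInvariantForm.slash_action_eqn f _ (Subgroup.mem_map_of_mem _ hγ)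
  holo := f.holo'
  zero γ := CuspFormClass.zero_at_infty_slash f γ

/-- Build a Mathlib modular form from `IsMF`. -/
def IsMF.toModularForm {f : ℍ → ℂ} (h : IsMF N k f) : ModularForm (Gamma0 N) k where
  toFun := f
  slash_action_eq' γ hγ := by
    obtain ⟨g, hg, rfl⟩ := Subgroup.mem_map.mp hγ
    exact (SL_slash (f := f) (k := k) g).symm.trans (h.slash g hg)
  holo' := h.holo
  bdd_at_cusps' {c} hc := by
    rw [Subgroup.IsArithmetic.isCusp_iff_isCusp_SL2Z] at hc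
    rw [OnePoint.isBoundedAt_iff_forall_SL2Z hc]
    exact fun γ _ => h.bdd γ

@[simp] theorem IsMF.coe_toModularForm {f : ℍ → ℂ} (h : IsMF N k f) :
    ⇑h.toModularForm = f := rfl

/-- Build a Mathlib cusp form from `IsCF`. -/
def IsCF.toCuspForm {f : ℍ → ℂ} (h : IsCF N k f) : CuspForm (Gamma0 N) k where
  toFun := f
  slash_action_eq' γ hγ := by
    obtain ⟨g, hg, rfl⟩ := Subgroup.mem_map.mp hγ
    exact (SL_slash (f := f) (k := k) g).symm.trans (h.slash g hg)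
  holo' := h.holo
  zero_at_cusps' {c} hc := by
    rw [Subgroup.IsArithmetic.isCusp_iff_isCusp_SL2Z] at hc
    rw [OnePoint.isZeroAt_iff_forall_SL2Z hc]
    exact fun γ _ => h.zero γ

@[simp] theorem IsCF.coe_toCuspForm {f : ℍ → ℂ} (h : IsCF N k f) :
    ⇑h.toCuspForm = f := rfl

end bridge

section submodules

variable (N : ℕ) (k : ℤ)

theorem IsMF.zero' : IsMF N k 0 :=
  ⟨fun γ _ => SlashAction.zero_slash _ _, mdifferentiable_const,
    fun γ => by rw [SlashAction.zero_slash]; exact (Filter.zero_zeroAtFilter _).boundedAtFilter⟩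

theorem IsCF.zero' : IsCF N k 0 :=
  ⟨fun γ _ => SlashAction.zero_slash _ _, mdifferentiable_const,
    fun γ => by rw [SlashAction.zero_slash]; exact Filter.zero_zeroAtFilter _⟩

variable {N k}

theorem IsMF.add {f g : ℍ → ℂ} (hf : IsMF N k f) (hg : IsMF N k g) : IsMF N k (f + g) :=
  ⟨fun γ hγ => by rw [SlashAction.add_slash, hf.slash γ hγ, hg.slash γ hγ], hf.holo.add hg.holo,
    fun γ => by rw [SlashAction.add_slash]; exact (hf.bdd γ).add (hg.bdd γ)⟩

theorem IsCF.add {f g : ℍ → ℂ} (hf : IsCF N k f) (hg : IsCF N k g) : IsCF N k (f + g) :=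
  ⟨fun γ hγ => by rw [SlashAction.add_slash, hf.slash γ hγ, hg.slash γ hγ], hf.holo.add hg.holo,
    fun γ => by rw [SlashAction.add_slash]; exact (hf.zero γ).add (hg.zero γ)⟩

theorem IsMF.smul {f : ℍ → ℂ} (c : ℂ) (hf : IsMF N k f) : IsMF N k (c • f) :=
  ⟨fun γ hγ => by rw [SL_smul_slash, hf.slash γ hγ], hf.holo.const_smul c,
    fun γ => by rw [SL_smul_slash]; exact (hf.bdd γ).const_smul_left c⟩

theorem IsCF.smul {f : ℍ → ℂ} (c : ℂ) (hf : IsCF N k f) : IsCF N k (c • f) :=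
  ⟨fun γ hγ => by rw [SL_smul_slash, hf.slash γ hγ], hf.holo.const_smul c,
    fun γ => by rw [SL_smul_slash]; exact (hf.zero γ).smul c⟩

variable (N k)

/-- The space `M_k(Γ₀(N))` as a submodule of `ℍ → ℂ`. -/
def MFs : Submodule ℂ (ℍ → ℂ) where
  carrier := {f | IsMF N k f}
  zero_mem' := IsMF.zero' N k
  add_mem' := IsMF.add
  smul_mem' c _ := IsMF.smul c

/-- The space `S_k(Γ₀(N))` as a submodule of `ℍ → ℂ`. -/
def CFs : Submodule ℂ (ℍ → ℂ) where
  carrier := {f | IsCF N k f}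
  zero_mem' := IsCF.zero' N k
  add_mem' := IsCF.add
  smul_mem' c _ := IsCF.smul c

variable {N k}

@[simp] theorem mem_MFs {f : ℍ → ℂ} : f ∈ MFs N k ↔ IsMF N k f := Iff.rfl
@[simp] theorem mem_CFs {f : ℍ → ℂ} : f ∈ CFs N k ↔ IsCF N k f := Iff.rfl

theorem CFs_le_MFs : CFs N k ≤ MFs N k := fun _ h => IsCF.isMF h

variable [NeZero N]

/-- `M_k(Γ₀(N))` (Mathlib) is linearly equivalent to `MFs N k`. -/
def mfEquiv : ModularForm (Gamma0 N) k ≃ₗ[ℂ] MFs N k where
  toFun f := ⟨f, isMF_coe f⟩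
  map_add' _ _ := rfl
  map_smul' _ _ := rfl
  invFun f := IsMF.toModularForm f.2
  left_inv _ := rfl
  right_inv _ := rfl

/-- `S_k(Γ₀(N))` (Mathlib) is linearly equivalent to `CFs N k`. -/
def cfEquiv : CuspForm (Gamma0 N) k ≃ₗ[ℂ] CFs N k where
  toFun f := ⟨f, isCF_coe f⟩
  map_add' _ _ := rfl
  map_smul' _ _ := rfl
  invFun f := IsCF.toCuspForm f.2
  left_inv _ := rfl
  right_inv _ := rfl

theorem finrank_cuspForm_eq :
    Module.finrank ℂ (CuspForm (Gamma0 N) k) = Module.finrank ℂ (CFs N k) :=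
  cfEquiv.finrank_eq

theorem finrank_modularForm_eq :
    Module.finrank ℂ (ModularForm (Gamma0 N) k) = Module.finrank ℂ (MFs N k) :=
  mfEquiv.finrank_eq

end submodules

section conjugates

variable {N : ℕ} {k : ℤ}

/-- The conjugate `f ∣[k] g⁻¹` of `f` attached to the coset `x = g Γ₀(N)`
(independent of `g` when `f` is `Γ₀(N)`-invariant, see `cj_mk`). -/
def cj (N : ℕ) (k : ℤ) (f : ℍ → ℂ) (x : X0 N) : ℍ → ℂ :=
  f ∣[k] (Quotient.out x)⁻¹

theorem cj_mk {f : ℍ → ℂ} (hf : ∀ γ ∈ Gamma0 N, f ∣[k] γ = f) (g : SL(2, ℤ)) :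
    cj N k f (QuotientGroup.mk g) = f ∣[k] g⁻¹ := by
  unfold cj
  have h : (Quotient.out (QuotientGroup.mk g : X0 N))⁻¹ * g ∈ Gamma0 N := by
    have := QuotientGroup.mk_out_eq_mul (Gamma0 N) g
    obtain ⟨γ, hγ⟩ := this
    rw [hγ]
    simp
  have h2 : (Quotient.out (QuotientGroup.mk g : X0 N))⁻¹ =
      ((Quotient.out (QuotientGroup.mk g : X0 N))⁻¹ * g) * g⁻¹ := by group
  rw [h2, SlashAction.slash_mul, hf _ h]

theorem cj_slash {f : ℍ → ℂ} (hf : ∀ γ ∈ Gamma0 N, f ∣[k] γ = f) (x : X0 N) (g : SL(2, ℤ)) :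
    (cj N k f x) ∣[k] g = cj N k f (g⁻¹ • x) := by
  induction x using QuotientGroup.induction_on with
  | H a =>
    rw [cj_mk hf]
    have : (g⁻¹ • (QuotientGroup.mk a : X0 N)) = QuotientGroup.mk (g⁻¹ * a) := rfl
    rw [this, cj_mk hf, ← SlashAction.slash_mul]
    congr 1
    group

theorem cj_add (f g : ℍ → ℂ) (x : X0 N) : cj N k (f + g) x = cj N k f x + cj N k g x := by
  unfold cj; rw [SlashAction.add_slash]

theorem cj_smul (c : ℂ) (f : ℍ → ℂ) (x : X0 N) : cj N k (c • f) x = c • cj N k f x := by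
  unfold cj; rw [SL_smul_slash]

theorem cj_mul (k₁ k₂ : ℤ) (f g : ℍ → ℂ) (x : X0 N) :
    cj N (k₁ + k₂) (f * g) x = cj N k₁ f x * cj N k₂ g x := by
  unfold cj; rw [mul_slash_SL2]

theorem IsMF.cj_holo {f : ℍ → ℂ} (hf : IsMF N k f) (x : X0 N) : MDiff (cj N k f x) := by
  unfold cj
  exact (isMF_slash_holo hf.holo _)
where
  isMF_slash_holo {f : ℍ → ℂ} (h : MDiff f) (g : SL(2, ℤ)) : MDiff (f ∣[k] g) := by
    rw [SL_slash]
    exact h.slash k _

theorem IsMF.cj_bdd {f : ℍ → ℂ} (hf : IsMF N k f) (x : X0 N) (g : SL(2, ℤ)) :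
    IsBoundedAtImInfty ((cj N k f x) ∣[k] g) := by
  unfold cj
  rw [← SlashAction.slash_mul]
  exact hf.bdd _

theorem IsCF.cj_zero {f : ℍ → ℂ} (hf : IsCF N k f) (x : X0 N) (g : SL(2, ℤ)) :
    IsZeroAtImInfty ((cj N k f x) ∣[k] g) := by
  unfold cj
  rw [← SlashAction.slash_mul]
  exact hf.zero _

theorem mem_Gamma0_one (γ : SL(2, ℤ)) : γ ∈ Gamma0 1 := by
  rw [Gamma0_mem]
  exact Subsingleton.elim _ _

/-- Level-one forms are forms of every level. -/
theorem IsMF.of_one {f : ℍ → ℂ} (hf : IsMF 1 k f) : IsMF N k f :=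
  ⟨fun γ _ => hf.slash γ (mem_Gamma0_one _), hf.holo, hf.bdd⟩

theorem IsCF.of_one {f : ℍ → ℂ} (hf : IsCF 1 k f) : IsCF N k f :=
  ⟨fun γ _ => hf.slash γ (mem_Gamma0_one _), hf.holo, hf.zero⟩

theorem IsMF.slash_one {f : ℍ → ℂ} (hf : IsMF 1 k f) (g : SL(2, ℤ)) : f ∣[k] g = f :=
  hf.slash g (mem_Gamma0_one _)

theorem cj_of_one {f : ℍ → ℂ} (hf : IsMF 1 k f) (x : X0 N) : cj N k f x = f := by
  unfold cj; exact hf.slash_one _

theorem IsMF.mul {k₁ k₂ : ℤ} {f g : ℍ → ℂ} (hf : IsMF N k₁ f) (hg : IsMF N k₂ g) :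
    IsMF N (k₁ + k₂) (f * g) :=
  ⟨fun γ hγ => by rw [mul_slash_SL2, hf.slash γ hγ, hg.slash γ hγ], hf.holo.mul hg.holo,
    fun γ => by rw [mul_slash_SL2]; exact (hf.bdd γ).mul (hg.bdd γ)⟩

theorem IsCF.mul_isMF {k₁ k₂ : ℤ} {f g : ℍ → ℂ} (hf : IsCF N k₁ f) (hg : IsMF N k₂ g) :
    IsCF N (k₁ + k₂) (f * g) :=
  ⟨fun γ hγ => by rw [mul_slash_SL2, hf.slash γ hγ, hg.slash γ hγ], hf.holo.mul hg.holo,
    fun γ => by
      rw [mul_slash_SL2]
      exact (hf.zero γ).mul_boundedAtFilter (hg.bdd γ)⟩ 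

/-- `n`-th coefficient of the `q_N`-expansion (`q_N = exp(2πiτ/N)`) of the conjugate of `f`
at the coset `x`. -/
def cuspCoeff (N : ℕ) (k : ℤ) (f : ℍ → ℂ) (x : X0 N) (n : ℕ) : ℂ :=
  (qExpansion (N : ℝ) (cj N k f x)).coeff n

end conjugates

section linalg

/-- `ζ`-eigenspace of the operator `v ↦ v ∘ σ` on functions `X → ℂ`. -/
def eigSp {X : Type*} (σ : X → X) (ζ : ℂ) : Submodule ℂ (X → ℂ) where
  carrier := {v | ∀ x, v (σ x) = ζ * v x}
  zero_mem' := by intro x; simp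
  add_mem' := by
    intro a b ha hb x
    simp only [Pi.add_apply, ha x, hb x, mul_add]
  smul_mem' := by
    intro c a ha x
    simp only [Pi.smul_apply, smul_eq_mul, ha x]
    ring

@[simp] theorem mem_eigSp {X : Type*} {σ : X → X} {ζ : ℂ} {v : X → ℂ} :
    v ∈ eigSp σ ζ ↔ ∀ x, v (σ x) = ζ * v x := Iff.rfl

end linalg

section generators

/-- Homogeneous generators of `⊕_k M_k(Γ₀(N))` as a module over the level-one forms,
together with the resulting dimension count. -/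
structure GenData (N : ℕ) where
  /-- index set of the generators -/
  J : Type
  /-- finitely many generators -/
  fin : Fintype J
  /-- weights of the generators -/
  d : J → ℕ
  /-- the generators -/
  e : J → ℍ → ℂ
  isMF : ∀ j, IsMF N (d j) (e j)
  gen : ∀ (k : ℤ) (f : ℍ → ℂ), IsMF N k f →
    ∃ P : J → ℍ → ℂ, (∀ j, IsMF 1 (k - d j) (P j)) ∧ f = ∑ j, P j * e j
  count : ∀ k : ℤ, Module.finrank ℂ (MFs N k) = ∑ j, Module.finrank ℂ (MFs 1 (k - d j))

attribute [instance] GenData.fin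

end generators

end Fermat.Agent.S20
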