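import Mathlib

/-!
# S20 package (6): structure of level-one modular forms (helper29)

Part A: vanishing at elliptic fixed points, `E₄`, `E₆` have no common zero.
Part B: a level-one modular form without zeros on `ℍ` is `c * Δ ^ m`.
-/

set_option autoImplicit false

noncomputable section

open UpperHalfPlane ModularForm Filter Topology CongruenceSubgroup
open scoped MatrixGroups Manifold

namespace Fermat.Agent.S20.helper29

/-! ## Part A: elliptic points -/

/-- Functional equation for level-one forms, for an element of `SL(2, ℤ)`. -/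
theorem levelOne_apply_smul {k : ℤ} {F : Type*} [FunLike F ℍ ℂ] [SlashInvariantFormClass F 𝒮ℒ k]
    (f : F) (γ : SL(2, ℤ)) (τ : ℍ) : f (γ • τ) = denom γ τ ^ k * f τ := by
  have : SlashInvariantFormClass F Γ(1) k := Gamma_one_coe_eq_SL ▸ ‹_›
  exact SlashInvariantForm.slash_action_eqn_SL'' f (mem_Gamma_one γ) τ

/-- A form of level `Γ` vanishes at a fixed point of `γ ∈ Γ` unless the automorphy factor
to the power `k` is `1`. -/
theorem eq_zero_of_smul_eq_self_of_mem {k : ℤ} {F : Type*} [FunLike F ℍ ℂ]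
    {Γ : Subgroup SL(2, ℤ)}
    [SlashInvariantFormClass F (Γ.map (Matrix.SpecialLinearGroup.mapGL ℝ)) k]
    (f : F) {γ : SL(2, ℤ)} (hγΓ : γ ∈ Γ) {τ : ℍ} (hγ : γ • τ = τ)
    (hk : denom γ τ ^ k ≠ 1) : f τ = 0 := by
  have h := SlashInvariantForm.slash_action_eqn_SL'' f hγΓ τ
  rw [hγ] at h
  have h2 : (1 - denom γ τ ^ k) * f τ = 0 := by
    rw [sub_mul, one_mul, ← h, sub_self]
  rcases mul_eq_zero.mp h2 with h3 | h3
  · exact absurd (sub_eq_zero.mp h3).symm hk
  · exact h3

/-- A level-one form vanishes at a fixed point of `γ` unless the automorphy factor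
to the power `k` is `1`. -/
theorem eq_zero_of_smul_eq_self {k : ℤ} {F : Type*} [FunLike F ℍ ℂ]
    [SlashInvariantFormClass F 𝒮ℒ k]
    (f : F) {γ : SL(2, ℤ)} {τ : ℍ} (hγ : γ • τ = τ)
    (hk : denom γ τ ^ k ≠ 1) : f τ = 0 := by
  have h := levelOne_apply_smul f γ τ
  rw [hγ] at h
  have h2 : (1 - denom γ τ ^ k) * f τ = 0 := by
    rw [sub_mul, one_mul, ← h, sub_self]
  rcases mul_eq_zero.mp h2 with h3 | h3
  · exact absurd (sub_eq_zero.mp h3).symm hk
  · exact h3

/-- `E₄` and `E₆` have no common zero. -/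
theorem E₄_ne_zero_or_E₆_ne_zero (τ : ℍ) : E₄ τ ≠ 0 ∨ E₆ τ ≠ 0 := by
  by_contra h
  rw [not_or, not_not, not_not] at h
  have := discriminant_eq_E₄_cube_sub_E₆_sq τ
  rw [h.1, h.2] at this
  exact discriminant_ne_zero τ (by simpa using this)

theorem E₄_ne_zero_of_E₆_eq_zero {τ : ℍ} (h : E₆ τ = 0) : E₄ τ ≠ 0 := by
  rcases E₄_ne_zero_or_E₆_ne_zero τ with h' | h'
  · exact h'
  · exact absurd h h'

theorem E₆_ne_zero_of_E₄_eq_zero {τ : ℍ} (h : E₄ τ = 0) : E₆ τ ≠ 0 := by
  rcases E₄_ne_zero_or_E₆_ne_zero τ with h' | h'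
  · exact absurd h h'
  · exact h'

/-- The automorphy factor of `S` at `τ` is `τ`. -/
theorem denom_S_eq (τ : ℍ) : denom ModularGroup.S τ = (τ : ℂ) := ModularGroup.denom_S τ

/-- The automorphy factor of `S * T` at `τ` is `τ + 1`. -/
theorem denom_ST_eq (τ : ℍ) :
    denom ((ModularGroup.S * ModularGroup.T : SL(2, ℤ)) : GL (Fin 2) ℝ) τ = (τ : ℂ) + 1 := by
  rw [ModularGroup.denom_apply]
  have h10 : (ModularGroup.S * ModularGroup.T) 1 0 = 1 := by
    simp [ModularGroup.coe_S, ModularGroup.coe_T, Matrix.mul_apply, Fin.sum_univ_two]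
  have h11 : (ModularGroup.S * ModularGroup.T) 1 1 = 1 := by
    simp [ModularGroup.coe_S, ModularGroup.coe_T, Matrix.mul_apply, Fin.sum_univ_two]
  rw [h10, h11]
  simp

/-- A fixed point of `S` satisfies `τ ^ 2 = -1`. -/
theorem sq_eq_neg_one_of_S_fixed {τ : ℍ} (h : ModularGroup.S • τ = τ) : (τ : ℂ) ^ 2 = -1 := by
  have h1 : ((ModularGroup.S • τ : ℍ) : ℂ) = (τ : ℂ) := by rw [h]
  rw [modular_S_smul] at h1
  have hτ : (τ : ℂ) ≠ 0 := ne_zero τ
  have h2 : (-(τ : ℂ))⁻¹ = (τ : ℂ) := h1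
  field_simp at h2
  linear_combination -h2

/-- A fixed point of `S * T` satisfies `τ ^ 2 + τ + 1 = 0`. -/
theorem sq_add_of_ST_fixed {τ : ℍ} (h : (ModularGroup.S * ModularGroup.T) • τ = τ) :
    (τ : ℂ) ^ 2 + τ + 1 = 0 := by
  have h1 : (((ModularGroup.S * ModularGroup.T) • τ : ℍ) : ℂ) = (τ : ℂ) := by rw [h]
  rw [mul_smul, modular_T_smul, modular_S_smul] at h1
  have h2 : (-((1 : ℂ) + τ))⁻¹ = (τ : ℂ) := by simpa using h1
  have hne : (1 : ℂ) + τ ≠ 0 := by
    have := ne_zero ((1 : ℝ) +ᵥ τ)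
    simpa using this
  field_simp at h2
  linear_combination -h2

/-- At the fixed point of `S` the automorphy factor is a primitive 4th root of unity. -/
theorem isPrimitiveRoot_denom_S {τ : ℍ} (h : ModularGroup.S • τ = τ) :
    IsPrimitiveRoot (denom ModularGroup.S τ) 4 := by
  rw [denom_S_eq]
  have h2 := sq_eq_neg_one_of_S_fixed h
  refine IsPrimitiveRoot.mk_of_lt _ (by norm_num) ?_ ?_
  · have : (τ : ℂ) ^ 4 = ((τ : ℂ) ^ 2) ^ 2 := by ring
    rw [this, h2]; norm_num
  · intro l hl0 hl4 hl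
    interval_cases l
    · rw [pow_one] at hl
      rw [hl] at h2
      norm_num at h2
    · rw [h2] at hl
      norm_num at hl
    · have : (τ : ℂ) ^ 3 = (τ : ℂ) ^ 2 * τ := by ring
      rw [this, h2] at hl
      have h3 : (τ : ℂ) = -1 := by linear_combination -hl
      rw [h3] at h2
      norm_num at h2

/-- At the fixed point of `S * T` the automorphy factor is a primitive 6th root of unity. -/
theorem isPrimitiveRoot_denom_ST {τ : ℍ} (h : (ModularGroup.S * ModularGroup.T) • τ = τ) :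
    IsPrimitiveRoot (denom ((ModularGroup.S * ModularGroup.T : SL(2, ℤ)) : GL (Fin 2) ℝ) τ) 6 := by
  rw [denom_ST_eq]
  have h2 := sq_add_of_ST_fixed h
  have hu2 : ((τ : ℂ) + 1) ^ 2 = τ := by linear_combination h2
  have hu3 : ((τ : ℂ) + 1) ^ 3 = -1 := by linear_combination ((τ : ℂ) + 2) * h2
  refine IsPrimitiveRoot.mk_of_lt _ (by norm_num) ?_ ?_
  · have : ((τ : ℂ) + 1) ^ 6 = (((τ : ℂ) + 1) ^ 3) ^ 2 := by ring
    rw [this, hu3]; norm_num
  · intro l hl0 hl6 hl
    interval_cases l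
    · rw [pow_one] at hl
      have h3 : (τ : ℂ) = 0 := by linear_combination hl
      rw [h3] at h2
      norm_num at h2
    · rw [hu2] at hl
      rw [hl] at h2
      norm_num at h2
    · rw [hu3] at hl
      norm_num at hl
    · have : ((τ : ℂ) + 1) ^ 4 = ((τ : ℂ) + 1) ^ 3 * (τ + 1) := by ring
      rw [this, hu3] at hl
      have h3 : (τ : ℂ) = -2 := by linear_combination -hl
      rw [h3] at h2
      norm_num at h2
    · have : ((τ : ℂ) + 1) ^ 5 = ((τ : ℂ) + 1) ^ 3 * (τ + 1) ^ 2 := by ring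
      rw [this, hu3, hu2] at hl
      have h3 : (τ : ℂ) = -1 := by linear_combination -hl
      rw [h3] at h2
      norm_num at h2

theorem denom_S_zpow_eq_one_iff {τ : ℍ} (h : ModularGroup.S • τ = τ) (k : ℤ) :
    denom ModularGroup.S τ ^ k = 1 ↔ (4 : ℤ) ∣ k := by
  simpa using (isPrimitiveRoot_denom_S h).zpow_eq_one_iff_dvd k

theorem denom_ST_zpow_eq_one_iff {τ : ℍ} (h : (ModularGroup.S * ModularGroup.T) • τ = τ)
    (k : ℤ) :
    denom ((ModularGroup.S * ModularGroup.T : SL(2, ℤ)) : GL (Fin 2) ℝ) τ ^ k = 1 ↔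
      (6 : ℤ) ∣ k := by
  simpa using (isPrimitiveRoot_denom_ST h).zpow_eq_one_iff_dvd k

/-- A level-one form of weight not divisible by `4` vanishes at the fixed point of `S`. -/
theorem eq_zero_of_S_fixed {k : ℤ} {F : Type*} [FunLike F ℍ ℂ]
    [SlashInvariantFormClass F 𝒮ℒ k] (f : F) {τ : ℍ} (h : ModularGroup.S • τ = τ)
    (hk : ¬ (4 : ℤ) ∣ k) : f τ = 0 :=
  eq_zero_of_smul_eq_self f h (fun h' => hk ((denom_S_zpow_eq_one_iff h k).mp h'))

/-- A level-one form of weight not divisible by `6` vanishes at the fixed point of `S * T`. -/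
theorem eq_zero_of_ST_fixed {k : ℤ} {F : Type*} [FunLike F ℍ ℂ]
    [SlashInvariantFormClass F 𝒮ℒ k] (f : F) {τ : ℍ}
    (h : (ModularGroup.S * ModularGroup.T) • τ = τ)
    (hk : ¬ (6 : ℤ) ∣ k) : f τ = 0 :=
  eq_zero_of_smul_eq_self f h (fun h' => hk ((denom_ST_zpow_eq_one_iff h k).mp h'))

theorem E₆_eq_zero_of_S_fixed {τ : ℍ} (h : ModularGroup.S • τ = τ) : E₆ τ = 0 :=
  eq_zero_of_S_fixed E₆ h (by norm_num)

theorem E₄_ne_zero_of_S_fixed {τ : ℍ} (h : ModularGroup.S • τ = τ) : E₄ τ ≠ 0 :=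
  E₄_ne_zero_of_E₆_eq_zero (E₆_eq_zero_of_S_fixed h)

theorem E₄_eq_zero_of_ST_fixed {τ : ℍ} (h : (ModularGroup.S * ModularGroup.T) • τ = τ) :
    E₄ τ = 0 :=
  eq_zero_of_ST_fixed E₄ h (by norm_num)

theorem E₆_ne_zero_of_ST_fixed {τ : ℍ} (h : (ModularGroup.S * ModularGroup.T) • τ = τ) :
    E₆ τ ≠ 0 :=
  E₆_ne_zero_of_E₄_eq_zero (E₄_eq_zero_of_ST_fixed h)

/-- `S` fixes `I`. -/
theorem S_smul_I : ModularGroup.S • (UpperHalfPlane.I) = UpperHalfPlane.I := by
  apply UpperHalfPlane.ext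
  rw [modular_S_smul]
  simp [Complex.inv_I]

/-- The only fixed point of `S` is `I`. -/
theorem eq_I_of_S_fixed {τ : ℍ} (h : ModularGroup.S • τ = τ) : τ = UpperHalfPlane.I := by
  have h2 := sq_eq_neg_one_of_S_fixed h
  apply UpperHalfPlane.ext
  have h3 : ((τ : ℂ) - Complex.I) * ((τ : ℂ) + Complex.I) = 0 := by
    have := Complex.I_sq
    linear_combination h2 - this
  rcases mul_eq_zero.mp h3 with h4 | h4
  · simpa using sub_eq_zero.mp h4
  · exfalso
    have h5 : (τ : ℂ) = -Complex.I := by linear_combination h4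
    have h6 := τ.im_pos
    have h7 : (τ : ℂ).im = -1 := by rw [h5]; simp
    have h8 : τ.im = -1 := h7
    linarith

theorem E₆_I : E₆ UpperHalfPlane.I = 0 := E₆_eq_zero_of_S_fixed S_smul_I

theorem E₄_I_ne_zero : E₄ UpperHalfPlane.I ≠ 0 := E₄_ne_zero_of_S_fixed S_smul_I

/-! ## Part B: forms without zeros -/

/-- A level-one modular form tends to the constant term of its `q`-expansion at `i∞`. -/
theorem tendsto_coeff_zero {k : ℤ} (F : ModularForm 𝒮ℒ k) :
    Tendsto (fun τ : ℍ => F τ) atImInfty (𝓝 ((qExpansion 1 F).coeff 0)) := by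
  have h2 := UpperHalfPlane.qExpansion_coeff_zero (h := 1) (f := (F : ℍ → ℂ)) one_pos
    (ModularFormClass.analyticAt_cuspFunction_zero F one_pos one_mem_strictPeriods_SL)
    (SlashInvariantFormClass.periodic_comp_ofComplex F one_mem_strictPeriods_SL)
  rw [h2]
  obtain ⟨c, hc, hO⟩ := ModularFormClass.exp_decay_sub_atImInfty' F
  have h0 : Tendsto (fun τ : ℍ => Real.exp (-c * τ.im)) atImInfty (𝓝 0) := by
    have : Tendsto (fun τ : ℍ => τ.im) atImInfty atTop := tendsto_comap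
    have h2 : Tendsto (fun x : ℝ => Real.exp (-c * x)) atTop (𝓝 0) := by
      have := Real.tendsto_exp_neg_atTop_nhds_zero.comp
        (tendsto_id.const_mul_atTop hc)
      refine this.congr fun x => ?_
      simp [neg_mul]
    exact h2.comp this
  have h1 := hO.trans_tendsto h0
  have := h1.add_const (valueAtInfty (F : ℍ → ℂ))
  simpa using this

/-- The inverse of a level-one form without zeros in `ℍ` and with nonzero constant term,
as a modular form of weight `-k`. -/
def invForm {k : ℤ} (F : ModularForm 𝒮ℒ k) (hF : ∀ τ, F τ ≠ 0)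
    (h0 : (qExpansion 1 F).coeff 0 ≠ 0) : ModularForm 𝒮ℒ (-k) where
  toFun := (F : ℍ → ℂ)⁻¹
  slash_action_eq' := by
    rintro _ ⟨γ, rfl⟩
    have h1 := div_slash_SL2 0 k γ (1 : ℍ → ℂ) (F : ℍ → ℂ)
    have hγ : (γ : GL (Fin 2) ℝ) ∈ 𝒮ℒ := ⟨γ, rfl⟩
    have h2 : (F : ℍ → ℂ) ∣[k] γ = F := by
      rw [SL_slash]
      exact SlashInvariantForm.slash_action_eqn F _ hγ
    rw [is_invariant_one, h2, zero_sub, one_div] at h1
    rw [SL_slash] at h1
    exact h1
  holo' := F.holo'.inv hF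
  bdd_at_cusps' {c} hc := by
    rw [Subgroup.IsArithmetic.isCusp_iff_isCusp_SL2Z] at hc
    rw [OnePoint.isBoundedAt_iff_forall_SL2Z hc]
    intro γ _
    have h1 := div_slash_SL2 0 k γ (1 : ℍ → ℂ) (F : ℍ → ℂ)
    have hγ : (γ : GL (Fin 2) ℝ) ∈ 𝒮ℒ := ⟨γ, rfl⟩
    have h2 : (F : ℍ → ℂ) ∣[k] γ = F := by
      rw [SL_slash]
      exact SlashInvariantForm.slash_action_eqn F _ hγ
    rw [is_invariant_one, h2, zero_sub, one_div] at h1
    change IsBoundedAtImInfty (((F : ℍ → ℂ)⁻¹) ∣[-k] γ)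
    rw [h1]
    have h3 := (tendsto_coeff_zero F).inv₀ h0
    exact h3.isBigO_one ℝ

@[simp]
theorem invForm_apply {k : ℤ} (F : ModularForm 𝒮ℒ k) (hF : ∀ τ, F τ ≠ 0)
    (h0 : (qExpansion 1 F).coeff 0 ≠ 0) (τ : ℍ) : invForm F hF h0 τ = (F τ)⁻¹ := rfl

/-- A level-one modular form without zeros in `ℍ` and with nonzero constant term has
weight `0` (hence is constant). -/
theorem weight_eq_zero_of_forall_ne_zero {k : ℤ} (F : ModularForm 𝒮ℒ k) (hF : ∀ τ, F τ ≠ 0)
    (h0 : (qExpansion 1 F).coeff 0 ≠ 0) : k = 0 := by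
  rcases lt_trichotomy k 0 with hk | hk | hk
  · have := ModularFormClass.levelOne_neg_weight_eq_zero hk F
    exact absurd (congrFun this UpperHalfPlane.I) (hF _)
  · exact hk
  · have hk' : -k < 0 := by omega
    have := ModularFormClass.levelOne_neg_weight_eq_zero hk' (invForm F hF h0)
    have h1 := congrFun this UpperHalfPlane.I
    simp only [invForm_apply, Pi.zero_apply, inv_eq_zero] at h1
    exact absurd h1 (hF _)

/-- **Forms without zeros.** A level-one modular form without zeros in `ℍ` is a nonzero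
constant times a power of the discriminant. -/
theorem eq_const_mul_discriminant_pow_of_forall_ne_zero :
    ∀ (n : ℕ) {k : ℤ} (F : ModularForm 𝒮ℒ k), k.toNat ≤ n → (∀ τ, F τ ≠ 0) →
      ∃ (m : ℕ) (c : ℂ), c ≠ 0 ∧ k = 12 * m ∧ ∀ τ, F τ = c * discriminant τ ^ m := by
  intro n
  induction n using Nat.strong_induction_on with
  | _ n ih =>
    intro k F hkn hF
    by_cases h0 : (qExpansion 1 F).coeff 0 = 0
    · -- cusp form: divide by Δ
      let G := CuspForm.discriminantEquiv (toCuspForm F h0)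
      have hG : ∀ τ, G τ = F τ / discriminant τ := fun τ => by
        rw [CuspForm.discriminantEquiv_apply]
        rfl
      have hGne : ∀ τ, G τ ≠ 0 := fun τ => by
        rw [hG]
        exact div_ne_zero (hF τ) (discriminant_ne_zero τ)
      have hk12 : 12 ≤ k := by
        by_contra hlt
        have hlt' : k - 12 < 0 := by omega
        have := ModularFormClass.levelOne_neg_weight_eq_zero hlt' G
        exact hGne UpperHalfPlane.I (congrFun this _)
      obtain ⟨m, c, hc, hkm, hGm⟩ := ih (k - 12).toNat (by omega) G le_rfl hGne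
      refine ⟨m + 1, c, hc, by push_cast; omega, fun τ => ?_⟩
      have := hG τ
      rw [hGm τ] at this
      have hΔ := discriminant_ne_zero τ
      field_simp at this
      rw [← this]
      ring
    · have hk := weight_eq_zero_of_forall_ne_zero F hF h0
      subst hk
      obtain ⟨c, hc⟩ := ModularFormClass.levelOne_weight_zero_const F
      refine ⟨0, c, ?_, by simp, fun τ => by simp [hc]⟩
      rintro rfl
      exact hF UpperHalfPlane.I (by simp [hc])

/-- **Forms without zeros.** A level-one modular form without zeros in `ℍ` is a nonzero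
constant times a power of the discriminant. -/
theorem exists_eq_const_mul_discriminant_pow {k : ℤ} (F : ModularForm 𝒮ℒ k)
    (hF : ∀ τ, F τ ≠ 0) :
    ∃ (m : ℕ) (c : ℂ), c ≠ 0 ∧ k = 12 * m ∧ ∀ τ, F τ = c * discriminant τ ^ m :=
  eq_const_mul_discriminant_pow_of_forall_ne_zero k.toNat F le_rfl hF

end Fermat.Agent.S20.helper29
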