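import Mathlib
import Fermat.Agent.S20.Defs
import Fermat.Agent.S20.helper29_LevelOne

/-!
# S20 package (6): level-one forms in the `IsMF 1 k` language of `Fermat.Agent.S20.Defs`
(helper29)
-/

set_option autoImplicit false

noncomputable section

open UpperHalfPlane ModularForm Filter Topology CongruenceSubgroup
open scoped MatrixGroups Manifold

namespace Fermat.Agent.S20.helper29

open Fermat.Agent.S20

variable {k : ℤ}

/-- A Mathlib level-one modular form is `IsMF 1 k`. -/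
theorem isMF_one_coe (F : ModularForm 𝒮ℒ k) : IsMF 1 k F where
  slash γ _ := by
    rw [SL_slash]
    exact SlashInvariantForm.slash_action_eqn F _ ⟨γ, rfl⟩
  holo := F.holo'
  bdd γ := by
    have h : (F : ℍ → ℂ) ∣[k] γ = F := by
      rw [SL_slash]
      exact SlashInvariantForm.slash_action_eqn F _ ⟨γ, rfl⟩
    rw [h]
    exact ModularFormClass.bdd_at_infty F

/-- A Mathlib level-one cusp form is `IsCF 1 k`. -/
theorem isCF_one_coe (F : CuspForm 𝒮ℒ k) : IsCF 1 k F where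
  slash γ _ := by
    rw [SL_slash]
    exact SlashInvariantForm.slash_action_eqn F _ ⟨γ, rfl⟩
  holo := F.holo'
  zero γ := by
    have h : (F : ℍ → ℂ) ∣[k] γ = F := by
      rw [SL_slash]
      exact SlashInvariantForm.slash_action_eqn F _ ⟨γ, rfl⟩
    rw [h]
    exact CuspFormClass.zero_at_infty F

/-- Build a Mathlib level-one modular form from `IsMF 1 k`. -/
def toLevelOne {f : ℍ → ℂ} (h : IsMF 1 k f) : ModularForm 𝒮ℒ k where
  toFun := f
  slash_action_eq' := by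
    rintro _ ⟨γ, rfl⟩
    exact (SL_slash (f := f) (k := k) γ).symm.trans (h.slash γ (mem_Gamma0_one γ))
  holo' := h.holo
  bdd_at_cusps' {c} hc := by
    rw [OnePoint.isBoundedAt_iff_forall_SL2Z hc]
    exact fun γ _ => h.bdd γ

@[simp] theorem coe_toLevelOne {f : ℍ → ℂ} (h : IsMF 1 k f) : ⇑(toLevelOne h) = f := rfl

/-- Build a Mathlib level-one cusp form from `IsCF 1 k`. -/
def toLevelOneCusp {f : ℍ → ℂ} (h : IsCF 1 k f) : CuspForm 𝒮ℒ k where
  toFun := f
  slash_action_eq' := by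
    rintro _ ⟨γ, rfl⟩
    exact (SL_slash (f := f) (k := k) γ).symm.trans (h.slash γ (mem_Gamma0_one γ))
  holo' := h.holo
  zero_at_cusps' {c} hc := by
    rw [OnePoint.isZeroAt_iff_forall_SL2Z hc]
    exact fun γ _ => h.zero γ

@[simp] theorem coe_toLevelOneCusp {f : ℍ → ℂ} (h : IsCF 1 k f) : ⇑(toLevelOneCusp h) = f := rfl

theorem isMF_one_iff {f : ℍ → ℂ} : IsMF 1 k f ↔ ∃ F : ModularForm 𝒮ℒ k, ⇑F = f :=
  ⟨fun h => ⟨toLevelOne h, rfl⟩, fun ⟨F, hF⟩ => hF ▸ isMF_one_coe F⟩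

theorem isCF_one_iff {f : ℍ → ℂ} : IsCF 1 k f ↔ ∃ F : CuspForm 𝒮ℒ k, ⇑F = f :=
  ⟨fun h => ⟨toLevelOneCusp h, rfl⟩, fun ⟨F, hF⟩ => hF ▸ isCF_one_coe F⟩

/-- `M_k(SL(2,ℤ))` (Mathlib) is linearly equivalent to `MFs 1 k`. -/
def levelOneEquiv (k : ℤ) : ModularForm 𝒮ℒ k ≃ₗ[ℂ] MFs 1 k where
  toFun F := ⟨F, isMF_one_coe F⟩
  map_add' _ _ := rfl
  map_smul' _ _ := rfl
  invFun f := toLevelOne f.2
  left_inv _ := rfl
  right_inv _ := rfl

/-- `S_k(SL(2,ℤ))` (Mathlib) is linearly equivalent to `CFs 1 k`. -/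
def levelOneCuspEquiv (k : ℤ) : CuspForm 𝒮ℒ k ≃ₗ[ℂ] CFs 1 k where
  toFun F := ⟨F, isCF_one_coe F⟩
  map_add' _ _ := rfl
  map_smul' _ _ := rfl
  invFun f := toLevelOneCusp f.2
  left_inv _ := rfl
  right_inv _ := rfl

instance instFiniteDimensionalMFsOne (k : ℤ) : FiniteDimensional ℂ (MFs 1 k) :=
  (levelOneEquiv k).finiteDimensional

theorem finrank_MFs_one_eq (k : ℤ) :
    Module.finrank ℂ (MFs 1 k) = Module.finrank ℂ (ModularForm 𝒮ℒ k) :=
  (levelOneEquiv k).finrank_eq.symm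

/-- Dimension formula in level one, even weight `k ≥ 0`. -/
theorem finrank_MFs_one_of_even (k : ℕ) (hk : Even k) :
    Module.finrank ℂ (MFs 1 (k : ℤ)) = if k % 12 = 2 then k / 12 else k / 12 + 1 := by
  rw [finrank_MFs_one_eq]
  have h := dimension_level_one k hk
  unfold Module.finrank
  rw [h]
  simp only [Nat.ModEq]
  split_ifs with h1 <;> simp

theorem finrank_MFs_one_of_neg {k : ℤ} (hk : k < 0) : Module.finrank ℂ (MFs 1 k) = 0 := by
  rw [finrank_MFs_one_eq]
  unfold Module.finrank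
  rw [levelOne_neg_weight_rank_zero hk]
  simp

theorem finrank_MFs_one_of_odd {k : ℤ} (hk : Odd k) : Module.finrank ℂ (MFs 1 k) = 0 := by
  rw [finrank_MFs_one_eq]
  unfold Module.finrank
  rw [levelOne_odd_weight_rank_zero hk]
  simp

theorem isMF_one_eq_zero_of_neg_weight {f : ℍ → ℂ} (h : IsMF 1 k f) (hk : k < 0) : f = 0 :=
  ModularFormClass.levelOne_neg_weight_eq_zero hk (toLevelOne h)

theorem isMF_one_eq_zero_of_odd_weight {f : ℍ → ℂ} (h : IsMF 1 k f) (hk : Odd k) : f = 0 := by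
  have := levelOne_odd_weight_eq_zero hk (toLevelOne h)
  have h2 := congrArg (fun F : ModularForm 𝒮ℒ k => (F : ℍ → ℂ)) this
  simpa using h2

theorem isMF_one_eq_zero_of_weight_two {f : ℍ → ℂ} (h : IsMF 1 2 f) : f = 0 := by
  have h0 : Module.finrank ℂ (ModularForm 𝒮ℒ 2) = 0 := by
    unfold Module.finrank
    rw [levelOne_weight_two_rank_zero]
    simp
  have h1 : toLevelOne h = 0 := by
    have : Subsingleton (ModularForm 𝒮ℒ 2) := Module.finrank_zero_iff.mp h0
    exact Subsingleton.elim _ _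
  have h2 := congrArg (fun F : ModularForm 𝒮ℒ 2 => (F : ℍ → ℂ)) h1
  simpa using h2

theorem isMF_one_exists_const_of_weight_zero {f : ℍ → ℂ} (h : IsMF 1 0 f) :
    ∃ c : ℂ, f = Function.const _ c :=
  ModularFormClass.levelOne_weight_zero_const (toLevelOne h)

theorem isMF_E₄ : IsMF 1 4 (E₄ : ℍ → ℂ) := isMF_one_coe E₄

theorem isMF_E₆ : IsMF 1 6 (E₆ : ℍ → ℂ) := isMF_one_coe E₆

theorem isCF_discriminant : IsCF 1 12 (discriminant : ℍ → ℂ) := by
  have := isCF_one_coe CuspForm.discriminant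
  rwa [CuspForm.coe_discriminant] at this

theorem isMF_discriminant : IsMF 1 12 (discriminant : ℍ → ℂ) := isCF_discriminant.isMF

theorem isMF_const (c : ℂ) : IsMF 1 0 (Function.const ℍ c) := by
  have := isMF_one_coe (ModularForm.const (Γ := 𝒮ℒ) c)
  exact this

theorem isMF_one : IsMF 1 0 (1 : ℍ → ℂ) := isMF_const 1

/-- Powers of level-`N` forms. -/
theorem isMF_pow {N : ℕ} {f : ℍ → ℂ} (hf : IsMF N k f) (n : ℕ) : IsMF N (n * k) (f ^ n) := by
  induction n with
  | zero =>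
    simp only [Nat.cast_zero, zero_mul, pow_zero]
    exact (isMF_one).of_one
  | succ n ih =>
    have := ih.mul hf
    rw [pow_succ]
    convert this using 1
    push_cast
    ring

/-- **Forms without zeros**, `IsMF` version. -/
theorem isMF_one_exists_eq_const_mul_discriminant_pow {f : ℍ → ℂ} (h : IsMF 1 k f)
    (hf : ∀ τ, f τ ≠ 0) :
    ∃ (m : ℕ) (c : ℂ), c ≠ 0 ∧ k = 12 * m ∧ f = c • (discriminant : ℍ → ℂ) ^ m := by
  obtain ⟨m, c, hc, hk, hF⟩ := exists_eq_const_mul_discriminant_pow (toLevelOne h) hf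
  exact ⟨m, c, hc, hk, funext fun τ => by simpa using hF τ⟩

end Fermat.Agent.S20.helper29
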