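import Mathlib
import Fermat.Agent.S20.Defs
import Fermat.Agent.S20.helper29_LevelOne
import Fermat.Agent.S20.helper29_LevelOneMF

/-!
# S20-L1 (task 137): level-one facts in the exact shapes requested by the S20 plan (helper29)
-/

set_option autoImplicit false

noncomputable section

open UpperHalfPlane ModularForm CongruenceSubgroup Matrix.SpecialLinearGroup
open scoped MatrixGroups Manifold

namespace Fermat.Agent.S20.helper29

open Fermat.Agent.S20 Filter Topology

theorem isMF_E4 : IsMF 1 4 E₄ := isMF_E₄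

theorem isMF_E6 : IsMF 1 6 E₆ := isMF_E₆

theorem isCF_Delta : IsCF 1 12 discriminant := isCF_discriminant

theorem finite_MFs_one (k : ℤ) : Module.Finite ℂ (MFs 1 k) := instFiniteDimensionalMFsOne k

theorem finrank_MFs_one (k : ℤ) : Module.finrank ℂ (MFs 1 k) =
    if k < 0 ∨ Odd k then 0 else if k % 12 = 2 then (k / 12).toNat else (k / 12).toNat + 1 := by
  by_cases h : k < 0 ∨ Odd k
  · rw [if_pos h]
    rcases h with h | h
    · exact finrank_MFs_one_of_neg h
    · exact finrank_MFs_one_of_odd h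
  · rw [if_neg h]
    rw [not_or, not_lt, Int.not_odd_iff_even] at h
    obtain ⟨h0, he⟩ := h
    lift k to ℕ using h0
    have he' : Even k := by exact_mod_cast he
    rw [finrank_MFs_one_of_even k he']
    have h1 : ((k : ℤ) / 12).toNat = k / 12 := by
      rw [show ((k : ℤ) / 12) = ((k / 12 : ℕ) : ℤ) by norm_cast]
      exact Int.toNat_natCast _
    have h2 : ((k : ℤ) % 12 = 2) ↔ (k % 12 = 2) := by omega
    rw [h1]
    by_cases h3 : k % 12 = 2
    · rw [if_pos h3, if_pos (h2.mpr h3)]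
    · rw [if_neg h3, if_neg (fun h4 => h3 (h2.mp h4))]

theorem finrank_CFs_one (k : ℤ) :
    Module.finrank ℂ (CFs 1 k) = Module.finrank ℂ (MFs 1 (k - 12)) := by
  have e1 := (levelOneCuspEquiv k).symm
  have e2 := (CuspForm.discriminantEquiv (k := k))
  have e3 := levelOneEquiv (k - 12)
  exact ((e1.trans e2).trans e3).finrank_eq

theorem isMF_neg_weight (N : ℕ) [NeZero N] (k : ℤ) (hk : k < 0) (f : ℍ → ℂ)
    (hf : IsMF N k f) : f = 0 := by
  have h := ModularForm.isZero_of_neg_weight hk hf.toModularForm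
  have h2 := congrArg (fun F : ModularForm (Gamma0 N) k => (F : ℍ → ℂ)) h
  simpa using h2

theorem isMF_weight_zero (N : ℕ) [NeZero N] (f : ℍ → ℂ) (hf : IsMF N 0 f) :
    ∃ c : ℂ, f = fun _ => c := by
  obtain ⟨c, hc⟩ := ModularForm.eq_const_of_weight_zero hf.toModularForm
  refine ⟨c, ?_⟩
  have h2 : f = Function.const ℍ c := by simpa using hc
  rw [h2]
  rfl

theorem isMF_odd_weight (N : ℕ) [NeZero N] (k : ℤ) (hk : Odd k) (f : ℍ → ℂ)
    (hf : IsMF N k f) : f = 0 := by
  have hmem : (-1 : GL (Fin 2) ℝ) ∈ ((Gamma0 N : Subgroup SL(2, ℤ)) : Subgroup (GL (Fin 2) ℝ)) := by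
    refine ⟨-1, ?_, by ext; simp⟩
    rw [SetLike.mem_coe, Gamma0_mem]
    simp
  have h := ModularForm.eq_zero_of_neg_one_mem hmem hk hf.toModularForm
  have h2 := congrArg (fun F : ModularForm (Gamma0 N) k => (F : ℍ → ℂ)) h
  simpa using h2

theorem isMF_one_fixed (k : ℤ) (f : ℍ → ℂ) (hf : IsMF 1 k f) (σ : SL(2, ℤ)) (τ₀ : ℍ)
    (hτ : σ • τ₀ = τ₀) (h : (denom (σ : SL(2, ℤ)) τ₀) ^ k ≠ 1) : f τ₀ = 0 :=
  eq_zero_of_smul_eq_self (toLevelOne hf) hτ h

/-! ### Polynomial structure in weight `12 m` and forms without zeros -/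

theorem tendsto_E₄ : Tendsto (fun τ : ℍ => E₄ τ) atImInfty (𝓝 1) := by
  have h := tendsto_coeff_zero E₄
  rwa [EisensteinSeries.E_qExpansion_coeff_zero (k := 4) (by norm_num) ⟨2, rfl⟩] at h

theorem tendsto_E₆ : Tendsto (fun τ : ℍ => E₆ τ) atImInfty (𝓝 1) := by
  have h := tendsto_coeff_zero E₆
  rwa [EisensteinSeries.E_qExpansion_coeff_zero (k := 6) (by norm_num) ⟨3, rfl⟩] at h

/-- Subtracting the constant term with the help of a form `E` tending to `1` at `i∞`. -/
theorem exists_sub_const_term {k : ℤ} (F E : ModularForm 𝒮ℒ k)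
    (hE : Tendsto (fun τ : ℍ => E τ) atImInfty (𝓝 1)) :
    ∃ H : ModularForm 𝒮ℒ (k - 12),
      ∀ τ, F τ = (qExpansion 1 F).coeff 0 * E τ + discriminant τ * H τ := by
  set a0 := (qExpansion 1 F).coeff 0 with ha0
  let G : ModularForm 𝒮ℒ k := F - a0 • E
  have hG : ∀ τ, G τ = F τ - a0 * E τ := fun τ => rfl
  have h1 : Tendsto (fun τ : ℍ => G τ) atImInfty (𝓝 (a0 - a0 * 1)) := by
    have := (tendsto_coeff_zero F).sub (hE.const_mul a0)
    exact this.congr fun τ => (hG τ).symm
  have h2 := tendsto_coeff_zero G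
  have h0 : (qExpansion 1 G).coeff 0 = 0 := by
    have := tendsto_nhds_unique h2 h1
    rw [this]; ring
  refine ⟨CuspForm.discriminantEquiv (toCuspForm G h0), fun τ => ?_⟩
  rw [CuspForm.discriminantEquiv_apply]
  have h3 : (toCuspForm G h0) τ = G τ := rfl
  rw [h3, hG]
  have hΔ := discriminant_ne_zero τ
  field_simp
  ring

/-- Every level-one form of weight `12 m` is a combination of `E₄ ^ (3 a) * Δ ^ (m - a)`,
`a ≤ m`. -/
theorem exists_coeffs_twelve (m : ℕ) : ∀ {k : ℤ} (F : ModularForm 𝒮ℒ k), k = 12 * m →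
    ∃ c : ℕ → ℂ, ∀ τ, F τ =
      ∑ a ∈ Finset.range (m + 1), c a * E₄ τ ^ (3 * a) * discriminant τ ^ (m - a) := by
  induction m with
  | zero =>
    intro k F hk
    have hk0 : k = 0 := by simpa using hk
    subst hk0
    obtain ⟨c, hc⟩ := ModularFormClass.levelOne_weight_zero_const F
    exact ⟨fun _ => c, fun τ => by simp [hc]⟩
  | succ m ih =>
    intro k F hk
    have hw : ((3 * (m + 1) : ℕ) : ℤ) * 4 = k := by rw [hk]; push_cast; ring
    let E : ModularForm 𝒮ℒ k := mcast hw (E₄.pow (3 * (m + 1)))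
    have hEτ : ∀ τ, E τ = E₄ τ ^ (3 * (m + 1)) := fun τ => by
      change (mcast hw (E₄.pow (3 * (m + 1))) : ℍ → ℂ) τ = _
      rw [coe_mcast, ModularForm.coe_pow]
      rfl
    have hE : Tendsto (fun τ : ℍ => E τ) atImInfty (𝓝 1) := by
      have := tendsto_E₄.pow (3 * (m + 1))
      rw [one_pow] at this
      exact this.congr fun τ => (hEτ τ).symm
    obtain ⟨H, hH⟩ := exists_sub_const_term F E hE
    obtain ⟨c, hc⟩ := ih H (by rw [hk]; push_cast; ring)
    refine ⟨fun a => if a = m + 1 then (qExpansion 1 F).coeff 0 else c a, fun τ => ?_⟩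
    rw [hH τ, hEτ τ, hc τ, Finset.sum_range_succ _ (m + 1), Finset.mul_sum]
    simp only [if_true, Nat.sub_self, pow_zero, mul_one]
    rw [add_comm]
    congr 1
    refine Finset.sum_congr rfl fun a ha => ?_
    have ha' : a < m + 1 := Finset.mem_range.mp ha
    have h1 : a ≠ m + 1 := by omega
    have h2 : m + 1 - a = (m - a) + 1 := by omega
    rw [if_neg h1, h2, pow_succ]
    ring

/-- The point `ρ = exp(2πi/3)` of the upper half plane. -/
def rho : ℍ := ⟨⟨-1 / 2, Real.sqrt 3 / 2⟩, by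
  change 0 < Real.sqrt 3 / 2
  positivity⟩

theorem rho_coe : (rho : ℂ) = ⟨-1 / 2, Real.sqrt 3 / 2⟩ := rfl

theorem rho_sq_add : (rho : ℂ) ^ 2 + rho + 1 = 0 := by
  rw [rho_coe]
  have h3 : Real.sqrt 3 * Real.sqrt 3 = 3 := Real.mul_self_sqrt (by norm_num)
  apply Complex.ext
  · simp only [pow_two, Complex.add_re, Complex.mul_re, Complex.one_re, Complex.zero_re]
    nlinarith [h3]
  · simp only [pow_two, Complex.add_im, Complex.mul_im, Complex.one_im, Complex.zero_im]
    ring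

theorem ST_smul_rho : (ModularGroup.S * ModularGroup.T) • rho = rho := by
  apply UpperHalfPlane.ext
  rw [mul_smul, modular_T_smul, modular_S_smul]
  have h := rho_sq_add
  have h2 : ((1 : ℝ) +ᵥ rho : ℍ) = (1 : ℂ) + (rho : ℂ) := by simp
  change (-(((1 : ℝ) +ᵥ rho : ℍ) : ℂ))⁻¹ = (rho : ℂ)
  rw [h2]
  have h3 : (-((1 : ℂ) + rho)) * rho = 1 := by linear_combination -h
  exact inv_eq_of_mul_eq_one_right h3

/-- **Forms without zeros** (S20-L1): nonvanishing at generic points and at the elliptic fixed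
points suffices. -/
theorem levelOne_nonvanishing (w : ℤ) (F : ℍ → ℂ) (hF : IsMF 1 w F)
    (hgen : ∀ τ : ℍ, E₄ τ ≠ 0 → E₆ τ ≠ 0 → F τ ≠ 0)
    (hS : ∀ τ : ℍ, ModularGroup.S • τ = τ → F τ ≠ 0)
    (hST : ∀ τ : ℍ, (ModularGroup.S * ModularGroup.T) • τ = τ → F τ ≠ 0) :
    ∃ (n : ℕ) (c : ℂ), c ≠ 0 ∧ w = 12 * n ∧ F = c • discriminant ^ n := by
  have hI : F UpperHalfPlane.I ≠ 0 := hS _ S_smul_I
  have hρ : F rho ≠ 0 := hST _ ST_smul_rho
  have hw0 : 0 ≤ w := by
    by_contra hneg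
    rw [not_le] at hneg
    have := isMF_one_eq_zero_of_neg_weight hF hneg
    exact hI (by rw [this]; rfl)
  have h4 : (4 : ℤ) ∣ w := by
    by_contra h
    exact hI (eq_zero_of_S_fixed (toLevelOne hF) S_smul_I h)
  have h6 : (6 : ℤ) ∣ w := by
    by_contra h
    exact hρ (eq_zero_of_ST_fixed (toLevelOne hF) ST_smul_rho h)
  have h12 : (12 : ℤ) ∣ w := by omega
  obtain ⟨m', hm'⟩ := h12
  have hm0 : 0 ≤ m' := by omega
  lift m' to ℕ using hm0
  obtain ⟨c, hc⟩ := exists_coeffs_twelve m' (toLevelOne hF) hm'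
  have hc' : ∀ τ, F τ =
      ∑ a ∈ Finset.range (m' + 1), c a * E₄ τ ^ (3 * a) * discriminant τ ^ (m' - a) := hc
  -- value at zeros of `E₄`
  have hE4 : ∀ τ : ℍ, E₄ τ = 0 → F τ = c 0 * discriminant τ ^ m' := by
    intro τ h0
    rw [hc' τ, Finset.sum_range_succ', h0]
    simp only [Nat.mul_zero, pow_zero, mul_one, Nat.sub_zero]
    rw [Finset.sum_eq_zero, zero_add]
    intro a _
    rw [zero_pow (by omega)]
    ring
  -- value at zeros of `E₆`
  have hE6 : ∀ τ : ℍ, E₆ τ = 0 →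
      F τ = (∑ a ∈ Finset.range (m' + 1), c a * 1728 ^ a) * discriminant τ ^ m' := by
    intro τ h0
    have h1 := discriminant_eq_E₄_cube_sub_E₆_sq τ
    rw [h0] at h1
    have h2 : E₄ τ ^ 3 = 1728 * discriminant τ := by
      rw [h1]; ring
    rw [hc' τ, Finset.sum_mul]
    refine Finset.sum_congr rfl fun a ha => ?_
    have ha' : a < m' + 1 := Finset.mem_range.mp ha
    have h3 : discriminant τ ^ m' = discriminant τ ^ a * discriminant τ ^ (m' - a) := by
      rw [← pow_add]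
      congr 1
      omega
    rw [pow_mul, h2, h3, mul_pow]
    ring
  have hne : ∀ τ, F τ ≠ 0 := by
    intro τ
    by_cases h40 : E₄ τ = 0
    · have h1 := hE4 rho (E₄_eq_zero_of_ST_fixed ST_smul_rho)
      have hc0 : c 0 ≠ 0 := by
        rintro h0
        rw [h0, zero_mul] at h1
        exact hρ h1
      rw [hE4 τ h40]
      exact mul_ne_zero hc0 (pow_ne_zero _ (discriminant_ne_zero τ))
    · by_cases h60 : E₆ τ = 0
      · have h1 := hE6 UpperHalfPlane.I E₆_I
        have hc0 : (∑ a ∈ Finset.range (m' + 1), c a * 1728 ^ a) ≠ 0 := by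
          rintro h0
          rw [h0, zero_mul] at h1
          exact hI h1
        rw [hE6 τ h60]
        exact mul_ne_zero hc0 (pow_ne_zero _ (discriminant_ne_zero τ))
      · exact hgen τ h40 h60
  exact isMF_one_exists_eq_const_mul_discriminant_pow hF hne

end Fermat.Agent.S20.helper29
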