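import Mathlib
import Fermat.Agent.S20.Defs

/-!
# S20-DET (helper48): the determinant of the evaluation matrix of the generators

For generators `e_j` (weights `d_j`) of `⊕_k M_k(Γ₀(N))` over the level-one forms, indexed by
`J ≃ X0 N`, the determinant `D(τ) = det ((e_j)_x (τ))` satisfies:

* `D²` is a level-one form of weight `2 Σ d_j` (`isMF_evDet_sq`);
* `D(τ₀) ≠ 0` as soon as the evaluation vectors at `τ₀` span (`evDet_ne_zero_of_span`);
* hence (level-one input) `D² = c Δ^n`, `Σ d_j = 6 n` (`evDet_sq_eq_of`);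
* stability of the dimensions `dim M_k = dim M_{k-12} + μ` for large even `k` (`exists_stab_of`);
* with the lower bound for a determinant of forms at the cusps: `Σ d_j + 6 c_∞ ≤ 6 μ`
  (`sum_d_le_of`).

The inputs of the other S20 packages (F2, L1, CuspB) are taken as explicit hypotheses.
-/

set_option autoImplicit false

noncomputable section

namespace Fermat.Agent.S20.helper48

open UpperHalfPlane ModularForm CongruenceSubgroup Matrix.SpecialLinearGroup
open scoped MatrixGroups Manifold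

/-- Number of cusps of `Γ₀(N)`: orbits of `T` on the cosets. -/
def cInf (N : ℕ) : ℕ :=
  Nat.card (MulAction.orbitRel.Quotient (Subgroup.zpowers ModularGroup.T) (X0 N))

/-- Stability: `dim M_k = dim M_{k-12} + μ`. -/
def Stab (N : ℕ) (k : ℤ) : Prop :=
  Module.finrank ℂ (MFs N k) = Module.finrank ℂ (MFs N (k - 12)) + Nat.card (X0 N)

/-- Determinant of the evaluation matrix of the generators. -/
def evDet (N : ℕ) [NeZero N] (G : GenData N) (φ : G.J ≃ X0 N) (τ : ℍ) : ℂ :=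
  Matrix.det (Matrix.of fun y x : X0 N => cj N (G.d (φ.symm y)) (G.e (φ.symm y)) x τ)

/-! ### Transformation behaviour of conjugates -/

section transform

variable {N : ℕ} {k : ℤ}

/-- Transformation of the conjugates under `SL(2,ℤ)`. -/
theorem cj_smul_apply {f : ℍ → ℂ} (hf : ∀ γ ∈ Gamma0 N, f ∣[k] γ = f) (x : X0 N)
    (g : SL(2, ℤ)) (τ : ℍ) :
    cj N k f x (g • τ) = denom g τ ^ k * cj N k f (g⁻¹ • x) τ := by
  have h := congrFun (cj_slash hf x g) τ
  rw [ModularForm.SL_slash_apply] at h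
  rw [← h, mul_comm, mul_assoc, ← zpow_add₀ (denom_ne_zero g τ)]
  simp

theorem cj_zero (x : X0 N) : cj N k (0 : ℍ → ℂ) x = 0 := by
  unfold cj; exact SlashAction.zero_slash _ _

theorem cj_sum {ι : Type*} (s : Finset ι) (f : ι → ℍ → ℂ) (x : X0 N) :
    cj N k (∑ i ∈ s, f i) x = ∑ i ∈ s, cj N k (f i) x := by
  classical
  induction s using Finset.induction_on with
  | empty => simp [cj_zero]
  | insert a s ha ih => rw [Finset.sum_insert ha, Finset.sum_insert ha, cj_add, ih]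

/-- Conjugates of `P * e` with `P` of level one. -/
theorem cj_levelOne_mul {d : ℤ} {P e : ℍ → ℂ} (hP : IsMF 1 (k - d) P) (x : X0 N) :
    cj N k (P * e) x = P * cj N d e x := by
  have h : cj N k (P * e) x = cj N ((k - d) + d) (P * e) x := by rw [sub_add_cancel]
  rw [h, cj_mul, cj_of_one hP]

end transform

/-! ### The determinant -/

section det

variable {N : ℕ} [NeZero N] (G : GenData N) (φ : G.J ≃ X0 N)

theorem evDet_smul (g : SL(2, ℤ)) (τ : ℍ) :
    evDet N G φ (g • τ) = (denom g τ ^ (∑ j, G.d j)) *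
      ((Equiv.Perm.sign (MulAction.toPerm g⁻¹ : Equiv.Perm (X0 N)) : ℤ) : ℂ) * evDet N G φ τ := by
  unfold evDet
  have h1 : (Matrix.of fun y x : X0 N => cj N (G.d (φ.symm y)) (G.e (φ.symm y)) x (g • τ))
      = Matrix.of fun y x : X0 N => (denom g τ ^ (G.d (φ.symm y))) *
        ((Matrix.of fun y x : X0 N => cj N (G.d (φ.symm y)) (G.e (φ.symm y)) x τ).submatrix id
          (MulAction.toPerm g⁻¹ : Equiv.Perm (X0 N))) y x := by
    ext y x
    simp only [Matrix.of_apply, Matrix.submatrix_apply, id_eq, MulAction.toPerm_apply]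
    rw [cj_smul_apply (G.isMF _).slash, zpow_natCast]
  rw [h1, Matrix.det_mul_column, Matrix.det_permute', Finset.prod_pow_eq_pow_sum,
    Equiv.sum_comp φ.symm (fun j => G.d j)]
  ring

theorem evDet_sq_smul (g : SL(2, ℤ)) (τ : ℍ) :
    evDet N G φ (g • τ) ^ 2 = (denom g τ ^ (2 * ∑ j, G.d j)) * evDet N G φ τ ^ 2 := by
  rw [evDet_smul, mul_pow, mul_pow, ← pow_mul, mul_comm (∑ j, G.d j) 2]
  have : (((Equiv.Perm.sign (MulAction.toPerm g⁻¹ : Equiv.Perm (X0 N)) : ℤ) : ℂ)) ^ 2 = 1 := by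
    rcases Int.units_eq_one_or (Equiv.Perm.sign (MulAction.toPerm g⁻¹ : Equiv.Perm (X0 N)))
      with h | h <;> rw [h] <;> simp
  rw [this, mul_one]

/-- The determinant as a polynomial expression in the entries. -/
theorem evDet_eq_sum :
    evDet N G φ = ∑ σ : Equiv.Perm (X0 N), ((Equiv.Perm.sign σ : ℤ) : ℂ) •
      ∏ y : X0 N, cj N (G.d (φ.symm (σ y))) (G.e (φ.symm (σ y))) y := by
  funext τ
  unfold evDet
  rw [Matrix.det_apply']
  simp only [Finset.sum_apply, Pi.smul_apply, Finset.prod_apply, smul_eq_mul, Matrix.of_apply]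

theorem mdifferentiable_evDet : MDiff (evDet N G φ) := by
  rw [evDet_eq_sum]
  refine MDifferentiable.sum fun σ _ => MDifferentiable.const_smul _ ?_
  exact MDifferentiable.prod fun y _ => (G.isMF _).cj_holo _

theorem isBoundedAtImInfty_evDet : IsBoundedAtImInfty (evDet N G φ) := by
  rw [evDet_eq_sum]
  unfold IsBoundedAtImInfty
  refine (Filter.boundedFilterSubalgebra ℂ atImInfty).sum_mem fun σ _ =>
    (Filter.boundedFilterSubalgebra ℂ atImInfty).smul_mem ?_ _
  refine Filter.BoundedAtFilter.prod _ fun y _ => ?_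
  have := (G.isMF (φ.symm (σ y))).cj_bdd y 1
  rwa [SlashAction.slash_one] at this

/-- `D²` is a level-one modular form of weight `2 Σ d_j`. -/
theorem isMF_evDet_sq :
    IsMF 1 (2 * ∑ j, (G.d j : ℤ)) (fun τ => evDet N G φ τ ^ 2) := by
  have hslash : ∀ γ : SL(2, ℤ),
      (fun τ => evDet N G φ τ ^ 2) ∣[(2 * ∑ j, (G.d j : ℤ))] γ = fun τ => evDet N G φ τ ^ 2 := by
    intro γ
    funext τ
    rw [ModularForm.SL_slash_apply, evDet_sq_smul, mul_comm, ← mul_assoc]
    have hd := denom_ne_zero γ τ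
    have : (2 * ∑ j, (G.d j : ℤ)) = ((2 * ∑ j, G.d j : ℕ) : ℤ) := by push_cast; rfl
    rw [this, zpow_neg, zpow_natCast, inv_mul_cancel₀ (pow_ne_zero _ hd), one_mul]
  refine ⟨fun γ _ => hslash γ, ?_, fun γ => ?_⟩
  · exact (mdifferentiable_evDet G φ).pow 2
  · rw [hslash]
    have h := isBoundedAtImInfty_evDet G φ
    have h2 : (fun τ => evDet N G φ τ ^ 2) = evDet N G φ * evDet N G φ := by
      funext τ; simp [sq]
    rw [h2]
    exact h.mul h

/-- If the evaluation vectors of the generators span, the determinant does not vanish. -/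
theorem evDet_ne_zero_of_span (τ₀ : ℍ)
    (h : Submodule.span ℂ (Set.range fun j : G.J =>
      (fun x : X0 N => cj N (G.d j) (G.e j) x τ₀)) = ⊤) :
    evDet N G φ τ₀ ≠ 0 := by
  unfold evDet
  set M : Matrix (X0 N) (X0 N) ℂ :=
    Matrix.of fun y x : X0 N => cj N (G.d (φ.symm y)) (G.e (φ.symm y)) x τ₀ with hM
  have hrow : Set.range M.row = Set.range fun j : G.J =>
      (fun x : X0 N => cj N (G.d j) (G.e j) x τ₀) := by
    ext v
    constructor
    · rintro ⟨y, rfl⟩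
      exact ⟨φ.symm y, rfl⟩
    · rintro ⟨j, rfl⟩
      refine ⟨φ j, ?_⟩
      funext x
      simp [hM, Matrix.row]
  have hsurj : Function.Surjective M.vecMul := by
    have : LinearMap.range M.vecMulLinear = ⊤ := by
      rw [range_vecMulLinear, hrow, h]
    exact LinearMap.range_eq_top.mp this
  have hunit : IsUnit M := Matrix.vecMul_surjective_iff_isUnit.mp hsurj
  exact ((Matrix.isUnit_iff_isUnit_det M).mp hunit).ne_zero

/-- `D² = c Δ^n` and `Σ d_j = 6 n`, from the spanning statements (F2) and the level-one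
nonvanishing principle (L1). -/
theorem evDet_sq_eq_of
    (hL1 : ∀ (w : ℤ) (F : ℍ → ℂ), IsMF 1 w F →
      (∀ τ : ℍ, E₄ τ ≠ 0 → E₆ τ ≠ 0 → F τ ≠ 0) →
      (∀ τ : ℍ, ModularGroup.S • τ = τ → F τ ≠ 0) →
      (∀ τ : ℍ, (ModularGroup.S * ModularGroup.T) • τ = τ → F τ ≠ 0) →
      ∃ (n : ℕ) (c : ℂ), c ≠ 0 ∧ w = 12 * n ∧ F = c • discriminant ^ n)
    (hgen : ∀ τ₀ : ℍ, E₄ τ₀ ≠ 0 → E₆ τ₀ ≠ 0 →
      Submodule.span ℂ (Set.range fun j : G.J =>
        (fun x : X0 N => cj N (G.d j) (G.e j) x τ₀)) = ⊤)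
    (hfix : ∀ σ : SL(2, ℤ), (σ = ModularGroup.S ∨ σ = ModularGroup.S * ModularGroup.T) →
      ∀ τ₀ : ℍ, σ • τ₀ = τ₀ →
      Submodule.span ℂ (Set.range fun j : G.J =>
        (fun x : X0 N => cj N (G.d j) (G.e j) x τ₀)) = ⊤) :
    ∃ (n : ℕ) (c : ℂ), c ≠ 0 ∧ ∑ j, G.d j = 6 * n ∧
      ∀ τ, evDet N G φ τ ^ 2 = c * discriminant τ ^ n := by
  obtain ⟨n, c, hc, hw, hF⟩ := hL1 _ _ (isMF_evDet_sq G φ)
    (fun τ h4 h6 => pow_ne_zero 2 (evDet_ne_zero_of_span G φ τ (hgen τ h4 h6)))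
    (fun τ hτ => pow_ne_zero 2 (evDet_ne_zero_of_span G φ τ (hfix _ (Or.inl rfl) τ hτ)))
    (fun τ hτ => pow_ne_zero 2 (evDet_ne_zero_of_span G φ τ (hfix _ (Or.inr rfl) τ hτ)))
  refine ⟨n, c, hc, ?_, fun τ => ?_⟩
  · have : ((2 * ∑ j, G.d j : ℕ) : ℤ) = ((12 * n : ℕ) : ℤ) := by
      push_cast
      exact hw
    have h2 : 2 * ∑ j, G.d j = 12 * n := by exact_mod_cast this
    omega
  · have := congrFun hF τ
    simpa using this

end det

/-! ### Stability of dimensions -/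

section stab

variable {N : ℕ} [NeZero N]

/-- The level-one dimension function jumps by one under `m ↦ m + 12` for even `m ≥ 4`. -/
theorem levelOne_dim_step
    (hone : ∀ k : ℤ, Module.finrank ℂ (MFs 1 k) =
      if k < 0 ∨ Odd k then 0 else if k % 12 = 2 then (k / 12).toNat else (k / 12).toNat + 1)
    (m : ℤ) (hm : 4 ≤ m) (hev : Even m) :
    Module.finrank ℂ (MFs 1 m) = Module.finrank ℂ (MFs 1 (m - 12)) + 1 := by
  rw [hone m, hone (m - 12)]
  have hnodd : ¬ Odd m := Int.not_odd_iff_even.mpr hev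
  have hev' : m % 2 = 0 := Int.even_iff.mp hev
  have hnodd' : ¬ Odd (m - 12) := by
    rw [Int.not_odd_iff_even]
    exact hev.sub (by decide)
  by_cases h12 : m < 12
  · have h1 : m - 12 < 0 := by omega
    have h2 : ¬ (m < 0 ∨ Odd m) := by
      rintro (h | h)
      · omega
      · exact hnodd h
    rw [if_neg h2, if_pos (Or.inl h1)]
    have h3 : m % 12 ≠ 2 := by omega
    rw [if_neg h3]
    have : m / 12 = 0 := by omega
    rw [this]
    rfl
  · have h1 : ¬ (m - 12 < 0 ∨ Odd (m - 12)) := by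
      rintro (h | h)
      · omega
      · exact hnodd' h
    have h2 : ¬ (m < 0 ∨ Odd m) := by
      rintro (h | h)
      · omega
      · exact hnodd h
    rw [if_neg h2, if_neg h1]
    have h3 : (m - 12) % 12 = m % 12 := by omega
    have h4 : ((m - 12) / 12).toNat + 1 = (m / 12).toNat := by omega
    rw [h3]
    split_ifs <;> omega

/-- Stability for large even weights, from `card_J`, `even_d` (F2) and the level-one
dimension formula (L1). -/
theorem exists_stab_of (G : GenData N)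
    (hcard : Fintype.card G.J = Nat.card (X0 N))
    (heven : ∀ j, Even (G.d j))
    (hone : ∀ k : ℤ, Module.finrank ℂ (MFs 1 k) =
      if k < 0 ∨ Odd k then 0 else if k % 12 = 2 then (k / 12).toNat else (k / 12).toNat + 1) :
    ∃ k₀ : ℕ, ∀ k : ℕ, k₀ ≤ k → Even k → Stab N k := by
  refine ⟨Finset.univ.sup G.d + 4, fun k hk hev => ?_⟩
  unfold Stab
  rw [G.count, G.count]
  have hstep : ∀ j, Module.finrank ℂ (MFs 1 ((k : ℤ) - G.d j))
      = Module.finrank ℂ (MFs 1 ((k : ℤ) - 12 - G.d j)) + 1 := by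
    intro j
    have hj : G.d j ≤ Finset.univ.sup G.d := Finset.le_sup (Finset.mem_univ j)
    have h4 : (4 : ℤ) ≤ (k : ℤ) - G.d j := by
      have : G.d j + 4 ≤ k := by omega
      have : ((G.d j + 4 : ℕ) : ℤ) ≤ (k : ℤ) := by exact_mod_cast this
      push_cast at this
      omega
    have he : Even ((k : ℤ) - G.d j) := by
      apply Even.sub
      · exact_mod_cast hev
      · exact_mod_cast heven j
    have := levelOne_dim_step hone _ h4 he
    rw [this, show (k : ℤ) - G.d j - 12 = (k : ℤ) - 12 - G.d j by ring]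
  rw [Finset.sum_congr rfl (fun j _ => hstep j), Finset.sum_add_distrib]
  simp [hcard]

end stab

/-! ### The bound `Σ d_j + 6 c_∞ ≤ 6 μ` -/

section bound

variable {N : ℕ} [NeZero N]

/-- The point `t i` of the upper half plane, for `t > 0`. -/
def pointI (t : ℝ) (ht : 0 < t) : ℍ := ⟨(t : ℂ) * Complex.I, by simpa using ht⟩

@[simp] theorem im_pointI (t : ℝ) (ht : 0 < t) : (pointI t ht).im = t := by
  simp [pointI, UpperHalfPlane.im]

/-- Decay of the discriminant at `i∞`. -/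
theorem discriminant_decay :
    ∃ C A : ℝ, 0 ≤ C ∧ ∀ τ : ℍ, A ≤ τ.im →
      ‖discriminant τ‖ ≤ C * Real.exp (-(2 * Real.pi * τ.im)) := by
  have h := CuspFormClass.exp_decay_atImInfty (h := 1) CuspForm.discriminant one_pos
    one_mem_strictPeriods_SL
  obtain ⟨C, hC0, hC⟩ := h.exists_nonneg
  rw [Asymptotics.isBigOWith_iff, Filter.eventually_iff, atImInfty_mem] at hC
  obtain ⟨A, hA⟩ := hC
  refine ⟨C, A, hC0, fun τ hτ => ?_⟩
  have := hA τ hτ
  simp only [Set.mem_ofPred_eq, CuspForm.coe_discriminant, div_one, Real.norm_eq_abs,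
    Real.abs_exp] at this
  convert this using 3
  ring

/-- A determinant of bounded functions is bounded. -/
theorem isBoundedAtImInfty_det {X : Type} [Fintype X] [DecidableEq X] (P : X → X → ℍ → ℂ)
    (hP : ∀ y y', IsBoundedAtImInfty (P y y')) :
    IsBoundedAtImInfty (fun τ => Matrix.det (Matrix.of fun y y' => P y y' τ)) := by
  have h : (fun τ => Matrix.det (Matrix.of fun y y' => P y y' τ))
      = ∑ σ : Equiv.Perm X, ((Equiv.Perm.sign σ : ℤ) : ℂ) • ∏ y : X, P (σ y) y := by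
    funext τ
    rw [Matrix.det_apply']
    simp only [Finset.sum_apply, Pi.smul_apply, Finset.prod_apply, smul_eq_mul, Matrix.of_apply]
  rw [h]
  unfold IsBoundedAtImInfty
  refine (Filter.boundedFilterSubalgebra ℂ atImInfty).sum_mem fun σ _ =>
    (Filter.boundedFilterSubalgebra ℂ atImInfty).smul_mem ?_ _
  exact Filter.BoundedAtFilter.prod _ fun y _ => hP _ _

/-- Pure real-analysis core: an exponential lower bound against an exponential upper bound. -/
theorem le_of_exp_bounds {a b c K A : ℝ} (hc : 0 < c)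
    (h : ∀ t : ℝ, A ≤ t → 0 < t →
      c * Real.exp (-(2 * Real.pi * a * t)) ≤ K * Real.exp (-(2 * Real.pi * b * t)))
    (hab : a + 1 ≤ b) : False := by
  set t : ℝ := max (max A 1) (K / c + 1) with ht
  have ht1 : 1 ≤ t := le_trans (le_max_right A 1) (le_max_left _ _)
  have htA : A ≤ t := le_trans (le_max_left A 1) (le_max_left _ _)
  have htK : K / c + 1 ≤ t := le_max_right _ _
  have ht0 : 0 < t := by linarith
  have h1 := h t htA ht0
  have hexp : Real.exp (-(2 * Real.pi * a * t))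
      = Real.exp (2 * Real.pi * (b - a) * t) * Real.exp (-(2 * Real.pi * b * t)) := by
    rw [← Real.exp_add]
    congr 1
    ring
  rw [hexp, ← mul_assoc] at h1
  have h2 : c * Real.exp (2 * Real.pi * (b - a) * t) ≤ K :=
    le_of_mul_le_mul_right h1 (Real.exp_pos _)
  have hpi : (1 : ℝ) ≤ 2 * Real.pi := by
    have := Real.pi_gt_three
    linarith
  have h3 : t ≤ 2 * Real.pi * (b - a) * t := by
    have : (1 : ℝ) ≤ 2 * Real.pi * (b - a) := by
      have hba : 1 ≤ b - a := by linarith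
      calc (1 : ℝ) = 1 * 1 := by ring
        _ ≤ (2 * Real.pi) * (b - a) := mul_le_mul hpi hba zero_le_one (by linarith)
    calc t = 1 * t := by ring
      _ ≤ (2 * Real.pi * (b - a)) * t := mul_le_mul_of_nonneg_right this ht0.le
  have h4 : t + 1 ≤ Real.exp (2 * Real.pi * (b - a) * t) :=
    le_trans (by linarith) (Real.add_one_le_exp _)
  have h5 : c * (t + 1) ≤ K := le_trans (mul_le_mul_of_nonneg_left h4 hc.le) h2
  have h6 : K / c + 1 + 1 ≤ K / c := by
    have : t + 1 ≤ K / c := by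
      rw [le_div_iff₀ hc]
      linarith [h5]
    linarith
  linarith

/-- Factorisation of the matrix of conjugates of forms `w y = Σ_j P y j * e_j`. -/
theorem det_cj_eq (G : GenData N) (φ : G.J ≃ X0 N) (k : ℤ) (w : X0 N → ℍ → ℂ)
    (P : X0 N → G.J → ℍ → ℂ) (hP : ∀ y j, IsMF 1 (k - G.d j) (P y j))
    (hw : ∀ y, w y = ∑ j, P y j * G.e j) (τ : ℍ) :
    Matrix.det (Matrix.of fun y x : X0 N => cj N k (w y) x τ)
      = Matrix.det (Matrix.of fun y y' : X0 N => P y (φ.symm y') τ) * evDet N G φ τ := by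
  unfold evDet
  rw [← Matrix.det_mul]
  congr 1
  ext y x
  simp only [Matrix.of_apply, Matrix.mul_apply]
  rw [hw y, cj_sum, Finset.sum_apply]
  rw [← Equiv.sum_comp φ.symm]
  refine Finset.sum_congr rfl fun y' _ => ?_
  rw [cj_levelOne_mul (hP y _)]
  rfl

/-- `Σ d_j + 6 c_∞ ≤ 6 μ`, from stability, the determinant lower bound at the cusps (CuspB) and
`D² = c Δ^n`. -/
theorem sum_d_le_of (G : GenData N) (φ : G.J ≃ X0 N)
    (hstab : ∃ k₀ : ℕ, ∀ k : ℕ, k₀ ≤ k → Even k → Stab N k)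
    (hcusp : ∀ k : ℤ, Stab N k → ∃ w : X0 N → ℍ → ℂ, (∀ y, IsMF N k (w y)) ∧
      ∃ c : ℝ, 0 < c ∧ ∃ A : ℝ, ∀ τ : ℍ, A ≤ τ.im →
        c * Real.exp (-(Real.pi * ((Nat.card (X0 N) : ℝ) - cInf N) * τ.im))
          ≤ ‖Matrix.det (Matrix.of fun y x : X0 N => cj N k (w y) x τ)‖)
    (hsq : ∃ (n : ℕ) (c : ℂ), c ≠ 0 ∧ ∑ j, G.d j = 6 * n ∧
      ∀ τ, evDet N G φ τ ^ 2 = c * discriminant τ ^ n) :
    ∑ j, G.d j + 6 * cInf N ≤ 6 * Nat.card (X0 N) := by
  obtain ⟨k₀, hk₀⟩ := hstab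
  obtain ⟨n, c', hc', hsum, hD⟩ := hsq
  have hst : Stab N ((2 * k₀ : ℕ) : ℤ) := hk₀ (2 * k₀) (by omega) (even_two_mul k₀)
  obtain ⟨w, hw, c, hc, A, hA⟩ := hcusp _ hst
  choose P hP hwP using fun y => G.gen _ (w y) (hw y)
  -- bound for det P
  have hPb : IsBoundedAtImInfty
      (fun τ => Matrix.det (Matrix.of fun y y' : X0 N => P y (φ.symm y') τ)) := by
    refine isBoundedAtImInfty_det (fun y y' => P y (φ.symm y')) fun y y' => ?_
    have := (hP y (φ.symm y')).bdd 1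
    rwa [SlashAction.slash_one] at this
  rw [isBoundedAtImInfty_iff] at hPb
  obtain ⟨C, A₁, hC⟩ := hPb
  obtain ⟨C₂, A₂, hC₂0, hC₂⟩ := discriminant_decay
  -- reduce to n + cInf ≤ μ
  suffices h : n + cInf N ≤ Nat.card (X0 N) by omega
  by_contra hcon
  push Not at hcon
  have hab : ((Nat.card (X0 N) : ℝ) - cInf N) + 1 ≤ (n : ℝ) := by
    have : Nat.card (X0 N) + 1 ≤ n + cInf N := hcon
    have : ((Nat.card (X0 N) + 1 : ℕ) : ℝ) ≤ ((n + cInf N : ℕ) : ℝ) := by exact_mod_cast this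
    push_cast at this
    linarith
  set C' : ℝ := max C 0 with hC'
  have hC'0 : 0 ≤ C' := le_max_right _ _
  refine le_of_exp_bounds (a := (Nat.card (X0 N) : ℝ) - cInf N) (b := (n : ℝ)) (c := c ^ 2)
    (K := C' ^ 2 * ‖c'‖ * C₂ ^ n) (A := max A (max A₁ A₂)) (by positivity) ?_ hab
  intro t htA ht0
  have hA' : A ≤ t := le_trans (le_max_left _ _) htA
  have hA₁' : A₁ ≤ t := le_trans (le_trans (le_max_left _ _) (le_max_right _ _)) htA
  have hA₂' : A₂ ≤ t := le_trans (le_trans (le_max_right _ _) (le_max_right _ _)) htA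
  set τ : ℍ := pointI t ht0 with hτ
  have him : τ.im = t := im_pointI t ht0
  have h1 := hA τ (by rw [him]; exact hA')
  rw [det_cj_eq G φ _ w P hP hwP τ, norm_mul, him] at h1
  have h2 : ‖Matrix.det (Matrix.of fun y y' : X0 N => P y (φ.symm y') τ)‖ ≤ C' :=
    le_trans (hC τ (by rw [him]; exact hA₁')) (le_max_left _ _)
  have h3 : c * Real.exp (-(Real.pi * ((Nat.card (X0 N) : ℝ) - cInf N) * t))
      ≤ C' * ‖evDet N G φ τ‖ :=
    le_trans h1 (mul_le_mul_of_nonneg_right h2 (norm_nonneg _))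
  have h4 : (c * Real.exp (-(Real.pi * ((Nat.card (X0 N) : ℝ) - cInf N) * t))) ^ 2
      ≤ (C' * ‖evDet N G φ τ‖) ^ 2 :=
    pow_le_pow_left₀ (by positivity) h3 2
  have h5 : ‖evDet N G φ τ‖ ^ 2 = ‖c'‖ * ‖discriminant τ‖ ^ n := by
    rw [← norm_pow, hD τ, norm_mul, norm_pow]
  have h6 : ‖discriminant τ‖ ^ n ≤ (C₂ * Real.exp (-(2 * Real.pi * t))) ^ n := by
    refine pow_le_pow_left₀ (norm_nonneg _) ?_ n
    have := hC₂ τ (by rw [him]; exact hA₂')
    rwa [him] at this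
  have e1 : (c * Real.exp (-(Real.pi * ((Nat.card (X0 N) : ℝ) - cInf N) * t))) ^ 2
      = c ^ 2 * Real.exp (-(2 * Real.pi * ((Nat.card (X0 N) : ℝ) - cInf N) * t)) := by
    rw [mul_pow, ← Real.exp_nat_mul]
    congr 2
    push_cast
    ring
  have e2 : (C₂ * Real.exp (-(2 * Real.pi * t))) ^ n
      = C₂ ^ n * Real.exp (-(2 * Real.pi * (n : ℝ) * t)) := by
    rw [mul_pow, ← Real.exp_nat_mul]
    congr 2
    ring
  rw [e1] at h4
  calc c ^ 2 * Real.exp (-(2 * Real.pi * ((Nat.card (X0 N) : ℝ) - cInf N) * t))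
      ≤ (C' * ‖evDet N G φ τ‖) ^ 2 := h4
    _ = C' ^ 2 * (‖c'‖ * ‖discriminant τ‖ ^ n) := by rw [mul_pow, h5]
    _ ≤ C' ^ 2 * (‖c'‖ * (C₂ ^ n * Real.exp (-(2 * Real.pi * (n : ℝ) * t)))) := by
        rw [← e2]
        exact mul_le_mul_of_nonneg_left
          (mul_le_mul_of_nonneg_left h6 (norm_nonneg _)) (by positivity)
    _ = C' ^ 2 * ‖c'‖ * C₂ ^ n * Real.exp (-(2 * Real.pi * (n : ℝ) * t)) := by ring

end bound

/-! ### Packaged form: all of S20-DET from the inputs of F2, L1 and CuspB -/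

section packaged

variable {N : ℕ} [NeZero N]

/-- An equivalence `J ≃ X0 N` from the cardinality statement `card_J`. -/
def equivOfCard (G : GenData N) (hcard : Fintype.card G.J = Nat.card (X0 N)) : G.J ≃ X0 N :=
  Fintype.equivOfCardEq (by rw [hcard, Nat.card_eq_fintype_card])

/-- All of S20-DET in one statement: from the inputs of the packages F2 (`card_J`, `even_d`,
`span_ev_gen`, `span_ev_fix`), L1 (`finrank_MFs_one`, `levelOne_nonvanishing`) and CuspB
(`cusp_det_lower`) we get `Σ d_j + 6 c_∞ ≤ 6 μ`. -/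
theorem sum_d_le_of_inputs (G : GenData N)
    (hcard : Fintype.card G.J = Nat.card (X0 N))
    (heven : ∀ j, Even (G.d j))
    (hgen : ∀ τ₀ : ℍ, E₄ τ₀ ≠ 0 → E₆ τ₀ ≠ 0 →
      Submodule.span ℂ (Set.range fun j : G.J =>
        (fun x : X0 N => cj N (G.d j) (G.e j) x τ₀)) = ⊤)
    (hfix : ∀ σ : SL(2, ℤ), (σ = ModularGroup.S ∨ σ = ModularGroup.S * ModularGroup.T) →
      ∀ τ₀ : ℍ, σ • τ₀ = τ₀ →
      Submodule.span ℂ (Set.range fun j : G.J =>
        (fun x : X0 N => cj N (G.d j) (G.e j) x τ₀)) = ⊤)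
    (hone : ∀ k : ℤ, Module.finrank ℂ (MFs 1 k) =
      if k < 0 ∨ Odd k then 0 else if k % 12 = 2 then (k / 12).toNat else (k / 12).toNat + 1)
    (hL1 : ∀ (w : ℤ) (F : ℍ → ℂ), IsMF 1 w F →
      (∀ τ : ℍ, E₄ τ ≠ 0 → E₆ τ ≠ 0 → F τ ≠ 0) →
      (∀ τ : ℍ, ModularGroup.S • τ = τ → F τ ≠ 0) →
      (∀ τ : ℍ, (ModularGroup.S * ModularGroup.T) • τ = τ → F τ ≠ 0) →
      ∃ (n : ℕ) (c : ℂ), c ≠ 0 ∧ w = 12 * n ∧ F = c • discriminant ^ n)
    (hcusp : ∀ k : ℤ, Stab N k → ∃ w : X0 N → ℍ → ℂ, (∀ y, IsMF N k (w y)) ∧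
      ∃ c : ℝ, 0 < c ∧ ∃ A : ℝ, ∀ τ : ℍ, A ≤ τ.im →
        c * Real.exp (-(Real.pi * ((Nat.card (X0 N) : ℝ) - cInf N) * τ.im))
          ≤ ‖Matrix.det (Matrix.of fun y x : X0 N => cj N k (w y) x τ)‖) :
    ∑ j, G.d j + 6 * cInf N ≤ 6 * Nat.card (X0 N) :=
  sum_d_le_of G (equivOfCard G hcard) (exists_stab_of G hcard heven hone) hcusp
    (evDet_sq_eq_of G _ hL1 hgen hfix)

end packaged

end Fermat.Agent.S20.helper48
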