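import Mathlib

/-!
# S20-F1 (helper50), part 3: pure counting lemmas

* `conv_identity`: Hilbert-series bookkeeping `D = q * a` from `q = (1-X⁴)(1-X⁶) D` and
  `(1-X⁴)(1-X⁶) a = 1`.
* `levelOneDim_rec`: the explicit level-one dimensions satisfy `(1-X⁴)(1-X⁶) a = 1`.
* `exists_bound_of_conv`: linear growth of `D` forces `q` to have finite support.
-/

set_option autoImplicit false

namespace Fermat.Agent.S20.helper50

open PowerSeries in
theorem conv_identity (D q a : ℕ → ℤ)
    (hq : ∀ n, q n = D n - (if 4 ≤ n then D (n - 4) else 0) - (if 6 ≤ n then D (n - 6) else 0)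
      + (if 10 ≤ n then D (n - 10) else 0))
    (ha : ∀ n, a n - (if 4 ≤ n then a (n - 4) else 0) - (if 6 ≤ n then a (n - 6) else 0)
      + (if 10 ≤ n then a (n - 10) else 0) = if n = 0 then 1 else 0) (n : ℕ) :
    D n = ∑ i ∈ Finset.range (n + 1), q i * a (n - i) := by
  let C : ℤ⟦X⟧ := 1 - X ^ 4 - X ^ 6 + X ^ 10
  have h1 : C * mk D = mk q := by
    ext n
    simp only [C, sub_mul, add_mul, one_mul, map_add, map_sub, coeff_X_pow_mul', coeff_mk]
    rw [hq n]
  have h2 : C * mk a = 1 := by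
    ext n
    simp only [C, sub_mul, add_mul, one_mul, map_add, map_sub, coeff_X_pow_mul', coeff_mk,
      coeff_one]
    exact ha n
  have h3 : mk D = mk q * mk a := by
    calc mk D = mk D * (C * mk a) := by rw [h2, mul_one]
      _ = (C * mk D) * mk a := by ring
      _ = mk q * mk a := by rw [h1]
  have := congrArg (coeff n) h3
  rw [coeff_mk, coeff_mul,
    Finset.Nat.sum_antidiagonal_eq_sum_range_succ (fun i j => coeff i (mk q) * coeff j (mk a))]
    at this
  simpa using this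

/-- The dimension of the space of level-one forms of weight `m`. -/
def levelOneDim (m : ℕ) : ℕ :=
  if m % 2 = 1 then 0 else if m % 12 = 2 then m / 12 else m / 12 + 1

theorem levelOneDim_rec (n : ℕ) :
    (levelOneDim n : ℤ) - (if 4 ≤ n then (levelOneDim (n - 4) : ℤ) else 0)
      - (if 6 ≤ n then (levelOneDim (n - 6) : ℤ) else 0)
      + (if 10 ≤ n then (levelOneDim (n - 10) : ℤ) else 0) = if n = 0 then 1 else 0 := by
  unfold levelOneDim
  split_ifs <;> push_cast <;> omega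

theorem levelOneDim_lower (m : ℕ) : m ≤ 12 * (levelOneDim m + levelOneDim (m + 1)) + 2 := by
  unfold levelOneDim
  split_ifs <;> omega


theorem sum_range_le_two_mul (D q a : ℕ → ℕ) (μ : ℕ)
    (hD : ∀ n, D n = ∑ i ∈ Finset.range (n + 1), q i * a (n - i))
    (hle : ∀ n, 12 * D n ≤ n * μ + 12)
    (ha : ∀ m, m ≤ 12 * (a m + a (m + 1)) + 2) (L : ℕ) :
    ∑ i ∈ Finset.range (L + 1), q i ≤ 2 * μ := by
  by_contra hcon
  have hcon := not_le.mp hcon
  obtain ⟨t, ht⟩ : ∃ t, t = (2 * L + 5) * μ + 25 := ⟨_, rfl⟩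
  obtain ⟨k, hk⟩ : ∃ k, k = L + 2 + t := ⟨_, rfl⟩
  have hA : ∑ i ∈ Finset.range (L + 1), q i * a (k - i) ≤ D k := by
    rw [hD k]
    exact Finset.sum_le_sum_of_subset (Finset.range_subset_range.mpr (by omega))
  have hB : ∑ i ∈ Finset.range (L + 1), q i * a (k + 1 - i) ≤ D (k + 1) := by
    rw [hD (k + 1)]
    exact Finset.sum_le_sum_of_subset (Finset.range_subset_range.mpr (by omega))
  have hC : ∑ i ∈ Finset.range (L + 1), q i * t ≤
      ∑ i ∈ Finset.range (L + 1), (12 * (q i * a (k - i)) + 12 * (q i * a (k + 1 - i))) := by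
    refine Finset.sum_le_sum fun i hi => ?_
    have hi' : i ≤ L := by
      have := Finset.mem_range.mp hi
      omega
    have h1 := ha (k - i)
    have h2 : k + 1 - i = k - i + 1 := by omega
    rw [h2]
    have h3 : t ≤ 12 * (a (k - i) + a (k - i + 1)) := by omega
    calc q i * t ≤ q i * (12 * (a (k - i) + a (k - i + 1))) := Nat.mul_le_mul_left _ h3
      _ = 12 * (q i * a (k - i)) + 12 * (q i * a (k - i + 1)) := by ring
  have hC' : (∑ i ∈ Finset.range (L + 1), q i) * t ≤ 12 * D k + 12 * D (k + 1) := by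
    rw [Finset.sum_mul]
    refine hC.trans ?_
    rw [Finset.sum_add_distrib, ← Finset.mul_sum, ← Finset.mul_sum]
    omega
  have h2 := hle k
  have h3 := hle (k + 1)
  have h4 : (2 * μ + 1) * t ≤ (∑ i ∈ Finset.range (L + 1), q i) * t :=
    Nat.mul_le_mul_right _ hcon
  have h5 : (2 * μ + 1) * t ≤ k * μ + 12 + ((k + 1) * μ + 12) := by omega
  rw [hk] at h5
  have h6 : (2 * μ + 1) * t = 2 * (t * μ) + t := by ring
  have h7 : (L + 2 + t) * μ + 12 + ((L + 2 + t + 1) * μ + 12) =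
      2 * (t * μ) + ((2 * L + 5) * μ + 24) := by ring
  rw [h6, h7] at h5
  omega

theorem exists_bound_of_conv (D q a : ℕ → ℕ) (μ : ℕ)
    (hD : ∀ n, D n = ∑ i ∈ Finset.range (n + 1), q i * a (n - i))
    (hle : ∀ n, 12 * D n ≤ n * μ + 12)
    (ha : ∀ m, m ≤ 12 * (a m + a (m + 1)) + 2) :
    ∃ L₀, ∀ n, L₀ < n → q n = 0 := by
  have key := sum_range_le_two_mul D q a μ hD hle ha
  set Q : ℕ → ℕ := fun L => ∑ i ∈ Finset.range (L + 1), q i with hQ
  have hbdd : BddAbove (Set.range Q) := ⟨2 * μ, by rintro _ ⟨L, rfl⟩; exact key L⟩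
  have hne : (Set.range Q).Nonempty := ⟨Q 0, ⟨0, rfl⟩⟩
  obtain ⟨L₀, hL₀⟩ := Nat.sSup_mem hne hbdd
  refine ⟨L₀, fun n hn => ?_⟩
  have h1 : Q n ≤ Q L₀ := by
    rw [hL₀]
    exact le_csSup hbdd ⟨n, rfl⟩
  have h2 : Q L₀ + q n ≤ Q n := by
    simp only [hQ]
    rw [Finset.sum_range_succ _ n]
    have : ∑ i ∈ Finset.range (L₀ + 1), q i ≤ ∑ i ∈ Finset.range n, q i :=
      Finset.sum_le_sum_of_subset (Finset.range_subset_range.mpr (by omega))
    omega
  omega

end Fermat.Agent.S20.helper50
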