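import Mathlib
import Fermat.Agent.S20.Defs
import Fermat.Agent.S20.helper29_LevelOne

/-!
# S20-F1 (helper50), part 1: `E₄, E₆` is a regular sequence on `⊕ M_k(Γ₀(N))`

If `E₄ f + E₆ g = 0` with `f ∈ M_{k-4}`, `g ∈ M_{k-6}` then `f = E₆ u`, `g = -E₄ u` for a
(unique) `u ∈ M_{k-10}`.
-/

set_option autoImplicit false

noncomputable section

open UpperHalfPlane ModularForm CongruenceSubgroup Matrix.SpecialLinearGroup Filter Topology
open scoped MatrixGroups Manifold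

namespace Fermat.Agent.S20.helper50

theorem tendsto_E4 : Tendsto (fun τ : ℍ => E₄ τ) atImInfty (𝓝 1) := by
  have := helper29.tendsto_coeff_zero E₄
  rwa [EisensteinSeries.E_qExpansion_coeff_zero (by norm_num) ⟨2, rfl⟩] at this

theorem tendsto_E6 : Tendsto (fun τ : ℍ => E₆ τ) atImInfty (𝓝 1) := by
  have := helper29.tendsto_coeff_zero E₆
  rwa [EisensteinSeries.E_qExpansion_coeff_zero (by norm_num) ⟨3, rfl⟩] at this

theorem slash_levelOne {k : ℤ} (F : ModularForm 𝒮ℒ k) (γ : SL(2, ℤ)) :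
    (F : ℍ → ℂ) ∣[k] γ = F := by
  have hγ : (γ : GL (Fin 2) ℝ) ∈ 𝒮ℒ := ⟨γ, rfl⟩
  rw [SL_slash]
  exact SlashInvariantForm.slash_action_eqn F _ hγ

theorem isMF_levelOne (N : ℕ) {k : ℤ} (F : ModularForm 𝒮ℒ k) : IsMF N k F where
  slash γ _ := slash_levelOne F γ
  holo := F.holo'
  bdd γ := by
    rw [slash_levelOne F γ]
    exact (helper29.tendsto_coeff_zero F).isBigO_one ℝ

theorem isMF_E4' (N : ℕ) : IsMF N 4 E₄ := isMF_levelOne N E₄

theorem isMF_E6' (N : ℕ) : IsMF N 6 E₆ := isMF_levelOne N E₆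


theorem E4_cube_sub_E6_sq_ne_zero (τ : ℍ) : E₄ τ ^ 3 - E₆ τ ^ 2 ≠ 0 := by
  rcases helper29.E₄_ne_zero_or_E₆_ne_zero τ with h | h
  · intro h0
    have h1 := discriminant_eq_E₄_cube_sub_E₆_sq τ
    have h2 := discriminant_ne_zero τ
    rw [h0] at h1
    simp at h1
    exact h2 h1
  · intro h0
    have h1 := discriminant_eq_E₄_cube_sub_E₆_sq τ
    have h2 := discriminant_ne_zero τ
    rw [h0] at h1
    simp at h1
    exact h2 h1

/-- pointwise: no common zero -/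
theorem eq_zero_of_E4_mul_of_E6_mul {a : ℂ} {τ : ℍ} (h4 : E₄ τ * a = 0) (h6 : E₆ τ * a = 0) :
    a = 0 := by
  rcases helper29.E₄_ne_zero_or_E₆_ne_zero τ with h | h
  · exact (mul_eq_zero.mp h4).resolve_left h
  · exact (mul_eq_zero.mp h6).resolve_left h

/-- The quotient function. -/
def quotFun (f g : ℍ → ℂ) : ℍ → ℂ :=
  fun τ => -(E₄ τ ^ 2 * g τ + E₆ τ * f τ) / (E₄ τ ^ 3 - E₆ τ ^ 2)

theorem E6_mul_quotFun {f g : ℍ → ℂ} (h : (E₄ : ℍ → ℂ) * f + (E₆ : ℍ → ℂ) * g = 0) :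
    (E₆ : ℍ → ℂ) * quotFun f g = f := by
  funext τ
  have hτ : E₄ τ * f τ + E₆ τ * g τ = 0 := congrFun h τ
  have hne := E4_cube_sub_E6_sq_ne_zero τ
  simp only [Pi.mul_apply, quotFun]
  field_simp
  linear_combination (-(E₄ τ ^ 2)) * hτ

theorem E4_mul_quotFun {f g : ℍ → ℂ} (h : (E₄ : ℍ → ℂ) * f + (E₆ : ℍ → ℂ) * g = 0) :
    (E₄ : ℍ → ℂ) * quotFun f g = -g := by
  funext τ
  have hτ : E₄ τ * f τ + E₆ τ * g τ = 0 := congrFun h τ
  have hne := E4_cube_sub_E6_sq_ne_zero τ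
  simp only [Pi.mul_apply, Pi.neg_apply, quotFun]
  field_simp
  linear_combination (-E₆ τ) * hτ

theorem mdiff_quotFun {f g : ℍ → ℂ} (hf : MDiff f) (hg : MDiff g) : MDiff (quotFun f g) := by
  have h4 : MDiff (E₄ : ℍ → ℂ) := E₄.holo'
  have h6 : MDiff (E₆ : ℍ → ℂ) := E₆.holo'
  have hnum : MDiff (fun τ : ℍ => -(E₄ τ ^ 2 * g τ + E₆ τ * f τ)) :=
    (((h4.pow 2).mul hg).add (h6.mul hf)).neg
  have hden : MDiff (fun τ : ℍ => E₄ τ ^ 3 - E₆ τ ^ 2) := (h4.pow 3).sub (h6.pow 2)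
  exact hnum.div hden E4_cube_sub_E6_sq_ne_zero

variable {N : ℕ}

theorem isMF_quotFun {k : ℤ} {f g : ℍ → ℂ} (hf : IsMF N (k - 4) f) (hg : IsMF N (k - 6) g)
    (h : (E₄ : ℍ → ℂ) * f + (E₆ : ℍ → ℂ) * g = 0) : IsMF N (k - 10) (quotFun f g) := by
  have e6 := E6_mul_quotFun h
  have e4 := E4_mul_quotFun h
  have key6 : ∀ γ : SL(2, ℤ), (E₆ : ℍ → ℂ) * (quotFun f g ∣[k - 10] γ) = f ∣[k - 4] γ := by
    intro γ
    have := mul_slash_SL2 6 (k - 10) γ (E₆ : ℍ → ℂ) (quotFun f g)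
    rw [e6, slash_levelOne E₆ γ, show (6 : ℤ) + (k - 10) = k - 4 by ring] at this
    exact this.symm
  have key4 : ∀ γ : SL(2, ℤ), (E₄ : ℍ → ℂ) * (quotFun f g ∣[k - 10] γ) = -(g ∣[k - 6] γ) := by
    intro γ
    have := mul_slash_SL2 4 (k - 10) γ (E₄ : ℍ → ℂ) (quotFun f g)
    rw [e4, slash_levelOne E₄ γ, show (4 : ℤ) + (k - 10) = k - 6 by ring,
      SlashAction.neg_slash] at this
    exact this.symm
  refine ⟨?_, mdiff_quotFun hf.holo hg.holo, ?_⟩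
  · intro γ hγ
    funext τ
    have h6 := congrFun (key6 γ) τ
    have h4 := congrFun (key4 γ) τ
    rw [hf.slash γ hγ] at h6
    rw [hg.slash γ hγ] at h4
    have h6' := congrFun e6 τ
    have h4' := congrFun e4 τ
    simp only [Pi.mul_apply, Pi.neg_apply] at h6 h4 h6' h4'
    have := eq_zero_of_E4_mul_of_E6_mul (a := (quotFun f g ∣[k - 10] γ) τ - quotFun f g τ)
      (τ := τ) (by rw [mul_sub, h4, h4', sub_self]) (by rw [mul_sub, h6, h6', sub_self])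
    exact sub_eq_zero.mp this
  · intro γ
    have hb : IsBoundedAtImInfty (-(g ∣[k - 6] γ)) := (hg.bdd γ).neg_left
    have hinv : IsBoundedAtImInfty (fun τ : ℍ => (E₄ τ)⁻¹) := by
      have := tendsto_E4.inv₀ one_ne_zero
      exact this.isBigO_one ℝ
    have hprod := hinv.mul hb
    have hev : ∀ᶠ τ in atImInfty, E₄ τ ≠ 0 := tendsto_E4.eventually_ne one_ne_zero
    refine Asymptotics.IsBigO.congr' hprod ?_ EventuallyEq.rfl
    filter_upwards [hev] with τ hτ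
    have h4 := congrFun (key4 γ) τ
    simp only [Pi.mul_apply, Pi.neg_apply] at h4 ⊢
    rw [← h4]
    field_simp

/-- **Regularity.** -/
theorem exists_quot {k : ℤ} {f g : ℍ → ℂ} (hf : IsMF N (k - 4) f) (hg : IsMF N (k - 6) g)
    (h : (E₄ : ℍ → ℂ) * f + (E₆ : ℍ → ℂ) * g = 0) :
    ∃ u : ℍ → ℂ, IsMF N (k - 10) u ∧ f = (E₆ : ℍ → ℂ) * u ∧ g = -((E₄ : ℍ → ℂ) * u) :=
  ⟨quotFun f g, isMF_quotFun hf hg h, (E6_mul_quotFun h).symm, by rw [E4_mul_quotFun h, neg_neg]⟩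

end Fermat.Agent.S20.helper50
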