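import Mathlib
import Fermat.Agent.S20.Defs
import Fermat.Agent.S20.helper50_Quot

/-!
# S20-F1 (helper50), part 2: one layer of generators

For every weight `k` we choose a basis `c` of a complement of `E₄ M_{k-4} + E₆ M_{k-6}` in
`M_k = M_k(Γ₀(N))`, and count: `#c + dim M_{k-4} + dim M_{k-6} = dim M_k + dim M_{k-10}`.
-/

set_option autoImplicit false

noncomputable section

open UpperHalfPlane ModularForm CongruenceSubgroup Matrix.SpecialLinearGroup Filter Topology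
open scoped MatrixGroups Manifold

namespace Fermat.Agent.S20.helper50

variable {N : ℕ}

theorem isMF_E4_mul {k : ℤ} {f : ℍ → ℂ} (hf : IsMF N (k - 4) f) :
    IsMF N k ((E₄ : ℍ → ℂ) * f) := by
  have := (isMF_E4' N).mul hf
  rwa [show (4 : ℤ) + (k - 4) = k by ring] at this

theorem isMF_E6_mul {k : ℤ} {f : ℍ → ℂ} (hf : IsMF N (k - 6) f) :
    IsMF N k ((E₆ : ℍ → ℂ) * f) := by
  have := (isMF_E6' N).mul hf
  rwa [show (6 : ℤ) + (k - 6) = k by ring] at this

theorem isMF_E6_mul' {k : ℤ} {u : ℍ → ℂ} (hu : IsMF N (k - 10) u) :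
    IsMF N (k - 4) ((E₆ : ℍ → ℂ) * u) := by
  have := (isMF_E6' N).mul hu
  rwa [show (6 : ℤ) + (k - 10) = k - 4 by ring] at this

theorem isMF_E4_mul' {k : ℤ} {u : ℍ → ℂ} (hu : IsMF N (k - 10) u) :
    IsMF N (k - 6) ((E₄ : ℍ → ℂ) * u) := by
  have := (isMF_E4' N).mul hu
  rwa [show (4 : ℤ) + (k - 10) = k - 6 by ring] at this

theorem isMF_neg {k : ℤ} {f : ℍ → ℂ} (hf : IsMF N k f) : IsMF N k (-f) := by
  have := IsMF.smul (-1 : ℂ) hf
  simpa using this

/-- The map `(f, g) ↦ E₄ f + E₆ g`. -/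
def phiMap (N : ℕ) (k : ℤ) : (MFs N (k - 4) × MFs N (k - 6)) →ₗ[ℂ] MFs N k where
  toFun p := ⟨(E₄ : ℍ → ℂ) * p.1.1 + (E₆ : ℍ → ℂ) * p.2.1,
    (isMF_E4_mul p.1.2).add (isMF_E6_mul p.2.2)⟩
  map_add' p p' := by
    apply Subtype.ext
    simp only [Prod.fst_add, Prod.snd_add, Submodule.coe_add]
    ring
  map_smul' a p := by
    apply Subtype.ext
    simp only [Prod.smul_fst, Prod.smul_snd, Submodule.coe_smul, RingHom.id_apply]
    funext τ
    simp only [Pi.add_apply, Pi.mul_apply, Pi.smul_apply, smul_eq_mul]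
    ring

/-- The map `u ↦ (E₆ u, -E₄ u)`. -/
def psiMap (N : ℕ) (k : ℤ) : MFs N (k - 10) →ₗ[ℂ] (MFs N (k - 4) × MFs N (k - 6)) where
  toFun u := (⟨(E₆ : ℍ → ℂ) * u.1, isMF_E6_mul' u.2⟩, ⟨-((E₄ : ℍ → ℂ) * u.1),
    isMF_neg (isMF_E4_mul' u.2)⟩)
  map_add' u u' := by
    apply Prod.ext
    · apply Subtype.ext
      simp only [Submodule.coe_add, Prod.fst_add]
      ring
    · apply Subtype.ext
      simp only [Submodule.coe_add, Prod.snd_add]
      ring
  map_smul' a u := by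
    apply Prod.ext
    · apply Subtype.ext
      simp only [Submodule.coe_smul, RingHom.id_apply, Prod.smul_fst]
      funext τ
      simp only [Pi.mul_apply, Pi.smul_apply, smul_eq_mul]
      ring
    · apply Subtype.ext
      simp only [Submodule.coe_smul, RingHom.id_apply, Prod.smul_snd]
      funext τ
      simp only [Pi.mul_apply, Pi.smul_apply, smul_eq_mul, Pi.neg_apply]
      ring

theorem psiMap_injective (N : ℕ) (k : ℤ) : Function.Injective (psiMap N k) := by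
  rw [← LinearMap.ker_eq_bot, LinearMap.ker_eq_bot']
  intro u hu
  apply Subtype.ext
  funext τ
  have h1 := congrArg (fun p => (p.1 : ℍ → ℂ) τ) hu
  have h2 := congrArg (fun p => (p.2 : ℍ → ℂ) τ) hu
  simp only [psiMap, LinearMap.coe_mk, AddHom.coe_mk, Prod.fst_zero, Prod.snd_zero,
    ZeroMemClass.coe_zero, Pi.zero_apply, Pi.mul_apply, Pi.neg_apply, neg_eq_zero] at h1 h2
  exact eq_zero_of_E4_mul_of_E6_mul h2 h1

theorem ker_phiMap (N : ℕ) (k : ℤ) : LinearMap.ker (phiMap N k) = LinearMap.range (psiMap N k) := by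
  ext p
  rw [LinearMap.mem_ker, LinearMap.mem_range]
  constructor
  · intro hp
    have h : (E₄ : ℍ → ℂ) * p.1.1 + (E₆ : ℍ → ℂ) * p.2.1 = 0 := congrArg Subtype.val hp
    obtain ⟨u, hu, h1, h2⟩ := exists_quot p.1.2 p.2.2 h
    refine ⟨⟨u, hu⟩, ?_⟩
    apply Prod.ext
    · apply Subtype.ext
      exact h1.symm
    · apply Subtype.ext
      exact h2.symm
  · rintro ⟨u, rfl⟩
    apply Subtype.ext
    simp only [phiMap, psiMap, LinearMap.coe_mk, AddHom.coe_mk, ZeroMemClass.coe_zero]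
    ring

/-- One layer of generators. -/
theorem exists_layer (N : ℕ) (k : ℤ) [Module.Finite ℂ (MFs N k)] [Module.Finite ℂ (MFs N (k - 4))]
    [Module.Finite ℂ (MFs N (k - 6))] [Module.Finite ℂ (MFs N (k - 10))] :
    ∃ (m : ℕ) (c : Fin m → ℍ → ℂ), (∀ i, IsMF N k (c i)) ∧
      m + Module.finrank ℂ (MFs N (k - 4)) + Module.finrank ℂ (MFs N (k - 6)) =
        Module.finrank ℂ (MFs N k) + Module.finrank ℂ (MFs N (k - 10)) ∧
      ∀ F : ℍ → ℂ, IsMF N k F → ∃ (f₁ f₂ : ℍ → ℂ) (t : Fin m → ℂ),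
        IsMF N (k - 4) f₁ ∧ IsMF N (k - 6) f₂ ∧
          F = (E₄ : ℍ → ℂ) * f₁ + (E₆ : ℍ → ℂ) * f₂ + ∑ i, t i • c i := by
  obtain ⟨C, hC⟩ := Submodule.exists_isCompl (LinearMap.range (phiMap N k))
  have h1 := LinearMap.finrank_range_add_finrank_ker (phiMap N k)
  have h2 : Module.finrank ℂ (LinearMap.ker (phiMap N k)) = Module.finrank ℂ (MFs N (k - 10)) := by
    rw [ker_phiMap]
    exact LinearMap.finrank_range_of_inj (psiMap_injective N k)
  have h3 := Submodule.finrank_add_eq_of_isCompl hC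
  rw [Module.finrank_prod] at h1
  have : Module.Free ℂ C := Module.Free.of_divisionRing ℂ C
  let b := Module.finBasis ℂ C
  refine ⟨Module.finrank ℂ C, fun i => ((b i : MFs N k) : ℍ → ℂ), fun i => (b i : MFs N k).2,
    by omega, ?_⟩
  intro F hF
  have hmem : (⟨F, hF⟩ : MFs N k) ∈ LinearMap.range (phiMap N k) ⊔ C := by
    rw [hC.sup_eq_top]; exact Submodule.mem_top
  obtain ⟨y, hy, z, hz, hyz⟩ := Submodule.mem_sup.mp hmem
  obtain ⟨p, rfl⟩ := LinearMap.mem_range.mp hy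
  refine ⟨p.1.1, p.2.1, fun i => b.repr ⟨z, hz⟩ i, p.1.2, p.2.2, ?_⟩
  have hz' : z = ∑ i, (b.repr ⟨z, hz⟩ i) • ((b i : C) : MFs N k) := by
    have := b.sum_repr ⟨z, hz⟩
    have h' := congrArg (fun w : C => (w : MFs N k)) this
    simp only [Submodule.coe_sum, Submodule.coe_smul] at h'
    exact h'.symm
  have := congrArg (fun w : MFs N k => (w : ℍ → ℂ)) hyz
  simp only [Submodule.coe_add] at this
  rw [← this]
  congr 1
  conv_lhs => rw [hz']
  simp only [Submodule.coe_sum, Submodule.coe_smul]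

end Fermat.Agent.S20.helper50
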