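import Mathlib
import Fermat.Agent.S20.Defs
import Fermat.Agent.S20.helper50_Quot
import Fermat.Agent.S20.helper50_Layer
import Fermat.Agent.S20.helper50_Count

/-!
# S20-F1 (helper50): homogeneous generators of `⊕ M_k(Γ₀(N))` over level-one forms

`exists_genData_of`: `Nonempty (GenData N)` from finite-dimensionality, the Sturm-type bound,
the level-one dimension formula and vanishing in negative weight.
-/

set_option autoImplicit false

noncomputable section

open UpperHalfPlane ModularForm CongruenceSubgroup Matrix.SpecialLinearGroup Filter Topology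
open scoped MatrixGroups Manifold

namespace Fermat.Agent.S20.helper50

variable {N : ℕ}

theorem isMF_const (N : ℕ) (a : ℂ) : IsMF N 0 (fun _ : ℍ => a) :=
  isMF_levelOne N (ModularForm.const a)

theorem finrank_MFs_eq_zero (hneg : ∀ k : ℤ, k < 0 → ∀ f : ℍ → ℂ, IsMF N k f → f = 0)
    {k : ℤ} (hk : k < 0) : Module.finrank ℂ (MFs N k) = 0 := by
  have : Subsingleton (MFs N k) :=
    ⟨fun x y => Subtype.ext ((hneg k hk x.1 x.2).trans (hneg k hk y.1 y.2).symm)⟩
  exact Module.finrank_zero_of_subsingleton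

theorem finrank_MFs_sub (hneg : ∀ k : ℤ, k < 0 → ∀ f : ℍ → ℂ, IsMF N k f → f = 0)
    (n d : ℕ) : Module.finrank ℂ (MFs N ((n : ℤ) - d)) =
      if d ≤ n then Module.finrank ℂ (MFs N ((n - d : ℕ) : ℤ)) else 0 := by
  split_ifs with h
  · rw [Nat.cast_sub h]
  · exact finrank_MFs_eq_zero hneg (by omega)

theorem finrank_MFs_one_nat
    (hone : ∀ k : ℤ, Module.finrank ℂ (MFs 1 k) =
      if k < 0 ∨ Odd k then 0 else if k % 12 = 2 then (k / 12).toNat else (k / 12).toNat + 1)
    (m : ℕ) : Module.finrank ℂ (MFs 1 (m : ℤ)) = levelOneDim m := by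
  rw [hone, levelOneDim]
  simp only [Int.odd_iff]
  split_ifs <;> omega

theorem finrank_MFs_one_neg
    (hone : ∀ k : ℤ, Module.finrank ℂ (MFs 1 k) =
      if k < 0 ∨ Odd k then 0 else if k % 12 = 2 then (k / 12).toNat else (k / 12).toNat + 1)
    {k : ℤ} (hk : k < 0) : Module.finrank ℂ (MFs 1 k) = 0 := by
  rw [hone, if_pos (Or.inl hk)]


/-- Sum over the index set of generators of a function concentrated in weight `n`. -/
theorem sum_sigma_single {L₀ : ℕ} (q : ℕ → ℕ) (hL₀ : ∀ n, L₀ < n → q n = 0)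
    (c : (n : ℕ) → Fin (q n) → ℍ → ℂ) (n : ℕ) (t : Fin (q n) → ℂ) :
    ∑ j : (Σ l : Fin (L₀ + 1), Fin (q l)),
      (if (j.1 : ℕ) = n then (if h : (j.2 : ℕ) < q n then t ⟨j.2, h⟩ else 0) else 0) • c j.1 j.2
      = ∑ i, t i • c n i := by
  rw [Fintype.sum_sigma]
  by_cases hn : n ≤ L₀
  · rw [Finset.sum_eq_single (⟨n, by omega⟩ : Fin (L₀ + 1))]
    · refine Finset.sum_congr rfl fun i _ => ?_
      simp only [if_true]
      rw [dif_pos i.2]
    · intro l _ hl
      refine Finset.sum_eq_zero fun i _ => ?_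
      have : (l : ℕ) ≠ n := fun h => hl (Fin.ext h)
      rw [if_neg this, zero_smul]
    · intro h
      exact absurd (Finset.mem_univ _) h
  · have hq0 : q n = 0 := hL₀ n (by omega)
    rw [Finset.sum_eq_zero, Finset.sum_eq_zero]
    · intro i _
      exact absurd i.2 (by omega)
    · intro l _
      refine Finset.sum_eq_zero fun i _ => ?_
      have : (l : ℕ) ≠ n := by
        have := l.2
        omega
      rw [if_neg this, zero_smul]

theorem exists_genData_of (N : ℕ) [NeZero N]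
    (hfin : ∀ k : ℤ, Module.Finite ℂ (MFs N k))
    (hle : ∀ k : ℕ, 12 * Module.finrank ℂ (MFs N k) ≤ k * Nat.card (X0 N) + 12)
    (hone : ∀ k : ℤ, Module.finrank ℂ (MFs 1 k) =
      if k < 0 ∨ Odd k then 0 else if k % 12 = 2 then (k / 12).toNat else (k / 12).toNat + 1)
    (hneg : ∀ k : ℤ, k < 0 → ∀ f : ℍ → ℂ, IsMF N k f → f = 0) :
    Nonempty (GenData N) := by
  -- the layers of generators
  have H : ∀ n : ℕ, ∃ (m : ℕ) (c : Fin m → ℍ → ℂ), (∀ i, IsMF N n (c i)) ∧
      m + Module.finrank ℂ (MFs N ((n : ℤ) - 4)) + Module.finrank ℂ (MFs N ((n : ℤ) - 6)) =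
        Module.finrank ℂ (MFs N n) + Module.finrank ℂ (MFs N ((n : ℤ) - 10)) ∧
      ∀ F : ℍ → ℂ, IsMF N n F → ∃ (f₁ f₂ : ℍ → ℂ) (t : Fin m → ℂ),
        IsMF N ((n : ℤ) - 4) f₁ ∧ IsMF N ((n : ℤ) - 6) f₂ ∧
          F = (E₄ : ℍ → ℂ) * f₁ + (E₆ : ℍ → ℂ) * f₂ + ∑ i, t i • c i := by
    intro n
    have := hfin n
    have := hfin ((n : ℤ) - 4)
    have := hfin ((n : ℤ) - 6)
    have := hfin ((n : ℤ) - 10)
    exact exists_layer N n
  choose q c hc hq hdec using H
  -- counting
  have hconv : ∀ n : ℕ, Module.finrank ℂ (MFs N (n : ℤ)) =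
      ∑ i ∈ Finset.range (n + 1), q i * levelOneDim (n - i) := by
    intro n
    have := conv_identity (fun n : ℕ => (Module.finrank ℂ (MFs N (n : ℤ)) : ℤ))
      (fun n => (q n : ℤ)) (fun n => (levelOneDim n : ℤ)) ?_ levelOneDim_rec n
    · exact_mod_cast this
    · intro n
      have h := hq n
      have h4 := finrank_MFs_sub hneg n 4
      have h6 := finrank_MFs_sub hneg n 6
      have h10 := finrank_MFs_sub hneg n 10
      simp only [Nat.cast_ofNat] at h4 h6 h10
      rw [h4, h6, h10] at h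
      split_ifs at h ⊢ <;> push_cast <;> omega
  obtain ⟨L₀, hL₀⟩ := exists_bound_of_conv (fun n : ℕ => Module.finrank ℂ (MFs N (n : ℤ))) q
    levelOneDim (Nat.card (X0 N)) hconv (fun n => hle n) levelOneDim_lower
  -- generation
  have G : ∀ n : ℕ, ∀ k : ℤ, k < n → ∀ f : ℍ → ℂ, IsMF N k f →
      ∃ P : (Σ l : Fin (L₀ + 1), Fin (q l)) → ℍ → ℂ,
        (∀ j, IsMF 1 (k - ((j.1 : ℕ) : ℤ)) (P j)) ∧ f = ∑ j, P j * c j.1 j.2 := by
    intro n
    induction n with
    | zero =>
      intro k hk f hf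
      refine ⟨fun _ => 0, fun j => IsMF.zero' 1 _, ?_⟩
      rw [hneg k (by simpa using hk) f hf]
      simp
    | succ n ih =>
      intro k hk f hf
      by_cases hkn : k < n
      · exact ih k hkn f hf
      obtain rfl : k = (n : ℤ) := by push_cast at hk; omega
      obtain ⟨f₁, f₂, t, hf₁, hf₂, hF⟩ := hdec n f hf
      obtain ⟨P1, hP1, e1⟩ := ih ((n : ℤ) - 4) (by omega) f₁ hf₁
      obtain ⟨P2, hP2, e2⟩ := ih ((n : ℤ) - 6) (by omega) f₂ hf₂
      refine ⟨fun j => (E₄ : ℍ → ℂ) * P1 j + (E₆ : ℍ → ℂ) * P2 j +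
        (fun _ => (if (j.1 : ℕ) = n then (if h : (j.2 : ℕ) < q n then t ⟨j.2, h⟩ else 0)
          else 0)), fun j => ?_, ?_⟩
      · refine ((isMF_E4_mul ?_).add (isMF_E6_mul ?_)).add ?_
        · have := hP1 j
          rwa [show (n : ℤ) - 4 - ((j.1 : ℕ) : ℤ) = (n : ℤ) - ((j.1 : ℕ) : ℤ) - 4 by ring] at this
        · have := hP2 j
          rwa [show (n : ℤ) - 6 - ((j.1 : ℕ) : ℤ) = (n : ℤ) - ((j.1 : ℕ) : ℤ) - 6 by ring] at this
        · by_cases hj : (j.1 : ℕ) = n
          · rw [show (n : ℤ) - ((j.1 : ℕ) : ℤ) = 0 by rw [hj]; ring]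
            exact isMF_const 1 _
          · rw [if_neg hj]
            exact IsMF.zero' 1 _
      · have hsum := sum_sigma_single q hL₀ c n t
        rw [hF, e1, e2, ← hsum]
        simp only [add_mul, Finset.sum_add_distrib, Finset.mul_sum, mul_assoc]
        congr 1
  refine ⟨{ J := Σ l : Fin (L₀ + 1), Fin (q l)
            fin := inferInstance
            d := fun j => (j.1 : ℕ)
            e := fun j => c j.1 j.2
            isMF := fun j => hc j.1 j.2
            gen := fun k f hf => G (k.toNat + 1) k (by omega) f hf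
            count := ?_ }⟩
  intro k
  rw [Fintype.sum_sigma]
  have e0 : ∀ x : Fin (L₀ + 1), (∑ _y : Fin (q x), Module.finrank ℂ (MFs 1 (k - ((x : ℕ) : ℤ))))
      = q x * Module.finrank ℂ (MFs 1 (k - ((x : ℕ) : ℤ))) := fun x => by
    rw [Finset.sum_const, Finset.card_univ, Fintype.card_fin, smul_eq_mul]
  refine Eq.trans ?_ (Finset.sum_congr rfl (fun x _ => (e0 x).symm))
  rw [Fin.sum_univ_eq_sum_range (fun l => q l * Module.finrank ℂ (MFs 1 (k - (l : ℤ)))) (L₀ + 1)]
  by_cases hk : k < 0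
  · rw [finrank_MFs_eq_zero hneg hk]
    symm
    refine Finset.sum_eq_zero fun l _ => ?_
    rw [finrank_MFs_one_neg hone (by omega), mul_zero]
  · obtain ⟨n, rfl⟩ := Int.eq_ofNat_of_zero_le (not_lt.mp hk)
    rw [hconv n]
    have hg : ∀ l : ℕ, Module.finrank ℂ (MFs 1 ((n : ℤ) - (l : ℤ))) =
        if l ≤ n then levelOneDim (n - l) else 0 := by
      intro l
      split_ifs with h
      · rw [← Nat.cast_sub h, finrank_MFs_one_nat hone]
      · exact finrank_MFs_one_neg hone (by omega)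
    have e1 : ∑ i ∈ Finset.range (n + 1), q i * levelOneDim (n - i) =
        ∑ l ∈ Finset.range (max n L₀ + 1),
          q l * Module.finrank ℂ (MFs 1 ((n : ℤ) - (l : ℤ))) := by
      rw [← Finset.sum_subset (Finset.range_subset_range.mpr (by omega : n + 1 ≤ max n L₀ + 1))]
      · refine Finset.sum_congr rfl fun l hl => ?_
        rw [hg l, if_pos (by have := Finset.mem_range.mp hl; omega)]
      · intro l _ hl
        rw [hg l, if_neg (by have := Finset.mem_range.not.mp hl; omega), mul_zero]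
    have e2 : ∑ l ∈ Finset.range (L₀ + 1), q l * Module.finrank ℂ (MFs 1 ((n : ℤ) - (l : ℤ))) =
        ∑ l ∈ Finset.range (max n L₀ + 1),
          q l * Module.finrank ℂ (MFs 1 ((n : ℤ) - (l : ℤ))) := by
      rw [← Finset.sum_subset (Finset.range_subset_range.mpr (by omega : L₀ + 1 ≤ max n L₀ + 1))]
      intro l _ hl
      rw [hL₀ l (by have := Finset.mem_range.not.mp hl; omega), zero_mul]
    rw [e1, e2]

end Fermat.Agent.S20.helper50
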