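import Mathlib
import Fermat.Agent.S20.Defs

/-!
# S20-CuspB (core): consequences at the cusps by linear algebra and counting

All results here are proved from an explicit bundle `CuspFacts N ζ` of facts about
`q_N`-expansion coefficients at the cusps (package S20-CuspA), the permutation representation of
`⟨T⟩` on `X0 N` (package S20-LA) and finite-dimensionality (package S20-F0).  The file
`helper61_CuspB.lean` instantiates the bundle and states the final theorems.
-/

set_option autoImplicit false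

noncomputable section

open UpperHalfPlane ModularForm CongruenceSubgroup Matrix.SpecialLinearGroup
open scoped MatrixGroups Manifold

namespace Fermat.Agent.S20.helper61

open Fermat.Agent.S20

/-- Number of `⟨T⟩`-orbits on `X0 N` (the number of cusps of `Γ₀(N)`). -/
def cInf (N : ℕ) : ℕ :=
  Nat.card (MulAction.orbitRel.Quotient (Subgroup.zpowers ModularGroup.T) (X0 N))

/-- Stability of the dimension count in weight `k`. -/
def Stab (N : ℕ) (k : ℤ) : Prop :=
  Module.finrank ℂ (MFs N k) = Module.finrank ℂ (MFs N (k - 12)) + Nat.card (X0 N)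

/-- The facts from S20-CuspA (one form at a time), S20-LA, S20-F0 used for `cusp_onto` and
`cusp_det_lower`, bundled. -/
structure CuspFacts0 (N : ℕ) [NeZero N] (ζ : ℂ) : Prop where
  coeff_T : ∀ (k : ℤ) (f : ℍ → ℂ), IsMF N k f → ∀ (x : X0 N) (n : ℕ),
    cuspCoeff N k f (ModularGroup.T⁻¹ • x) n = ζ ^ n * cuspCoeff N k f x n
  mf_div : ∀ (k : ℤ) (f : ℍ → ℂ), IsMF N k f → (∀ x, ∀ n < N, cuspCoeff N k f x n = 0) →
    IsMF N (k - 12) (f / discriminant)
  coeff_mul_Delta : ∀ (k : ℤ) (f : ℍ → ℂ), IsMF N k f → ∀ (x : X0 N) (n : ℕ), n < N →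
    cuspCoeff N (k + 12) (f * discriminant) x n = 0
  coeff_add : ∀ (k : ℤ) (f g : ℍ → ℂ), IsMF N k f → IsMF N k g → ∀ (x : X0 N) (n : ℕ),
    cuspCoeff N k (f + g) x n = cuspCoeff N k f x n + cuspCoeff N k g x n
  coeff_smul : ∀ (k : ℤ) (c : ℂ) (f : ℍ → ℂ), IsMF N k f → ∀ (x : X0 N) (n : ℕ),
    cuspCoeff N k (c • f) x n = c * cuspCoeff N k f x n
  tendsto_exp : ∀ (k : ℤ) (f : ℍ → ℂ), IsMF N k f → ∀ (x : X0 N) (n : ℕ),
    (∀ m < n, cuspCoeff N k f x m = 0) →
    Filter.Tendsto (fun τ : ℍ => cj N k f x τ *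
      Complex.exp (-(2 * Real.pi * Complex.I * n * τ / N))) atImInfty
      (nhds (cuspCoeff N k f x n))
  finite : ∀ k : ℤ, Module.Finite ℂ (MFs N k)
  isMF_Delta : IsMF N 12 discriminant
  la_one : Module.finrank ℂ (eigSp (fun x : X0 N => ModularGroup.T⁻¹ • x) 1) = cInf N
  la_sum : ∑ j ∈ Finset.range N,
    Module.finrank ℂ (eigSp (fun x : X0 N => ModularGroup.T⁻¹ • x) (ζ ^ j)) = Nat.card (X0 N)
  la_sum_mul : 2 * ∑ j ∈ Finset.range N,
    j * Module.finrank ℂ (eigSp (fun x : X0 N => ModularGroup.T⁻¹ • x) (ζ ^ j)) =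
      N * (Nat.card (X0 N) - cInf N)
  la_decomp : ∀ v : X0 N → ℂ, ∃ u : ℕ → X0 N → ℂ,
    (∀ j, u j ∈ eigSp (fun x : X0 N => ModularGroup.T⁻¹ • x) (ζ ^ j)) ∧
      v = ∑ j ∈ Finset.range N, u j
  la_unique : ∀ u : ℕ → X0 N → ℂ,
    (∀ j, u j ∈ eigSp (fun x : X0 N => ModularGroup.T⁻¹ • x) (ζ ^ j)) →
    ∑ j ∈ Finset.range N, u j = 0 → ∀ j < N, u j = 0

/-- The full bundle (adds what `cusp_count` and `div_infty` need). -/
structure CuspFacts (N : ℕ) [NeZero N] (ζ : ℂ) : Prop extends CuspFacts0 N ζ where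
  pow_N : ζ ^ N = 1
  norm_one : ‖ζ‖ = 1
  cf_div : ∀ (k : ℤ) (f : ℍ → ℂ), IsMF N k f → (∀ x, ∀ n ≤ N, cuspCoeff N k f x n = 0) →
    IsCF N (k - 12) (f / discriminant)
  cf_iff : ∀ (k : ℤ) (f : ℍ → ℂ), IsMF N k f → (IsCF N k f ↔ ∀ x, cuspCoeff N k f x 0 = 0)
  tendsto_trace : ∀ (k k' : ℤ) (w H : ℍ → ℂ), IsMF N k' w → IsCF N k H →
    Filter.Tendsto (fun τ : ℍ => (∑ x : X0 N, cj N k' w x τ * cj N k H x τ) / discriminant τ)
      atImInfty
      (nhds (∑ x : X0 N, ∑ n ∈ Finset.range N,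
        cuspCoeff N k' w x n * cuspCoeff N k H x (N - n)))

section core

variable {N : ℕ} [NeZero N] {ζ : ℂ}

/-- The eigenspaces of `x ↦ T⁻¹ • x`. -/
abbrev eT (N : ℕ) (ζ : ℂ) (n : ℕ) : Submodule ℂ (X0 N → ℂ) :=
  eigSp (fun x : X0 N => ModularGroup.T⁻¹ • x) (ζ ^ n)

/-- The coefficient map `f ↦ (a_n(f, x))_{n < N, x}` into the product of the eigenspaces. -/
def coeffMap (F : CuspFacts0 N ζ) (k : ℤ) : MFs N k →ₗ[ℂ] ((n : Fin N) → eT N ζ n) where
  toFun f := fun n => ⟨fun x => cuspCoeff N k f.1 x n, fun x => F.coeff_T k f.1 f.2 x n⟩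
  map_add' f g := by
    funext n
    apply Subtype.ext
    funext x
    exact F.coeff_add k f.1 g.1 f.2 g.2 x n
  map_smul' c f := by
    funext n
    apply Subtype.ext
    funext x
    exact F.coeff_smul k c f.1 f.2 x n

@[simp] theorem coeffMap_apply (F : CuspFacts0 N ζ) (k : ℤ) (f : MFs N k) (n : Fin N) (x : X0 N) :
    ((coeffMap F k f n : eT N ζ n) : X0 N → ℂ) x = cuspCoeff N k f.1 x n := rfl

/-- Multiplication by `Δ` as a linear map `M_{k-12} → M_k`. -/
def mulDelta (F : CuspFacts0 N ζ) (k : ℤ) : MFs N (k - 12) →ₗ[ℂ] MFs N k where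
  toFun g := ⟨g.1 * discriminant, by
    have h := IsMF.mul g.2 F.isMF_Delta
    rwa [sub_add_cancel] at h⟩
  map_add' f g := by
    apply Subtype.ext
    show (f.1 + g.1) * discriminant = f.1 * discriminant + g.1 * discriminant
    ring
  map_smul' c f := by
    apply Subtype.ext
    show (c • f.1) * discriminant = c • (f.1 * discriminant)
    rw [smul_mul_assoc]

theorem mulDelta_injective (F : CuspFacts0 N ζ) (k : ℤ) : Function.Injective (mulDelta F k) := by
  intro f g h
  apply Subtype.ext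
  funext z
  have h1 : (f.1 * discriminant) z = (g.1 * discriminant) z :=
    congrFun (congrArg Subtype.val h) z
  simp only [Pi.mul_apply] at h1
  exact mul_right_cancel₀ (discriminant_ne_zero z) h1

theorem range_mulDelta (F : CuspFacts0 N ζ) (k : ℤ) :
    LinearMap.range (mulDelta F k) = LinearMap.ker (coeffMap F k) := by
  ext f
  constructor
  · rintro ⟨g, rfl⟩
    rw [LinearMap.mem_ker]
    funext n
    apply Subtype.ext
    funext x
    have h := F.coeff_mul_Delta (k - 12) g.1 g.2 x n n.2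
    rw [sub_add_cancel] at h
    exact h
  · intro hf
    rw [LinearMap.mem_ker] at hf
    have h0 : ∀ x, ∀ n < N, cuspCoeff N k f.1 x n = 0 := by
      intro x n hn
      have := congrFun (congrArg Subtype.val (congrFun hf ⟨n, hn⟩)) x
      exact this
    refine ⟨⟨f.1 / discriminant, F.mf_div k f.1 f.2 h0⟩, ?_⟩
    apply Subtype.ext
    funext z
    show (f.1 / discriminant) z * discriminant z = f.1 z
    simp only [Pi.div_apply]
    exact div_mul_cancel₀ _ (discriminant_ne_zero z)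

theorem finrank_target (F : CuspFacts0 N ζ) :
    Module.finrank ℂ ((n : Fin N) → eT N ζ n) = Nat.card (X0 N) := by
  rw [Module.finrank_pi_fintype, ← F.la_sum]
  exact Fin.sum_univ_eq_sum_range (fun j => Module.finrank ℂ (eT N ζ j)) N

theorem coeffMap_surjective (F : CuspFacts0 N ζ) (k : ℤ) (hk : Stab N k) :
    Function.Surjective (coeffMap F k) := by
  have := F.finite k
  rw [← LinearMap.range_eq_top]
  apply Submodule.eq_top_of_finrank_eq
  have h1 := LinearMap.finrank_range_add_finrank_ker (coeffMap F k)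
  rw [← range_mulDelta F k, LinearMap.finrank_range_of_inj (mulDelta_injective F k)] at h1
  rw [finrank_target F]
  unfold Stab at hk
  omega

/-- `cusp_onto`, from the bundled facts. -/
theorem cusp_onto_of (F : CuspFacts0 N ζ) (k : ℤ) (hk : Stab N k) (u : ℕ → X0 N → ℂ)
    (hu : ∀ n, u n ∈ eigSp (fun x : X0 N => ModularGroup.T⁻¹ • x) (ζ ^ n)) :
    ∃ f, IsMF N k f ∧ ∀ x, ∀ n < N, cuspCoeff N k f x n = u n x := by
  obtain ⟨f, hf⟩ := coeffMap_surjective F k hk (fun n => ⟨u n, hu n⟩)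
  refine ⟨f.1, f.2, fun x n hn => ?_⟩
  exact congrFun (congrArg Subtype.val (congrFun hf ⟨n, hn⟩)) x

/-- The constant-term map `f ↦ (a_0(f, x))_x` into the `T⁻¹`-invariant functions on `X0 N`. -/
def constMap (F : CuspFacts N ζ) (k : ℤ) :
    MFs N k →ₗ[ℂ] eigSp (fun x : X0 N => ModularGroup.T⁻¹ • x) 1 where
  toFun f := ⟨fun x => cuspCoeff N k f.1 x 0, fun x => by
    have h := F.coeff_T k f.1 f.2 x 0
    rwa [pow_zero] at h⟩
  map_add' f g := by
    apply Subtype.ext
    funext x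
    exact F.coeff_add k f.1 g.1 f.2 g.2 x 0
  map_smul' c f := by
    apply Subtype.ext
    funext x
    exact F.coeff_smul k c f.1 f.2 x 0

theorem constMap_surjective (F : CuspFacts N ζ) (k : ℤ) (hk : Stab N k) :
    Function.Surjective (constMap F k) := by
  intro v
  have hu : ∀ n, (fun n : ℕ => if n = 0 then (v : X0 N → ℂ) else 0) n ∈
      eigSp (fun x : X0 N => ModularGroup.T⁻¹ • x) (ζ ^ n) := by
    intro n
    by_cases hn : n = 0
    · subst hn
      have := v.2
      simp only [pow_zero, if_true]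
      exact this
    · simp [hn]
  obtain ⟨f, hf, hc⟩ := cusp_onto_of F.toCuspFacts0 k hk _ hu
  refine ⟨⟨f, hf⟩, ?_⟩
  apply Subtype.ext
  funext x
  have := hc x 0 (Nat.pos_of_ne_zero (NeZero.ne N))
  simp only [if_true] at this
  exact this

theorem ker_constMap (F : CuspFacts N ζ) (k : ℤ) :
    LinearMap.ker (constMap F k) = Submodule.comap (MFs N k).subtype (CFs N k) := by
  ext f
  rw [LinearMap.mem_ker, Submodule.mem_comap]
  show _ ↔ IsCF N k f.1
  rw [F.cf_iff k f.1 f.2]
  constructor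
  · intro h x
    exact congrFun (congrArg Subtype.val h) x
  · intro h
    apply Subtype.ext
    funext x
    exact h x

/-- `cusp_count`, from the bundled facts. -/
theorem cusp_count_of (F : CuspFacts N ζ) (k : ℤ) (hk : Stab N k) :
    Module.finrank ℂ (CFs N k) + cInf N = Module.finrank ℂ (MFs N k) := by
  have := F.finite k
  have h1 := LinearMap.finrank_range_add_finrank_ker (constMap F k)
  rw [LinearMap.range_eq_top.mpr (constMap_surjective F k hk), finrank_top, F.la_one,
    ker_constMap F k, (Submodule.comapSubtypeEquivOfLe (CFs_le_MFs (N := N) (k := k))).finrank_eq]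
    at h1
  omega

theorem conj_pow_sub (F : CuspFacts N ζ) {n : ℕ} (hn : n ≤ N) :
    (starRingEnd ℂ) (ζ ^ (N - n)) = ζ ^ n := by
  have hζ : ζ ≠ 0 := by
    intro h0
    have := F.norm_one
    rw [h0, norm_zero] at this
    exact zero_ne_one this
  have h1 : ζ ^ (N - n) * ζ ^ n = 1 := by
    rw [← pow_add, Nat.sub_add_cancel hn, F.pow_N]
  have h2 : (starRingEnd ℂ) (ζ ^ (N - n)) * ζ ^ (N - n) = 1 := by
    rw [Complex.conj_mul', norm_pow, F.norm_one]
    simp
  have h3 : ζ ^ (N - n) ≠ 0 := pow_ne_zero _ hζ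
  calc (starRingEnd ℂ) (ζ ^ (N - n))
      = (starRingEnd ℂ) (ζ ^ (N - n)) * (ζ ^ (N - n) * ζ ^ n) := by rw [h1, mul_one]
    _ = ((starRingEnd ℂ) (ζ ^ (N - n)) * ζ ^ (N - n)) * ζ ^ n := by ring
    _ = ζ ^ n := by rw [h2, one_mul]

/-- `div_infty`, from the bundled facts. -/
theorem div_infty_of (F : CuspFacts N ζ) (k k' : ℤ) (hk' : Stab N k') (H : ℍ → ℂ)
    (hH : IsCF N k H)
    (h : ∀ w, IsMF N k' w → Filter.Tendsto
      (fun τ : ℍ => (∑ x : X0 N, cj N k' w x τ * cj N k H x τ) / discriminant τ)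
      atImInfty (nhds 0)) :
    IsCF N (k - 12) (H / discriminant) := by
  have ha0 : ∀ x, cuspCoeff N k H x 0 = 0 := (F.cf_iff k H hH.isMF).mp hH
  have hu : ∀ n, (fun (n : ℕ) (x : X0 N) => (starRingEnd ℂ) (cuspCoeff N k H x (N - n))) n ∈
      eigSp (fun x : X0 N => ModularGroup.T⁻¹ • x) (ζ ^ n) := by
    intro n x
    show (starRingEnd ℂ) (cuspCoeff N k H (ModularGroup.T⁻¹ • x) (N - n)) =
      ζ ^ n * (starRingEnd ℂ) (cuspCoeff N k H x (N - n))
    by_cases hn : n ≤ N
    · rw [F.coeff_T k H hH.isMF x (N - n), map_mul, conj_pow_sub F hn]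
    · have : N - n = 0 := by omega
      rw [this, ha0, ha0, map_zero, mul_zero]
  obtain ⟨w, hw, hc⟩ := cusp_onto_of F.toCuspFacts0 k' hk' _ hu
  have hlim := tendsto_nhds_unique (F.tendsto_trace k k' w H hw hH) (h w hw)
  have hsum : (∑ x : X0 N, ∑ n ∈ Finset.range N,
      cuspCoeff N k' w x n * cuspCoeff N k H x (N - n)) =
      ((∑ x : X0 N, ∑ n ∈ Finset.range N, ‖cuspCoeff N k H x (N - n)‖ ^ 2 : ℝ) : ℂ) := by
    push_cast
    refine Finset.sum_congr rfl fun x _ => Finset.sum_congr rfl fun n hn => ?_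
    rw [hc x n (Finset.mem_range.mp hn), Complex.conj_mul']
  rw [hsum] at hlim
  have hreal : (∑ x : X0 N, ∑ n ∈ Finset.range N, ‖cuspCoeff N k H x (N - n)‖ ^ 2 : ℝ) = 0 := by
    exact_mod_cast hlim
  have hz : ∀ x : X0 N, ∀ n < N, cuspCoeff N k H x (N - n) = 0 := by
    intro x n hn
    have h1 := (Finset.sum_eq_zero_iff_of_nonneg
      (fun x _ => Finset.sum_nonneg fun n _ => by positivity)).mp hreal x (Finset.mem_univ x)
    have h2 := (Finset.sum_eq_zero_iff_of_nonneg
      (fun n _ => by positivity)).mp h1 n (Finset.mem_range.mpr hn)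
    simpa using h2
  apply F.cf_div k H hH.isMF
  intro x m hm
  by_cases hm0 : m = 0
  · rw [hm0]; exact ha0 x
  · have := hz x (N - m) (by omega)
    rwa [Nat.sub_sub_self hm] at this

/-! ### A basis of `X0 N → ℂ` adapted to the eigenspace decomposition -/

/-- The sum map from the product of the eigenspaces to all functions. -/
def sumMap (N : ℕ) (ζ : ℂ) : ((n : Fin N) → eT N ζ n) →ₗ[ℂ] (X0 N → ℂ) where
  toFun t := ∑ n : Fin N, (t n : X0 N → ℂ)
  map_add' s t := by
    simp only [Pi.add_apply, Submodule.coe_add, Finset.sum_add_distrib]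
  map_smul' c t := by
    simp only [Pi.smul_apply, Submodule.coe_smul, Finset.smul_sum, RingHom.id_apply]

omit [NeZero N] in
theorem sumMap_apply (t : (n : Fin N) → eT N ζ n) :
    sumMap N ζ t = ∑ n : Fin N, (t n : X0 N → ℂ) := rfl

theorem sumMap_bijective (F : CuspFacts0 N ζ) : Function.Bijective (sumMap N ζ) := by
  constructor
  · rw [← LinearMap.ker_eq_bot, LinearMap.ker_eq_bot']
    intro t ht
    rw [sumMap_apply] at ht
    let u : ℕ → X0 N → ℂ := fun j => if h : j < N then (t ⟨j, h⟩ : X0 N → ℂ) else 0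
    have hu : ∀ j, u j ∈ eigSp (fun x : X0 N => ModularGroup.T⁻¹ • x) (ζ ^ j) := by
      intro j
      by_cases h : j < N
      · simp only [u, dif_pos h]
        exact (t ⟨j, h⟩).2
      · simp only [u, dif_neg h]
        exact Submodule.zero_mem _
    have hsum : ∑ j ∈ Finset.range N, u j = 0 := by
      rw [Finset.sum_range]
      rw [← ht]
      refine Finset.sum_congr rfl fun n _ => ?_
      simp only [u, dif_pos n.2]
    have h0 := F.la_unique u hu hsum
    funext n
    apply Subtype.ext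
    have := h0 n n.2
    simp only [u, dif_pos n.2] at this
    exact this
  · intro v
    obtain ⟨u, hu, hv⟩ := F.la_decomp v
    refine ⟨fun n => ⟨u n, hu n⟩, ?_⟩
    rw [sumMap_apply, hv, Finset.sum_range]

/-- The sum map as a linear equivalence. -/
def sumEquiv (F : CuspFacts0 N ζ) : ((n : Fin N) → eT N ζ n) ≃ₗ[ℂ] (X0 N → ℂ) :=
  LinearEquiv.ofBijective (sumMap N ζ) (sumMap_bijective F)

theorem sumEquiv_single (F : CuspFacts0 N ζ) (n : Fin N) (t : eT N ζ n) :
    sumEquiv F (Pi.single n t) = (t : X0 N → ℂ) := by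
  show sumMap N ζ (Pi.single n t) = _
  rw [sumMap_apply, Finset.sum_eq_single n]
  · rw [Pi.single_eq_same]
  · intro m _ hm
    rw [Pi.single_eq_of_ne hm]
    rfl
  · intro h
    exact absurd (Finset.mem_univ n) h

/-- Dimension of the `n`-th eigenspace. -/
abbrev dE (N : ℕ) (ζ : ℂ) (n : ℕ) : ℕ := Module.finrank ℂ (eT N ζ n)

theorem cInf_le (F : CuspFacts0 N ζ) : cInf N ≤ Nat.card (X0 N) := by
  rw [← F.la_sum, ← F.la_one]
  have h0 : 0 ∈ Finset.range N := Finset.mem_range.mpr (Nat.pos_of_ne_zero (NeZero.ne N))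
  have := Finset.single_le_sum (f := fun j => Module.finrank ℂ (eT N ζ j))
    (fun i _ => Nat.zero_le _) h0
  simp only [eT] at this
  exact this

/-- Existence of an adapted basis: vectors `U y ∈ eigSp (ζ ^ n_y)`, `n_y < N`, with
nonzero determinant and `2 Σ n_y = N (μ - c_∞)`. -/
theorem exists_adapted_basis (F : CuspFacts0 N ζ) :
    ∃ (U : X0 N → X0 N → ℂ) (ny : X0 N → ℕ),
      (∀ y, ny y < N) ∧
      (∀ y, U y ∈ eigSp (fun x : X0 N => ModularGroup.T⁻¹ • x) (ζ ^ ny y)) ∧
      Matrix.det (Matrix.of fun y x : X0 N => U y x) ≠ 0 ∧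
      2 * ∑ y, ny y = N * (Nat.card (X0 N) - cInf N) := by
  classical
  let b : (n : Fin N) → Module.Basis (Fin (dE N ζ n)) ℂ (eT N ζ n) :=
    fun n => Module.finBasis ℂ (eT N ζ n)
  let B₀ : Module.Basis (Σ n : Fin N, Fin (dE N ζ n)) ℂ (X0 N → ℂ) :=
    (Pi.basis b).map (sumEquiv F)
  have hcard : Fintype.card (X0 N) = Fintype.card (Σ n : Fin N, Fin (dE N ζ n)) := by
    rw [Fintype.card_sigma]
    simp only [Fintype.card_fin]
    rw [Fin.sum_univ_eq_sum_range (fun j => dE N ζ j) N, F.la_sum, Nat.card_eq_fintype_card]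
  let e : X0 N ≃ (Σ n : Fin N, Fin (dE N ζ n)) := Fintype.equivOfCardEq hcard
  let B : Module.Basis (X0 N) ℂ (X0 N → ℂ) := B₀.reindex e.symm
  have hB : ∀ y, B y = ((b (e y).1 (e y).2 : eT N ζ (e y).1) : X0 N → ℂ) := by
    intro y
    simp only [B, B₀, Module.Basis.reindex_apply, Equiv.symm_symm, Module.Basis.map_apply,
      Pi.basis_apply]
    exact sumEquiv_single F _ _
  refine ⟨fun y => B y, fun y => ((e y).1 : ℕ), fun y => (e y).1.2, ?_, ?_, ?_⟩
  · intro y
    show B y ∈ eigSp (fun x : X0 N => ModularGroup.T⁻¹ • x) (ζ ^ ((e y).1 : ℕ))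
    rw [hB y]
    exact (b (e y).1 (e y).2).2
  · have h1 := (Pi.basisFun ℂ (X0 N)).toMatrix_mul_toMatrix_flip B
    have h2 : (Matrix.of fun y x : X0 N => B y x) =
        ((Pi.basisFun ℂ (X0 N)).toMatrix B).transpose := by
      ext y x
      simp [Module.Basis.toMatrix_apply]
    rw [h2, Matrix.det_transpose]
    intro h0
    have := congrArg Matrix.det h1
    rw [Matrix.det_mul, h0, zero_mul, Matrix.det_one] at this
    exact zero_ne_one this
  · rw [← F.la_sum_mul]
    congr 1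
    rw [← Equiv.sum_comp e.symm]
    simp only [Equiv.apply_symm_apply]
    rw [Fintype.sum_sigma]
    simp only [Finset.sum_const, Finset.card_univ, Fintype.card_fin, smul_eq_mul]
    rw [← Fin.sum_univ_eq_sum_range (fun j => j * dE N ζ j) N]
    refine Finset.sum_congr rfl fun n _ => ?_
    ring

omit [NeZero N] in
theorem norm_exp_neg_mul (n : ℕ) (τ : ℍ) :
    ‖Complex.exp (-(2 * Real.pi * Complex.I * n * τ / N))‖ =
      Real.exp (2 * Real.pi * n * τ.im / N) := by
  rw [Complex.norm_exp]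
  congr 1
  have h : (-(2 * (Real.pi : ℂ) * Complex.I * n * τ / N)) =
      ((2 * Real.pi * n / N : ℝ) : ℂ) * (-(Complex.I * (τ : ℂ))) := by
    push_cast
    ring
  rw [h, Complex.re_ofReal_mul]
  simp only [Complex.neg_re, Complex.mul_re, Complex.I_re, Complex.I_im, zero_mul, one_mul,
    zero_sub, neg_neg, UpperHalfPlane.coe_im]
  ring

/-- `cusp_det_lower`, from the bundled facts. -/
theorem cusp_det_lower_of (F : CuspFacts0 N ζ) (k : ℤ) (hk : Stab N k) :
    ∃ w : X0 N → ℍ → ℂ, (∀ y, IsMF N k (w y)) ∧ ∃ c : ℝ, 0 < c ∧ ∃ A : ℝ, ∀ τ : ℍ,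
      A ≤ τ.im → c * Real.exp (-(Real.pi * ((Nat.card (X0 N) : ℝ) - cInf N) * τ.im)) ≤
        ‖Matrix.det (Matrix.of fun y x : X0 N => cj N k (w y) x τ)‖ := by
  classical
  obtain ⟨U, ny, hny, hU, hdet, hsum⟩ := exists_adapted_basis F
  have key : ∀ y : X0 N, ∃ f, IsMF N k f ∧
      ∀ x, ∀ n < N, cuspCoeff N k f x n = (if n = ny y then U y else 0) x := by
    intro y
    refine cusp_onto_of F k hk (fun n => if n = ny y then U y else 0) ?_
    intro n
    by_cases h : n = ny y
    · simp only [if_pos h]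
      rw [h]
      exact hU y
    · simp only [if_neg h]
      exact Submodule.zero_mem _
  choose w hw hc using key
  refine ⟨w, hw, ?_⟩
  -- entrywise limits
  have hent : ∀ y x : X0 N, Filter.Tendsto
      (fun τ : ℍ => Complex.exp (-(2 * Real.pi * Complex.I * (ny y) * τ / N)) * cj N k (w y) x τ)
      atImInfty (nhds (U y x)) := by
    intro y x
    have h1 := F.tendsto_exp k (w y) (hw y) x (ny y) (fun m hm => by
      rw [hc y x m (lt_trans hm (hny y)), if_neg (ne_of_lt hm)]
      rfl)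
    rw [hc y x (ny y) (hny y), if_pos rfl] at h1
    refine h1.congr fun τ => ?_
    ring
  -- limit of the determinant
  have hmat : Filter.Tendsto
      (fun τ : ℍ => (Matrix.of fun y x : X0 N =>
        Complex.exp (-(2 * Real.pi * Complex.I * (ny y) * τ / N)) * cj N k (w y) x τ :
          Matrix (X0 N) (X0 N) ℂ))
      atImInfty (nhds (Matrix.of fun y x : X0 N => U y x)) := by
    exact tendsto_pi_nhds.mpr fun y => tendsto_pi_nhds.mpr fun x => hent y x
  have hdetlim := ((continuous_id.matrix_det (n := X0 N) (R := ℂ)).tendsto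
    (Matrix.of fun y x : X0 N => U y x)).comp hmat
  have hnorm := (continuous_norm.tendsto _).comp hdetlim
  set D : ℝ := ‖Matrix.det (Matrix.of fun y x : X0 N => U y x)‖ with hD
  have hDpos : 0 < D := norm_pos_iff.mpr hdet
  have hev : ∀ᶠ τ : ℍ in atImInfty, D / 2 <
      ‖Matrix.det (Matrix.of fun y x : X0 N =>
        Complex.exp (-(2 * Real.pi * Complex.I * (ny y) * τ / N)) * cj N k (w y) x τ)‖ :=
    hnorm.eventually (lt_mem_nhds (by simp only [id]; linarith))
  rw [Filter.eventually_iff, atImInfty_mem] at hev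
  obtain ⟨A, hA⟩ := hev
  refine ⟨D / 2, by linarith, A, fun τ hτ => ?_⟩
  have h1 := hA τ hτ
  have hdm : (Matrix.of fun y x : X0 N =>
      Complex.exp (-(2 * Real.pi * Complex.I * (ny y) * τ / N)) * cj N k (w y) x τ).det =
      (∏ y : X0 N, Complex.exp (-(2 * Real.pi * Complex.I * (ny y) * τ / N))) *
        (Matrix.of fun y x : X0 N => cj N k (w y) x τ).det :=
    Matrix.det_mul_column (fun y : X0 N => Complex.exp (-(2 * Real.pi * Complex.I * (ny y) * τ / N)))
      (Matrix.of fun y x : X0 N => cj N k (w y) x τ)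
  change D / 2 < ‖(Matrix.of fun y x : X0 N =>
      Complex.exp (-(2 * Real.pi * Complex.I * (ny y) * τ / N)) * cj N k (w y) x τ).det‖ at h1
  rw [hdm, norm_mul, norm_prod] at h1
  have hprod : ∏ y : X0 N, ‖Complex.exp (-(2 * Real.pi * Complex.I * (ny y) * τ / N))‖ =
      Real.exp (Real.pi * ((Nat.card (X0 N) : ℝ) - cInf N) * τ.im) := by
    simp only [norm_exp_neg_mul]
    rw [← Real.exp_sum]
    congr 1
    have hN : (N : ℝ) ≠ 0 := Nat.cast_ne_zero.mpr (NeZero.ne N)
    have hs : (2 * ∑ y, (ny y : ℝ)) = N * ((Nat.card (X0 N) : ℝ) - cInf N) := by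
      have := congrArg (Nat.cast : ℕ → ℝ) hsum
      push_cast [Nat.cast_sub (cInf_le F)] at this
      exact this
    have : ∑ y : X0 N, 2 * Real.pi * (ny y : ℝ) * τ.im / N =
        (2 * ∑ y, (ny y : ℝ)) * (Real.pi * τ.im / N) := by
      rw [Finset.mul_sum, Finset.sum_mul]
      refine Finset.sum_congr rfl fun y _ => ?_
      ring
    rw [this, hs]
    field_simp
  rw [hprod] at h1
  have hpos : 0 < Real.exp (Real.pi * ((Nat.card (X0 N) : ℝ) - cInf N) * τ.im) :=
    Real.exp_pos _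
  rw [Real.exp_neg]
  rw [← div_eq_mul_inv, div_le_iff₀ hpos]
  rw [mul_comm] at h1
  exact le_of_lt h1

end core

end Fermat.Agent.S20.helper61
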