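import Mathlib

/-!
# S20 (helper87): periodic holomorphic functions bounded at `i∞`, general period

Toolkit for `q_h`-expansions of functions `F : ℍ → ℂ` which are `h`-periodic, holomorphic and
bounded at `i∞`: ring operations, leading asymptotics, behaviour under translation.
-/

set_option autoImplicit false

noncomputable section

open UpperHalfPlane ModularForm Complex Filter Function
open scoped MatrixGroups Manifold Topology Real

namespace Fermat.Agent.S20.helper87

local notation "𝕢" => Function.Periodic.qParam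

/-- `F` is `h`-periodic, holomorphic and bounded at `i∞`. -/
structure NiceH (h : ℝ) (F : ℍ → ℂ) : Prop where
  per : Function.Periodic (F ∘ ofComplex) (h : ℂ)
  holo : MDiff F
  bdd : IsBoundedAtImInfty F

namespace NiceH

variable {h : ℝ} {F G : ℍ → ℂ}

theorem analyticAt (hh : 0 < h) (hF : NiceH h F) : AnalyticAt ℂ (cuspFunction h F) 0 :=
  analyticAt_cuspFunction_zero hh hF.per hF.holo hF.bdd

theorem const (h : ℝ) (c : ℂ) : NiceH h (fun _ : ℍ => c) where
  per := fun _ => rfl
  holo := mdifferentiable_const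
  bdd := Filter.const_boundedAtFilter _ c

theorem zero (h : ℝ) : NiceH h (0 : ℍ → ℂ) := const h 0

theorem one (h : ℝ) : NiceH h (1 : ℍ → ℂ) := const h 1

theorem add (hF : NiceH h F) (hG : NiceH h G) : NiceH h (F + G) where
  per := fun z => by
    have h1 := hF.per z
    have h2 := hG.per z
    simp only [comp_apply, Pi.add_apply] at h1 h2 ⊢
    rw [h1, h2]
  holo := hF.holo.add hG.holo
  bdd := hF.bdd.add hG.bdd

theorem neg (hF : NiceH h F) : NiceH h (-F) where
  per := fun z => by
    have h1 := hF.per z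
    simp only [comp_apply, Pi.neg_apply] at h1 ⊢
    rw [h1]
  holo := hF.holo.neg
  bdd := hF.bdd.neg

theorem sub (hF : NiceH h F) (hG : NiceH h G) : NiceH h (F - G) := by
  rw [sub_eq_add_neg]
  exact hF.add hG.neg

theorem mul (hF : NiceH h F) (hG : NiceH h G) : NiceH h (F * G) where
  per := fun z => by
    have h1 := hF.per z
    have h2 := hG.per z
    simp only [comp_apply, Pi.mul_apply] at h1 h2 ⊢
    rw [h1, h2]
  holo := hF.holo.mul hG.holo
  bdd := hF.bdd.mul hG.bdd

theorem smul (c : ℂ) (hF : NiceH h F) : NiceH h (c • F) := by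
  have e : c • F = (fun _ : ℍ => c) * F := by
    funext z
    simp
  rw [e]
  exact (const h c).mul hF

theorem sum {ι : Type*} (s : Finset ι) (F : ι → ℍ → ℂ) (hF : ∀ i ∈ s, NiceH h (F i)) :
    NiceH h (∑ i ∈ s, F i) := by
  classical
  induction s using Finset.induction_on with
  | empty => simpa using zero h
  | insert i t hi IH =>
    rw [Finset.sum_insert hi]
    exact (hF i (Finset.mem_insert_self i t)).add
      (IH fun j hj => hF j (Finset.mem_insert_of_mem hj))

/-! ### `q`-expansions -/

theorem qExpansion_add (hh : 0 < h) (hF : NiceH h F) (hG : NiceH h G) :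
    qExpansion h (F + G) = qExpansion h F + qExpansion h G :=
  UpperHalfPlane.qExpansion_add (hF.analyticAt hh) (hG.analyticAt hh)

theorem qExpansion_mul (hh : 0 < h) (hF : NiceH h F) (hG : NiceH h G) :
    qExpansion h (F * G) = qExpansion h F * qExpansion h G :=
  UpperHalfPlane.qExpansion_mul (hF.analyticAt hh) (hG.analyticAt hh)

theorem qExpansion_smul (hh : 0 < h) (c : ℂ) (hF : NiceH h F) :
    qExpansion h (c • F) = c • qExpansion h F :=
  UpperHalfPlane.qExpansion_smul (hF.analyticAt hh) c

theorem qExpansion_sum (hh : 0 < h) {ι : Type*} (s : Finset ι) (F : ι → ℍ → ℂ)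
    (hF : ∀ i ∈ s, NiceH h (F i)) :
    qExpansion h (∑ i ∈ s, F i) = ∑ i ∈ s, qExpansion h (F i) := by
  classical
  induction s using Finset.induction_on with
  | empty => simpa using UpperHalfPlane.qExpansion_zero h
  | insert i t hi IH =>
    have hi' : NiceH h (F i) := hF i (Finset.mem_insert_self i t)
    have ht : ∀ j ∈ t, NiceH h (F j) := fun j hj => hF j (Finset.mem_insert_of_mem hj)
    rw [Finset.sum_insert hi, Finset.sum_insert hi, qExpansion_add hh hi' (sum t F ht), IH ht]

theorem eq_cuspFunction (hh : 0 < h) (hF : NiceH h F) (τ : ℍ) :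
    cuspFunction h F (𝕢 h τ) = F τ :=
  UpperHalfPlane.eq_cuspFunction τ hh.ne' hF.per

/-- The inverse of a power of the `q`-parameter. -/
theorem qParam_pow_inv (h : ℝ) (n : ℕ) (τ : ℍ) :
    ((𝕢 h τ) ^ n)⁻¹ = Complex.exp (-(2 * π * Complex.I * n * τ / h)) := by
  rw [Function.Periodic.qParam, ← Complex.exp_nat_mul, ← Complex.exp_neg]
  congr 1
  ring

/-- Leading asymptotics: if the first `n` coefficients of the `q_h`-expansion vanish, then
`F(τ) q_h(τ)^(-n)` tends to the `n`-th coefficient. -/
theorem tendsto_mul_exp (hh : 0 < h) (hF : NiceH h F) (n : ℕ)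
    (hz : ∀ m < n, (qExpansion h F).coeff m = 0) :
    Tendsto (fun τ : ℍ => F τ * Complex.exp (-(2 * π * Complex.I * n * τ / h))) atImInfty
      (𝓝 ((qExpansion h F).coeff n)) := by
  set φ := cuspFunction h F with hφ
  set a : ℕ → ℂ := fun m => iteratedDeriv m φ 0 / (m.factorial : ℂ) with ha
  have hcoeff : ∀ m, (qExpansion h F).coeff m = a m := by
    intro m
    rw [qExpansion_coeff, ha]
    simp only [div_eq_mul_inv]
    ring
  have hps : HasFPowerSeriesAt φ (FormalMultilinearSeries.ofScalars ℂ a) 0 :=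
    (hF.analyticAt hh).hasFPowerSeriesAt
  have hO := hps.isBigO_sub_partialSum_pow (n + 1)
  have hpart : ∀ y : ℂ, (FormalMultilinearSeries.ofScalars ℂ a).partialSum (n + 1) y
      = a n * y ^ n := by
    intro y
    unfold FormalMultilinearSeries.partialSum
    rw [Finset.sum_range_succ]
    have h0 : ∑ k ∈ Finset.range n,
        (FormalMultilinearSeries.ofScalars ℂ a k) (fun _ : Fin k => y) = 0 := by
      apply Finset.sum_eq_zero
      intro k hk
      rw [FormalMultilinearSeries.ofScalars_apply_eq, ← hcoeff k, hz k (Finset.mem_range.mp hk),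
        zero_smul]
    rw [h0, zero_add, FormalMultilinearSeries.ofScalars_apply_eq, smul_eq_mul]
  obtain ⟨C, hC⟩ := hO.bound
  -- limit on the punctured neighbourhood of `0`
  have hlim : Tendsto (fun y : ℂ => φ y * (y ^ n)⁻¹) (𝓝[≠] 0) (𝓝 (a n)) := by
    rw [tendsto_iff_norm_sub_tendsto_zero]
    have hbound : ∀ᶠ y : ℂ in 𝓝[≠] 0, ‖φ y * (y ^ n)⁻¹ - a n‖ ≤ |C| * ‖y‖ := by
      have h1 : ∀ᶠ y : ℂ in 𝓝[≠] 0, y ≠ 0 := eventually_mem_nhdsWithin
      filter_upwards [hC.filter_mono nhdsWithin_le_nhds, h1] with y hy hy0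
      simp only [zero_add, hpart] at hy
      have hyn : y ^ n ≠ 0 := pow_ne_zero n hy0
      have e1 : φ y * (y ^ n)⁻¹ - a n = (φ y - a n * y ^ n) * (y ^ n)⁻¹ := by
        field_simp
      rw [e1, norm_mul, norm_inv, norm_pow]
      have hyp : 0 < ‖y‖ ^ n := pow_pos (norm_pos_iff.mpr hy0) n
      rw [← div_eq_mul_inv, div_le_iff₀ hyp]
      calc ‖φ y - a n * y ^ n‖ ≤ C * ‖‖y‖ ^ (n + 1)‖ := hy
        _ ≤ |C| * ‖‖y‖ ^ (n + 1)‖ := by gcongr; exact le_abs_self C
        _ = |C| * ‖y‖ * ‖y‖ ^ n := by
          rw [norm_pow, norm_norm, pow_succ]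
          ring
    have hsq : Tendsto (fun y : ℂ => |C| * ‖y‖) (𝓝[≠] 0) (𝓝 0) := by
      have : Tendsto (fun y : ℂ => |C| * ‖y‖) (𝓝 0) (𝓝 (|C| * ‖(0 : ℂ)‖)) :=
        (continuous_const.mul continuous_norm).tendsto 0
      simp only [norm_zero, mul_zero] at this
      exact this.mono_left nhdsWithin_le_nhds
    exact squeeze_zero' (Eventually.of_forall fun _ => norm_nonneg _) hbound hsq
  have hq : Tendsto (fun τ : ℍ => 𝕢 h τ) atImInfty (𝓝[≠] 0) :=
    (Function.Periodic.qParam_tendsto hh).comp tendsto_coe_atImInfty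
  have hcomp := hlim.comp hq
  rw [hcoeff n]
  refine hcomp.congr fun τ => ?_
  simp only [comp_apply]
  rw [hφ, hF.eq_cuspFunction hh τ, qParam_pow_inv]

/-- The constant coefficient is the limit at `i∞`. -/
theorem tendsto_coeff_zero (hh : 0 < h) (hF : NiceH h F) :
    Tendsto F atImInfty (𝓝 ((qExpansion h F).coeff 0)) := by
  have := hF.tendsto_mul_exp hh 0 (fun m hm => absurd hm (Nat.not_lt_zero m))
  simpa using this

theorem coeff_zero_eq_zero_iff (hh : 0 < h) (hF : NiceH h F) :
    (qExpansion h F).coeff 0 = 0 ↔ IsZeroAtImInfty F := by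
  constructor
  · intro h0
    have := hF.tendsto_coeff_zero hh
    rw [h0] at this
    exact this
  · intro hz
    exact tendsto_nhds_unique (hF.tendsto_coeff_zero hh) hz

/-- If `F q_h^(-n)` is bounded at `i∞`, then the first `n` coefficients vanish. -/
theorem coeff_eq_zero_of_isBigO (hh : 0 < h) (hF : NiceH h F) (n : ℕ)
    (hb : IsBoundedAtImInfty
      (fun τ : ℍ => F τ * Complex.exp (-(2 * π * Complex.I * n * τ / h)))) :
    ∀ m < n, (qExpansion h F).coeff m = 0 := by
  intro m
  induction m using Nat.strong_induction_on with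
  | _ m IH =>
    intro hm
    have h1 := hF.tendsto_mul_exp hh m (fun j hj => IH j hj (lt_trans hj hm))
    -- the same function also tends to `0`
    have h2 : Tendsto (fun τ : ℍ => F τ * Complex.exp (-(2 * π * Complex.I * m * τ / h)))
        atImInfty (𝓝 0) := by
      have e : (fun τ : ℍ => F τ * Complex.exp (-(2 * π * Complex.I * m * τ / h))) =
          fun τ : ℍ => (𝕢 h τ) ^ (n - m) *
            (F τ * Complex.exp (-(2 * π * Complex.I * n * τ / h))) := by
        funext τ
        rw [← qParam_pow_inv, ← qParam_pow_inv]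
        have hq0 : 𝕢 h τ ≠ 0 := Function.Periodic.qParam_ne_zero _
        have hsplit : (𝕢 h τ) ^ n = (𝕢 h τ) ^ (n - m) * (𝕢 h τ) ^ m := by
          rw [← pow_add, Nat.sub_add_cancel hm.le]
        rw [hsplit]
        field_simp
      rw [e]
      have hq : Tendsto (fun τ : ℍ => (𝕢 h τ) ^ (n - m)) atImInfty (𝓝 0) := by
        have := (qParam_tendsto_atImInfty hh).pow (n - m)
        rwa [zero_pow (Nat.sub_ne_zero_of_lt hm)] at this
      exact hq.zero_mul_isBoundedUnder_le hb.isBoundedUnder_le
    exact tendsto_nhds_unique h1 h2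

end NiceH

end Fermat.Agent.S20.helper87
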