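import Mathlib
import Fermat.Agent.S20.Defs
import Fermat.Agent.S20.helper87_NiceH
import Fermat.Agent.S24.helper83_CuspCount

/-!
# S20-CuspA (helper87): `q_N`-expansions of the conjugates `cj N k f x`
-/

set_option autoImplicit false

noncomputable section

open UpperHalfPlane ModularForm CongruenceSubgroup Matrix.SpecialLinearGroup
open Complex Filter Function
open scoped MatrixGroups Manifold Topology Real

namespace Fermat.Agent.S20.helper87

local notation "𝕢" => Function.Periodic.qParam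

/-- The primitive `N`-th root of unity `exp(2πi/N)`. -/
def zetaN (N : ℕ) : ℂ := Complex.exp (2 * Real.pi * Complex.I / N)

theorem zetaN_isPrimitiveRoot (N : ℕ) [NeZero N] : IsPrimitiveRoot (zetaN N) N :=
  Complex.isPrimitiveRoot_exp N (NeZero.ne N)

/-! ### Translations -/

theorem slash_T_zpow_apply (k : ℤ) (F : ℍ → ℂ) (n : ℤ) (τ : ℍ) :
    (F ∣[k] (ModularGroup.T ^ n)) τ = F ((n : ℝ) +ᵥ τ) := by
  rw [SL_slash_apply, modular_T_zpow_smul]
  have : denom (ModularGroup.T ^ n : SL(2, ℤ)) τ = 1 := by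
    rw [ModularGroup.denom_apply, ModularGroup.coe_T_zpow]
    simp
  rw [this]
  simp

theorem slash_T_apply (k : ℤ) (F : ℍ → ℂ) (τ : ℍ) :
    (F ∣[k] ModularGroup.T) τ = F ((1 : ℝ) +ᵥ τ) := by
  have := slash_T_zpow_apply k F 1 τ
  simpa using this

theorem periodic_of_vadd {F : ℍ → ℂ} {h : ℝ} (hF : ∀ τ : ℍ, F (h +ᵥ τ) = F τ) :
    Function.Periodic (F ∘ ofComplex) (h : ℂ) := by
  intro w
  by_cases hw : 0 < w.im
  · have hw' : 0 < (w + h).im := by simpa using hw
    simp only [comp_apply, ofComplex_apply_of_im_pos hw', ofComplex_apply_of_im_pos hw]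
    rw [← hF ⟨w, hw⟩]
    congr 1
    ext
    simp [add_comm]
  · have hw0 : w.im ≤ 0 := not_lt.mp hw
    have hw' : (w + h).im ≤ 0 := by simpa using hw0
    simp [ofComplex_apply_of_im_nonpos hw', ofComplex_apply_of_im_nonpos hw0]

theorem qParam_vadd_one (N : ℕ) (τ : ℍ) :
    𝕢 (N : ℝ) (((1 : ℝ) +ᵥ τ : ℍ) : ℂ) = zetaN N * 𝕢 (N : ℝ) (τ : ℂ) := by
  unfold zetaN Function.Periodic.qParam
  rw [← Complex.exp_add]
  congr 1
  rw [UpperHalfPlane.coe_vadd]
  push_cast
  ring

/-! ### The conjugates are nice of period `N` -/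

section cj

variable {N : ℕ} [NeZero N] {k : ℤ} {f : ℍ → ℂ}

omit [NeZero N] in
theorem cj_vadd_N (hf : IsMF N k f) (x : X0 N) (τ : ℍ) :
    cj N k f x (((N : ℕ) : ℝ) +ᵥ τ) = cj N k f x τ := by
  have h1 := cj_slash hf.slash x (ModularGroup.T ^ N)
  have h2 : (ModularGroup.T ^ N)⁻¹ • x = x := by
    rw [inv_smul_eq_iff, Fermat.Agent.S24.helper83.T_pow_N_smul]
  rw [h2] at h1
  have h3 := congrFun h1 τ
  rw [← zpow_natCast, slash_T_zpow_apply] at h3
  simpa using h3

omit [NeZero N] in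
theorem cj_vadd_one (hf : IsMF N k f) (x : X0 N) (τ : ℍ) :
    cj N k f x ((1 : ℝ) +ᵥ τ) = cj N k f (ModularGroup.T⁻¹ • x) τ := by
  have h1 := cj_slash hf.slash x ModularGroup.T
  have h3 := congrFun h1 τ
  rw [slash_T_apply] at h3
  exact h3

omit [NeZero N] in
theorem niceH_cj (hf : IsMF N k f) (x : X0 N) : NiceH (N : ℝ) (cj N k f x) where
  per := periodic_of_vadd (cj_vadd_N hf x)
  holo := hf.cj_holo x
  bdd := by simpa using hf.cj_bdd x 1

theorem natCast_pos' : (0 : ℝ) < (N : ℝ) := Nat.cast_pos.mpr (NeZero.pos N)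

end cj

/-! ### Uniqueness of coefficients -/

namespace NiceH

variable {h : ℝ} {F G : ℍ → ℂ}

theorem coeff_unique (hh : 0 < h) (hF : NiceH h F) {c : ℕ → ℂ}
    (hc : ∀ τ : ℍ, HasSum (fun m : ℕ => c m • 𝕢 h τ ^ m) (F τ)) (m : ℕ) :
    (qExpansion h F).coeff m = c m := by
  have h1 := (hasFPowerSeriesOnBall_cuspFunction hh (hF.analyticAt hh) hc).hasFPowerSeriesAt
  have h2 := (hF.analyticAt hh).hasFPowerSeriesAt
  have h3 := h1.eq_formalMultilinearSeries h2
  have h4 := congrArg (fun p => FormalMultilinearSeries.coeff p m) h3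
  simp only [FormalMultilinearSeries.coeff_ofScalars] at h4
  rw [h4, qExpansion_coeff]
  simp only [div_eq_mul_inv]
  ring

theorem hasSum (hh : 0 < h) (hF : NiceH h F) (τ : ℍ) :
    HasSum (fun m : ℕ => (qExpansion h F).coeff m • 𝕢 h τ ^ m) (F τ) :=
  hasSum_qExpansion hh hF.per hF.holo hF.bdd τ

end NiceH

/-- Coefficients of a translate by `1`. -/
theorem coeff_shift (N : ℕ) [NeZero N] {F G : ℍ → ℂ} (hF : NiceH (N : ℝ) F)
    (hG : NiceH (N : ℝ) G) (hFG : ∀ τ : ℍ, G τ = F ((1 : ℝ) +ᵥ τ)) (m : ℕ) :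
    (qExpansion (N : ℝ) G).coeff m = zetaN N ^ m * (qExpansion (N : ℝ) F).coeff m := by
  have hN : (0 : ℝ) < (N : ℝ) := Nat.cast_pos.mpr (NeZero.pos N)
  apply hG.coeff_unique hN
  intro τ
  have h1 := hF.hasSum hN ((1 : ℝ) +ᵥ τ)
  rw [← hFG τ] at h1
  convert h1 using 2 with j
  rw [qParam_vadd_one, mul_pow, smul_eq_mul, smul_eq_mul]
  ring

/-- A `1`-periodic function which is nice of period `N` has only coefficients in degrees
divisible by `N`. -/
theorem coeff_eq_zero_of_not_dvd (N : ℕ) [NeZero N] {F : ℍ → ℂ} (hF : NiceH (N : ℝ) F)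
    (hper : ∀ τ : ℍ, F ((1 : ℝ) +ᵥ τ) = F τ) (m : ℕ) (hm : ¬ N ∣ m) :
    (qExpansion (N : ℝ) F).coeff m = 0 := by
  have h1 := coeff_shift N hF hF (fun τ => (hper τ).symm) m
  have h2 : zetaN N ^ m ≠ 1 := by
    intro h
    exact hm ((zetaN_isPrimitiveRoot N).pow_eq_one_iff_dvd m |>.mp h)
  have h3 : (1 - zetaN N ^ m) * (qExpansion (N : ℝ) F).coeff m = 0 := by
    rw [sub_mul, one_mul, ← h1, sub_self]
  rcases mul_eq_zero.mp h3 with h4 | h4
  · exact absurd (sub_eq_zero.mp h4).symm h2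
  · exact h4

/-! ### The discriminant -/

theorem discriminant_slash (γ : SL(2, ℤ)) : discriminant ∣[(12 : ℤ)] γ = discriminant :=
  SlashInvariantForm.slash_action_generators_SL2Z discriminant_S_invariant
    discriminant_T_invariant γ

theorem isCF_discriminant : IsCF 1 12 discriminant where
  slash γ _ := discriminant_slash γ
  holo := CuspForm.discriminant.holo'
  zero γ := by
    rw [discriminant_slash]
    exact discriminant_isZeroAtImInfty

theorem isMF_discriminant : IsMF 1 12 discriminant := isCF_discriminant.isMF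

theorem tendsto_qParam_div_discriminant :
    Tendsto (fun τ : ℍ => Complex.exp (2 * π * Complex.I * τ) / discriminant τ) atImInfty
      (𝓝 1) := by
  have h1 := tendsto_atImInfty_tprod_one_sub_eta_q_pow
  have h2 : Tendsto (fun x : ℍ => (∏' (n : ℕ), (1 - eta_q n x) ^ 24)⁻¹) atImInfty (𝓝 1) := by
    have := h1.inv₀ one_ne_zero
    simpa using this
  refine h2.congr fun τ => ?_
  rw [discriminant_eq_q_prod]
  have hq : 𝕢 1 (τ : ℂ) = Complex.exp (2 * π * Complex.I * τ) := by
    simp [Function.Periodic.qParam]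
  rw [hq]
  have hne : Complex.exp (2 * π * Complex.I * τ) ≠ 0 := Complex.exp_ne_zero _
  by_cases hP : (∏' (n : ℕ), (1 - eta_q n τ) ^ 24) = 0
  · rw [hP]
    simp
  · field_simp

theorem tendsto_discriminant_mul_exp :
    Tendsto (fun τ : ℍ => discriminant τ * Complex.exp (-(2 * π * Complex.I * τ))) atImInfty
      (𝓝 1) := by
  have h1 := tendsto_atImInfty_tprod_one_sub_eta_q_pow
  refine h1.congr fun τ => ?_
  rw [discriminant_eq_q_prod]
  have hq : 𝕢 1 (τ : ℂ) = Complex.exp (2 * π * Complex.I * τ) := by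
    simp [Function.Periodic.qParam]
  rw [hq, Complex.exp_neg]
  have hne : Complex.exp (2 * π * Complex.I * τ) ≠ 0 := Complex.exp_ne_zero _
  field_simp

/-- If the first `N` coefficients of the `q_N`-expansion of `G` vanish then `G / Δ` tends to the
`N`-th coefficient. -/
theorem tendsto_div_discriminant (N : ℕ) [NeZero N] {G : ℍ → ℂ} (hG : NiceH (N : ℝ) G)
    (hz : ∀ m < N, (qExpansion (N : ℝ) G).coeff m = 0) :
    Tendsto (fun τ : ℍ => G τ / discriminant τ) atImInfty
      (𝓝 ((qExpansion (N : ℝ) G).coeff N)) := by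
  have hN : (0 : ℝ) < (N : ℝ) := Nat.cast_pos.mpr (NeZero.pos N)
  have hN0 : (N : ℂ) ≠ 0 := Nat.cast_ne_zero.mpr (NeZero.ne N)
  have h1 := hG.tendsto_mul_exp hN N hz
  have h2 := h1.mul tendsto_qParam_div_discriminant
  rw [mul_one] at h2
  refine h2.congr fun τ => ?_
  have e : -(2 * π * Complex.I * (N : ℂ) * (τ : ℂ) / ((N : ℝ) : ℂ))
      = -(2 * π * Complex.I * τ) := by
    push_cast
    field_simp
  rw [e, Complex.exp_neg]
  have hne : Complex.exp (2 * π * Complex.I * τ) ≠ 0 := Complex.exp_ne_zero _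
  field_simp

/-! ### Division by `Δ` -/

theorem div_discriminant_slash (k : ℤ) (f : ℍ → ℂ) (γ : SL(2, ℤ)) :
    (f / discriminant) ∣[k - 12] γ = (f ∣[k] γ) / discriminant := by
  have h1 : f = (f / discriminant) * discriminant := by
    funext τ
    simp only [Pi.mul_apply, Pi.div_apply]
    rw [div_mul_cancel₀ _ (discriminant_ne_zero τ)]
  have h2 := mul_slash_SL2 (k - 12) 12 γ (f / discriminant) discriminant
  rw [sub_add_cancel, ← h1, discriminant_slash] at h2
  funext τ
  have h3 := congrFun h2 τ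
  simp only [Pi.mul_apply, Pi.div_apply] at h3 ⊢
  rw [h3, mul_div_assoc, div_self (discriminant_ne_zero τ), mul_one]

theorem mdiff_div_discriminant {f : ℍ → ℂ} (hf : MDiff f) : MDiff (f / discriminant) := by
  have h2 : MDiff discriminant := CuspForm.discriminant.holo'
  rw [UpperHalfPlane.mdifferentiable_iff] at hf h2 ⊢
  have : ((f / discriminant) ∘ ofComplex) = fun w => (f ∘ ofComplex) w /
      (discriminant ∘ ofComplex) w := by
    ext w; simp
  rw [this]
  exact hf.div h2 (fun w _ => discriminant_ne_zero _)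

section statements

variable (N : ℕ) [NeZero N] (k : ℤ)

omit [NeZero N] in
theorem cj_eq_slash {f : ℍ → ℂ} (hf : IsMF N k f) (γ : SL(2, ℤ)) :
    f ∣[k] γ = cj N k f (QuotientGroup.mk γ⁻¹) := by
  rw [cj_mk hf.slash, inv_inv]

theorem cuspCoeff_T (f : ℍ → ℂ) (hf : IsMF N k f) (x : X0 N) (n : ℕ) :
    cuspCoeff N k f (ModularGroup.T⁻¹ • x) n = zetaN N ^ n * cuspCoeff N k f x n :=
  coeff_shift N (niceH_cj hf x) (niceH_cj hf _) (fun τ => (cj_vadd_one hf x τ).symm) n

theorem cuspCoeff_add (f g : ℍ → ℂ) (hf : IsMF N k f) (hg : IsMF N k g) (x : X0 N) (n : ℕ) :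
    cuspCoeff N k (f + g) x n = cuspCoeff N k f x n + cuspCoeff N k g x n := by
  unfold cuspCoeff
  rw [cj_add, NiceH.qExpansion_add natCast_pos' (niceH_cj hf x) (niceH_cj hg x), map_add]

theorem cuspCoeff_smul (c : ℂ) (f : ℍ → ℂ) (hf : IsMF N k f) (x : X0 N) (n : ℕ) :
    cuspCoeff N k (c • f) x n = c * cuspCoeff N k f x n := by
  unfold cuspCoeff
  rw [cj_smul, NiceH.qExpansion_smul natCast_pos' c (niceH_cj hf x), PowerSeries.coeff_smul,
    smul_eq_mul]

theorem tendsto_cj_mul_exp (f : ℍ → ℂ) (hf : IsMF N k f) (x : X0 N) (n : ℕ)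
    (h : ∀ m < n, cuspCoeff N k f x m = 0) :
    Filter.Tendsto (fun τ : ℍ => cj N k f x τ *
      Complex.exp (-(2 * Real.pi * Complex.I * n * τ / N))) atImInfty
      (nhds (cuspCoeff N k f x n)) := by
  have h1 := (niceH_cj hf x).tendsto_mul_exp natCast_pos' n h
  refine h1.congr fun τ => ?_
  push_cast
  rfl

theorem isCF_iff_cuspCoeff_zero (f : ℍ → ℂ) (hf : IsMF N k f) :
    IsCF N k f ↔ ∀ x, cuspCoeff N k f x 0 = 0 := by
  constructor
  · intro hcf x
    have hz : IsZeroAtImInfty (cj N k f x) := by simpa using hcf.cj_zero x 1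
    exact ((niceH_cj hf x).coeff_zero_eq_zero_iff natCast_pos').mpr hz
  · intro h
    refine ⟨hf.slash, hf.holo, fun γ => ?_⟩
    rw [cj_eq_slash N k hf γ]
    exact ((niceH_cj hf _).coeff_zero_eq_zero_iff natCast_pos').mp (h _)

theorem isMF_div_Delta (f : ℍ → ℂ) (hf : IsMF N k f)
    (h : ∀ x, ∀ n < N, cuspCoeff N k f x n = 0) : IsMF N (k - 12) (f / discriminant) where
  slash γ hγ := by rw [div_discriminant_slash, hf.slash γ hγ]
  holo := mdiff_div_discriminant hf.holo
  bdd γ := by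
    rw [div_discriminant_slash, cj_eq_slash N k hf γ]
    have h1 := tendsto_div_discriminant N (niceH_cj hf (QuotientGroup.mk γ⁻¹)) (h _)
    exact h1.isBigO_one ℝ

theorem isCF_div_Delta (f : ℍ → ℂ) (hf : IsMF N k f)
    (h : ∀ x, ∀ n ≤ N, cuspCoeff N k f x n = 0) : IsCF N (k - 12) (f / discriminant) where
  slash γ hγ := by rw [div_discriminant_slash, hf.slash γ hγ]
  holo := mdiff_div_discriminant hf.holo
  zero γ := by
    rw [div_discriminant_slash, cj_eq_slash N k hf γ]
    have h1 := tendsto_div_discriminant N (niceH_cj hf (QuotientGroup.mk γ⁻¹))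
      (fun m hm => h _ m hm.le)
    have h2 : (qExpansion (N : ℝ) (cj N k f (QuotientGroup.mk γ⁻¹))).coeff N = 0 :=
      h _ N le_rfl
    rw [h2] at h1
    exact h1

theorem cuspCoeff_mul_Delta (f : ℍ → ℂ) (hf : IsMF N k f) (x : X0 N) (n : ℕ) (hn : n < N) :
    cuspCoeff N (k + 12) (f * discriminant) x n = 0 := by
  have hfd : IsMF N (k + 12) (f * discriminant) := hf.mul (IsMF.of_one isMF_discriminant)
  have hG := niceH_cj hfd x
  have e : cj N (k + 12) (f * discriminant) x = cj N k f x * discriminant := by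
    rw [cj_mul, cj_of_one isMF_discriminant]
  refine hG.coeff_eq_zero_of_isBigO natCast_pos' N ?_ n hn
  have h1 : IsBoundedAtImInfty (cj N k f x) := (niceH_cj hf x).bdd
  have h2 : IsBoundedAtImInfty
      (fun τ : ℍ => discriminant τ * Complex.exp (-(2 * π * Complex.I * τ))) :=
    tendsto_discriminant_mul_exp.isBigO_one ℝ
  have h3 := h1.mul h2
  have hN0 : (N : ℂ) ≠ 0 := Nat.cast_ne_zero.mpr (NeZero.ne N)
  have e2 : (fun τ : ℍ => cj N (k + 12) (f * discriminant) x τ *
      Complex.exp (-(2 * π * Complex.I * (N : ℕ) * τ / ((N : ℝ) : ℂ)))) =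
      (cj N k f x) * (fun τ : ℍ => discriminant τ * Complex.exp (-(2 * π * Complex.I * τ))) := by
    funext τ
    rw [e]
    simp only [Pi.mul_apply]
    have e3 : -(2 * π * Complex.I * ((N : ℕ) : ℂ) * (τ : ℂ) / ((N : ℝ) : ℂ))
        = -(2 * π * Complex.I * τ) := by
      push_cast
      field_simp
    rw [e3]
    ring
  rw [e2]
  exact h3

theorem tendsto_trace_div_Delta (k' : ℤ) (w H : ℍ → ℂ) (hw : IsMF N k' w) (hH : IsCF N k H) :
    Filter.Tendsto (fun τ : ℍ => (∑ x : X0 N, cj N k' w x τ * cj N k H x τ) / discriminant τ)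
      atImInfty (nhds (∑ x : X0 N, ∑ n ∈ Finset.range N,
        cuspCoeff N k' w x n * cuspCoeff N k H x (N - n))) := by
  have hN : (0 : ℝ) < (N : ℝ) := natCast_pos'
  have hHm : IsMF N k H := hH.isMF
  set Gx : X0 N → ℍ → ℂ := fun x => cj N k' w x * cj N k H x with hGx
  have hGxn : ∀ x, NiceH (N : ℝ) (Gx x) := fun x => (niceH_cj hw x).mul (niceH_cj hHm x)
  set F : ℍ → ℂ := ∑ x : X0 N, Gx x with hF
  have hFn : NiceH (N : ℝ) F := NiceH.sum _ _ (fun x _ => hGxn x)
  have hFapp : ∀ τ, F τ = ∑ x : X0 N, cj N k' w x τ * cj N k H x τ := by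
    intro τ
    simp [hF, hGx, Finset.sum_apply]
  -- `F` is `1`-periodic
  have hper : ∀ τ : ℍ, F ((1 : ℝ) +ᵥ τ) = F τ := by
    intro τ
    rw [hFapp, hFapp]
    have e : ∀ x : X0 N, cj N k' w x ((1 : ℝ) +ᵥ τ) * cj N k H x ((1 : ℝ) +ᵥ τ) =
        cj N k' w (ModularGroup.T⁻¹ • x) τ * cj N k H (ModularGroup.T⁻¹ • x) τ := by
      intro x
      rw [cj_vadd_one hw, cj_vadd_one hHm]
    rw [Finset.sum_congr rfl (fun x _ => e x)]
    exact Fintype.sum_equiv (MulAction.toPerm (ModularGroup.T⁻¹ : SL(2, ℤ))) _ _ (fun x => rfl)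
  -- coefficients of `F`
  have hcoeffF : ∀ m, (qExpansion (N : ℝ) F).coeff m =
      ∑ x : X0 N, ∑ ij ∈ Finset.HasAntidiagonal.antidiagonal m,
        cuspCoeff N k' w x ij.1 * cuspCoeff N k H x ij.2 := by
    intro m
    rw [hF, NiceH.qExpansion_sum hN _ _ (fun x _ => hGxn x), map_sum]
    refine Finset.sum_congr rfl fun x _ => ?_
    rw [hGx]
    simp only
    rw [NiceH.qExpansion_mul hN (niceH_cj hw x) (niceH_cj hHm x), PowerSeries.coeff_mul]
    rfl
  have hH0 : ∀ x, cuspCoeff N k H x 0 = 0 := (isCF_iff_cuspCoeff_zero N k H hHm).mp hH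
  -- the first `N` coefficients vanish
  have hz : ∀ m < N, (qExpansion (N : ℝ) F).coeff m = 0 := by
    intro m hm
    rcases Nat.eq_zero_or_pos m with rfl | hpos
    · rw [hcoeffF]
      apply Finset.sum_eq_zero
      intro x _
      simp [hH0 x]
    · exact coeff_eq_zero_of_not_dvd N hFn hper m
        (fun hdvd => absurd (Nat.le_of_dvd hpos hdvd) (not_le.mpr hm))
  have h1 := tendsto_div_discriminant N hFn hz
  have h2 : (qExpansion (N : ℝ) F).coeff N = ∑ x : X0 N, ∑ n ∈ Finset.range N,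
      cuspCoeff N k' w x n * cuspCoeff N k H x (N - n) := by
    rw [hcoeffF]
    refine Finset.sum_congr rfl fun x _ => ?_
    rw [Finset.Nat.sum_antidiagonal_eq_sum_range_succ
      (fun i j => cuspCoeff N k' w x i * cuspCoeff N k H x j) N, Finset.sum_range_succ]
    simp [hH0 x]
  rw [h2] at h1
  refine h1.congr fun τ => ?_
  rw [hFapp]

end statements

end Fermat.Agent.S20.helper87
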