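import Mathlib
import Fermat.Prelude.Thm_ModularForm_sturm_bound_Gamma0
import Fermat.Agent.S20.Defs
import Fermat.Agent.S23.helper87_QRing

/-!
# S20-F0: finite-dimensionality and Sturm-type bound for `MFs N k` (helper87)
-/

set_option autoImplicit false

noncomputable section

open UpperHalfPlane ModularForm CongruenceSubgroup Matrix.SpecialLinearGroup
open scoped MatrixGroups Manifold

namespace Fermat.Agent.S20.helper87

open Fermat.Agent.S23.helper87 (IsNice)

/-- The Sturm number. -/
def sturmNum (N : ℕ) (k : ℤ) : ℕ := (k * (Gamma0 N).index).toNat / 12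

/-- Truncated `q`-expansion as a linear map. -/
def truncLin (N : ℕ) (k : ℤ) :
    ModularForm (Gamma0 N) k →ₗ[ℂ] (Fin (sturmNum N k + 1) → ℂ) where
  toFun f i := (qExpansion 1 (⇑f)).coeff (i : ℕ)
  map_add' f g := by
    funext i
    have h : (⇑(f + g) : ℍ → ℂ) = ⇑f + ⇑g := rfl
    simp only [h, IsNice.qExpansion_add (IsNice.of_Gamma0 f) (IsNice.of_Gamma0 g), map_add,
      Pi.add_apply]
  map_smul' c f := by
    funext i
    have h : (⇑(c • f) : ℍ → ℂ) = c • ⇑f := rfl
    simp only [h, IsNice.qExpansion_smul c (IsNice.of_Gamma0 f), RingHom.id_apply,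
      Pi.smul_apply, smul_eq_mul, PowerSeries.coeff_smul]

theorem truncLin_injective (N : ℕ) [NeZero N] (k : ℤ) : Function.Injective (truncLin N k) := by
  rw [← LinearMap.ker_eq_bot, LinearMap.ker_eq_bot']
  intro f hf
  apply ModularForm.sturm_bound_Gamma0 N f
  intro n hn
  have h := congrFun hf ⟨n, Nat.lt_succ_of_le hn⟩
  exact h

theorem finite_modularForm (N : ℕ) [NeZero N] (k : ℤ) :
    Module.Finite ℂ (ModularForm (Gamma0 N) k) :=
  FiniteDimensional.of_injective (truncLin N k) (truncLin_injective N k)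

theorem finrank_modularForm_le (N : ℕ) [NeZero N] (k : ℤ) :
    Module.finrank ℂ (ModularForm (Gamma0 N) k) ≤ sturmNum N k + 1 := by
  have h := LinearMap.finrank_le_finrank_of_injective (truncLin_injective N k)
  simpa using h

theorem finite_MFs (N : ℕ) [NeZero N] (k : ℤ) : Module.Finite ℂ (MFs N k) :=
  have := finite_modularForm N k
  Module.Finite.equiv (mfEquiv (N := N) (k := k))

theorem finite_CFs (N : ℕ) [NeZero N] (k : ℤ) : Module.Finite ℂ (CFs N k) := by
  have := finite_MFs N k
  exact Module.Finite.of_injective (Submodule.inclusion (CFs_le_MFs (N := N) (k := k)))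
    (Submodule.inclusion_injective _)

theorem index_eq_card (N : ℕ) : (Gamma0 N).index = Nat.card (X0 N) := rfl

theorem finrank_MFs_le (N : ℕ) [NeZero N] (k : ℕ) :
    12 * Module.finrank ℂ (MFs N k) ≤ k * Nat.card (X0 N) + 12 := by
  have h1 := finrank_modularForm_le N (k : ℤ)
  rw [finrank_modularForm_eq] at h1
  have h2 : sturmNum N (k : ℤ) = (k * Nat.card (X0 N)) / 12 := by
    unfold sturmNum
    rw [index_eq_card]
    have : ((k : ℤ) * (Nat.card (X0 N) : ℤ)).toNat = k * Nat.card (X0 N) := by
      rw [← Nat.cast_mul, Int.toNat_natCast]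
    rw [this]
  rw [h2] at h1
  have h3 := Nat.div_mul_le_self (k * Nat.card (X0 N)) 12
  omega

end Fermat.Agent.S20.helper87
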