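import Mathlib
import Fermat.Agent.S20.Defs

/-!
# S20-LA : permutation representations of a cyclic group

Pure finite linear algebra: for `g` acting on a finite set `X` with `g ^ m` acting trivially and
`ζ` a primitive `m`-th root of unity, the space `X → ℂ` is the direct sum of the eigenspaces
`eigSp (g • ·) (ζ ^ j)`, `j < m`; the invariants have dimension the number of orbits, conjugate
eigenvalues have eigenspaces of the same dimension.
-/

set_option autoImplicit false
set_option linter.unusedSectionVars false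

noncomputable section

open UpperHalfPlane ModularForm CongruenceSubgroup Matrix.SpecialLinearGroup
open scoped MatrixGroups Manifold

namespace Fermat.Agent.S20.helper90

open Fermat.Agent.S20

/-! ### Roots of unity: orthogonality -/

section roots

variable {m : ℕ} {ζ : ℂ}

lemma pow_ne_pow_of_lt (hζ : IsPrimitiveRoot ζ m) {j k : ℕ} (hj : j < m) (hk : k < m)
    (hjk : j ≠ k) : ζ ^ j ≠ ζ ^ k := fun h => hjk (hζ.pow_inj hj hk h)

lemma zeta_ne_zero (hm : 0 < m) (hζ : IsPrimitiveRoot ζ m) : ζ ≠ 0 :=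
  hζ.ne_zero hm.ne'

/-- Orthogonality relation: `∑_{l<m} (ζ^j)^l * ((ζ^k)^l)⁻¹ = m` if `j = k`, else `0`. -/
lemma sum_pow_mul_inv (hm : 0 < m) (hζ : IsPrimitiveRoot ζ m) {j k : ℕ} (hj : j < m)
    (hk : k < m) :
    ∑ l ∈ Finset.range m, (ζ ^ j) ^ l * ((ζ ^ k) ^ l)⁻¹ = if j = k then (m : ℂ) else 0 := by
  have h0 : ζ ≠ 0 := zeta_ne_zero hm hζ
  split_ifs with hjk
  · subst hjk
    have : ∀ l ∈ Finset.range m, (ζ ^ j) ^ l * ((ζ ^ j) ^ l)⁻¹ = 1 := fun l _ =>
      mul_inv_cancel₀ (pow_ne_zero _ (pow_ne_zero _ h0))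
    rw [Finset.sum_congr rfl this]
    simp
  · set w : ℂ := ζ ^ j * (ζ ^ k)⁻¹ with hw
    have hwm : w ^ m = 1 := by
      rw [hw, mul_pow, inv_pow, ← pow_mul, ← pow_mul, mul_comm j m, mul_comm k m, pow_mul,
        pow_mul, hζ.pow_eq_one]
      simp
    have hw1 : w ≠ 1 := by
      intro h
      apply pow_ne_pow_of_lt hζ hj hk hjk
      have hk0 : ζ ^ k ≠ 0 := pow_ne_zero _ h0
      rw [hw] at h
      field_simp at h
      exact h
    have hsum : ∑ l ∈ Finset.range m, w ^ l = 0 := by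
      have := geom_sum_mul w m
      rw [hwm, sub_self] at this
      exact (mul_eq_zero.mp this).resolve_right (sub_ne_zero.mpr hw1)
    rw [← hsum]
    refine Finset.sum_congr rfl fun l _ => ?_
    rw [hw, mul_pow, inv_pow]

end roots

/-! ### The projectors -/

section proj

variable {G X : Type} [Group G] [MulAction G X]

/-- The `j`-th isotypic projector. -/
def proj (g : G) (m : ℕ) (ζ : ℂ) (j : ℕ) (v : X → ℂ) : X → ℂ := fun x =>
  (m : ℂ)⁻¹ * ∑ l ∈ Finset.range m, ((ζ ^ j) ^ l)⁻¹ * v (g ^ l • x)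

lemma proj_mem (g : G) (m : ℕ) (hm : 0 < m) (hg : ∀ x : X, g ^ m • x = x) (ζ : ℂ)
    (hζ : IsPrimitiveRoot ζ m) (j : ℕ) (v : X → ℂ) :
    proj g m ζ j v ∈ eigSp (fun x : X => g • x) (ζ ^ j) := by
  have h0 : ζ ^ j ≠ 0 := pow_ne_zero _ (zeta_ne_zero hm hζ)
  intro x
  simp only [proj]
  rw [← mul_assoc, mul_comm (ζ ^ j), mul_assoc]
  congr 1
  rw [Finset.mul_sum]
  -- shift the index
  obtain ⟨n, rfl⟩ : ∃ n, m = n + 1 := ⟨m - 1, by omega⟩
  have e1 : ∀ l : ℕ, ((ζ ^ j) ^ l)⁻¹ * v (g ^ l • g • x)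
      = ζ ^ j * (((ζ ^ j) ^ (l + 1))⁻¹ * v (g ^ (l + 1) • x)) := by
    intro l
    rw [pow_succ g l, mul_smul, pow_succ (ζ ^ j) l, mul_inv]
    field_simp
  rw [Finset.sum_congr rfl (fun l _ => e1 l), ← Finset.mul_sum, ← Finset.mul_sum]
  congr 1
  rw [Finset.sum_range_succ' (fun l => ((ζ ^ j) ^ l)⁻¹ * v (g ^ l • x)) n,
    Finset.sum_range_succ (fun l => ((ζ ^ j) ^ (l + 1))⁻¹ * v (g ^ (l + 1) • x)) n]
  congr 1
  have hz : (ζ ^ j) ^ (n + 1) = 1 := by
    rw [← pow_mul, mul_comm, pow_mul, hζ.pow_eq_one, one_pow]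
  rw [hz, hg x]
  simp

lemma sum_proj (g : G) (m : ℕ) (hm : 0 < m) (ζ : ℂ) (hζ : IsPrimitiveRoot ζ m) (v : X → ℂ) :
    v = ∑ j ∈ Finset.range m, proj g m ζ j v := by
  have hm0 : (m : ℂ) ≠ 0 := Nat.cast_ne_zero.mpr hm.ne'
  funext x
  rw [Finset.sum_apply]
  simp only [proj]
  rw [← Finset.mul_sum, Finset.sum_comm]
  have key : ∀ l ∈ Finset.range m, ∑ j ∈ Finset.range m, ((ζ ^ j) ^ l)⁻¹ * v (g ^ l • x)
      = if l = 0 then (m : ℂ) * v x else 0 := by
    intro l hl
    rw [← Finset.sum_mul]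
    have hl' := Finset.mem_range.mp hl
    have h1 := sum_pow_mul_inv hm hζ (j := 0) (k := l) hm hl'
    have h2 : ∑ j ∈ Finset.range m, ((ζ ^ j) ^ l)⁻¹
        = ∑ i ∈ Finset.range m, (ζ ^ 0) ^ i * ((ζ ^ l) ^ i)⁻¹ := by
      refine Finset.sum_congr rfl fun i _ => ?_
      rw [pow_zero, one_pow, one_mul, ← pow_mul, ← pow_mul, mul_comm]
    rw [h2, h1]
    by_cases hl0 : l = 0
    · subst hl0; simp
    · rw [if_neg (Ne.symm hl0), if_neg hl0, zero_mul]
  rw [Finset.sum_congr rfl key, Finset.sum_ite_eq' (Finset.range m) 0]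
  rw [if_pos (Finset.mem_range.mpr hm)]
  field_simp

end proj

/-! ### Decomposition into eigenspaces -/

section decomp

variable {G X : Type} [Group G] [MulAction G X] [Fintype X]

theorem exists_eig_decomp (g : G) (m : ℕ) (hm : 0 < m) (hg : ∀ x : X, g ^ m • x = x) (ζ : ℂ)
    (hζ : IsPrimitiveRoot ζ m) (v : X → ℂ) :
    ∃ u : ℕ → X → ℂ, (∀ j, u j ∈ eigSp (fun x : X => g • x) (ζ ^ j)) ∧
      v = ∑ j ∈ Finset.range m, u j :=
  ⟨fun j => proj g m ζ j v, fun j => proj_mem g m hm hg ζ hζ j v, sum_proj g m hm ζ hζ v⟩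

omit [Fintype X] in
lemma eig_pow_apply {g : G} {c : ℂ} {u : X → ℂ} (hu : u ∈ eigSp (fun x : X => g • x) c)
    (l : ℕ) (x : X) : u (g ^ l • x) = c ^ l * u x := by
  induction l with
  | zero => simp
  | succ l ih =>
    rw [pow_succ', mul_smul]
    have := hu (g ^ l • x)
    simp only at this
    rw [this, ih, pow_succ]
    ring

theorem eig_decomp_unique (g : G) (m : ℕ) (hm : 0 < m) (ζ : ℂ) (hζ : IsPrimitiveRoot ζ m)
    (u : ℕ → X → ℂ) (hu : ∀ j, u j ∈ eigSp (fun x : X => g • x) (ζ ^ j))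
    (h0 : ∑ j ∈ Finset.range m, u j = 0) : ∀ j < m, u j = 0 := by
  intro k hk
  have hm0 : (m : ℂ) ≠ 0 := Nat.cast_ne_zero.mpr hm.ne'
  funext x
  -- evaluate the relation at `g ^ l • x`
  have h1 : ∀ l : ℕ, ∑ j ∈ Finset.range m, (ζ ^ j) ^ l * u j x = 0 := by
    intro l
    have := congrFun h0 (g ^ l • x)
    rw [Finset.sum_apply, Pi.zero_apply] at this
    rw [← this]
    exact Finset.sum_congr rfl fun j _ => (eig_pow_apply (hu j) l x).symm
  have h2 : ∑ l ∈ Finset.range m, ((ζ ^ k) ^ l)⁻¹ * ∑ j ∈ Finset.range m, (ζ ^ j) ^ l * u j x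
      = 0 := by
    refine Finset.sum_eq_zero fun l _ => ?_
    rw [h1 l, mul_zero]
  have h3 : ∑ l ∈ Finset.range m, ((ζ ^ k) ^ l)⁻¹ * ∑ j ∈ Finset.range m, (ζ ^ j) ^ l * u j x
      = (m : ℂ) * u k x := by
    simp_rw [Finset.mul_sum]
    rw [Finset.sum_comm]
    have key : ∀ j ∈ Finset.range m,
        ∑ l ∈ Finset.range m, ((ζ ^ k) ^ l)⁻¹ * ((ζ ^ j) ^ l * u j x)
          = if j = k then (m : ℂ) * u k x else 0 := by
      intro j hj
      have hj' := Finset.mem_range.mp hj
      have e : ∀ l ∈ Finset.range m, ((ζ ^ k) ^ l)⁻¹ * ((ζ ^ j) ^ l * u j x)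
          = ((ζ ^ j) ^ l * ((ζ ^ k) ^ l)⁻¹) * u j x := fun l _ => by ring
      rw [Finset.sum_congr rfl e, ← Finset.sum_mul, sum_pow_mul_inv hm hζ hj' hk]
      split_ifs with hjk
      · subst hjk; rfl
      · rw [zero_mul]
    rw [Finset.sum_congr rfl key, Finset.sum_ite_eq' (Finset.range m) k,
      if_pos (Finset.mem_range.mpr hk)]
  rw [h3] at h2
  simpa [hm0] using h2

end decomp

/-! ### Dimension counts -/

section count

variable {G X : Type} [Group G] [MulAction G X] [Fintype X]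

/-- The sum map from the product of the eigenspaces. -/
def sumMap (g : G) (m : ℕ) (ζ : ℂ) :
    (∀ j : Fin m, eigSp (fun x : X => g • x) (ζ ^ (j : ℕ))) →ₗ[ℂ] (X → ℂ) where
  toFun u := ∑ j : Fin m, (u j : X → ℂ)
  map_add' u w := by
    simp only [Pi.add_apply, Submodule.coe_add, Finset.sum_add_distrib]
  map_smul' c u := by
    simp only [Pi.smul_apply, Submodule.coe_smul, RingHom.id_apply, Finset.smul_sum]

lemma sumMap_bijective (g : G) (m : ℕ) (hm : 0 < m) (hg : ∀ x : X, g ^ m • x = x) (ζ : ℂ)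
    (hζ : IsPrimitiveRoot ζ m) : Function.Bijective (sumMap (X := X) g m ζ) := by
  constructor
  · rw [← LinearMap.ker_eq_bot, LinearMap.ker_eq_bot']
    intro u hu
    set u' : ℕ → X → ℂ := fun j => if h : j < m then (u ⟨j, h⟩ : X → ℂ) else 0 with hu'
    have hmem : ∀ j, u' j ∈ eigSp (fun x : X => g • x) (ζ ^ j) := by
      intro j
      by_cases h : j < m
      · simp only [hu', dif_pos h]; exact (u ⟨j, h⟩).2
      · simp only [hu', dif_neg h]; exact Submodule.zero_mem _
    have hsum : ∑ j ∈ Finset.range m, u' j = 0 := by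
      rw [Finset.sum_range]
      have : ∀ j : Fin m, u' (j : ℕ) = (u j : X → ℂ) := by
        intro j
        simp only [hu', dif_pos j.2]
      rw [Finset.sum_congr rfl (fun j _ => this j)]
      exact hu
    have h0 := eig_decomp_unique g m hm ζ hζ u' hmem hsum
    funext j
    apply Subtype.ext
    have := h0 j j.2
    simp only [hu', dif_pos j.2] at this
    exact this
  · intro v
    obtain ⟨u, hu, hv⟩ := exists_eig_decomp g m hm hg ζ hζ v
    refine ⟨fun j => ⟨u j, hu j⟩, ?_⟩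
    rw [hv, Finset.sum_range]
    rfl

theorem sum_finrank_eigSp (g : G) (m : ℕ) (hm : 0 < m) (hg : ∀ x : X, g ^ m • x = x) (ζ : ℂ)
    (hζ : IsPrimitiveRoot ζ m) :
    ∑ j ∈ Finset.range m, Module.finrank ℂ (eigSp (fun x : X => g • x) (ζ ^ j))
      = Fintype.card X := by
  have e := LinearEquiv.ofBijective (sumMap (X := X) g m ζ) (sumMap_bijective g m hm hg ζ hζ)
  have h1 := e.finrank_eq
  rw [Module.finrank_pi_fintype, Module.finrank_fintype_fun_eq_card] at h1
  rw [← h1, Finset.sum_range]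

end count

/-! ### Invariants and orbits -/

section orbits

variable {G X : Type} [Group G] [MulAction G X] [Fintype X]

/-- The subgroup of elements of `G` leaving a function invariant. -/
def invSubgroup (v : X → ℂ) : Subgroup G where
  carrier := {h | ∀ x, v (h • x) = v x}
  one_mem' := fun x => by rw [one_smul]
  mul_mem' := fun {a b} ha hb x => by rw [mul_smul, ha, hb]
  inv_mem' := fun {a} ha x => by
    have := ha (a⁻¹ • x)
    rw [smul_inv_smul] at this
    exact this.symm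

lemma zpowers_le_invSubgroup {g : G} {v : X → ℂ} (hv : v ∈ eigSp (fun x : X => g • x) 1) :
    Subgroup.zpowers g ≤ invSubgroup (G := G) v := by
  rw [Subgroup.zpowers_le]
  intro x
  have := hv x
  simp only [one_mul] at this
  exact this

/-- Functions on the orbit space are the invariant functions. -/
def orbitEquiv (g : G) :
    (MulAction.orbitRel.Quotient (Subgroup.zpowers g) X → ℂ) ≃ₗ[ℂ]
      eigSp (fun x : X => g • x) 1 where
  toFun f := ⟨fun x => f (Quotient.mk'' x), by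
    intro x
    simp only [one_mul]
    congr 1
    apply Quotient.sound'
    exact ⟨⟨g, Subgroup.mem_zpowers g⟩, rfl⟩⟩
  map_add' f₁ f₂ := rfl
  map_smul' c f := rfl
  invFun v := fun q => Quotient.liftOn' q (v : X → ℂ) (by
    rintro x y ⟨⟨h, hh⟩, rfl⟩
    exact zpowers_le_invSubgroup v.2 hh y)
  left_inv f := by
    funext q
    induction q using Quotient.inductionOn' with
    | h x => rfl
  right_inv v := by
    apply Subtype.ext
    funext x
    rfl

theorem finrank_eigSp_one (g : G) :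
    Module.finrank ℂ (eigSp (fun x : X => g • x) 1)
      = Nat.card (MulAction.orbitRel.Quotient (Subgroup.zpowers g) X) := by
  have : Finite (MulAction.orbitRel.Quotient (Subgroup.zpowers g) X) := Quotient.finite _
  let _ : Fintype (MulAction.orbitRel.Quotient (Subgroup.zpowers g) X) := Fintype.ofFinite _
  rw [← (orbitEquiv (X := X) g).finrank_eq, Module.finrank_fintype_fun_eq_card,
    Nat.card_eq_fintype_card]

end orbits

/-! ### Conjugate eigenvalues -/

section conj

variable {G X : Type} [Group G] [MulAction G X] [Fintype X]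

/-- Complex conjugation of functions, as a real-linear equivalence between conjugate
eigenspaces. -/
def conjEquiv (σ : X → X) (ζ : ℂ) :
    eigSp σ ((starRingEnd ℂ) ζ) ≃ₗ[ℝ] eigSp σ ζ where
  toFun v := ⟨fun x => (starRingEnd ℂ) ((v : X → ℂ) x), by
    intro x
    have := v.2 x
    simp only at this ⊢
    rw [this, map_mul, Complex.conj_conj]⟩
  map_add' v w := by
    apply Subtype.ext
    funext x
    simp
  map_smul' r v := by
    apply Subtype.ext
    funext x
    simp
  invFun v := ⟨fun x => (starRingEnd ℂ) ((v : X → ℂ) x), by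
    intro x
    have := v.2 x
    simp only at this ⊢
    rw [this, map_mul]⟩
  left_inv v := by
    apply Subtype.ext
    funext x
    simp
  right_inv v := by
    apply Subtype.ext
    funext x
    simp

theorem finrank_eigSp_conj (σ : X → X) (ζ : ℂ) :
    Module.finrank ℂ (eigSp σ ((starRingEnd ℂ) ζ)) = Module.finrank ℂ (eigSp σ ζ) := by
  have h := (conjEquiv σ ζ).finrank_eq
  rw [finrank_real_of_complex, finrank_real_of_complex] at h
  omega

lemma pow_sub_eq_conj {m : ℕ} {ζ : ℂ} (hm : 0 < m) (hζ : IsPrimitiveRoot ζ m) {j : ℕ}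
    (hj : j ≤ m) : ζ ^ (m - j) = (starRingEnd ℂ) (ζ ^ j) := by
  have h0 : ζ ≠ 0 := zeta_ne_zero hm hζ
  have hn : ‖ζ‖ = 1 := Complex.norm_eq_one_of_pow_eq_one hζ.pow_eq_one hm.ne'
  rw [map_pow, ← Complex.inv_eq_conj hn, inv_pow]
  apply eq_inv_of_mul_eq_one_left
  rw [← pow_add, Nat.sub_add_cancel hj, hζ.pow_eq_one]

theorem sum_mul_finrank_eigSp (g : G) (m : ℕ) (hm : 0 < m) (hg : ∀ x : X, g ^ m • x = x)
    (ζ : ℂ) (hζ : IsPrimitiveRoot ζ m) :
    2 * ∑ j ∈ Finset.range m, j * Module.finrank ℂ (eigSp (fun x : X => g • x) (ζ ^ j))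
      = m * (Fintype.card X
          - Nat.card (MulAction.orbitRel.Quotient (Subgroup.zpowers g) X)) := by
  set d : ℕ → ℕ := fun j => Module.finrank ℂ (eigSp (fun x : X => g • x) (ζ ^ j)) with hd
  have ha : ∑ j ∈ Finset.range m, d j = Fintype.card X := sum_finrank_eigSp g m hm hg ζ hζ
  have hb : d 0 = Nat.card (MulAction.orbitRel.Quotient (Subgroup.zpowers g) X) := by
    have := finrank_eigSp_one (X := X) g
    simp only [hd]
    rw [pow_zero]
    exact this
  have hc : ∀ j, j ≤ m → d (m - j) = d j := by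
    intro j hj
    simp only [hd]
    rw [pow_sub_eq_conj hm hζ hj]
    exact finrank_eigSp_conj _ _
  rw [← hb, ← ha]
  obtain ⟨n, rfl⟩ : ∃ n, m = n + 1 := ⟨m - 1, by omega⟩
  change 2 * ∑ j ∈ Finset.range (n + 1), j * d j = _
  rw [Finset.sum_range_succ' (fun j => j * d j) n, Finset.sum_range_succ' d n]
  simp only [zero_mul, add_zero, Nat.add_sub_cancel]
  have hrefl : ∑ j ∈ Finset.range n, (j + 1) * d (j + 1)
      = ∑ j ∈ Finset.range n, (n - j) * d (j + 1) := by
    rw [← Finset.sum_range_reflect (fun j => (j + 1) * d (j + 1)) n]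
    refine Finset.sum_congr rfl fun j hj => ?_
    have hj' := Finset.mem_range.mp hj
    have e1 : n - 1 - j + 1 = n - j := by omega
    have e2 : n - j = n + 1 - (j + 1) := by omega
    rw [e1]
    congr 1
    rw [e2]
    exact hc (j + 1) (by omega)
  have h2 : 2 * ∑ j ∈ Finset.range n, (j + 1) * d (j + 1)
      = ∑ j ∈ Finset.range n, (j + 1) * d (j + 1) + ∑ j ∈ Finset.range n, (n - j) * d (j + 1) := by
    rw [← hrefl]; ring
  rw [h2, ← Finset.sum_add_distrib, Finset.mul_sum]
  refine Finset.sum_congr rfl fun j hj => ?_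
  have hj' := Finset.mem_range.mp hj
  rw [← add_mul]
  congr 1
  omega

end conj

end Fermat.Agent.S20.helper90
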