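/-
S20 package (1), helper85: uniqueness of generalized Dirichlet series.

If `∑' i, a i * z i ^ n = 0` for all `n ≥ n₀` (absolutely convergent, `z i → 0` along the cofinite
filter), then for every `c ≠ 0` the sum of the `a i` over the (finite) fibre `{i | z i = c}`
vanishes.
-/
import Mathlib.Analysis.SpecificLimits.Normed
import Mathlib.Analysis.Complex.Basic
import Mathlib.Topology.Algebra.InfiniteSum.Basic
import Mathlib.Analysis.Normed.Group.InfiniteSum
import Mathlib.Analysis.Normed.Group.Tannery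

set_option autoImplicit false

open Filter Topology

namespace Fermat.Agent.S20.helper85

/-- Finitely many distinct points on the unit circle: if `∑ A u * u ^ n → 0` then all `A u = 0`. -/
lemma eq_zero_of_tendsto_sum_mul_pow (U : Finset ℂ) :
    ∀ (A : ℂ → ℂ), (∀ u ∈ U, ‖u‖ = 1) →
      Tendsto (fun n : ℕ => ∑ u ∈ U, A u * u ^ n) atTop (𝓝 0) → ∀ u ∈ U, A u = 0 := by
  classical
  induction U using Finset.induction_on with
  | empty => intro A _ _ u hu; simp at hu
  | insert u₀ U hu₀ ih =>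
    intro A hU h u hu
    have hU' : ∀ u ∈ U, ‖u‖ = 1 := fun u hu => hU u (Finset.mem_insert_of_mem hu)
    have hu₀1 : ‖u₀‖ = 1 := hU u₀ (Finset.mem_insert_self _ _)
    -- the shifted sequence
    have h1 : Tendsto (fun n : ℕ => ∑ u ∈ insert u₀ U, A u * u ^ (n + 1)) atTop (𝓝 0) :=
      h.comp (tendsto_add_atTop_nat 1)
    have h2 : Tendsto (fun n : ℕ => u₀ * ∑ u ∈ insert u₀ U, A u * u ^ n) atTop (𝓝 0) := by
      simpa using h.const_mul u₀
    have h3 : Tendsto (fun n : ℕ => ∑ u ∈ U, (A u * (u - u₀)) * u ^ n) atTop (𝓝 0) := by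
      have := h1.sub h2
      simp only [sub_zero] at this
      refine this.congr fun n => ?_
      have e : ∑ u ∈ U, (A u * (u - u₀)) * u ^ n
          = ∑ u ∈ U, A u * u ^ (n + 1) - u₀ * ∑ u ∈ U, A u * u ^ n := by
        rw [Finset.mul_sum, ← Finset.sum_sub_distrib]
        refine Finset.sum_congr rfl fun u _ => ?_
        ring
      rw [Finset.sum_insert hu₀, Finset.sum_insert hu₀, e]
      ring
    have h4 := ih (fun u => A u * (u - u₀)) hU' h3
    have hA : ∀ u ∈ U, A u = 0 := by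
      intro u hu
      have := h4 u hu
      rcases mul_eq_zero.mp this with h | h
      · exact h
      · exfalso
        have : u = u₀ := sub_eq_zero.mp h
        exact hu₀ (this ▸ hu)
    have h5 : Tendsto (fun n : ℕ => A u₀ * u₀ ^ n) atTop (𝓝 0) := by
      refine h.congr fun n => ?_
      rw [Finset.sum_insert hu₀, Finset.sum_eq_zero (fun u hu => by rw [hA u hu, zero_mul]),
        add_zero]
    have h6 : A u₀ = 0 := by
      have h7 : Tendsto (fun n : ℕ => ‖A u₀ * u₀ ^ n‖) atTop (𝓝 0) := by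
        simpa using h5.norm
      have h8 : ∀ n : ℕ, ‖A u₀ * u₀ ^ n‖ = ‖A u₀‖ := by
        intro n
        rw [norm_mul, norm_pow, hu₀1, one_pow, mul_one]
      simp only [h8] at h7
      have := tendsto_nhds_unique h7 tendsto_const_nhds
      exact norm_eq_zero.mp this.symm
    rcases Finset.mem_insert.mp hu with rfl | hu
    · exact h6
    · exact hA u hu


/-- **Uniqueness of generalized Dirichlet series.** -/
theorem dirichlet_uniqueness {ι : Type*} (a z : ι → ℂ) (n₀ : ℕ)
    (hz : ∀ ε : ℝ, 0 < ε → {i | ε ≤ ‖z i‖}.Finite)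
    (hsum : Summable fun i => ‖a i‖ * ‖z i‖ ^ n₀)
    (h0 : ∀ n, n₀ ≤ n → ∑' i, a i * z i ^ n = 0)
    (c : ℂ) (hc : c ≠ 0) (s : Finset ι) (hs : ∀ i, i ∈ s ↔ z i = c) :
    ∑ i ∈ s, a i = 0 := by
  classical
  -- the fibres
  set F : ℂ → Finset ι := fun c =>
    if h : c = 0 then ∅ else (hz ‖c‖ (norm_pos_iff.mpr h)).toFinset.filter (fun i => z i = c)
    with hF
  have memF : ∀ c : ℂ, c ≠ 0 → ∀ i, i ∈ F c ↔ z i = c := by
    intro c hc i
    simp only [hF, dif_neg hc, Finset.mem_filter, Set.Finite.mem_toFinset, Set.mem_ofPred_eq]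
    constructor
    · exact fun h => h.2
    · intro h; exact ⟨by rw [h], h⟩
  set A : ℂ → ℂ := fun c => ∑ i ∈ F c, a i with hA
  have hsF : s = F c := by
    ext i; rw [hs, memF c hc]
  rw [hsF]
  change A c = 0
  by_contra hbad
  -- the finite set of candidates of norm ≥ ‖c‖
  have hcpos : 0 < ‖c‖ := norm_pos_iff.mpr hc
  set I0 : Finset ι := (hz ‖c‖ hcpos).toFinset with hI0
  set Bad : Finset ℂ := (I0.image z).filter (fun c' => A c' ≠ 0) with hBad
  have hAne : ∀ c' : ℂ, c' ≠ 0 → A c' ≠ 0 → ∃ i, z i = c' := by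
    intro c' hc' hA'
    have : (F c').Nonempty := by
      by_contra hne
      rw [Finset.not_nonempty_iff_eq_empty] at hne
      exact hA' (by simp [hA, hne])
    obtain ⟨i, hi⟩ := this
    exact ⟨i, (memF c' hc' i).mp hi⟩
  have hcBad : c ∈ Bad := by
    obtain ⟨i, hi⟩ := hAne c hc hbad
    simp only [hBad, Finset.mem_filter, Finset.mem_image]
    refine ⟨⟨i, ?_, hi⟩, hbad⟩
    simp [hI0, hi]
  obtain ⟨c₁, hc₁Bad, hc₁max⟩ := Finset.exists_max_image Bad (fun c' => ‖c'‖) ⟨c, hcBad⟩
  set r : ℝ := ‖c₁‖ with hr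
  have hrc : ‖c‖ ≤ r := hc₁max c hcBad
  have hrpos : 0 < r := lt_of_lt_of_le hcpos hrc
  have hc₁ne : c₁ ≠ 0 := norm_pos_iff.mp hrpos
  have hAc₁ : A c₁ ≠ 0 := (Finset.mem_filter.mp hc₁Bad).2
  have hmax : ∀ c' : ℂ, r < ‖c'‖ → A c' = 0 := by
    intro c' hc'
    by_contra hA'
    have hc'ne : c' ≠ 0 := norm_pos_iff.mp (lt_trans hrpos hc')
    obtain ⟨i, hi⟩ := hAne c' hc'ne hA'
    have : c' ∈ Bad := by
      simp only [hBad, Finset.mem_filter, Finset.mem_image]
      refine ⟨⟨i, ?_, hi⟩, hA'⟩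
      simp only [hI0, Set.Finite.mem_toFinset, Set.mem_ofPred_eq, hi]
      exact le_trans hrc hc'.le
    exact absurd (hc₁max c' this) (not_le.mpr hc')
  -- the big index set
  set I1 : Finset ι := (hz r hrpos).toFinset with hI1
  have memI1 : ∀ i, i ∈ I1 ↔ r ≤ ‖z i‖ := by
    intro i; simp [hI1]
  set U : Finset ℂ := (I1.image z).filter (fun u => ‖u‖ = r) with hU
  -- finite part of the sum
  have hfin : ∀ n : ℕ, ∑ i ∈ I1, a i * z i ^ n = ∑ u ∈ U, A u * u ^ n := by
    intro n
    have h1 : ∑ i ∈ I1, a i * z i ^ n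
        = ∑ u ∈ I1.image z, ∑ i ∈ I1.filter (fun i => z i = u), a i * z i ^ n :=
      (Finset.sum_fiberwise_of_maps_to (fun i hi => Finset.mem_image_of_mem z hi) _).symm
    have h2 : ∀ u ∈ I1.image z, ∑ i ∈ I1.filter (fun i => z i = u), a i * z i ^ n
        = A u * u ^ n := by
      intro u hu
      obtain ⟨j, hj, rfl⟩ := Finset.mem_image.mp hu
      have hjr : r ≤ ‖z j‖ := (memI1 j).mp hj
      have hne : z j ≠ 0 := norm_pos_iff.mp (lt_of_lt_of_le hrpos hjr)
      have : I1.filter (fun i => z i = z j) = F (z j) := by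
        ext i
        rw [Finset.mem_filter, memF _ hne, memI1]
        constructor
        · exact fun h => h.2
        · intro h; exact ⟨by rw [h]; exact hjr, h⟩
      rw [this, hA, Finset.sum_mul]
      refine Finset.sum_congr rfl fun i hi => ?_
      rw [(memF _ hne i).mp hi]
    rw [h1, Finset.sum_congr rfl h2, hU, Finset.sum_filter]
    refine Finset.sum_congr rfl fun u hu => ?_
    split_ifs with h
    · rfl
    · obtain ⟨j, hj, rfl⟩ := Finset.mem_image.mp hu
      have hjr : r ≤ ‖z j‖ := (memI1 j).mp hj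
      have : r < ‖z j‖ := lt_of_le_of_ne hjr (Ne.symm h)
      rw [hmax _ this, zero_mul]
  -- summability on the complement of `I1`
  have hlt : ∀ i, i ∉ I1 → ‖z i‖ < r := fun i hi => not_le.mp (fun h => hi ((memI1 i).mpr h))
  have hsumC : Summable fun i : {i // i ∉ I1} => ‖a i‖ * (‖z i‖ / r) ^ n₀ := by
    have := (hsum.subtype {i | i ∉ I1}).mul_right ((r ^ n₀)⁻¹)
    refine this.congr fun i => ?_
    simp only [Function.comp, div_pow]
    field_simp
  -- the tail tends to `0` after normalisation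
  have htail : Tendsto (fun n : ℕ => ∑' i : {i // i ∉ I1}, a i * (z i / r) ^ n) atTop
      (𝓝 (∑' _i : {i // i ∉ I1}, (0 : ℂ))) := by
    refine tendsto_tsum_of_dominated_convergence hsumC (fun i => ?_) ?_
    · have hlt1 : ‖z i / (r : ℂ)‖ < 1 := by
        rw [norm_div, Complex.norm_real, Real.norm_of_nonneg hrpos.le, div_lt_one hrpos]
        exact hlt i i.2
      simpa using (tendsto_pow_atTop_nhds_zero_of_norm_lt_one hlt1).const_mul (a i)
    · filter_upwards [eventually_ge_atTop n₀] with n hn i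
      rw [norm_mul, norm_pow, norm_div, Complex.norm_real, Real.norm_of_nonneg hrpos.le]
      refine mul_le_mul_of_nonneg_left ?_ (norm_nonneg _)
      refine pow_le_pow_of_le_one (by positivity) ?_ hn
      exact (div_le_one hrpos).mpr (hlt i i.2).le
  rw [tsum_zero] at htail
  -- summability of the whole series for `n ≥ n₀`
  have hsummable : ∀ n, n₀ ≤ n → Summable fun i => a i * z i ^ n := by
    intro n hn
    rw [← Finset.summable_compl_iff I1]
    refine Summable.of_norm_bounded (g := fun i : {i // i ∉ I1} =>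
      (‖a i‖ * (‖z i‖ / r) ^ n₀) * r ^ n) (hsumC.mul_right _) fun i => ?_
    rw [norm_mul, norm_pow, mul_assoc]
    refine mul_le_mul_of_nonneg_left ?_ (norm_nonneg _)
    have h1 : ‖z i‖ ^ n = (‖z i‖ / r) ^ n * r ^ n := by
      rw [div_pow, div_mul_cancel₀ _ (pow_ne_zero _ hrpos.ne')]
    rw [h1]
    refine mul_le_mul_of_nonneg_right ?_ (by positivity)
    refine pow_le_pow_of_le_one (by positivity) ?_ hn
    exact (div_le_one hrpos).mpr (hlt i i.2).le
  -- the main identity
  have hmain : ∀ n, n₀ ≤ n →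
      ∑ u ∈ U, A u * (u / r) ^ n = - ∑' i : {i // i ∉ I1}, a i * (z i / r) ^ n := by
    intro n hn
    have h1 := h0 n hn
    rw [← (hsummable n hn).sum_add_tsum_compl (s := I1), hfin n] at h1
    have h2 : ∑' i : {i // i ∉ I1}, a i * (z i / r) ^ n
        = (∑' i : {i // i ∉ I1}, a i * z i ^ n) * ((r : ℂ) ^ n)⁻¹ := by
      rw [← tsum_mul_right]
      refine tsum_congr fun i => ?_
      rw [div_pow]; ring
    have h3 : ∑ u ∈ U, A u * (u / r) ^ n = (∑ u ∈ U, A u * u ^ n) * ((r : ℂ) ^ n)⁻¹ := by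
      rw [Finset.sum_mul]
      refine Finset.sum_congr rfl fun u _ => ?_
      rw [div_pow]; ring
    have h4 : (∑' i : {i // i ∉ I1}, a i * z i ^ n) = - ∑ u ∈ U, A u * u ^ n := by
      have : (∑' i : (↑(I1 : Set ι)ᶜ : Set ι), a i * z i ^ n)
          = ∑' i : {i // i ∉ I1}, a i * z i ^ n := rfl
      rw [this] at h1
      exact eq_neg_of_add_eq_zero_right h1
    rw [h2, h3, h4]; ring
  have hlim : Tendsto (fun n : ℕ => ∑ u ∈ U, A u * (u / r) ^ n) atTop (𝓝 0) := by
    have := htail.neg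
    rw [neg_zero] at this
    refine this.congr' ?_
    filter_upwards [eventually_ge_atTop n₀] with n hn
    exact (hmain n hn).symm
  -- normalise to the unit circle
  have hrC : (r : ℂ) ≠ 0 := by exact_mod_cast hrpos.ne'
  have hinj : Set.InjOn (fun u : ℂ => u / r) U := by
    intro u _ u' _ h
    simpa [div_left_inj' hrC] using h
  have hlim' : Tendsto (fun n : ℕ => ∑ w ∈ U.image (fun u : ℂ => u / r),
      (fun w : ℂ => A (w * r)) w * w ^ n) atTop (𝓝 0) := by
    refine hlim.congr fun n => ?_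
    rw [Finset.sum_image hinj]
    refine Finset.sum_congr rfl fun u _ => ?_
    simp only
    rw [div_mul_cancel₀ _ hrC]
  have hunit : ∀ w ∈ U.image (fun u : ℂ => u / r), ‖w‖ = 1 := by
    intro w hw
    obtain ⟨u, hu, rfl⟩ := Finset.mem_image.mp hw
    have : ‖u‖ = r := (Finset.mem_filter.mp hu).2
    rw [norm_div, Complex.norm_real, Real.norm_of_nonneg hrpos.le, this, div_self hrpos.ne']
  have hzero := eq_zero_of_tendsto_sum_mul_pow _ _ hunit hlim'
  -- contradiction at `c₁`
  have hc₁U : c₁ ∈ U := by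
    obtain ⟨i, hi⟩ := hAne c₁ hc₁ne hAc₁
    simp only [hU, Finset.mem_filter, Finset.mem_image]
    refine ⟨⟨i, ?_, hi⟩, rfl⟩
    rw [memI1, hi]
  have := hzero (c₁ / r) (Finset.mem_image_of_mem _ hc₁U)
  simp only [div_mul_cancel₀ _ hrC] at this
  exact hAc₁ this

end Fermat.Agent.S20.helper85
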