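import Mathlib.NumberTheory.ModularForms.EisensteinSeries.Basic
import Mathlib.NumberTheory.ModularForms.NormTrace
import Mathlib.NumberTheory.ModularForms.CongruenceSubgroups

/-!
# The Eisenstein series of the cusp `∞` of `Γ₀(N)`

`eisGamma0 N hk : ModularForm (Gamma0 N) k` is the sum of the Mathlib level `Γ(N)` Eisenstein
series with congruence conditions `(0, d)`, `d` running over the units of `ZMod N`.
-/

set_option autoImplicit false

namespace Fermat.Agent.S20.helper41

open UpperHalfPlane ModularForm EisensteinSeries CongruenceSubgroup Matrix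
open scoped MatrixGroups

variable (N : ℕ)

/-- The congruence condition `(0, d)`. -/
def unitRow (d : (ZMod N)ˣ) : Fin 2 → ZMod N := ![0, (d : ZMod N)]

/-- The underlying function of the Eisenstein series for `Γ₀(N)`. -/
noncomputable def eisFun [NeZero N] (k : ℤ) : ℍ → ℂ :=
  fun z => ∑ d : (ZMod N)ˣ, eisensteinSeries (unitRow N d) k z

lemma eisFun_eq_sum [NeZero N] (k : ℤ) :
    eisFun N k = ∑ d : (ZMod N)ˣ, eisensteinSeries (unitRow N d) k := by
  ext z; simp [eisFun]

lemma eisFun_slash [NeZero N] (k : ℤ) (γ : SL(2, ℤ)) :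
    eisFun N k ∣[k] γ = ∑ d : (ZMod N)ˣ,
      eisensteinSeries (unitRow N d ᵥ* (γ.map (Int.castRingHom (ZMod N))).1) k := by
  rw [eisFun_eq_sum, SL_slash, SlashAction.sum_slash]
  refine Finset.sum_congr rfl fun d _ => ?_
  rw [← SL_slash, eisensteinSeries_slash_apply]

/-- The unit `γ₁₁ mod N` attached to an element of `Γ₀(N)`. -/
def gamma0Unit {γ : SL(2, ℤ)} (hγ : γ ∈ Gamma0 N) : (ZMod N)ˣ where
  val := ((γ 1 1 : ℤ) : ZMod N)
  inv := ((γ 0 0 : ℤ) : ZMod N)
  val_inv := by
    have hdet := γ.det_coe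
    rw [Matrix.det_fin_two] at hdet
    have h10 : ((γ 1 0 : ℤ) : ZMod N) = 0 := Gamma0_mem.mp hγ
    have := congrArg (fun x : ℤ => (x : ZMod N)) hdet
    simp only [Int.cast_sub, Int.cast_mul, Int.cast_one, h10, mul_zero, sub_zero] at this
    rw [mul_comm]; exact this
  inv_val := by
    have hdet := γ.det_coe
    rw [Matrix.det_fin_two] at hdet
    have h10 : ((γ 1 0 : ℤ) : ZMod N) = 0 := Gamma0_mem.mp hγ
    have := congrArg (fun x : ℤ => (x : ZMod N)) hdet
    simp only [Int.cast_sub, Int.cast_mul, Int.cast_one, h10, mul_zero, sub_zero] at this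
    exact this

lemma unitRow_vecMul_of_mem_Gamma0 {γ : SL(2, ℤ)} (hγ : γ ∈ Gamma0 N) (d : (ZMod N)ˣ) :
    unitRow N d ᵥ* (γ.map (Int.castRingHom (ZMod N))).1 = unitRow N (d * gamma0Unit N hγ) := by
  have h10 : ((γ 1 0 : ℤ) : ZMod N) = 0 := Gamma0_mem.mp hγ
  ext i
  fin_cases i
  · simp [unitRow, gamma0Unit, Matrix.vecMul, vecHead, vecTail, h10]
  · simp [unitRow, gamma0Unit, Matrix.vecMul, vecHead, vecTail]

lemma eisFun_slash_of_mem_Gamma0 [NeZero N] (k : ℤ) {γ : SL(2, ℤ)} (hγ : γ ∈ Gamma0 N) :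
    eisFun N k ∣[k] γ = eisFun N k := by
  rw [eisFun_slash, eisFun_eq_sum]
  simp_rw [unitRow_vecMul_of_mem_Gamma0 N hγ]
  exact Equiv.sum_comp (Equiv.mulRight (gamma0Unit N hγ))
    (fun d => eisensteinSeries (unitRow N d) k)

/-- The Eisenstein series of weight `k ≥ 3` for the cusp `∞` of `Γ₀(N)`. -/
noncomputable def eisGamma0 [NeZero N] {k : ℤ} (hk : 3 ≤ k) : ModularForm (Gamma0 N) k where
  toFun := eisFun N k
  slash_action_eq' A hA := by
    obtain ⟨γ, hγ, rfl⟩ := hA
    have := eisFun_slash_of_mem_Gamma0 N k hγ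
    rw [SL_slash] at this
    exact this
  holo' := by
    rw [show (⇑({ toFun := eisFun N k, slash_action_eq' := _ } :
      SlashInvariantForm (Gamma0 N) k)) = eisFun N k from rfl, eisFun_eq_sum]
    exact .sum fun d _ => eisensteinSeriesSIF_mdifferentiable hk (unitRow N d)
  bdd_at_cusps' {c} hc := by
    rw [Subgroup.IsArithmetic.isCusp_iff_isCusp_SL2Z] at hc
    rw [OnePoint.isBoundedAt_iff_forall_SL2Z hc]
    intro γ _
    show IsBoundedAtImInfty (eisFun N k ∣[k] γ)
    rw [eisFun_eq_sum, SL_slash, SlashAction.sum_slash]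
    simp_rw [← SL_slash]
    rw [IsBoundedAtImInfty, Filter.BoundedAtFilter, Finset.sum_fn]
    refine .fun_sum fun d _ => ?_
    exact isBoundedAtImInfty_eisensteinSeriesSIF (unitRow N d) hk γ

@[simp] lemma eisGamma0_coe [NeZero N] {k : ℤ} (hk : 3 ≤ k) :
    ⇑(eisGamma0 N hk) = eisFun N k := rfl

end Fermat.Agent.S20.helper41
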