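/-
S20 package (1), helper85: lattice facts used for the interpolation at elliptic points.

* `lin v τ = v 0 * τ + v 1`, injectivity, behaviour under `v ↦ v ᵥ* γ`;
* finiteness of `{v | ε ≤ ‖lin v τ‖ ^ (-m)}`;
* the class `EisClass N γ` of bottom rows of the coset `Γ₀(N) γ`.
-/
import Mathlib.NumberTheory.ModularForms.EisensteinSeries.Basic
import Mathlib.NumberTheory.ModularForms.CongruenceSubgroups

set_option autoImplicit false

open UpperHalfPlane ModularForm CongruenceSubgroup EisensteinSeries Matrix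
open scoped MatrixGroups

namespace Fermat.Agent.S20.helper85

/-- The linear form `v 0 * τ + v 1`. -/
noncomputable def lin (v : Fin 2 → ℤ) (τ : ℍ) : ℂ := (v 0 : ℂ) * τ + v 1

lemma eisSummand_eq_lin (k : ℤ) (v : Fin 2 → ℤ) (τ : ℍ) :
    eisSummand k v τ = lin v τ ^ (-k) := rfl

lemma lin_ne_zero {v : Fin 2 → ℤ} (hv : v ≠ 0) (τ : ℍ) : lin v τ ≠ 0 := by
  have h : (fun i => (v i : ℝ)) ≠ 0 := by
    intro h
    apply hv
    ext i
    have := congrFun h i
    simpa using this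
  have := UpperHalfPlane.linear_ne_zero (cd := fun i => (v i : ℝ)) τ h
  simpa [lin] using this

lemma lin_zero (τ : ℍ) : lin 0 τ = 0 := by simp [lin]

lemma lin_eq_zero_iff {v : Fin 2 → ℤ} (τ : ℍ) : lin v τ = 0 ↔ v = 0 :=
  ⟨fun h => by_contra fun hv => lin_ne_zero hv τ h, fun h => h ▸ lin_zero τ⟩

lemma lin_sub (v w : Fin 2 → ℤ) (τ : ℍ) : lin (v - w) τ = lin v τ - lin w τ := by
  simp [lin]; ring

lemma lin_injective (τ : ℍ) : Function.Injective (fun v : Fin 2 → ℤ => lin v τ) := by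
  intro v w h
  have : lin (v - w) τ = 0 := by rw [lin_sub]; exact sub_eq_zero.mpr h
  exact sub_eq_zero.mp ((lin_eq_zero_iff τ).mp this)

/-- `lin (v γ) τ = denom γ τ * lin v (γ τ)`. -/
lemma lin_vecMul (v : Fin 2 → ℤ) (γ : SL(2, ℤ)) (τ : ℍ) :
    lin (v ᵥ* γ.1) τ = denom γ τ * lin v (γ • τ) := by
  have hd : denom γ τ ≠ 0 := denom_ne_zero γ τ
  have h1 : ((γ • τ : ℍ) : ℂ) = (((γ 0 0 : ℤ) : ℂ) * τ + ((γ 0 1 : ℤ) : ℂ)) / denom γ τ := by
    rw [UpperHalfPlane.coe_specialLinearGroup_apply]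
    simp [denom]
  have h2 : denom γ τ = ((γ 1 0 : ℤ) : ℂ) * τ + ((γ 1 1 : ℤ) : ℂ) := by
    simp [denom]
  simp only [lin, h1, vecMul, vec2_dotProduct]
  field_simp
  rw [h2]
  push_cast
  ring

/-- The bottom row of a matrix in `SL(2, ℤ)`. -/
def brow (g : SL(2, ℤ)) : Fin 2 → ℤ := fun i => g 1 i

lemma brow_mul (g γ : SL(2, ℤ)) : brow (g * γ) = brow g ᵥ* γ.1 := by
  ext i
  simp [brow, Matrix.mul_apply, vecMul, dotProduct, Fin.sum_univ_two]

lemma brow_ne_zero (g : SL(2, ℤ)) : brow g ≠ 0 := by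
  intro h
  have h0 : g 1 0 = 0 := congrFun h 0
  have h1 : g 1 1 = 0 := congrFun h 1
  have hdet := g.det_coe
  rw [Matrix.det_fin_two] at hdet
  rw [h0, h1] at hdet
  simp at hdet

lemma isCoprime_brow (g : SL(2, ℤ)) : IsCoprime (brow g 0) (brow g 1) := by
  have hdet := g.det_coe
  rw [Matrix.det_fin_two] at hdet
  exact ⟨-(g 0 1), g 0 0, by simp only [brow]; linarith⟩

lemma exists_brow_eq {v : Fin 2 → ℤ} (hv : IsCoprime (v 0) (v 1)) : ∃ g : SL(2, ℤ), brow g = v := by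
  obtain ⟨g, h0, h1⟩ := hv.exists_SL2_row 1
  refine ⟨g, ?_⟩
  ext i
  fin_cases i
  · exact h0
  · exact h1

/-- The class of lattice vectors attached to the right coset `Γ₀(N) γ`: coprime vectors which are
unit multiples of the bottom row of `γ` modulo `N`. -/
def EisClass (N : ℕ) (γ : SL(2, ℤ)) (v : Fin 2 → ℤ) : Prop :=
  IsCoprime (v 0) (v 1) ∧ ∃ u : (ZMod N)ˣ,
    ((v 0 : ℤ) : ZMod N) = u * ((γ 1 0 : ℤ) : ZMod N) ∧
    ((v 1 : ℤ) : ZMod N) = u * ((γ 1 1 : ℤ) : ZMod N)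

lemma mul_inv_one_zero (g γ : SL(2, ℤ)) :
    (g * γ⁻¹) 1 0 = g 1 0 * γ 1 1 - g 1 1 * γ 1 0 := by
  change (g.1 * (γ⁻¹).1) 1 0 = _
  rw [Matrix.SpecialLinearGroup.SL2_inv_expl, Matrix.mul_apply, Fin.sum_univ_two]
  simp
  ring

/-- A matrix `g` has its bottom row in the class of `γ` iff `g ∈ Γ₀(N) γ`. -/
lemma eisClass_brow_iff (N : ℕ) (γ g : SL(2, ℤ)) :
    EisClass N γ (brow g) ↔ g * γ⁻¹ ∈ Gamma0 N := by
  rw [Gamma0_mem, mul_inv_one_zero]
  constructor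
  · rintro ⟨-, u, h0, h1⟩
    simp only [brow] at h0 h1
    push_cast
    rw [h0, h1]
    ring
  · intro h
    refine ⟨isCoprime_brow g, ?_⟩
    -- β = g γ⁻¹, g = β γ
    set β := g * γ⁻¹ with hβ
    have hg : g = β * γ := by simp [hβ]
    have hβ10 : ((β 1 0 : ℤ) : ZMod N) = 0 := by
      rw [hβ, mul_inv_one_zero]; exact h
    have hdet := β.det_coe
    rw [Matrix.det_fin_two] at hdet
    have hdet' := congrArg (fun x : ℤ => (x : ZMod N)) hdet
    simp only [Int.cast_sub, Int.cast_mul, Int.cast_one, hβ10, mul_zero, sub_zero] at hdet'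
    refine ⟨⟨((β 1 1 : ℤ) : ZMod N), ((β 0 0 : ℤ) : ZMod N), by rw [mul_comm]; exact hdet',
      hdet'⟩, ?_, ?_⟩
    · simp only [brow]
      rw [hg]
      change (((β.1 * γ.1) 1 0 : ℤ) : ZMod N) = _
      rw [Matrix.mul_apply, Fin.sum_univ_two]
      push_cast
      rw [hβ10]
      ring
    · simp only [brow]
      rw [hg]
      change (((β.1 * γ.1) 1 1 : ℤ) : ZMod N) = _
      rw [Matrix.mul_apply, Fin.sum_univ_two]
      push_cast
      rw [hβ10]
      ring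

lemma eisClass_iff_exists (N : ℕ) (γ : SL(2, ℤ)) (v : Fin 2 → ℤ) :
    EisClass N γ v ↔ ∃ g : SL(2, ℤ), brow g = v ∧ g * γ⁻¹ ∈ Gamma0 N := by
  constructor
  · intro h
    obtain ⟨g, rfl⟩ := exists_brow_eq h.1
    exact ⟨g, rfl, (eisClass_brow_iff N γ g).mp h⟩
  · rintro ⟨g, rfl, hg⟩
    exact (eisClass_brow_iff N γ g).mpr hg

end Fermat.Agent.S20.helper85
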