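/-
S20 package (1), helper85: evaluation formula for the translates of the Eisenstein series of
`Γ₀(N)` (built by helper41) as a lattice sum over the class `EisClass N γ`.
-/
import Fermat.Agent.S20.helper41_EisGamma0
import Fermat.Agent.S20.helper85_Lattice

set_option autoImplicit false

open UpperHalfPlane ModularForm CongruenceSubgroup EisensteinSeries Matrix
open scoped MatrixGroups

namespace Fermat.Agent.S20.helper85

open Fermat.Agent.S20.helper41

variable (N : ℕ)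

/-- the rows `unitRow N d ᵥ* γ̄` explicitly. -/
lemma unitRow_vecMul (γ : SL(2, ℤ)) (d : (ZMod N)ˣ) :
    unitRow N d ᵥ* (γ.map (Int.castRingHom (ZMod N))).1 =
      ![(d : ZMod N) * ((γ 1 0 : ℤ) : ZMod N), (d : ZMod N) * ((γ 1 1 : ℤ) : ZMod N)] := by
  ext i
  fin_cases i
  · simp [unitRow, Matrix.vecMul, vecHead, vecTail]
  · simp [unitRow, Matrix.vecMul, vecHead, vecTail]

lemma mem_gammaSet_unitRow_iff (γ : SL(2, ℤ)) (d : (ZMod N)ˣ) (v : Fin 2 → ℤ) :
    v ∈ gammaSet N 1 (unitRow N d ᵥ* (γ.map (Int.castRingHom (ZMod N))).1) ↔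
      IsCoprime (v 0) (v 1) ∧ ((v 0 : ℤ) : ZMod N) = d * ((γ 1 0 : ℤ) : ZMod N) ∧
        ((v 1 : ℤ) : ZMod N) = d * ((γ 1 1 : ℤ) : ZMod N) := by
  rw [unitRow_vecMul]
  simp only [gammaSet, Set.mem_ofPred_eq]
  rw [Int.isCoprime_iff_gcd_eq_one]
  constructor
  · rintro ⟨h1, h2⟩
    refine ⟨h2, ?_, ?_⟩
    · simpa using congrFun h1 0
    · simpa using congrFun h1 1
  · rintro ⟨h2, h0, h1⟩
    refine ⟨?_, h2⟩
    ext i
    fin_cases i
    · simpa using h0
    · simpa using h1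

/-- the unit `d` in the definition of `EisClass` is unique. -/
lemma eisClass_unit_unique (γ : SL(2, ℤ)) (v : Fin 2 → ℤ) (d d' : (ZMod N)ˣ)
    (h0 : ((v 0 : ℤ) : ZMod N) = d * ((γ 1 0 : ℤ) : ZMod N))
    (h1 : ((v 1 : ℤ) : ZMod N) = d * ((γ 1 1 : ℤ) : ZMod N))
    (h0' : ((v 0 : ℤ) : ZMod N) = d' * ((γ 1 0 : ℤ) : ZMod N))
    (h1' : ((v 1 : ℤ) : ZMod N) = d' * ((γ 1 1 : ℤ) : ZMod N)) : d = d' := by
  have hdet := γ.det_coe
  rw [Matrix.det_fin_two] at hdet
  have hdet' := congrArg (fun x : ℤ => (x : ZMod N)) hdet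
  simp only [Int.cast_sub, Int.cast_mul, Int.cast_one] at hdet'
  apply Units.ext
  have e1 : (d : ZMod N) = ((γ 0 0 : ℤ) : ZMod N) * ((v 1 : ℤ) : ZMod N)
      - ((γ 0 1 : ℤ) : ZMod N) * ((v 0 : ℤ) : ZMod N) := by
    rw [h0, h1]
    linear_combination (-(d : ZMod N)) * hdet'
  have e2 : (d' : ZMod N) = ((γ 0 0 : ℤ) : ZMod N) * ((v 1 : ℤ) : ZMod N)
      - ((γ 0 1 : ℤ) : ZMod N) * ((v 0 : ℤ) : ZMod N) := by
    rw [h0', h1']
    linear_combination (-(d' : ZMod N)) * hdet'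
  rw [e1, e2]

open Classical in
/-- Evaluation formula: the translate by `γ` of the Eisenstein series of `Γ₀(N)` is the lattice
sum over the class of `γ`. -/
theorem eisFun_slash_apply_eq_tsum [NeZero N] {k : ℤ} (hk : 3 ≤ k) (γ : SL(2, ℤ)) (τ : ℍ) :
    (eisFun N k ∣[k] γ) τ
      = ∑' v : Fin 2 → ℤ, if EisClass N γ v then eisSummand k v τ else 0 := by
  rw [eisFun_slash, Finset.sum_apply]
  simp only [eisensteinSeries]
  have hsum : ∀ d : (ZMod N)ˣ, Summable
      ((gammaSet N 1 (unitRow N d ᵥ* (γ.map (Int.castRingHom (ZMod N))).1)).indicator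
        (fun v => eisSummand k v τ)) := fun d =>
    ((summable_norm_eisSummand hk τ).of_norm).indicator _
  have h1 : ∀ d : (ZMod N)ˣ,
      ∑' x : gammaSet N 1 (unitRow N d ᵥ* (γ.map (Int.castRingHom (ZMod N))).1),
        eisSummand k x τ
      = ∑' v : Fin 2 → ℤ,
        (gammaSet N 1 (unitRow N d ᵥ* (γ.map (Int.castRingHom (ZMod N))).1)).indicator
          (fun v => eisSummand k v τ) v := fun d => by
    rw [← tsum_subtype]
  simp_rw [h1]
  rw [← Summable.tsum_finsetSum (fun d _ => hsum d)]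
  refine tsum_congr fun v => ?_
  by_cases hv : EisClass N γ v
  · rw [if_pos hv]
    obtain ⟨hc, d₀, h0, h1⟩ := hv
    rw [Finset.sum_eq_single d₀]
    · rw [Set.indicator_of_mem]
      exact (mem_gammaSet_unitRow_iff N γ d₀ v).mpr ⟨hc, h0, h1⟩
    · intro d _ hd
      rw [Set.indicator_of_notMem]
      intro hmem
      obtain ⟨-, h0', h1'⟩ := (mem_gammaSet_unitRow_iff N γ d v).mp hmem
      exact hd (eisClass_unit_unique N γ v d d₀ h0' h1' h0 h1)
    · intro h; exact absurd (Finset.mem_univ _) h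
  · rw [if_neg hv]
    refine Finset.sum_eq_zero fun d _ => ?_
    rw [Set.indicator_of_notMem]
    intro hmem
    obtain ⟨hc, h0', h1'⟩ := (mem_gammaSet_unitRow_iff N γ d v).mp hmem
    exact hv ⟨hc, d, h0', h1'⟩

end Fermat.Agent.S20.helper85
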