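/-
S20 package (1), helper85: the evaluation vectors of the Eisenstein series of `Γ₀(N)` at a point
`τ₀` fixed by `δ ∈ SL(2, ℤ)` span the whole space of `δ`-equivariant vectors.
-/
import Fermat.Agent.S20.helper85_DirichletUniq
import Fermat.Agent.S20.helper85_EisEval
import Mathlib.LinearAlgebra.Basis.VectorSpace
import Mathlib.RingTheory.RootsOfUnity.PrimitiveRoots

set_option autoImplicit false

open UpperHalfPlane ModularForm CongruenceSubgroup EisensteinSeries Matrix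
open scoped MatrixGroups

namespace Fermat.Agent.S20.helper85

open Fermat.Agent.S20.helper41

/-- `q v = (v 0 * τ + v 1)⁻¹`. -/
noncomputable def qinv (τ : ℍ) (v : Fin 2 → ℤ) : ℂ := (lin v τ)⁻¹

lemma eisSummand_natCast (k : ℕ) (v : Fin 2 → ℤ) (τ : ℍ) :
    eisSummand (k : ℤ) v τ = qinv τ v ^ k := by
  rw [eisSummand_eq_lin, qinv, zpow_neg, zpow_natCast, inv_pow]

lemma qinv_ne_zero {v : Fin 2 → ℤ} (hv : v ≠ 0) (τ : ℍ) : qinv τ v ≠ 0 :=
  inv_ne_zero (lin_ne_zero hv τ)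

/-- `lin (v δ^j) τ₀ = ε^j lin v τ₀` if `δ τ₀ = τ₀`, `ε = denom δ τ₀`. -/
lemma lin_vecMul_pow (τ₀ : ℍ) (δ : SL(2, ℤ)) (hδ : δ • τ₀ = τ₀) (v : Fin 2 → ℤ) (j : ℕ) :
    lin (v ᵥ* (δ ^ j).1) τ₀ = denom δ τ₀ ^ j * lin v τ₀ := by
  induction j with
  | zero => simp
  | succ j ih =>
    have : (δ ^ (j + 1)).1 = (δ ^ j).1 * δ.1 := by
      rw [pow_succ]; rfl
    rw [this, ← Matrix.vecMul_vecMul, lin_vecMul, hδ, ih]
    ring

lemma finite_le_norm_qinv_pow (τ : ℍ) (m : ℕ) (hm : 0 < m) (ε : ℝ) (hε : 0 < ε) :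
    {v : Fin 2 → ℤ | ε ≤ ‖qinv τ v ^ m‖}.Finite := by
  have hk : (3 : ℤ) ≤ ((3 * m : ℕ) : ℤ) := by
    have : 3 ≤ 3 * m := by omega
    exact_mod_cast this
  have h1 := (summable_norm_eisSummand hk τ).tendsto_cofinite_zero
  have h2 := h1.eventually (gt_mem_nhds (pow_pos hε 3))
  rw [Filter.eventually_cofinite] at h2
  refine h2.subset ?_
  intro v hv
  simp only [Set.mem_ofPred_eq, not_lt] at hv ⊢
  rw [eisSummand_natCast, mul_comm 3 m, pow_mul, norm_pow]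
  exact pow_le_pow_left₀ hε.le hv 3

lemma summable_norm_qinv_pow (τ : ℍ) (k : ℕ) (hk : 3 ≤ k) :
    Summable fun v : Fin 2 → ℤ => ‖qinv τ v ^ k‖ := by
  have hk' : (3 : ℤ) ≤ (k : ℤ) := by exact_mod_cast hk
  have := summable_norm_eisSummand hk' τ
  simpa only [eisSummand_natCast] using this

section cosets

variable (N : ℕ) [NeZero N]

/-- The finite set of left cosets `SL(2, ℤ) ⧸ Γ₀(N)`. -/
abbrev Xq : Type := SL(2, ℤ) ⧸ Gamma0 N

noncomputable instance instFintypeXq : Fintype (Xq N) := Fintype.ofFinite _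

open Classical in
/-- The coefficient function on the lattice attached to a functional `ℓ` on `ℂ^X`. -/
noncomputable def Lfun (ℓ : Xq N → ℂ) (v : Fin 2 → ℤ) : ℂ :=
  ∑ x : Xq N, if EisClass N (x.out)⁻¹ v then ℓ x else 0

omit [NeZero N] in
lemma eisClass_out_inv_brow_iff (x : Xq N) (g : SL(2, ℤ)) :
    EisClass N (x.out)⁻¹ (brow g) ↔ x = ((g⁻¹ : SL(2, ℤ)) : Xq N) := by
  rw [eisClass_brow_iff, inv_inv]
  constructor
  · intro h
    have : ((g⁻¹ : SL(2, ℤ)) : Xq N) = ((x.out : SL(2, ℤ)) : Xq N) := by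
      rw [QuotientGroup.eq, inv_inv]; exact h
    rw [this, QuotientGroup.out_eq']
  · intro h
    have : ((g⁻¹ : SL(2, ℤ)) : Xq N) = ((x.out : SL(2, ℤ)) : Xq N) := by
      rw [QuotientGroup.out_eq']; exact h.symm
    rw [QuotientGroup.eq, inv_inv] at this
    exact this

lemma Lfun_brow (ℓ : Xq N → ℂ) (g : SL(2, ℤ)) :
    Lfun N ℓ (brow g) = ℓ ((g⁻¹ : SL(2, ℤ)) : Xq N) := by
  classical
  unfold Lfun
  rw [Finset.sum_eq_single ((g⁻¹ : SL(2, ℤ)) : Xq N)]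
  · rw [if_pos ((eisClass_out_inv_brow_iff N _ g).mpr rfl)]
  · intro x _ hx
    rw [if_neg]
    intro h
    exact hx ((eisClass_out_inv_brow_iff N x g).mp h)
  · intro h; exact absurd (Finset.mem_univ _) h

lemma norm_Lfun_le (ℓ : Xq N → ℂ) (v : Fin 2 → ℤ) : ‖Lfun N ℓ v‖ ≤ ∑ x : Xq N, ‖ℓ x‖ := by
  classical
  unfold Lfun
  refine (norm_sum_le _ _).trans (Finset.sum_le_sum fun x _ => ?_)
  split_ifs
  · exact le_rfl
  · simp

/-- The evaluation vector at `τ₀` of the weight `k` Eisenstein series of `Γ₀(N)`. -/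
noncomputable def evec (k : ℤ) (τ₀ : ℍ) : Xq N → ℂ :=
  fun x => (eisFun N k ∣[k] (x.out)⁻¹) τ₀

lemma sum_mul_evec (ℓ : Xq N → ℂ) (k : ℕ) (hk : 3 ≤ k) (τ₀ : ℍ) :
    ∑ x : Xq N, ℓ x * evec N (k : ℤ) τ₀ x = ∑' v : Fin 2 → ℤ, Lfun N ℓ v * qinv τ₀ v ^ k := by
  classical
  have hk' : (3 : ℤ) ≤ (k : ℤ) := by exact_mod_cast hk
  have hs : ∀ x : Xq N, Summable fun v : Fin 2 → ℤ =>
      ℓ x * (if EisClass N (x.out)⁻¹ v then eisSummand (k : ℤ) v τ₀ else 0) := by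
    intro x
    refine Summable.mul_left _ ?_
    have := ((summable_norm_eisSummand hk' τ₀).of_norm).indicator {v | EisClass N (x.out)⁻¹ v}
    refine this.congr fun v => ?_
    by_cases h : EisClass N (x.out)⁻¹ v
    · rw [Set.indicator_of_mem (by exact h), if_pos h]
    · rw [Set.indicator_of_notMem (by exact h), if_neg h]
  have h1 : ∀ x : Xq N, ℓ x * evec N (k : ℤ) τ₀ x
      = ∑' v : Fin 2 → ℤ,
        ℓ x * (if EisClass N (x.out)⁻¹ v then eisSummand (k : ℤ) v τ₀ else 0) := by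
    intro x
    rw [evec, eisFun_slash_apply_eq_tsum N hk', tsum_mul_left]
  simp_rw [h1]
  rw [← Summable.tsum_finsetSum (fun x _ => hs x)]
  refine tsum_congr fun v => ?_
  unfold Lfun
  rw [Finset.sum_mul]
  refine Finset.sum_congr rfl fun x _ => ?_
  rw [eisSummand_natCast]
  split_ifs <;> simp

/-- Key consequence of the uniqueness of Dirichlet series: a functional `ℓ` killing all the
evaluation vectors of weights `k₁ + m n` satisfies a twisted averaging relation. -/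
lemma sum_twist_eq_zero (τ₀ : ℍ) (δ : SL(2, ℤ)) (hδ : δ • τ₀ = τ₀) (m : ℕ) (hm : 0 < m)
    (hprim : IsPrimitiveRoot (denom δ τ₀) m) (k₁ : ℕ) (hk₁ : 3 ≤ k₁) (ℓ : Xq N → ℂ)
    (hℓ : ∀ n : ℕ, ∑ x : Xq N, ℓ x * evec N ((k₁ + m * n : ℕ) : ℤ) τ₀ x = 0) (x : Xq N) :
    ∑ j ∈ Finset.range m, ℓ ((δ ^ j)⁻¹ • x) * ((denom δ τ₀ ^ j)⁻¹) ^ k₁ = 0 := by
  classical
  have : NeZero m := ⟨hm.ne'⟩
  set ε := denom δ τ₀ with hε
  have hε0 : ε ≠ 0 := denom_ne_zero δ τ₀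
  induction x using QuotientGroup.induction_on with
  | H g' =>
  set g : SL(2, ℤ) := g'⁻¹ with hg
  -- apply the uniqueness of Dirichlet series
  have hD := dirichlet_uniqueness (fun v : Fin 2 → ℤ => Lfun N ℓ v * qinv τ₀ v ^ k₁)
    (fun v => qinv τ₀ v ^ m) 0 (fun e he => finite_le_norm_qinv_pow τ₀ m hm e he)
    (by
      simp only [pow_zero, mul_one]
      refine Summable.of_nonneg_of_le (fun _ => norm_nonneg _) (fun v => ?_)
        ((summable_norm_qinv_pow τ₀ k₁ hk₁).mul_left (∑ x : Xq N, ‖ℓ x‖))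
      rw [norm_mul]
      exact mul_le_mul_of_nonneg_right (norm_Lfun_le N ℓ v) (norm_nonneg _))
    (by
      intro n _
      rw [← hℓ n, sum_mul_evec N ℓ (k₁ + m * n) (by omega) τ₀]
      refine tsum_congr fun v => ?_
      rw [pow_add, pow_mul]
      ring)
    (qinv τ₀ (brow g) ^ m) (pow_ne_zero _ (qinv_ne_zero (brow_ne_zero g) τ₀))
    ((Finset.range m).image fun j => brow (g * δ ^ j))
    (by
      intro v
      simp only [Finset.mem_image, Finset.mem_range]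
      constructor
      · rintro ⟨j, -, rfl⟩
        rw [brow_mul, qinv, qinv, lin_vecMul_pow τ₀ δ hδ, mul_inv, mul_pow, inv_pow, ← pow_mul,
          mul_comm j m, pow_mul, hprim.pow_eq_one, one_pow, inv_one, one_mul]
      · intro h
        have hv : v ≠ 0 := by
          rintro rfl
          rw [qinv, lin_zero, _root_.inv_zero, zero_pow hm.ne'] at h
          exact pow_ne_zero _ (qinv_ne_zero (brow_ne_zero g) τ₀) h.symm
        have h1 : (lin v τ₀ / lin (brow g) τ₀) ^ m = 1 := by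
          rw [qinv, qinv, inv_pow, inv_pow, _root_.inv_inj] at h
          rw [div_pow, h, div_self]
          exact pow_ne_zero _ (lin_ne_zero (brow_ne_zero g) τ₀)
        obtain ⟨j, hj, hj'⟩ := hprim.eq_pow_of_pow_eq_one h1
        refine ⟨j, hj, ?_⟩
        apply lin_injective τ₀
        simp only
        rw [brow_mul, lin_vecMul_pow τ₀ δ hδ, hj',
          div_mul_cancel₀ _ (lin_ne_zero (brow_ne_zero g) τ₀)])
  rw [Finset.sum_image] at hD
  · have hq : qinv τ₀ (brow g) ^ k₁ ≠ 0 := pow_ne_zero _ (qinv_ne_zero (brow_ne_zero g) τ₀)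
    have h2 : ∀ j ∈ Finset.range m,
        Lfun N ℓ (brow (g * δ ^ j)) * qinv τ₀ (brow (g * δ ^ j)) ^ k₁
          = (ℓ ((δ ^ j)⁻¹ • ((g' : SL(2, ℤ)) : Xq N)) * ((ε ^ j)⁻¹) ^ k₁)
            * qinv τ₀ (brow g) ^ k₁ := by
      intro j _
      rw [Lfun_brow, brow_mul, qinv, qinv, lin_vecMul_pow τ₀ δ hδ, mul_inv, mul_pow]
      have : (((g * δ ^ j)⁻¹ : SL(2, ℤ)) : Xq N) = (δ ^ j)⁻¹ • ((g' : SL(2, ℤ)) : Xq N) := by
        rw [_root_.mul_inv_rev, hg, inv_inv]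
        rfl
      rw [this]
      ring
    rw [Finset.sum_congr rfl h2, ← Finset.sum_mul] at hD
    exact (mul_eq_zero.mp hD).resolve_right hq
  · intro i hi j hj hij
    simp only [Finset.coe_range, Set.mem_Iio] at hi hj
    have h3 := congrArg (fun v => lin v τ₀) hij
    simp only [brow_mul, lin_vecMul_pow τ₀ δ hδ] at h3
    have h4 := mul_right_cancel₀ (lin_ne_zero (brow_ne_zero g) τ₀) h3
    exact hprim.pow_inj hi hj h4

/-- The evaluation vectors of the Eisenstein series of weights `k₁ + m n` span the space of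
`δ`-equivariant vectors. -/
theorem mem_span_evec (τ₀ : ℍ) (δ : SL(2, ℤ)) (hδ : δ • τ₀ = τ₀) (m : ℕ) (hm : 0 < m)
    (hprim : IsPrimitiveRoot (denom δ τ₀) m) (k₁ : ℕ) (hk₁ : 3 ≤ k₁) (w : Xq N → ℂ)
    (hw : ∀ x, w (δ⁻¹ • x) = ((denom δ τ₀)⁻¹) ^ k₁ * w x) :
    w ∈ Submodule.span ℂ (Set.range fun n : ℕ => evec N ((k₁ + m * n : ℕ) : ℤ) τ₀) := by
  classical
  by_contra hnot
  obtain ⟨φ, hφw, hφS⟩ := Submodule.exists_le_ker_of_notMem hnot
  set ℓ : Xq N → ℂ := fun x => φ (fun y => if x = y then 1 else 0) with hℓdef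
  have hφ : ∀ f : Xq N → ℂ, φ f = ∑ x : Xq N, f x * ℓ x := by
    intro f
    rw [LinearMap.pi_apply_eq_sum_univ φ f]
    rfl
  have hℓ : ∀ n : ℕ, ∑ x : Xq N, ℓ x * evec N ((k₁ + m * n : ℕ) : ℤ) τ₀ x = 0 := by
    intro n
    have h1 : evec N ((k₁ + m * n : ℕ) : ℤ) τ₀ ∈ LinearMap.ker φ :=
      hφS (Submodule.subset_span ⟨n, rfl⟩)
    rw [LinearMap.mem_ker, hφ] at h1
    rw [← h1]
    exact Finset.sum_congr rfl fun x _ => mul_comm _ _
  have key := sum_twist_eq_zero N τ₀ δ hδ m hm hprim k₁ hk₁ ℓ hℓ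
  have hwj : ∀ (j : ℕ) (x : Xq N),
      w ((δ ^ j)⁻¹ • x) = ((denom δ τ₀ ^ j)⁻¹) ^ k₁ * w x := by
    intro j
    induction j with
    | zero => intro x; simp
    | succ j ih =>
      intro x
      have e : (δ ^ (j + 1))⁻¹ • x = δ⁻¹ • ((δ ^ j)⁻¹ • x) := by
        rw [← mul_smul, pow_succ, _root_.mul_inv_rev]
      rw [e, hw, ih, pow_succ, _root_.mul_inv_rev, mul_pow]
      ring
  have h2 : ∀ j ∈ Finset.range m, φ w
      = ∑ x : Xq N, w x * (ℓ ((δ ^ j)⁻¹ • x) * ((denom δ τ₀ ^ j)⁻¹) ^ k₁) := by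
    intro j _
    rw [hφ, ← Equiv.sum_comp (MulAction.toPerm ((δ ^ j)⁻¹)) (fun x => w x * ℓ x)]
    refine Finset.sum_congr rfl fun x _ => ?_
    simp only [MulAction.toPerm_apply]
    rw [hwj]
    ring
  have h3 : (m : ℂ) * φ w = 0 := by
    calc (m : ℂ) * φ w = ∑ j ∈ Finset.range m, φ w := by simp
      _ = ∑ j ∈ Finset.range m, ∑ x : Xq N,
            w x * (ℓ ((δ ^ j)⁻¹ • x) * ((denom δ τ₀ ^ j)⁻¹) ^ k₁) :=
          Finset.sum_congr rfl h2
      _ = ∑ x : Xq N, w x * ∑ j ∈ Finset.range m,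
            (ℓ ((δ ^ j)⁻¹ • x) * ((denom δ τ₀ ^ j)⁻¹) ^ k₁) := by
          rw [Finset.sum_comm]
          exact Finset.sum_congr rfl fun x _ => (Finset.mul_sum _ _ _).symm
      _ = 0 := by
          refine Finset.sum_eq_zero fun x _ => ?_
          rw [key x, mul_zero]
  have hm' : (m : ℂ) ≠ 0 := by exact_mod_cast hm.ne'
  exact hφw ((mul_eq_zero.mp h3).resolve_left hm')

/-- Uniform version: finitely many weights suffice. -/
theorem exists_bound_mem_span_evec (τ₀ : ℍ) (δ : SL(2, ℤ)) (hδ : δ • τ₀ = τ₀) (m : ℕ)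
    (hm : 0 < m) (hprim : IsPrimitiveRoot (denom δ τ₀) m) (k₁ : ℕ) (hk₁ : 3 ≤ k₁) :
    ∃ n₁ : ℕ, ∀ w : Xq N → ℂ, (∀ x, w (δ⁻¹ • x) = ((denom δ τ₀)⁻¹) ^ k₁ * w x) →
      w ∈ Submodule.span ℂ
        (Set.range fun i : Fin n₁ => evec N ((k₁ + m * (i : ℕ) : ℕ) : ℤ) τ₀) := by
  classical
  let T : ℕ →o Submodule ℂ (Xq N → ℂ) :=
    { toFun := fun j => Submodule.span ℂ
        (Set.range fun i : Fin j => evec N ((k₁ + m * (i : ℕ) : ℕ) : ℤ) τ₀)
      monotone' := by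
        intro a b hab
        refine Submodule.span_mono ?_
        rintro _ ⟨i, rfl⟩
        exact ⟨⟨i, lt_of_lt_of_le i.2 hab⟩, rfl⟩ }
  obtain ⟨n₁, hn₁⟩ := monotone_stabilizes_iff_noetherian.mpr
    (inferInstance : IsNoetherian ℂ (Xq N → ℂ)) T
  refine ⟨n₁, fun w hw => ?_⟩
  have h1 := mem_span_evec N τ₀ δ hδ m hm hprim k₁ hk₁ w hw
  have h2 : Submodule.span ℂ (Set.range fun n : ℕ => evec N ((k₁ + m * n : ℕ) : ℤ) τ₀)
      ≤ T n₁ := by
    rw [Submodule.span_le]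
    rintro _ ⟨n, rfl⟩
    have h3 : evec N ((k₁ + m * n : ℕ) : ℤ) τ₀ ∈ T (max (n + 1) n₁) :=
      Submodule.subset_span ⟨⟨n, lt_of_lt_of_le (Nat.lt_succ_self n) (le_max_left _ _)⟩, rfl⟩
    rw [← hn₁ _ (le_max_right _ _)] at h3
    exact h3
  exact h2 h1

end cosets

end Fermat.Agent.S20.helper85
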