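/-
S20 package (1), helper85: unified interpolation theorem at a point `τ₀` fixed by `δ ∈ SL(2, ℤ)`
with `denom δ τ₀` a primitive `m`-th root of unity: for all large weights `k`, every
`δ`-equivariant vector on `SL(2, ℤ) ⧸ Γ₀(N)` is the evaluation vector at `τ₀` of a modular form
of weight `k` on `Γ₀(N)`.
-/
import Fermat.Agent.S20.helper85_Span
import Mathlib.NumberTheory.ModularForms.LevelOne.GradedRing

set_option autoImplicit false

open UpperHalfPlane ModularForm CongruenceSubgroup EisensteinSeries Matrix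
open scoped MatrixGroups

namespace Fermat.Agent.S20.helper85

open Fermat.Agent.S20.helper41

variable (N : ℕ) [NeZero N]

/-- Restriction of a level one modular form to `Γ₀(N)`. -/
noncomputable def restrictLevelOne {k : ℤ} (B : ModularForm 𝒮ℒ k) : ModularForm (Gamma0 N) k where
  toFun := B
  slash_action_eq' A hA := B.slash_action_eq' A (by
    obtain ⟨γ, -, rfl⟩ := hA
    exact ⟨γ, rfl⟩)
  holo' := B.holo'
  bdd_at_cusps' hc := B.bdd_at_cusps' (hc.mono (by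
    rintro _ ⟨γ, -, rfl⟩
    exact ⟨γ, rfl⟩))

omit [NeZero N] in
@[simp] lemma restrictLevelOne_apply {k : ℤ} (B : ModularForm 𝒮ℒ k) (τ : ℍ) :
    restrictLevelOne N B τ = B τ := rfl

/-- A level one form is invariant under the slash action of all of `SL(2, ℤ)`. -/
lemma levelOne_slash {k : ℤ} (B : ModularForm 𝒮ℒ k) (γ : SL(2, ℤ)) :
    (B : ℍ → ℂ) ∣[k] γ = B := by
  rw [SL_slash]
  exact SlashInvariantForm.slash_action_eqn B _ ⟨γ, rfl⟩

/-- The vectors on `SL(2, ℤ) ⧸ Γ₀(N)` which are evaluation vectors at `τ₀` of modular forms of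
weight `k` on `Γ₀(N)`. -/
def realizable (k : ℤ) (τ₀ : ℍ) : Submodule ℂ (Xq N → ℂ) where
  carrier := {w | ∃ f : ModularForm (Gamma0 N) k,
    ∀ g : SL(2, ℤ), ((f : ℍ → ℂ) ∣[k] g⁻¹) τ₀ = w (g : Xq N)}
  add_mem' := by
    rintro w₁ w₂ ⟨f₁, h₁⟩ ⟨f₂, h₂⟩
    refine ⟨f₁ + f₂, fun g => ?_⟩
    rw [Pi.add_apply, ← h₁ g, ← h₂ g]
    simp [SL_slash_apply, add_mul]
  zero_mem' := ⟨0, fun g => by simp [SL_slash_apply]⟩
  smul_mem' := by
    rintro c w ⟨f, h⟩
    refine ⟨c • f, fun g => ?_⟩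
    rw [Pi.smul_apply, ← h g]
    simp [SL_slash_apply, mul_assoc]

omit [NeZero N] in
lemma mem_realizable {k : ℤ} {τ₀ : ℍ} {w : Xq N → ℂ} :
    w ∈ realizable N k τ₀ ↔ ∃ f : ModularForm (Gamma0 N) k,
      ∀ g : SL(2, ℤ), ((f : ℍ → ℂ) ∣[k] g⁻¹) τ₀ = w (g : Xq N) := Iff.rfl

lemma eisFun_slash_mul_of_mem (k : ℤ) {β : SL(2, ℤ)} (hβ : β ∈ Gamma0 N) (γ : SL(2, ℤ)) :
    eisFun N k ∣[k] (β * γ) = eisFun N k ∣[k] γ := by
  rw [SlashAction.slash_mul, eisFun_slash_of_mem_Gamma0 N k hβ]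

lemma evec_mk (k : ℤ) (τ₀ : ℍ) (g : SL(2, ℤ)) :
    evec N k τ₀ (g : Xq N) = (eisFun N k ∣[k] g⁻¹) τ₀ := by
  unfold evec
  have h : ((g : Xq N).out)⁻¹ * g ∈ Gamma0 N := by
    have := QuotientGroup.out_eq' (g : Xq N)
    rw [QuotientGroup.eq] at this
    exact this
  have e : ((g : Xq N).out)⁻¹ = (((g : Xq N).out)⁻¹ * g) * g⁻¹ := by group
  rw [e, eisFun_slash_mul_of_mem N k h]

/-- Multiplying the Eisenstein series by a level one form not vanishing at `τ₀` realizes the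
evaluation vector of the Eisenstein series in higher weight. -/
lemma evec_mem_realizable (τ₀ : ℍ) (k' : ℕ) (hk' : 3 ≤ k') (j : ℤ) (B : ModularForm 𝒮ℒ j)
    (hB : B τ₀ ≠ 0) (k : ℤ) (hk : (k' : ℤ) + j = k) :
    evec N (k' : ℤ) τ₀ ∈ realizable N k τ₀ := by
  have hk3 : (3 : ℤ) ≤ (k' : ℤ) := by exact_mod_cast hk'
  refine ⟨(B τ₀)⁻¹ • ModularForm.mcast hk ((eisGamma0 N hk3).mul (restrictLevelOne N B)),
    fun g => ?_⟩
  rw [evec_mk]
  have h1 : (⇑((B τ₀)⁻¹ • ModularForm.mcast hk ((eisGamma0 N hk3).mul (restrictLevelOne N B)))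
      : ℍ → ℂ) = (B τ₀)⁻¹ • ((eisFun N k') * (B : ℍ → ℂ)) := by
    ext τ
    simp [ModularForm.mcast_apply]
  rw [h1, SL_smul_slash, ← hk, mul_slash_SL2, levelOne_slash]
  simp only [Pi.smul_apply, Pi.mul_apply, smul_eq_mul]
  field_simp

/-- **Unified interpolation theorem.** Let `τ₀` be fixed by `δ ∈ SL(2, ℤ)`, with
`ε = denom δ τ₀` a primitive `m`-th root of unity, and assume that for every `j ≥ 2` there is a
level one form of weight `m j` not vanishing at `τ₀`. Then for all large `k`, every vector `w` on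
`SL(2, ℤ) ⧸ Γ₀(N)` with `w (δ⁻¹ • x) = ε⁻ᵏ w x` is the evaluation vector at `τ₀` of a modular form
of weight `k` on `Γ₀(N)`. -/
theorem interpolation_unified (τ₀ : ℍ) (δ : SL(2, ℤ)) (hδ : δ • τ₀ = τ₀) (m : ℕ) (hm : 0 < m)
    (hprim : IsPrimitiveRoot (denom δ τ₀) m)
    (hB : ∀ j : ℕ, 2 ≤ j → ∃ B : ModularForm 𝒮ℒ ((m * j : ℕ) : ℤ), B τ₀ ≠ 0) :
    ∃ k₀ : ℕ, ∀ k : ℕ, k₀ ≤ k → ∀ w : Xq N → ℂ,
      (∀ x, w (δ⁻¹ • x) = ((denom δ τ₀)⁻¹) ^ k * w x) → w ∈ realizable N (k : ℤ) τ₀ := by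
  classical
  have hex := fun ρ : ℕ => exists_bound_mem_span_evec N τ₀ δ hδ m hm hprim (ρ + 3 * m)
    (by omega)
  choose nb hnb using hex
  refine ⟨(Finset.range m).sup (fun ρ => ρ + 3 * m + m * nb ρ) + 2 * m, fun k hk w hw => ?_⟩
  set ρ := k % m with hρ
  have hρm : ρ < m := Nat.mod_lt _ hm
  have hkdiv : m * (k / m) + ρ = k := Nat.div_add_mod k m
  have hsup : ρ + 3 * m + m * nb ρ ≤ (Finset.range m).sup (fun ρ => ρ + 3 * m + m * nb ρ) :=
    Finset.le_sup (f := fun ρ => ρ + 3 * m + m * nb ρ) (Finset.mem_range.mpr hρm)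
  have hεm : ((denom δ τ₀)⁻¹) ^ m = 1 := by rw [inv_pow, hprim.pow_eq_one, inv_one]
  have hpow : ((denom δ τ₀)⁻¹) ^ k = ((denom δ τ₀)⁻¹) ^ (ρ + 3 * m) := by
    conv_lhs => rw [← hkdiv]
    rw [pow_add, pow_mul, hεm, one_pow, one_mul, pow_add, mul_comm 3 m, pow_mul, hεm, one_pow,
      mul_one]
  have hw' : ∀ x, w (δ⁻¹ • x) = ((denom δ τ₀)⁻¹) ^ (ρ + 3 * m) * w x := by
    intro x; rw [hw x, hpow]
  have hmem := hnb ρ w hw'
  have hle : Submodule.span ℂ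
      (Set.range fun i : Fin (nb ρ) => evec N ((ρ + 3 * m + m * (i : ℕ) : ℕ) : ℤ) τ₀)
      ≤ realizable N (k : ℤ) τ₀ := by
    rw [Submodule.span_le]
    rintro _ ⟨i, rfl⟩
    have hi : (i : ℕ) < nb ρ := i.2
    -- the quotient k / m is large
    have h5 : nb ρ + 5 ≤ k / m := by
      have h6 : m * (nb ρ + 5) ≤ m * (k / m) := by
        have : ρ + 3 * m + m * nb ρ + 2 * m ≤ m * (k / m) + ρ := by omega
        nlinarith
      exact Nat.le_of_mul_le_mul_left h6 hm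
    obtain ⟨B, hBne⟩ := hB (k / m - 3 - i) (by omega)
    refine evec_mem_realizable N τ₀ (ρ + 3 * m + m * (i : ℕ)) (by omega) _ B hBne (k : ℤ) ?_
    have h7 : ρ + 3 * m + m * (i : ℕ) + m * (k / m - 3 - i) = k := by
      have : m * (k / m - 3 - i) + m * (3 + i) = m * (k / m) := by
        rw [← Nat.mul_add]
        congr 1
        omega
      nlinarith
    exact_mod_cast h7
  exact hle hmem

end Fermat.Agent.S20.helper85
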