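/-
S20 package (1), helper85: interpolation at the elliptic points.

* `interpolation_at_S`  : `τ₀` fixed by `S`   (`τ₀ = i`), frequencies `lin⁻⁴`, multipliers `E₄ ^ j`;
* `interpolation_at_ST` : `τ₀` fixed by `S * T` (`τ₀ = ρ`), frequencies `lin⁻⁶`, multipliers `E₆ ^ j`;
* `interpolation_generic'` : `E₄ τ₀ ≠ 0`, `E₆ τ₀ ≠ 0`, frequencies `lin⁻²`.
Each in two shapes: vectors `w` on the cosets `SL(2, ℤ) ⧸ Γ₀(N)` and functions `v` on `SL(2, ℤ)`.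
-/
import Fermat.Agent.S20.helper85_Unified
import Mathlib.NumberTheory.Modular

set_option autoImplicit false

open UpperHalfPlane ModularForm CongruenceSubgroup EisensteinSeries Matrix
open scoped MatrixGroups

namespace Fermat.Agent.S20.helper85

lemma denom_SL (γ : SL(2, ℤ)) (τ : ℍ) :
    denom γ τ = ((γ 1 0 : ℤ) : ℂ) * τ + ((γ 1 1 : ℤ) : ℂ) := by
  simp [denom]

lemma coe_smul_SL (γ : SL(2, ℤ)) (τ : ℍ) :
    ((γ • τ : ℍ) : ℂ) = (((γ 0 0 : ℤ) : ℂ) * τ + ((γ 0 1 : ℤ) : ℂ)) / denom γ τ := by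
  rw [UpperHalfPlane.coe_specialLinearGroup_apply]
  simp [denom]

/-- Level one modularity in the form `B (γ τ) = denom ^ k * B τ`. -/
lemma levelOne_apply_smul {k : ℤ} (B : ModularForm 𝒮ℒ k) (γ : SL(2, ℤ)) (τ : ℍ) :
    B (γ • τ) = denom γ τ ^ k * B τ := by
  have h := congrFun (levelOne_slash B γ) τ
  rw [SL_slash_apply] at h
  have hd : denom γ τ ^ k ≠ 0 := zpow_ne_zero _ (denom_ne_zero γ τ)
  rw [← h, _root_.zpow_neg]
  field_simp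

section S

variable (τ₀ : ℍ) (hτ : ModularGroup.S • τ₀ = τ₀)

lemma denom_S_eq : denom ModularGroup.S τ₀ = (τ₀ : ℂ) := by
  rw [denom_SL]
  simp [ModularGroup.S]

include hτ in
lemma sq_eq_neg_one_of_S_fixed : (τ₀ : ℂ) ^ 2 = -1 := by
  have h : ((ModularGroup.S • τ₀ : ℍ) : ℂ) = (τ₀ : ℂ) := by rw [hτ]
  rw [coe_smul_SL, denom_S_eq] at h
  have h0 : (τ₀ : ℂ) ≠ 0 := ne_zero τ₀
  simp [ModularGroup.S] at h
  field_simp at h
  linear_combination -h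

include hτ in
lemma isPrimitiveRoot_denom_S : IsPrimitiveRoot (denom ModularGroup.S τ₀) 4 := by
  rw [denom_S_eq]
  have h2 := sq_eq_neg_one_of_S_fixed τ₀ hτ
  have him : (0 : ℝ) < (τ₀ : ℂ).im := τ₀.im_pos
  refine IsPrimitiveRoot.mk_of_lt _ (by norm_num) ?_ ?_
  · calc (τ₀ : ℂ) ^ 4 = ((τ₀ : ℂ) ^ 2) ^ 2 := by ring
      _ = 1 := by rw [h2]; norm_num
  · intro l hl0 hl4 hl
    interval_cases l
    · rw [pow_one] at hl
      rw [hl] at him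
      simp at him
    · rw [h2] at hl
      norm_num at hl
    · have : (τ₀ : ℂ) ^ 3 = -(τ₀ : ℂ) := by
        calc (τ₀ : ℂ) ^ 3 = (τ₀ : ℂ) ^ 2 * τ₀ := by ring
          _ = -(τ₀ : ℂ) := by rw [h2]; ring
      rw [this] at hl
      have : (τ₀ : ℂ) = -1 := by linear_combination -hl
      rw [this] at him
      simp at him

include hτ in
lemma E₆_eq_zero_of_S_fixed : E₆ τ₀ = 0 := by
  have h := levelOne_apply_smul E₆ ModularGroup.S τ₀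
  rw [hτ, denom_S_eq] at h
  have h2 := sq_eq_neg_one_of_S_fixed τ₀ hτ
  have h6 : (τ₀ : ℂ) ^ (6 : ℤ) = -1 := by
    calc (τ₀ : ℂ) ^ (6 : ℤ) = ((τ₀ : ℂ) ^ 2) ^ 3 := by
          rw [← pow_mul]; norm_cast
      _ = -1 := by rw [h2]; norm_num
  rw [h6] at h
  have : (2 : ℂ) * E₆ τ₀ = 0 := by linear_combination h
  simpa using this

include hτ in
lemma E₄_ne_zero_of_S_fixed : E₄ τ₀ ≠ 0 := by
  intro h4
  have hΔ := ModularForm.discriminant_eq_E₄_cube_sub_E₆_sq τ₀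
  rw [h4, E₆_eq_zero_of_S_fixed τ₀ hτ] at hΔ
  exact ModularForm.discriminant_ne_zero τ₀ (by rw [hΔ]; simp)

end S

section ST

variable (τ₀ : ℍ) (hτ : (ModularGroup.S * ModularGroup.T) • τ₀ = τ₀)

lemma ST_entries : (ModularGroup.S * ModularGroup.T) 0 0 = 0 ∧
    (ModularGroup.S * ModularGroup.T) 0 1 = -1 ∧
    (ModularGroup.S * ModularGroup.T) 1 0 = 1 ∧
    (ModularGroup.S * ModularGroup.T) 1 1 = 1 := by
  refine ⟨?_, ?_, ?_, ?_⟩ <;>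
  · change (ModularGroup.S.1 * ModularGroup.T.1) _ _ = _
    simp [ModularGroup.S, ModularGroup.T, Matrix.mul_apply, Fin.sum_univ_two]

lemma denom_ST_eq :
    denom ((ModularGroup.S * ModularGroup.T : SL(2, ℤ)) : GL (Fin 2) ℝ) τ₀ = (τ₀ : ℂ) + 1 := by
  rw [denom_SL, ST_entries.2.2.1, ST_entries.2.2.2]
  simp

include hτ in
lemma rel_of_ST_fixed : (τ₀ : ℂ) ^ 2 + τ₀ + 1 = 0 := by
  have h : (((ModularGroup.S * ModularGroup.T) • τ₀ : ℍ) : ℂ) = (τ₀ : ℂ) := by rw [hτ]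
  rw [coe_smul_SL, denom_ST_eq, ST_entries.1, ST_entries.2.1] at h
  have h0 : (τ₀ : ℂ) + 1 ≠ 0 := by
    rw [← denom_ST_eq]; exact denom_ne_zero _ _
  field_simp at h
  push_cast at h
  linear_combination -h

include hτ in
lemma isPrimitiveRoot_denom_ST :
    IsPrimitiveRoot (denom ((ModularGroup.S * ModularGroup.T : SL(2, ℤ)) : GL (Fin 2) ℝ) τ₀) 6 := by
  rw [denom_ST_eq]
  have hrel := rel_of_ST_fixed τ₀ hτ
  have him : (0 : ℝ) < (τ₀ : ℂ).im := τ₀.im_pos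
  have e2 : ((τ₀ : ℂ) + 1) ^ 2 = τ₀ := by linear_combination hrel
  have e3 : ((τ₀ : ℂ) + 1) ^ 3 = -1 := by
    calc ((τ₀ : ℂ) + 1) ^ 3 = ((τ₀ : ℂ) + 1) ^ 2 * ((τ₀ : ℂ) + 1) := by ring
      _ = -1 := by rw [e2]; linear_combination hrel
  refine IsPrimitiveRoot.mk_of_lt _ (by norm_num) ?_ ?_
  · calc ((τ₀ : ℂ) + 1) ^ 6 = (((τ₀ : ℂ) + 1) ^ 3) ^ 2 := by ring
      _ = 1 := by rw [e3]; norm_num
  · intro l hl0 hl6 hl
    interval_cases l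
    · rw [pow_one] at hl
      have : (τ₀ : ℂ) = 0 := by linear_combination hl
      exact ne_zero τ₀ this
    · rw [e2] at hl
      rw [hl] at him
      simp at him
    · rw [e3] at hl
      norm_num at hl
    · have : ((τ₀ : ℂ) + 1) ^ 4 = -((τ₀ : ℂ) + 1) := by
        calc ((τ₀ : ℂ) + 1) ^ 4 = ((τ₀ : ℂ) + 1) ^ 3 * ((τ₀ : ℂ) + 1) := by ring
          _ = -((τ₀ : ℂ) + 1) := by rw [e3]; ring
      rw [this] at hl
      have : (τ₀ : ℂ) = -2 := by linear_combination -hl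
      rw [this] at him
      simp at him
    · have : ((τ₀ : ℂ) + 1) ^ 5 = -(τ₀ : ℂ) := by
        calc ((τ₀ : ℂ) + 1) ^ 5 = ((τ₀ : ℂ) + 1) ^ 3 * ((τ₀ : ℂ) + 1) ^ 2 := by ring
          _ = -(τ₀ : ℂ) := by rw [e3, e2]; ring
      rw [this] at hl
      have : (τ₀ : ℂ) = -1 := by linear_combination -hl
      rw [this] at him
      simp at him

include hτ in
lemma E₄_eq_zero_of_ST_fixed : E₄ τ₀ = 0 := by
  have h := levelOne_apply_smul E₄ (ModularGroup.S * ModularGroup.T) τ₀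
  rw [hτ, denom_ST_eq] at h
  have hrel := rel_of_ST_fixed τ₀ hτ
  have h4 : ((τ₀ : ℂ) + 1) ^ (4 : ℤ) = -((τ₀ : ℂ) + 1) := by
    have : ((τ₀ : ℂ) + 1) ^ (4 : ℤ) = ((τ₀ : ℂ) + 1) ^ 4 := by norm_cast
    rw [this]
    linear_combination ((τ₀ : ℂ) ^ 2 + 3 * τ₀ + 2) * hrel
  rw [h4] at h
  have h5 : ((τ₀ : ℂ) + 2) * E₄ τ₀ = 0 := by linear_combination h
  rcases mul_eq_zero.mp h5 with h6 | h6
  · exfalso
    have him : (0 : ℝ) < (τ₀ : ℂ).im := τ₀.im_pos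
    have : (τ₀ : ℂ) = -2 := by linear_combination h6
    rw [this] at him
    simp at him
  · exact h6

include hτ in
lemma E₆_ne_zero_of_ST_fixed : E₆ τ₀ ≠ 0 := by
  intro h6
  have hΔ := ModularForm.discriminant_eq_E₄_cube_sub_E₆_sq τ₀
  rw [h6, E₄_eq_zero_of_ST_fixed τ₀ hτ] at hΔ
  exact ModularForm.discriminant_ne_zero τ₀ (by rw [hΔ]; simp)

end ST

section final

variable (N : ℕ) [NeZero N]

omit [NeZero N] in
/-- From the coset shape to functions on `SL(2, ℤ)`. -/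
lemma exists_form_of_realizable (τ₀ : ℍ) (δ : SL(2, ℤ)) (k : ℕ)
    (hreal : ∀ w : Xq N → ℂ, (∀ x, w (δ⁻¹ • x) = ((denom δ τ₀)⁻¹) ^ k * w x) →
      w ∈ realizable N (k : ℤ) τ₀)
    (v : SL(2, ℤ) → ℂ) (hv : ∀ γ' ∈ Gamma0 N, ∀ γ, v (γ' * γ) = v γ)
    (hvδ : ∀ γ, v (γ * δ) = (denom δ τ₀) ^ (-(k : ℤ)) * v γ) :
    ∃ f : ModularForm (Gamma0 N) (k : ℤ),
      ∀ γ : SL(2, ℤ), ((f : ℍ → ℂ) ∣[(k : ℤ)] γ) τ₀ = v γ := by
  set w : Xq N → ℂ := fun x => v (x.out)⁻¹ with hwdef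
  have hwmk : ∀ g : SL(2, ℤ), w (g : Xq N) = v g⁻¹ := by
    intro g
    have h : ((g : Xq N).out)⁻¹ * g ∈ Gamma0 N := by
      have := QuotientGroup.out_eq' (g : Xq N)
      rw [QuotientGroup.eq] at this
      exact this
    have e : ((g : Xq N).out)⁻¹ = (((g : Xq N).out)⁻¹ * g) * g⁻¹ := by group
    show v ((g : Xq N).out)⁻¹ = v g⁻¹
    rw [e, hv _ h]
  have hw : ∀ x, w (δ⁻¹ • x) = ((denom δ τ₀)⁻¹) ^ k * w x := by
    intro x
    induction x using QuotientGroup.induction_on with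
    | H g =>
      have e : δ⁻¹ • (g : Xq N) = ((δ⁻¹ * g : SL(2, ℤ)) : Xq N) := rfl
      rw [e, hwmk, hwmk, _root_.mul_inv_rev, inv_inv, hvδ, _root_.zpow_neg, zpow_natCast, inv_pow]
  obtain ⟨f, hf⟩ := hreal w hw
  refine ⟨f, fun γ => ?_⟩
  have := hf γ⁻¹
  rw [inv_inv, hwmk, inv_inv] at this
  exact this

/-- **Interpolation at `τ₀ = i`** (coset shape): if `S • τ₀ = τ₀` then for all large `k` every
vector `w` on `SL(2, ℤ) ⧸ Γ₀(N)` with `w (S⁻¹ • x) = (denom S τ₀)⁻ᵏ w x` is the evaluation vector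
at `τ₀` of a modular form of weight `k` on `Γ₀(N)`. -/
theorem interpolation_at_S_coset (τ₀ : ℍ) (hτ : ModularGroup.S • τ₀ = τ₀) :
    ∃ k₀ : ℕ, ∀ k : ℕ, k₀ ≤ k → ∀ w : Xq N → ℂ,
      (∀ x, w (ModularGroup.S⁻¹ • x) = ((denom ModularGroup.S τ₀)⁻¹) ^ k * w x) →
      w ∈ realizable N (k : ℤ) τ₀ := by
  refine interpolation_unified N τ₀ ModularGroup.S hτ 4 (by norm_num)
    (isPrimitiveRoot_denom_S τ₀ hτ) (fun j _ => ?_)
  refine ⟨ModularForm.mcast (by push_cast; ring) (E₄.pow j), ?_⟩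
  rw [ModularForm.mcast_apply, ModularForm.coe_pow, Pi.pow_apply]
  exact pow_ne_zero _ (E₄_ne_zero_of_S_fixed τ₀ hτ)

/-- **Interpolation at `τ₀ = i`** (function shape). -/
theorem interpolation_at_S (τ₀ : ℍ) (hτ : ModularGroup.S • τ₀ = τ₀) :
    ∃ k₀ : ℕ, ∀ k : ℕ, k₀ ≤ k → ∀ v : SL(2, ℤ) → ℂ,
      (∀ γ' ∈ Gamma0 N, ∀ γ, v (γ' * γ) = v γ) →
      (∀ γ, v (γ * ModularGroup.S) = (denom ModularGroup.S τ₀) ^ (-(k : ℤ)) * v γ) →
      ∃ f : ModularForm (Gamma0 N) (k : ℤ),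
        ∀ γ : SL(2, ℤ), ((f : ℍ → ℂ) ∣[(k : ℤ)] γ) τ₀ = v γ := by
  obtain ⟨k₀, hk₀⟩ := interpolation_at_S_coset N τ₀ hτ
  exact ⟨k₀, fun k hk v hv hvδ =>
    exists_form_of_realizable N τ₀ ModularGroup.S k (hk₀ k hk) v hv hvδ⟩

/-- **Interpolation at `τ₀ = ρ`** (coset shape): if `(S * T) • τ₀ = τ₀` then for all large `k`
every vector `w` on `SL(2, ℤ) ⧸ Γ₀(N)` with `w ((S * T)⁻¹ • x) = (denom (S * T) τ₀)⁻ᵏ w x` is the
evaluation vector at `τ₀` of a modular form of weight `k` on `Γ₀(N)`. -/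
theorem interpolation_at_ST_coset (τ₀ : ℍ)
    (hτ : (ModularGroup.S * ModularGroup.T) • τ₀ = τ₀) :
    ∃ k₀ : ℕ, ∀ k : ℕ, k₀ ≤ k → ∀ w : Xq N → ℂ,
      (∀ x, w ((ModularGroup.S * ModularGroup.T)⁻¹ • x)
        = ((denom ((ModularGroup.S * ModularGroup.T : SL(2, ℤ)) : GL (Fin 2) ℝ) τ₀)⁻¹) ^ k
          * w x) →
      w ∈ realizable N (k : ℤ) τ₀ := by
  refine interpolation_unified N τ₀ (ModularGroup.S * ModularGroup.T) hτ 6 (by norm_num)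
    (isPrimitiveRoot_denom_ST τ₀ hτ) (fun j _ => ?_)
  refine ⟨ModularForm.mcast (by push_cast; ring) (E₆.pow j), ?_⟩
  rw [ModularForm.mcast_apply, ModularForm.coe_pow, Pi.pow_apply]
  exact pow_ne_zero _ (E₆_ne_zero_of_ST_fixed τ₀ hτ)

/-- **Interpolation at `τ₀ = ρ`** (function shape). -/
theorem interpolation_at_ST (τ₀ : ℍ) (hτ : (ModularGroup.S * ModularGroup.T) • τ₀ = τ₀) :
    ∃ k₀ : ℕ, ∀ k : ℕ, k₀ ≤ k → ∀ v : SL(2, ℤ) → ℂ,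
      (∀ γ' ∈ Gamma0 N, ∀ γ, v (γ' * γ) = v γ) →
      (∀ γ, v (γ * (ModularGroup.S * ModularGroup.T))
        = (denom ((ModularGroup.S * ModularGroup.T : SL(2, ℤ)) : GL (Fin 2) ℝ) τ₀) ^ (-(k : ℤ))
          * v γ) →
      ∃ f : ModularForm (Gamma0 N) (k : ℤ),
        ∀ γ : SL(2, ℤ), ((f : ℍ → ℂ) ∣[(k : ℤ)] γ) τ₀ = v γ := by
  obtain ⟨k₀, hk₀⟩ := interpolation_at_ST_coset N τ₀ hτ
  exact ⟨k₀, fun k hk v hv hvδ =>
    exists_form_of_realizable N τ₀ (ModularGroup.S * ModularGroup.T) k (hk₀ k hk) v hv hvδ⟩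

section generic

lemma neg_one_smul_eq (τ₀ : ℍ) : (-1 : SL(2, ℤ)) • τ₀ = τ₀ := by
  rw [ModularGroup.SL_neg_smul, one_smul]

lemma denom_neg_one (τ₀ : ℍ) : denom ((-1 : SL(2, ℤ)) : GL (Fin 2) ℝ) τ₀ = -1 := by
  rw [denom_SL]
  simp

omit [NeZero N] in
lemma neg_one_mem_Gamma0 : (-1 : SL(2, ℤ)) ∈ Gamma0 N := by
  rw [Gamma0_mem]
  simp

omit [NeZero N] in
lemma neg_one_inv_smul_coset (x : Xq N) : (-1 : SL(2, ℤ))⁻¹ • x = x := by
  induction x using QuotientGroup.induction_on with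
  | H g =>
    have e : (-1 : SL(2, ℤ))⁻¹ • (g : Xq N) = (((-1 : SL(2, ℤ))⁻¹ * g : SL(2, ℤ)) : Xq N) := rfl
    rw [e, QuotientGroup.eq]
    have : ((-1 : SL(2, ℤ))⁻¹ * g)⁻¹ * g = -1 := by
      rw [_root_.mul_inv_rev, inv_inv, mul_assoc]
      simp
    rw [this]
    exact neg_one_mem_Gamma0 N

/-- level one multipliers of every even weight `≥ 4` not vanishing at a generic point. -/
lemma exists_multiplier_generic (τ₀ : ℍ) (h4 : E₄ τ₀ ≠ 0) (h6 : E₆ τ₀ ≠ 0) (j : ℕ) (hj : 2 ≤ j) :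
    ∃ B : ModularForm 𝒮ℒ ((2 * j : ℕ) : ℤ), B τ₀ ≠ 0 := by
  rcases Nat.even_or_odd' j with ⟨a, rfl | rfl⟩
  · refine ⟨ModularForm.mcast (by push_cast; ring) (E₄.pow a), ?_⟩
    rw [ModularForm.mcast_apply, ModularForm.coe_pow, Pi.pow_apply]
    exact pow_ne_zero _ h4
  · obtain ⟨b, rfl⟩ : ∃ b, a = b + 1 := ⟨a - 1, by omega⟩
    refine ⟨ModularForm.mcast (by push_cast; ring) ((E₄.pow b).mul E₆), ?_⟩
    rw [ModularForm.mcast_apply, ModularForm.coe_mul, Pi.mul_apply, ModularForm.coe_pow,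
      Pi.pow_apply]
    exact mul_ne_zero (pow_ne_zero _ h4) h6

/-- **Interpolation at a generic point** (coset shape): if `E₄ τ₀ ≠ 0` and `E₆ τ₀ ≠ 0`, then for
all large even `k` every vector on `SL(2, ℤ) ⧸ Γ₀(N)` is the evaluation vector at `τ₀` of a
modular form of weight `k` on `Γ₀(N)`. -/
theorem interpolation_generic_coset (τ₀ : ℍ) (h4 : E₄ τ₀ ≠ 0) (h6 : E₆ τ₀ ≠ 0) :
    ∃ k₀ : ℕ, ∀ k : ℕ, k₀ ≤ k → Even k → realizable N (k : ℤ) τ₀ = ⊤ := by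
  have hprim : IsPrimitiveRoot (denom ((-1 : SL(2, ℤ)) : GL (Fin 2) ℝ) τ₀) 2 := by
    rw [denom_neg_one]
    exact IsPrimitiveRoot.neg_one 0 (by norm_num)
  obtain ⟨k₀, hk₀⟩ := interpolation_unified N τ₀ (-1) (neg_one_smul_eq τ₀) 2 (by norm_num) hprim
    (exists_multiplier_generic τ₀ h4 h6)
  refine ⟨k₀, fun k hk hev => ?_⟩
  rw [eq_top_iff]
  intro w _
  refine hk₀ k hk w (fun x => ?_)
  rw [neg_one_inv_smul_coset, denom_neg_one, inv_neg, inv_one, hev.neg_one_pow, one_mul]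

/-- **Interpolation at a generic point** (function shape). -/
theorem interpolation_generic (τ₀ : ℍ) (h4 : E₄ τ₀ ≠ 0) (h6 : E₆ τ₀ ≠ 0) :
    ∃ k₀ : ℕ, ∀ k : ℕ, k₀ ≤ k → Even k → ∀ v : SL(2, ℤ) → ℂ,
      (∀ γ' ∈ Gamma0 N, ∀ γ, v (γ' * γ) = v γ) →
      ∃ f : ModularForm (Gamma0 N) (k : ℤ),
        ∀ γ : SL(2, ℤ), ((f : ℍ → ℂ) ∣[(k : ℤ)] γ) τ₀ = v γ := by
  obtain ⟨k₀, hk₀⟩ := interpolation_generic_coset N τ₀ h4 h6
  refine ⟨k₀, fun k hk hev v hv => ?_⟩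
  refine exists_form_of_realizable N τ₀ 1 k (fun w _ => ?_) v hv (fun γ => ?_)
  · rw [hk₀ k hk hev]; exact Submodule.mem_top
  · have hd : denom ((1 : SL(2, ℤ)) : GL (Fin 2) ℝ) τ₀ = 1 := by
      rw [denom_SL]; simp
    rw [mul_one, hd, _root_.one_zpow, one_mul]

end generic

end final

end Fermat.Agent.S20.helper85
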