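/-
S20-INT, helper85: the interpolation theorems `int_gen` and `int_fix` in the exact shape of the
S20 task board (predicates `IsMF`, conjugates `cj`, cosets `X0 N` of `Fermat.Agent.S20.Defs`).
-/
import Fermat.Agent.S20.Defs
import Fermat.Agent.S20.helper85_Elliptic

set_option autoImplicit false

open UpperHalfPlane ModularForm CongruenceSubgroup Matrix.SpecialLinearGroup
open scoped MatrixGroups Manifold

namespace Fermat.Agent.S20.helper85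

open Fermat.Agent.S20

/-- from `realizable` to the `IsMF` / `cj` shape. -/
lemma exists_isMF_of_mem_realizable (N : ℕ) [NeZero N] (k : ℤ) (τ₀ : ℍ) (v : X0 N → ℂ)
    (hv : v ∈ realizable N k τ₀) :
    ∃ f : ℍ → ℂ, IsMF N k f ∧ ∀ x, cj N k f x τ₀ = v x := by
  obtain ⟨f, hf⟩ := hv
  refine ⟨f, isMF_coe f, fun x => ?_⟩
  have h := hf (Quotient.out x)
  have e : ((Quotient.out x : SL(2, ℤ)) : Xq N) = x := QuotientGroup.out_eq' x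
  rw [e] at h
  exact h

/-- **S20-INT, generic point.** -/
theorem int_gen (N : ℕ) [NeZero N] (τ₀ : ℍ) (h4 : E₄ τ₀ ≠ 0) (h6 : E₆ τ₀ ≠ 0) :
    ∃ k₀ : ℕ, ∀ k : ℕ, k₀ ≤ k → Even k → ∀ v : X0 N → ℂ,
      ∃ f : ℍ → ℂ, IsMF N k f ∧ ∀ x, cj N k f x τ₀ = v x := by
  obtain ⟨k₀, hk₀⟩ := interpolation_generic_coset N τ₀ h4 h6
  refine ⟨k₀, fun k hk hev v => ?_⟩
  refine exists_isMF_of_mem_realizable N k τ₀ v ?_
  rw [hk₀ k hk hev]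
  exact Submodule.mem_top

/-- `denom σ⁻¹ τ₀ = (denom σ τ₀)⁻¹` at a fixed point of `σ`. -/
lemma denom_inv_of_fixed (σ : SL(2, ℤ)) (τ₀ : ℍ) (hτ : σ • τ₀ = τ₀) :
    denom ((σ⁻¹ : SL(2, ℤ)) : GL (Fin 2) ℝ) τ₀ = (denom σ τ₀)⁻¹ := by
  have hd : denom σ τ₀ ≠ 0 := denom_ne_zero σ τ₀
  have hfix : ((σ • τ₀ : ℍ) : ℂ) = τ₀ := by rw [hτ]
  rw [coe_smul_SL, div_eq_iff hd] at hfix
  have h10 : (σ⁻¹ : SL(2, ℤ)) 1 0 = -σ 1 0 := by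
    rw [Matrix.SpecialLinearGroup.SL2_inv_expl]
    simp
  have h11 : (σ⁻¹ : SL(2, ℤ)) 1 1 = σ 0 0 := by
    rw [Matrix.SpecialLinearGroup.SL2_inv_expl]
    simp
  have hdet := σ.det_coe
  rw [Matrix.det_fin_two] at hdet
  have hdet' : ((σ 0 0 : ℤ) : ℂ) * ((σ 1 1 : ℤ) : ℂ) - ((σ 0 1 : ℤ) : ℂ) * ((σ 1 0 : ℤ) : ℂ)
      = 1 := by exact_mod_cast congrArg (fun x : ℤ => (x : ℂ)) hdet
  refine eq_inv_of_mul_eq_one_left ?_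
  rw [denom_SL σ⁻¹, h10, h11]
  rw [denom_SL σ] at hfix ⊢
  push_cast
  linear_combination hdet' + ((σ 1 0 : ℤ) : ℂ) * hfix

/-- **S20-INT, elliptic points.** -/
theorem int_fix (N : ℕ) [NeZero N] (σ : SL(2, ℤ))
    (hσ : σ = ModularGroup.S ∨ σ = ModularGroup.S * ModularGroup.T) (τ₀ : ℍ)
    (hτ : σ • τ₀ = τ₀) :
    ∃ k₀ : ℕ, ∀ k : ℕ, k₀ ≤ k → Even k → ∀ v : X0 N → ℂ,
      (∀ x, v (σ • x) = (denom (σ⁻¹ : SL(2, ℤ)) τ₀) ^ (-(k : ℤ)) * v x) →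
      ∃ f : ℍ → ℂ, IsMF N k f ∧ ∀ x, cj N k f x τ₀ = v x := by
  have key : ∃ k₀ : ℕ, ∀ k : ℕ, k₀ ≤ k → ∀ w : Xq N → ℂ,
      (∀ x, w (σ⁻¹ • x) = ((denom σ τ₀)⁻¹) ^ k * w x) → w ∈ realizable N (k : ℤ) τ₀ := by
    rcases hσ with rfl | rfl
    · exact interpolation_at_S_coset N τ₀ hτ
    · exact interpolation_at_ST_coset N τ₀ hτ
  obtain ⟨k₀, hk₀⟩ := key
  refine ⟨k₀, fun k hk _ v hv => ?_⟩
  refine exists_isMF_of_mem_realizable N k τ₀ v (hk₀ k hk v fun x => ?_)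
  have hε : denom σ τ₀ ≠ 0 := denom_ne_zero σ τ₀
  have h := hv (σ⁻¹ • x)
  rw [smul_inv_smul, denom_inv_of_fixed σ τ₀ hτ, zpow_neg, zpow_natCast, inv_pow, inv_inv] at h
  rw [h, ← mul_assoc, inv_pow, inv_mul_cancel₀ (pow_ne_zero _ hε), one_mul]

end Fermat.Agent.S20.helper85
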