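import Mathlib
import Fermat.Agent.S20.Defs
import Fermat.Agent.S20.helper29_LevelOne

/-!
# S20-F2 (core, conditional form)

Consequences of `GenData N` (homogeneous generators of `⊕ M_k(Γ₀(N))` over the level-one forms
with the dimension count): number of generators, evaluation vectors span, residue counts of the
weights modulo `4` and `6`.

Everything here is stated with the inputs of the other S20 packages (interpolation `int_gen`,
`int_fix`; Sturm-type bound; level-one dimensions; linear algebra of permutation representations)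
as explicit hypotheses.  The unconditional versions are in `helper96_F2.lean`.
-/

set_option autoImplicit false

noncomputable section

open UpperHalfPlane ModularForm CongruenceSubgroup Matrix.SpecialLinearGroup
open scoped MatrixGroups Manifold

namespace Fermat.Agent.S20.helper96

variable {N : ℕ}

/-! ### Conjugates of sums and of `Σ P_j e_j` -/

theorem cj_zero (k : ℤ) (x : X0 N) : cj N k (0 : ℍ → ℂ) x = 0 := by
  unfold cj; exact SlashAction.zero_slash _ _

theorem cj_sum {ι : Type*} (s : Finset ι) (k : ℤ) (f : ι → ℍ → ℂ) (x : X0 N) :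
    cj N k (∑ j ∈ s, f j) x = ∑ j ∈ s, cj N k (f j) x := by
  classical
  induction s using Finset.induction_on with
  | empty => simp [cj_zero]
  | insert a s ha ih => rw [Finset.sum_insert ha, Finset.sum_insert ha, cj_add, ih]

/-- The evaluation vector of the generator `e_j` at `τ₀`. -/
def ev (G : GenData N) (τ₀ : ℍ) (j : G.J) : X0 N → ℂ := fun x => cj N (G.d j) (G.e j) x τ₀

theorem ev_apply (G : GenData N) (τ₀ : ℍ) (j : G.J) (x : X0 N) :
    ev G τ₀ j x = cj N (G.d j) (G.e j) x τ₀ := rfl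

theorem cj_gen_apply (G : GenData N) {k : ℤ} {f : ℍ → ℂ} (P : G.J → ℍ → ℂ)
    (hP : ∀ j, IsMF 1 (k - G.d j) (P j)) (hf : f = ∑ j, P j * G.e j) (x : X0 N) (τ₀ : ℍ) :
    cj N k f x τ₀ = ∑ j, P j τ₀ * ev G τ₀ j x := by
  subst hf
  rw [cj_sum, Finset.sum_apply]
  refine Finset.sum_congr rfl fun j _ => ?_
  have h1 : cj N k (P j * G.e j) x = cj N ((k - G.d j) + G.d j) (P j * G.e j) x := by
    rw [sub_add_cancel]
  rw [h1, cj_mul, cj_of_one (hP j)]
  rfl

/-- The evaluation vector of any form is a combination of the `ev e_j`, with coefficients the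
values `P_j τ₀` of level-one forms of weight `k - d_j`. -/
theorem evalVec_eq_sum (G : GenData N) {k : ℤ} {f : ℍ → ℂ} (hf : IsMF N k f) (τ₀ : ℍ) :
    ∃ P : G.J → ℍ → ℂ, (∀ j, IsMF 1 (k - G.d j) (P j)) ∧
      (fun x => cj N k f x τ₀) = ∑ j, P j τ₀ • ev G τ₀ j := by
  obtain ⟨P, hP, hfP⟩ := G.gen k f hf
  refine ⟨P, hP, ?_⟩
  funext x
  rw [cj_gen_apply G P hP hfP x τ₀, Finset.sum_apply]
  rfl

/-- If the level-one forms of weight `k - d_j` vanish at `τ₀` for all `j ∉ A`, the evaluation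
vector of a weight-`k` form lies in the span of the `ev e_j`, `j ∈ A`. -/
theorem evalVec_mem_span_image (G : GenData N) {k : ℤ} {f : ℍ → ℂ} (hf : IsMF N k f) (τ₀ : ℍ)
    (A : Set G.J) (hA : ∀ j, j ∉ A → ∀ P : ℍ → ℂ, IsMF 1 (k - G.d j) P → P τ₀ = 0) :
    (fun x => cj N k f x τ₀) ∈ Submodule.span ℂ (ev G τ₀ '' A) := by
  classical
  obtain ⟨P, hP, h⟩ := evalVec_eq_sum G hf τ₀
  rw [h]
  refine Submodule.sum_mem _ fun j _ => ?_
  by_cases hj : j ∈ A
  · exact Submodule.smul_mem _ _ (Submodule.subset_span ⟨j, hj, rfl⟩)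
  · rw [hA j hj (P j) (hP j), zero_smul]
    exact Submodule.zero_mem _

theorem evalVec_mem_span_range (G : GenData N) {k : ℤ} {f : ℍ → ℂ} (hf : IsMF N k f) (τ₀ : ℍ) :
    (fun x => cj N k f x τ₀) ∈ Submodule.span ℂ (Set.range (ev G τ₀)) := by
  have := evalVec_mem_span_image G hf τ₀ Set.univ (fun j hj => absurd (Set.mem_univ j) hj)
  rwa [Set.image_univ] at this


/-! ### Elementary vanishing facts -/

/-- A level-one form vanishes at a fixed point of `σ` unless `denom σ τ₀ ^ k = 1`. -/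
theorem one_fixed {k : ℤ} {f : ℍ → ℂ} (hf : IsMF 1 k f) (s : SL(2, ℤ)) (τ₀ : ℍ)
    (hτ : s • τ₀ = τ₀) (h : (denom (s : GL (Fin 2) ℝ) τ₀) ^ k ≠ 1) : f τ₀ = 0 := by
  have h1 := congrFun (hf.slash_one s) τ₀
  rw [SL_slash_apply, hτ] at h1
  by_contra hne
  apply h
  have h2 : denom (s : GL (Fin 2) ℝ) τ₀ ^ (-k) = 1 :=
    mul_left_cancel₀ hne (h1.trans (mul_one _).symm)
  rwa [zpow_neg, inv_eq_one] at h2

theorem neg_one_mem_Gamma0 (N : ℕ) : (-1 : SL(2, ℤ)) ∈ Gamma0 N := by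
  rw [Gamma0_mem]; simp

/-- Forms of odd weight vanish (`-1 ∈ Γ₀(N)`). -/
theorem odd_weight {k : ℤ} (hk : Odd k) {f : ℍ → ℂ} (hf : IsMF N k f) : f = 0 := by
  funext τ
  have h1 := congrFun (hf.slash (-1) (neg_one_mem_Gamma0 N)) τ
  rw [SL_slash_apply] at h1
  have h2 : ((-1 : SL(2, ℤ)) • τ) = τ := by
    rw [ModularGroup.SL_neg_smul, one_smul]
  have h3 : denom ((-1 : SL(2, ℤ)) : GL (Fin 2) ℝ) τ = -1 := by
    simp [denom]
  rw [h2, h3, zpow_neg, Odd.neg_one_zpow hk] at h1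
  have : f τ * (-1)⁻¹ = - f τ := by ring
  rw [this] at h1
  simpa using self_eq_neg.mp h1.symm

theorem neg_one_smul_X0 (x : X0 N) : (-1 : SL(2, ℤ)) • x = x := by
  induction x using QuotientGroup.induction_on with
  | H g =>
    change (QuotientGroup.mk ((-1 : SL(2, ℤ)) * g) : X0 N) = QuotientGroup.mk g
    rw [QuotientGroup.eq]
    have : ((-1 : SL(2, ℤ)) * g)⁻¹ * g = -1 := by
      simp
    rw [this]
    exact neg_one_mem_Gamma0 N

theorem S_sq : ModularGroup.S ^ 2 = (-1 : SL(2, ℤ)) := by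
  decide

theorem ST_cube : (ModularGroup.S * ModularGroup.T) ^ 3 = (-1 : SL(2, ℤ)) := by
  decide

theorem S_sq_smul (x : X0 N) : ModularGroup.S ^ 2 • x = x := by
  rw [S_sq]; exact neg_one_smul_X0 x

theorem ST_cube_smul (x : X0 N) : (ModularGroup.S * ModularGroup.T) ^ 3 • x = x := by
  rw [ST_cube]; exact neg_one_smul_X0 x

theorem denom_inv_of_fixed (s : SL(2, ℤ)) (τ₀ : ℍ) (hτ : s • τ₀ = τ₀) :
    denom ((s⁻¹ : SL(2, ℤ)) : GL (Fin 2) ℝ) τ₀ = (denom (s : GL (Fin 2) ℝ) τ₀)⁻¹ := by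
  have h := denom_cocycle_σ ((s⁻¹ : SL(2, ℤ)) : GL (Fin 2) ℝ) (s : GL (Fin 2) ℝ) τ₀
  have h1 : ((s⁻¹ : SL(2, ℤ)) : GL (Fin 2) ℝ) * (s : GL (Fin 2) ℝ) = 1 := by
    rw [← map_mul]; simp
  rw [h1] at h
  have h2 : ((s : GL (Fin 2) ℝ) • τ₀) = τ₀ := hτ
  rw [h2] at h
  have h3 : denom (1 : GL (Fin 2) ℝ) τ₀ = 1 := by simp [denom]
  rw [h3] at h
  have h4 : σ (s : GL (Fin 2) ℝ) = ContinuousAlgEquiv.refl ℝ ℂ := by
    simp [σ]
  rw [h4] at h
  exact eq_inv_of_mul_eq_one_left h.symm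

/-! ### The inputs from the other packages, as propositions -/

/-- Shape of the level-one dimension formula (`finrank_MFs_one`, package S20-L1). -/
def OneDim : Prop :=
  ∀ k : ℤ, Module.finrank ℂ (MFs 1 k) =
    if k < 0 ∨ Odd k then 0 else if k % 12 = 2 then (k / 12).toNat else (k / 12).toNat + 1

/-- Shape of the Sturm-type bound (`finrank_MFs_le`, package S20-F0). -/
def SturmLe (N : ℕ) : Prop :=
  ∀ k : ℕ, 12 * Module.finrank ℂ (MFs N k) ≤ k * Nat.card (X0 N) + 12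

/-- Shape of the generic interpolation theorem (`int_gen`). -/
def IntGen (N : ℕ) : Prop :=
  ∀ τ₀ : ℍ, E₄ τ₀ ≠ 0 → E₆ τ₀ ≠ 0 → ∃ k₀ : ℕ, ∀ k : ℕ, k₀ ≤ k → Even k → ∀ v : X0 N → ℂ,
    ∃ f : ℍ → ℂ, IsMF N k f ∧ ∀ x, cj N k f x τ₀ = v x

/-- Shape of the interpolation theorem at the elliptic points (`int_fix`). -/
def IntFix (N : ℕ) : Prop :=
  ∀ s : SL(2, ℤ), (s = ModularGroup.S ∨ s = ModularGroup.S * ModularGroup.T) →
    ∀ τ₀ : ℍ, s • τ₀ = τ₀ → ∃ k₀ : ℕ, ∀ k : ℕ, k₀ ≤ k → Even k → ∀ v : X0 N → ℂ,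
      (∀ x, v (s • x) = (denom (s⁻¹ : SL(2, ℤ)) τ₀) ^ (-(k : ℤ)) * v x) →
      ∃ f : ℍ → ℂ, IsMF N k f ∧ ∀ x, cj N k f x τ₀ = v x

/-- Shape of `finrank_eigSp_one` (package S20-LA) on `X₀(N)`. -/
def LAOne (N : ℕ) : Prop :=
  ∀ g : SL(2, ℤ), Module.finrank ℂ (eigSp (fun x : X0 N => g • x) 1) =
    Nat.card (MulAction.orbitRel.Quotient (Subgroup.zpowers g) (X0 N))

/-- Shape of `sum_finrank_eigSp` (package S20-LA) on `X₀(N)`. -/
def LASum (N : ℕ) [NeZero N] : Prop :=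
  ∀ (g : SL(2, ℤ)) (m : ℕ), 0 < m → (∀ x : X0 N, g ^ m • x = x) → ∀ ζ : ℂ,
    IsPrimitiveRoot ζ m →
    ∑ j ∈ Finset.range m, Module.finrank ℂ (eigSp (fun x : X0 N => g • x) (ζ ^ j)) =
      Fintype.card (X0 N)

/-- Shape of `finrank_eigSp_conj` (package S20-LA) on `X₀(N)`. -/
def LAConj (N : ℕ) : Prop :=
  ∀ (s : X0 N → X0 N) (ζ : ℂ),
    Module.finrank ℂ (eigSp s ((starRingEnd ℂ) ζ)) = Module.finrank ℂ (eigSp s ζ)

/-- Shape of `exists_eig_decomp` (package S20-LA) on `X₀(N)`. -/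
def LADecomp (N : ℕ) : Prop :=
  ∀ (g : SL(2, ℤ)) (m : ℕ), 0 < m → (∀ x : X0 N, g ^ m • x = x) → ∀ ζ : ℂ,
    IsPrimitiveRoot ζ m → ∀ v : X0 N → ℂ,
    ∃ u : ℕ → X0 N → ℂ, (∀ j, u j ∈ eigSp (fun x : X0 N => g • x) (ζ ^ j)) ∧
      v = ∑ j ∈ Finset.range m, u j

theorem OneDim.zero (h : OneDim) : Module.finrank ℂ (MFs 1 0) = 1 := by
  rw [h 0]; simp

theorem OneDim.le (h : OneDim) (m : ℤ) (hm : 0 ≤ m) (he : Even m) :
    m ≤ 12 * (Module.finrank ℂ (MFs 1 m) : ℤ) + 2 := by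
  rw [h m]
  have hodd : ¬ Odd m := by rwa [Int.not_odd_iff_even]
  have h1 : ¬ (m < 0 ∨ Odd m) := by
    rintro (h | h)
    · omega
    · exact hodd h
  rw [if_neg h1]
  have h2 : ((m / 12).toNat : ℤ) = m / 12 := Int.toNat_of_nonneg (by omega)
  split_ifs with h3
  · rw [h2]; omega
  · push_cast; rw [h2]; omega

/-! ### Parity of the weights and number of generators -/

section count

theorem even_d_of (hone : OneDim) (G : GenData N) (j : G.J) : Even (G.d j) := by
  by_contra hodd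
  rw [Nat.not_even_iff_odd] at hodd
  have hoddZ : Odd ((G.d j : ℕ) : ℤ) := by exact_mod_cast hodd
  have h0 : MFs N (G.d j) = ⊥ := by
    rw [eq_bot_iff]
    intro f hf
    rw [Submodule.mem_bot]
    exact odd_weight hoddZ hf
  have hfin : Module.finrank ℂ (MFs N (G.d j)) = 0 := by rw [h0]; simp
  have hc := G.count (G.d j)
  rw [hfin] at hc
  have h1 : Module.finrank ℂ (MFs 1 ((G.d j : ℤ) - G.d j)) = 0 :=
    Finset.sum_eq_zero_iff.mp hc.symm j (Finset.mem_univ j)
  rw [sub_self, hone.zero] at h1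
  exact one_ne_zero h1

theorem card_J_le_of (hone : OneDim) (hst : SturmLe N) (G : GenData N) :
    Fintype.card G.J ≤ Nat.card (X0 N) := by
  by_contra hlt
  rw [not_le] at hlt
  obtain ⟨D, hD⟩ : ∃ D : ℕ, ∀ j, G.d j ≤ D :=
    ⟨Finset.univ.sup G.d, fun j => Finset.le_sup (Finset.mem_univ j)⟩
  obtain ⟨k, hk⟩ : ∃ k : ℕ, k = 2 * (12 + Fintype.card G.J * (D + 2)) + 2 * D := ⟨_, rfl⟩
  have hkD : D ≤ k := by omega
  have hke : Even k := ⟨12 + Fintype.card G.J * (D + 2) + D, by rw [hk]; ring⟩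
  have h1 := hst k
  have h2 := G.count k
  have h3 : ∀ j, ((k : ℤ) - D) ≤
      12 * (Module.finrank ℂ (MFs 1 ((k : ℤ) - G.d j)) : ℤ) + 2 := by
    intro j
    have hj := hD j
    have he : Even ((k : ℤ) - (G.d j : ℤ)) := by
      apply Even.sub
      · exact_mod_cast hke
      · exact_mod_cast even_d_of hone G j
    have := hone.le ((k : ℤ) - G.d j) (by omega) he
    omega
  have h4 : (Fintype.card G.J : ℤ) * ((k : ℤ) - D) ≤
      12 * (Module.finrank ℂ (MFs N k) : ℤ) + 2 * Fintype.card G.J := by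
    have hs := Finset.sum_le_sum (s := (Finset.univ : Finset G.J)) (fun j _ => h3 j)
    rw [Finset.sum_const, Finset.card_univ, nsmul_eq_mul, Finset.sum_add_distrib,
      ← Finset.mul_sum, Finset.sum_const, Finset.card_univ, nsmul_eq_mul] at hs
    have h2' : (Module.finrank ℂ (MFs N k) : ℤ) =
        ∑ j : G.J, (Module.finrank ℂ (MFs 1 ((k : ℤ) - G.d j)) : ℤ) := by
      rw [h2]; push_cast; rfl
    rw [h2']
    linarith
  have h1' : 12 * (Module.finrank ℂ (MFs N k) : ℤ) ≤ (k : ℤ) * Nat.card (X0 N) + 12 := by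
    exact_mod_cast h1
  have h6 : ((Nat.card (X0 N) : ℤ) + 1) * ((k : ℤ) - D) ≤
      (Fintype.card G.J : ℤ) * ((k : ℤ) - D) := by
    have h7 : (Nat.card (X0 N) : ℤ) + 1 ≤ Fintype.card G.J := by exact_mod_cast hlt
    exact mul_le_mul_of_nonneg_right h7 (by omega)
  have hkz : (k : ℤ) = 2 * (12 + (Fintype.card G.J : ℤ) * ((D : ℤ) + 2)) + 2 * D := by
    rw [hk]; push_cast; ring
  have hμD : (0 : ℤ) ≤ (Nat.card (X0 N) : ℤ) * D := by positivity
  have hJD : (0 : ℤ) ≤ (Fintype.card G.J : ℤ) * D := by positivity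
  have hJ0 : (0 : ℤ) ≤ (Fintype.card G.J : ℤ) := by positivity
  have hD0 : (0 : ℤ) ≤ (D : ℤ) := by positivity
  nlinarith

variable [NeZero N]

theorem card_J_ge_of_span (G : GenData N) (τ₀ : ℍ)
    (h : Submodule.span ℂ (Set.range (ev G τ₀)) = ⊤) :
    Nat.card (X0 N) ≤ Fintype.card G.J := by
  have h1 : (Set.range (ev G τ₀)).finrank ℂ ≤ Fintype.card G.J := finrank_range_le_card _
  rw [Set.finrank, h, finrank_top, Module.finrank_fintype_fun_eq_card,
    ← Nat.card_eq_fintype_card] at h1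
  exact h1

theorem card_J_of_span (hone : OneDim) (hst : SturmLe N) (G : GenData N) (τ₀ : ℍ)
    (h : Submodule.span ℂ (Set.range (ev G τ₀)) = ⊤) :
    Fintype.card G.J = Nat.card (X0 N) :=
  le_antisymm (card_J_le_of hone hst G) (card_J_ge_of_span G τ₀ h)

end count

/-! ### Spans of the evaluation vectors and residue counts -/

section spans

variable [NeZero N]

omit [NeZero N] in
theorem span_ev_of_surj (G : GenData N) (τ₀ : ℍ) (k : ℤ)
    (h : ∀ v : X0 N → ℂ, ∃ f : ℍ → ℂ, IsMF N k f ∧ ∀ x, cj N k f x τ₀ = v x) :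
    Submodule.span ℂ (Set.range (ev G τ₀)) = ⊤ := by
  rw [eq_top_iff]
  intro v _
  obtain ⟨f, hf, hv⟩ := h v
  have := evalVec_mem_span_range G hf τ₀
  rwa [show (fun x => cj N k f x τ₀) = v from funext hv] at this

omit [NeZero N] in
theorem span_ev_gen_of (hint : IntGen N) (G : GenData N) (τ₀ : ℍ) (h4 : E₄ τ₀ ≠ 0)
    (h6 : E₆ τ₀ ≠ 0) : Submodule.span ℂ (Set.range (ev G τ₀)) = ⊤ := by
  obtain ⟨k₀, hk₀⟩ := hint τ₀ h4 h6
  exact span_ev_of_surj G τ₀ ((2 * k₀ : ℕ) : ℤ) (hk₀ (2 * k₀) (by omega) ⟨k₀, by ring⟩)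

omit [NeZero N] in
/-- Key inclusion at an elliptic fixed point: the eigenspace of `v ↦ v ∘ (s • ·)` for the
eigenvalue `u ^ (2 t)`, `u = denom s τ₀` a primitive `n`-th root of unity, is spanned by the
evaluation vectors of the generators of weight `≡ 2 t` modulo `n`. -/
theorem eigSp_le_span_image (hfix : IntFix N) (G : GenData N) (s : SL(2, ℤ))
    (hs : s = ModularGroup.S ∨ s = ModularGroup.S * ModularGroup.T) (τ₀ : ℍ)
    (hτ : s • τ₀ = τ₀) (n : ℕ) (hn : Even n)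
    (hu : IsPrimitiveRoot (denom (s : GL (Fin 2) ℝ) τ₀) n) (t : ℕ) (ht : 2 * t < n) :
    eigSp (fun x : X0 N => s • x) ((denom (s : GL (Fin 2) ℝ) τ₀) ^ (2 * t)) ≤
      Submodule.span ℂ (ev G τ₀ '' {j | G.d j % n = 2 * t}) := by
  intro v hv
  rw [mem_eigSp] at hv
  obtain ⟨k₀, hk₀⟩ := hfix s hs τ₀ hτ
  have hn0 : 0 < n := by omega
  obtain ⟨k, hk⟩ : ∃ k : ℕ, k = n * k₀ + 2 * t := ⟨_, rfl⟩
  have hkk₀ : k₀ ≤ k := by
    rw [hk]
    have : k₀ ≤ n * k₀ := Nat.le_mul_of_pos_left k₀ hn0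
    omega
  have hke : Even k := by
    rw [hk]
    exact (hn.mul_right k₀).add ⟨t, by ring⟩
  have hpow : (denom (s : GL (Fin 2) ℝ) τ₀) ^ k = (denom (s : GL (Fin 2) ℝ) τ₀) ^ (2 * t) := by
    rw [hk, pow_add, pow_mul, hu.pow_eq_one, one_pow, one_mul]
  have hcond : ∀ x, v (s • x) = (denom (s⁻¹ : SL(2, ℤ)) τ₀) ^ (-(k : ℤ)) * v x := by
    intro x
    rw [denom_inv_of_fixed s τ₀ hτ, inv_zpow, zpow_neg, inv_inv, zpow_natCast, hpow]
    exact hv x
  obtain ⟨f, hf, hfv⟩ := hk₀ k hkk₀ hke v hcond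
  have hmem := evalVec_mem_span_image G hf τ₀ {j | G.d j % n = 2 * t} (by
    intro j hj P hP
    refine one_fixed hP s τ₀ hτ ?_
    intro hpow1
    have hdvd := (hu.zpow_eq_one_iff_dvd _).mp hpow1
    apply hj
    change G.d j % n = 2 * t
    have h1 : ((G.d j : ℕ) : ℤ) ≡ ((2 * t : ℕ) : ℤ) [ZMOD (n : ℤ)] := by
      rw [Int.modEq_iff_dvd]
      have h2 : ((2 * t : ℕ) : ℤ) - (G.d j : ℤ) = ((k : ℤ) - G.d j) - (n : ℤ) * k₀ := by
        rw [hk]; push_cast; ring
      rw [h2]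
      exact dvd_sub hdvd (dvd_mul_right _ _)
    have h3 : G.d j ≡ 2 * t [MOD n] := (Int.natCast_modEq_iff).mp h1
    rw [Nat.ModEq, Nat.mod_eq_of_lt ht] at h3
    exact h3)
  rwa [show (fun x => cj N (k : ℤ) f x τ₀) = v from funext hfv] at hmem


omit [NeZero N] in
theorem span_ev_fix_aux (hfix : IntFix N) (hdec : LADecomp N) (G : GenData N) (s : SL(2, ℤ))
    (hs : s = ModularGroup.S ∨ s = ModularGroup.S * ModularGroup.T) (τ₀ : ℍ)
    (hτ : s • τ₀ = τ₀) (n R : ℕ) (hnR : n = 2 * R) (hR : 0 < R)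
    (hu : IsPrimitiveRoot (denom (s : GL (Fin 2) ℝ) τ₀) n)
    (hact : ∀ x : X0 N, s ^ R • x = x) :
    Submodule.span ℂ (Set.range (ev G τ₀)) = ⊤ := by
  rw [eq_top_iff]
  intro v _
  have hω : IsPrimitiveRoot ((denom (s : GL (Fin 2) ℝ) τ₀) ^ 2) R :=
    hu.pow (by omega) hnR
  obtain ⟨w, hw, hv⟩ := hdec s R hR hact _ hω v
  rw [hv]
  refine Submodule.sum_mem _ fun t ht => ?_
  have ht' : 2 * t < n := by have := Finset.mem_range.mp ht; omega
  have h1 := eigSp_le_span_image hfix G s hs τ₀ hτ n ⟨R, by omega⟩ hu t ht'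
    (by rw [pow_mul]; exact hw t)
  exact Submodule.span_mono (Set.image_subset_range _ _) h1

/-- The number of generators of weight `≡ 2 t` modulo `n` is the dimension of the corresponding
eigenspace. -/
theorem card_filter_eq_finrank (hone : OneDim) (hfix : IntFix N) (hsum : LASum N)
    (G : GenData N) (hcard : Fintype.card G.J = Nat.card (X0 N)) (s : SL(2, ℤ))
    (hs : s = ModularGroup.S ∨ s = ModularGroup.S * ModularGroup.T) (τ₀ : ℍ)
    (hτ : s • τ₀ = τ₀) (n R : ℕ) (hnR : n = 2 * R) (hR : 0 < R)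
    (hu : IsPrimitiveRoot (denom (s : GL (Fin 2) ℝ) τ₀) n)
    (hact : ∀ x : X0 N, s ^ R • x = x) (t : ℕ) (ht : t < R) :
    (Finset.univ.filter fun j : G.J => G.d j % n = 2 * t).card =
      Module.finrank ℂ (eigSp (fun x : X0 N => s • x)
        (((denom (s : GL (Fin 2) ℝ) τ₀) ^ 2) ^ t)) := by
  classical
  have hω : IsPrimitiveRoot ((denom (s : GL (Fin 2) ℝ) τ₀) ^ 2) R :=
    hu.pow (by omega) hnR
  have hle : ∀ t ∈ Finset.range R,
      Module.finrank ℂ (eigSp (fun x : X0 N => s • x)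
        (((denom (s : GL (Fin 2) ℝ) τ₀) ^ 2) ^ t)) ≤
      (Finset.univ.filter fun j : G.J => G.d j % n = 2 * t).card := by
    intro t ht
    have ht' : 2 * t < n := by have := Finset.mem_range.mp ht; omega
    have h1 := eigSp_le_span_image hfix G s hs τ₀ hτ n ⟨R, by omega⟩ hu t ht'
    rw [pow_mul] at h1
    have h2 : {j : G.J | G.d j % n = 2 * t} =
        ((Finset.univ.filter fun j : G.J => G.d j % n = 2 * t : Finset G.J) : Set G.J) := by
      ext j; simp
    rw [h2, ← Finset.coe_image] at h1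
    calc Module.finrank ℂ (eigSp (fun x : X0 N => s • x)
          (((denom (s : GL (Fin 2) ℝ) τ₀) ^ 2) ^ t))
        ≤ Module.finrank ℂ (Submodule.span ℂ
            (((Finset.univ.filter fun j : G.J => G.d j % n = 2 * t).image (ev G τ₀) :
              Finset (X0 N → ℂ)) : Set (X0 N → ℂ))) := Submodule.finrank_mono h1
      _ ≤ ((Finset.univ.filter fun j : G.J => G.d j % n = 2 * t).image (ev G τ₀)).card :=
          finrank_span_finset_le_card _
      _ ≤ (Finset.univ.filter fun j : G.J => G.d j % n = 2 * t).card := Finset.card_image_le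
  have hsa := hsum s R hR hact _ hω
  have hsb : ∑ t ∈ Finset.range R, (Finset.univ.filter fun j : G.J => G.d j % n = 2 * t).card =
      Fintype.card G.J := by
    have h3 := Finset.card_eq_sum_card_fiberwise (s := (Finset.univ : Finset G.J))
      (t := Finset.range R) (f := fun j => G.d j % n / 2) (by
        intro j _
        rw [Finset.mem_coe, Finset.mem_range]
        change G.d j % n / 2 < R
        have : G.d j % n < n := Nat.mod_lt _ (by omega)
        omega)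
    rw [Finset.card_univ] at h3
    rw [h3]
    refine Finset.sum_congr rfl fun t _ => ?_
    congr 1
    ext j
    simp only [Finset.mem_filter, Finset.mem_univ, true_and]
    have he : Even (G.d j % n) := by
      have h4 := even_d_of hone G j
      rw [Nat.even_iff] at h4 ⊢
      rw [hnR, Nat.mod_mul_right_mod]
      exact h4
    obtain ⟨c, hc⟩ := he
    omega
  have heq : ∑ t ∈ Finset.range R, Module.finrank ℂ (eigSp (fun x : X0 N => s • x)
        (((denom (s : GL (Fin 2) ℝ) τ₀) ^ 2) ^ t)) =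
      ∑ t ∈ Finset.range R, (Finset.univ.filter fun j : G.J => G.d j % n = 2 * t).card := by
    rw [hsa, hsb, hcard, Nat.card_eq_fintype_card]
  exact ((Finset.sum_eq_sum_iff_of_le hle).mp heq t (Finset.mem_range.mpr ht)).symm

end spans

/-! ### Conditional forms of the deliverables -/

section final

variable [NeZero N]

omit [NeZero N] in
/-- A fixed point of `S * T` in the upper half plane. -/
theorem exists_ST_fixed : ∃ τ : ℍ, (ModularGroup.S * ModularGroup.T) • τ = τ := by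
  obtain ⟨z, hz⟩ : ∃ z : ℂ, z = -1 / 2 + ((Real.sqrt 3 / 2 : ℝ) : ℂ) * Complex.I := ⟨_, rfl⟩
  have him : 0 < z.im := by
    have : z.im = Real.sqrt 3 / 2 := by
      rw [hz]
      simp only [Complex.add_im, Complex.mul_im, Complex.ofReal_re, Complex.I_im, mul_one,
        Complex.ofReal_im, Complex.I_re, mul_zero, add_zero]
      have : (-1 / 2 : ℂ).im = 0 := by norm_num
      rw [this, zero_add]
    rw [this]
    positivity
  have h3 : ((Real.sqrt 3 : ℝ) : ℂ) ^ 2 = 3 := by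
    rw [← Complex.ofReal_pow, Real.sq_sqrt (by norm_num)]; norm_num
  have h : z ^ 2 + z + 1 = 0 := by
    rw [hz]
    push_cast
    linear_combination (-(1 : ℂ) / 4) * h3 + ((Real.sqrt 3 : ℂ) ^ 2 / 4) * Complex.I_sq
  have hne : z ≠ 0 := by
    intro h0
    rw [h0] at h
    norm_num at h
  refine ⟨⟨z, him⟩, ?_⟩
  rw [mul_smul, UpperHalfPlane.modular_T_smul, UpperHalfPlane.modular_S_smul]
  ext
  simp only [coe_vadd]
  rw [inv_eq_iff_eq_inv]
  field_simp
  push_cast
  linear_combination -h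

omit [NeZero N] in
theorem span_ev_fix_of (hfix : IntFix N) (hdec : LADecomp N) (G : GenData N) (s : SL(2, ℤ))
    (hs : s = ModularGroup.S ∨ s = ModularGroup.S * ModularGroup.T) (τ₀ : ℍ)
    (hτ : s • τ₀ = τ₀) : Submodule.span ℂ (Set.range (ev G τ₀)) = ⊤ := by
  rcases hs with rfl | rfl
  · exact span_ev_fix_aux hfix hdec G _ (Or.inl rfl) τ₀ hτ 4 2 rfl (by norm_num)
      (helper29.isPrimitiveRoot_denom_S hτ) S_sq_smul
  · exact span_ev_fix_aux hfix hdec G _ (Or.inr rfl) τ₀ hτ 6 3 rfl (by norm_num)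
      (helper29.isPrimitiveRoot_denom_ST hτ) ST_cube_smul

theorem card_J_of_fix (hone : OneDim) (hst : SturmLe N) (hfix : IntFix N) (hdec : LADecomp N)
    (G : GenData N) : Fintype.card G.J = Nat.card (X0 N) :=
  card_J_of_span hone hst G UpperHalfPlane.I
    (span_ev_fix_of hfix hdec G _ (Or.inl rfl) _ helper29.S_smul_I)

theorem card_J_of_gen (hone : OneDim) (hst : SturmLe N) (hgen : IntGen N)
    (hpt : ∃ τ₀ : ℍ, E₄ τ₀ ≠ 0 ∧ E₆ τ₀ ≠ 0) (G : GenData N) :
    Fintype.card G.J = Nat.card (X0 N) := by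
  obtain ⟨τ₀, h4, h6⟩ := hpt
  exact card_J_of_span hone hst G τ₀ (span_ev_gen_of hgen G τ₀ h4 h6)

theorem card_d_mod4_of (hone : OneDim) (hfix : IntFix N) (hLA1 : LAOne N) (hsum : LASum N)
    (G : GenData N) (hcard : Fintype.card G.J = Nat.card (X0 N)) :
    (Finset.univ.filter fun j : G.J => G.d j % 4 = 0).card =
      Nat.card (MulAction.orbitRel.Quotient (Subgroup.zpowers ModularGroup.S) (X0 N)) := by
  have h := card_filter_eq_finrank hone hfix hsum G hcard ModularGroup.S (Or.inl rfl)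
    UpperHalfPlane.I helper29.S_smul_I 4 2 rfl (by norm_num)
    (helper29.isPrimitiveRoot_denom_S helper29.S_smul_I) S_sq_smul 0 (by norm_num)
  rw [pow_zero, mul_zero] at h
  rw [h, hLA1]

theorem card_d_mod6_of (hone : OneDim) (hfix : IntFix N) (hLA1 : LAOne N) (hsum : LASum N)
    (hconj : LAConj N) (G : GenData N) (hcard : Fintype.card G.J = Nat.card (X0 N)) :
    (Finset.univ.filter fun j : G.J => G.d j % 6 = 0).card =
      Nat.card (MulAction.orbitRel.Quotient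
        (Subgroup.zpowers (ModularGroup.S * ModularGroup.T)) (X0 N)) ∧
    (Finset.univ.filter fun j : G.J => G.d j % 6 = 2).card =
      (Finset.univ.filter fun j : G.J => G.d j % 6 = 4).card := by
  obtain ⟨τ₀, hτ⟩ := exists_ST_fixed
  have hu := helper29.isPrimitiveRoot_denom_ST hτ
  have key := card_filter_eq_finrank hone hfix hsum G hcard (ModularGroup.S * ModularGroup.T)
    (Or.inr rfl) τ₀ hτ 6 3 rfl (by norm_num) hu ST_cube_smul
  refine ⟨?_, ?_⟩
  · have h := key 0 (by norm_num)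
    rw [pow_zero, mul_zero] at h
    rw [h, hLA1]
  · have h1 := key 1 (by norm_num)
    have h2 := key 2 (by norm_num)
    rw [mul_one, pow_one] at h1
    rw [show 2 * 2 = 4 from rfl] at h2
    rw [h1, h2]
    set ω := (denom ((ModularGroup.S * ModularGroup.T : SL(2, ℤ)) : GL (Fin 2) ℝ) τ₀) ^ 2
      with hω
    have hω3 : ω ^ 3 = 1 := by
      rw [hω, ← pow_mul]; exact hu.pow_eq_one
    have hnorm : ‖ω‖ = 1 := Complex.norm_eq_one_of_pow_eq_one hω3 (by norm_num)
    have hconjω : (starRingEnd ℂ) ω = ω ^ 2 := by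
      rw [← Complex.inv_eq_conj hnorm]
      have h4 : ω ^ 2 * ω = 1 := by rw [← hω3]; ring
      exact (eq_inv_of_mul_eq_one_left h4).symm
    rw [← hconjω]
    exact (hconj _ ω).symm

end final

end Fermat.Agent.S20.helper96
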