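import Mathlib
import Fermat.Agent.S20.Defs
import Fermat.Agent.S20.helper96_F2Core
import Fermat.Agent.S20.helper85_Int
import Fermat.Agent.S20.helper90_LA
import Fermat.Agent.S20.helper29_L1
import Fermat.Agent.S20.helper87_F0

/-!
# S20-F2: number of generators, evaluation vectors, residue counts of the weights

Unconditional forms of the statements of `helper96_F2Core.lean`, in the exact shapes of the
S20 task board.
-/

set_option autoImplicit false

noncomputable section

open UpperHalfPlane ModularForm CongruenceSubgroup Matrix.SpecialLinearGroup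
open scoped MatrixGroups Manifold

namespace Fermat.Agent.S20.helper96

variable (N : ℕ) [NeZero N]

theorem oneDim : OneDim := fun k => helper29.finrank_MFs_one k

theorem sturmLe : SturmLe N := fun k => helper87.finrank_MFs_le N k

theorem intGen : IntGen N := fun τ₀ h4 h6 => helper85.int_gen N τ₀ h4 h6

theorem intFix : IntFix N := fun s hs τ₀ hτ => helper85.int_fix N s hs τ₀ hτ

theorem laOne : LAOne N := fun g => helper90.finrank_eigSp_one g

theorem laSum : LASum N := fun g m hm hg ζ hζ => helper90.sum_finrank_eigSp g m hm hg ζ hζ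

theorem laConj : LAConj N := fun s ζ => helper90.finrank_eigSp_conj s ζ

theorem laDecomp : LADecomp N := fun g m hm hg ζ hζ v =>
  helper90.exists_eig_decomp g m hm hg ζ hζ v

theorem card_J (N : ℕ) [NeZero N] (G : GenData N) : Fintype.card G.J = Nat.card (X0 N) :=
  card_J_of_fix oneDim (sturmLe N) (intFix N) (laDecomp N) G

theorem even_d (N : ℕ) [NeZero N] (G : GenData N) (j : G.J) : Even (G.d j) :=
  even_d_of oneDim G j

theorem span_ev_gen (N : ℕ) [NeZero N] (G : GenData N) (τ₀ : ℍ) (h4 : E₄ τ₀ ≠ 0)
    (h6 : E₆ τ₀ ≠ 0) :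
    Submodule.span ℂ (Set.range fun j : G.J =>
      (fun x : X0 N => cj N (G.d j) (G.e j) x τ₀)) = ⊤ :=
  span_ev_gen_of (intGen N) G τ₀ h4 h6

theorem span_ev_fix (N : ℕ) [NeZero N] (G : GenData N) (σ : SL(2, ℤ))
    (hσ : σ = ModularGroup.S ∨ σ = ModularGroup.S * ModularGroup.T) (τ₀ : ℍ)
    (hτ : σ • τ₀ = τ₀) :
    Submodule.span ℂ (Set.range fun j : G.J =>
      (fun x : X0 N => cj N (G.d j) (G.e j) x τ₀)) = ⊤ :=
  span_ev_fix_of (intFix N) (laDecomp N) G σ hσ τ₀ hτ

theorem card_d_mod4 (N : ℕ) [NeZero N] (G : GenData N) :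
    (Finset.univ.filter fun j : G.J => G.d j % 4 = 0).card =
      Nat.card (MulAction.orbitRel.Quotient (Subgroup.zpowers ModularGroup.S) (X0 N)) :=
  card_d_mod4_of oneDim (intFix N) (laOne N) (laSum N) G (card_J N G)

theorem card_d_mod6 (N : ℕ) [NeZero N] (G : GenData N) :
    (Finset.univ.filter fun j : G.J => G.d j % 6 = 0).card =
      Nat.card (MulAction.orbitRel.Quotient
        (Subgroup.zpowers (ModularGroup.S * ModularGroup.T)) (X0 N)) ∧
    (Finset.univ.filter fun j : G.J => G.d j % 6 = 2).card =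
      (Finset.univ.filter fun j : G.J => G.d j % 6 = 4).card :=
  card_d_mod6_of oneDim (intFix N) (laOne N) (laSum N) (laConj N) G (card_J N G)

end Fermat.Agent.S20.helper96
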