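import Fermat.Agent.S20.Arith
import Fermat.Agent.S20.helper29_L1
import Fermat.Agent.S20.helper87_F0
import Fermat.Agent.S20.helper87_CuspA
import Fermat.Agent.S20.helper90_LA
import Fermat.Agent.S20.helper50_GenData
import Fermat.Agent.S20.helper96_F2
import Fermat.Agent.S20.helper61_CuspBCore
import Fermat.Agent.S20.helper48_Det

/-!
# S20: wiring of the packages into the lower bound for `dim M₂(Γ₀(N))`
-/

set_option autoImplicit false

noncomputable section

open UpperHalfPlane ModularForm CongruenceSubgroup Matrix.SpecialLinearGroup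
open scoped MatrixGroups Manifold

namespace Fermat.Agent.S20

theorem exists_genData (N : ℕ) [NeZero N] : Nonempty (GenData N) :=
  helper50.exists_genData_of N (helper87.finite_MFs N) (helper87.finrank_MFs_le N)
    helper29.finrank_MFs_one (helper29.isMF_neg_weight N)

theorem T_inv_pow_smul (N : ℕ) (x : X0 N) : (ModularGroup.T⁻¹) ^ N • x = x := by
  have h := Fermat.Agent.S24.helper83.T_pow_N_smul N x
  rw [inv_pow, inv_smul_eq_iff]
  exact h.symm

theorem card_orbits_T_inv (N : ℕ) :
    Nat.card (MulAction.orbitRel.Quotient (Subgroup.zpowers (ModularGroup.T⁻¹ : SL(2, ℤ))) (X0 N))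
      = cInf N := by
  unfold cInf
  rw [Subgroup.zpowers_inv]

theorem cuspFacts0 (N : ℕ) [NeZero N] : helper61.CuspFacts0 N (helper87.zetaN N) where
  coeff_T k f hf x n := helper87.cuspCoeff_T N k f hf x n
  mf_div k f hf h := helper87.isMF_div_Delta N k f hf h
  coeff_mul_Delta k f hf x n hn := helper87.cuspCoeff_mul_Delta N k f hf x n hn
  coeff_add k f g hf hg x n := helper87.cuspCoeff_add N k f g hf hg x n
  coeff_smul k c f hf x n := helper87.cuspCoeff_smul N k c f hf x n
  tendsto_exp k f hf x n h := helper87.tendsto_cj_mul_exp N k f hf x n h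
  finite k := helper87.finite_MFs N k
  isMF_Delta := helper29.isCF_Delta.isMF.of_one
  la_one := by
    rw [helper90.finrank_eigSp_one]
    exact card_orbits_T_inv N
  la_sum := by
    rw [helper90.sum_finrank_eigSp (ModularGroup.T⁻¹ : SL(2, ℤ)) N (NeZero.pos N)
      (T_inv_pow_smul N) _ (helper87.zetaN_isPrimitiveRoot N), Nat.card_eq_fintype_card]
  la_sum_mul := by
    have h := helper90.sum_mul_finrank_eigSp (X := X0 N) (ModularGroup.T⁻¹ : SL(2, ℤ)) N
      (NeZero.pos N) (T_inv_pow_smul N) _ (helper87.zetaN_isPrimitiveRoot N)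
    rw [h, Nat.card_eq_fintype_card (α := X0 N)]
    exact congrArg (fun t => N * (Fintype.card (X0 N) - t)) (card_orbits_T_inv N)
  la_decomp v := helper90.exists_eig_decomp (ModularGroup.T⁻¹ : SL(2, ℤ)) N (NeZero.pos N)
    (T_inv_pow_smul N) _ (helper87.zetaN_isPrimitiveRoot N) v
  la_unique u hu h0 := helper90.eig_decomp_unique (ModularGroup.T⁻¹ : SL(2, ℤ)) N (NeZero.pos N)
    _ (helper87.zetaN_isPrimitiveRoot N) u hu h0

theorem sum_d_le (N : ℕ) [NeZero N] (G : GenData N) :
    ∑ j, G.d j + 6 * cInf N ≤ 6 * Nat.card (X0 N) :=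
  helper48.sum_d_le_of_inputs G (helper96.card_J N G) (helper96.even_d N G)
    (helper96.span_ev_gen N G) (helper96.span_ev_fix N G) helper29.finrank_MFs_one
    helper29.levelOne_nonvanishing
    (fun k hk => helper61.cusp_det_lower_of (cuspFacts0 N) k hk)

/-- The lower bound for `dim M₂(Γ₀(N))`. -/
theorem finrank_M2_ge (N : ℕ) [NeZero N] :
    Nat.card (X0 N) + cInf N ≤ 2 * Module.finrank ℂ (MFs N 2) + oS N + oST N := by
  obtain ⟨G⟩ := exists_genData N
  exact finrank_M2_ge_of N G (helper96.card_J N G) (helper96.even_d N G)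
    (helper96.card_d_mod4 N G) (helper96.card_d_mod6 N G) (sum_d_le N G)
    helper29.finrank_MFs_one

end Fermat.Agent.S20
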