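import Mathlib
import Fermat.Agent.S20.Defs
import Fermat.Agent.S20.helper87_F0
import Fermat.Agent.S20.helper29_LevelOneMF
import Fermat.Agent.S24.helper83_CuspCount

/-!
# S20-RES: residue relation at the cusps in weight 2 (helper66)

`dim M_2(Γ₀(N)) + 1 ≤ dim S_2(Γ₀(N)) + #cusps`.

The map `c : M_2(Γ₀(N)) → (X0 N → ℂ)`, `c f x = lim_{im τ → ∞} (f ∣ x⁻¹) τ` has kernel
`S_2(Γ₀(N))`, its image consists of `T`-invariant vectors whose coordinates sum to zero
(the trace of `f` to level one is a weight 2 form of level one, hence zero).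
-/

set_option autoImplicit false
set_option linter.unusedSectionVars false

noncomputable section

open UpperHalfPlane ModularForm CongruenceSubgroup Matrix.SpecialLinearGroup
open scoped MatrixGroups Manifold

namespace Fermat.Agent.S20.helper66

/-- Number of cusps of `Γ₀(N)`, as the number of `⟨T⟩`-orbits on `SL(2,ℤ)/Γ₀(N)`. -/
def cInf (N : ℕ) : ℕ :=
  Nat.card (MulAction.orbitRel.Quotient (Subgroup.zpowers ModularGroup.T) (X0 N))

/-! ### Analysis at `i∞` -/

/-- Slashing with `T ^ n` is translation by `n`. -/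
theorem slash_T_zpow_apply (g : ℍ → ℂ) (k : ℤ) (n : ℤ) (τ : ℍ) :
    (g ∣[k] (ModularGroup.T ^ n)) τ = g ((n : ℝ) +ᵥ τ) := by
  rw [SL_slash_apply, modular_T_zpow_smul, ModularGroup.denom_apply, ModularGroup.coe_T_zpow]
  simp

/-- Slashing with `T` is translation by `1`. -/
theorem slash_T_apply (g : ℍ → ℂ) (k : ℤ) (τ : ℍ) :
    (g ∣[k] ModularGroup.T) τ = g ((1 : ℝ) +ᵥ τ) := by
  have := slash_T_zpow_apply g k 1 τ
  simpa using this

/-- A function on `ℍ` invariant under `τ ↦ h + τ` gives an `h`-periodic function on `ℂ`. -/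
theorem periodic_of_vadd {g : ℍ → ℂ} {h : ℝ} (hg : ∀ τ : ℍ, g (h +ᵥ τ) = g τ) :
    Function.Periodic (g ∘ ofComplex) h := by
  intro w
  by_cases hw : 0 < Complex.im w
  · have hw' : 0 < Complex.im (w + h) := by simp [hw]
    simp only [Function.comp_apply, ofComplex_apply_of_im_pos hw', ofComplex_apply_of_im_pos hw]
    rw [← hg ⟨w, hw⟩]
    congr 1
    ext
    simp [add_comm]
  · have hw0 : Complex.im w ≤ 0 := not_lt.mp hw
    have hw' : Complex.im (w + h) ≤ 0 := by simpa using hw0
    simp [ofComplex_apply_of_im_nonpos hw', ofComplex_apply_of_im_nonpos hw0]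

/-- A periodic holomorphic function bounded at `i∞` has a limit at `i∞`. -/
theorem tendsto_valueAtInfty {g : ℍ → ℂ} {h : ℝ} (hh : 0 < h)
    (hper : Function.Periodic (g ∘ ofComplex) h) (hhol : MDiff g)
    (hbdd : IsBoundedAtImInfty g) :
    Filter.Tendsto g atImInfty (nhds (valueAtInfty g)) := by
  have han := analyticAt_cuspFunction_zero hh hper hhol hbdd
  have h0 := cuspFunction_apply_zero hh han hper
  have hcomp : (cuspFunction h g ∘ fun τ : ℍ ↦ Function.Periodic.qParam h τ : ℍ → ℂ) = g := by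
    funext τ
    simpa using eq_cuspFunction τ hh.ne' hper
  have := han.continuousAt.tendsto.comp (qParam_tendsto_atImInfty hh)
  rw [hcomp, h0] at this
  exact this

/-- Translation by a real number preserves the filter `atImInfty`. -/
theorem tendsto_vadd_atImInfty (h : ℝ) :
    Filter.Tendsto (fun τ : ℍ => h +ᵥ τ) atImInfty atImInfty := by
  rw [atImInfty, Filter.tendsto_comap_iff]
  have : (UpperHalfPlane.im ∘ fun τ : ℍ => h +ᵥ τ) = UpperHalfPlane.im := by
    funext τ
    simp [UpperHalfPlane.vadd_im]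
  rw [this]
  exact Filter.tendsto_comap

/-! ### The conjugates of a modular form -/

section conj

variable {N : ℕ} [NeZero N] {k : ℤ} {f : ℍ → ℂ}

theorem cj_vadd (hf : IsMF N k f) (x : X0 N) (τ : ℍ) :
    cj N k f x (((N : ℕ) : ℝ) +ᵥ τ) = cj N k f x τ := by
  have h1 := slash_T_zpow_apply (cj N k f x) k (N : ℤ) τ
  have h2 : (cj N k f x) ∣[k] (ModularGroup.T ^ (N : ℤ)) = cj N k f x := by
    rw [cj_slash hf.slash]
    congr 1
    rw [zpow_natCast, inv_smul_eq_iff]
    exact (Fermat.Agent.S24.helper83.T_pow_N_smul N x).symm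
  rw [h2] at h1
  rw [h1]
  simp

theorem cj_periodic (hf : IsMF N k f) (x : X0 N) :
    Function.Periodic ((cj N k f x) ∘ ofComplex) ((N : ℕ) : ℝ) :=
  periodic_of_vadd (cj_vadd hf x)

theorem cj_bdd (hf : IsMF N k f) (x : X0 N) : IsBoundedAtImInfty (cj N k f x) := by
  have := hf.cj_bdd x 1
  rwa [SlashAction.slash_one] at this

theorem N_pos_real (N : ℕ) [NeZero N] : (0 : ℝ) < ((N : ℕ) : ℝ) :=
  Nat.cast_pos.mpr (Nat.pos_of_ne_zero (NeZero.ne N))

/-- The value of `f` at the cusp attached to `x`. -/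
def cval (N : ℕ) (k : ℤ) (f : ℍ → ℂ) (x : X0 N) : ℂ := valueAtInfty (cj N k f x)

theorem tendsto_cj (hf : IsMF N k f) (x : X0 N) :
    Filter.Tendsto (cj N k f x) atImInfty (nhds (cval N k f x)) :=
  tendsto_valueAtInfty (N_pos_real N) (cj_periodic hf x) (hf.cj_holo x) (cj_bdd hf x)

theorem cval_eq_of_tendsto {x : X0 N} {a : ℂ}
    (h : Filter.Tendsto (cj N k f x) atImInfty (nhds a)) : cval N k f x = a :=
  h.limUnder_eq

theorem cval_add {g : ℍ → ℂ} (hf : IsMF N k f) (hg : IsMF N k g) (x : X0 N) :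
    cval N k (f + g) x = cval N k f x + cval N k g x := by
  apply cval_eq_of_tendsto
  rw [cj_add]
  exact (tendsto_cj hf x).add (tendsto_cj hg x)

theorem cval_smul (c : ℂ) (hf : IsMF N k f) (x : X0 N) :
    cval N k (c • f) x = c * cval N k f x := by
  apply cval_eq_of_tendsto
  rw [cj_smul]
  exact (tendsto_cj hf x).const_smul c

theorem cval_T (hf : IsMF N k f) (x : X0 N) :
    cval N k f (ModularGroup.T⁻¹ • x) = cval N k f x := by
  apply cval_eq_of_tendsto
  rw [← cj_slash hf.slash]
  have : ((cj N k f x) ∣[k] ModularGroup.T) = (cj N k f x) ∘ (fun τ : ℍ => (1 : ℝ) +ᵥ τ) := by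
    funext τ
    exact slash_T_apply _ _ _
  rw [this]
  exact (tendsto_cj hf x).comp (tendsto_vadd_atImInfty 1)

theorem isCF_iff_cval (hf : IsMF N k f) : IsCF N k f ↔ ∀ x, cval N k f x = 0 := by
  constructor
  · intro h x
    have := h.cj_zero x 1
    rw [SlashAction.slash_one] at this
    exact cval_eq_of_tendsto this
  · intro h
    refine ⟨hf.slash, hf.holo, fun γ => ?_⟩
    have h1 := tendsto_cj hf (QuotientGroup.mk γ⁻¹ : X0 N)
    rw [h, cj_mk hf.slash, inv_inv] at h1
    exact h1

/-- The trace of `f` to level one. -/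
def trace (N : ℕ) [NeZero N] (k : ℤ) (f : ℍ → ℂ) : ℍ → ℂ := ∑ x : X0 N, cj N k f x

theorem trace_slash (hf : IsMF N k f) (γ : SL(2, ℤ)) :
    (trace N k f) ∣[k] γ = trace N k f := by
  unfold trace
  rw [SlashAction.sum_slash]
  simp only [cj_slash hf.slash]
  exact Equiv.sum_comp (MulAction.toPerm (γ⁻¹ : SL(2, ℤ))) (fun x : X0 N => cj N k f x)

theorem isMF_trace (hf : IsMF N k f) : IsMF 1 k (trace N k f) where
  slash γ _ := trace_slash hf γ
  holo := by
    unfold trace
    exact MDifferentiable.sum (fun x _ => hf.cj_holo x)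
  bdd γ := by
    rw [trace_slash hf γ]
    unfold trace
    rw [IsBoundedAtImInfty, Filter.BoundedAtFilter]
    exact Asymptotics.IsBigO.sum (fun x _ => cj_bdd hf x)

theorem sum_cval_eq_zero (hf : IsMF N 2 f) : ∑ x : X0 N, cval N 2 f x = 0 := by
  have h0 : trace N 2 f = 0 := helper29.isMF_one_eq_zero_of_weight_two (isMF_trace hf)
  have h1 : Filter.Tendsto (trace N 2 f) atImInfty (nhds (∑ x : X0 N, cval N 2 f x)) := by
    unfold trace
    rw [Finset.sum_fn]
    exact tendsto_finsetSum _ (fun x _ => tendsto_cj hf x)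
  rw [h0] at h1
  exact tendsto_nhds_unique h1 tendsto_const_nhds

end conj

/-! ### Linear algebra -/

section linalg

variable (N : ℕ) [NeZero N]

/-- The subgroup of elements of `SL(2,ℤ)` leaving a vector `v : X0 N → ℂ` invariant. -/
def invSubgroup (v : X0 N → ℂ) : Subgroup SL(2, ℤ) where
  carrier := {g | ∀ x, v (g • x) = v x}
  one_mem' := by intro x; simp
  mul_mem' := by
    intro a b ha hb x
    rw [mul_smul, ha, hb]
  inv_mem' := by
    intro a ha x
    have := ha (a⁻¹ • x)
    rw [smul_inv_smul] at this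
    exact this.symm

/-- The space of `T`-invariant vectors. -/
abbrev invSp : Submodule ℂ (X0 N → ℂ) := eigSp (fun x : X0 N => ModularGroup.T⁻¹ • x) 1

theorem zpowers_le_invSubgroup {v : X0 N → ℂ} (hv : v ∈ invSp N) :
    Subgroup.zpowers ModularGroup.T ≤ invSubgroup N v := by
  rw [Subgroup.zpowers_le]
  have h : ModularGroup.T⁻¹ ∈ invSubgroup N v := by
    intro x
    have := hv x
    simpa using this
  simpa using (invSubgroup N v).inv_mem h

/-- The orbit space of `⟨T⟩` on `X0 N`. -/
abbrev orbT : Type := MulAction.orbitRel.Quotient (Subgroup.zpowers ModularGroup.T) (X0 N)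

instance instFiniteOrbT : Finite (orbT N) := Quotient.finite _

instance instFintypeOrbT : Fintype (orbT N) := Fintype.ofFinite _

/-- `T`-invariant vectors are functions on the orbit space. -/
def invEquiv : (orbT N → ℂ) ≃ₗ[ℂ] invSp N where
  toFun φ := ⟨fun x => φ (Quotient.mk'' x), by
    intro x
    rw [one_mul]
    refine congrArg φ (Quotient.sound' ?_)
    refine ⟨⟨ModularGroup.T⁻¹, Subgroup.inv_mem _ (Subgroup.mem_zpowers _)⟩, ?_⟩
    rfl⟩
  map_add' φ ψ := rfl
  map_smul' c φ := rfl
  invFun v := fun q => Quotient.liftOn' q v.1 (by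
    intro x y hxy
    obtain ⟨⟨g, hg⟩, hgy⟩ := hxy
    have := zpowers_le_invSubgroup N v.2 hg y
    rw [← hgy]
    exact this)
  left_inv φ := by
    funext q
    induction q using Quotient.inductionOn' with
    | h x => rfl
  right_inv v := by
    ext x
    rfl

theorem finrank_invSp : Module.finrank ℂ (invSp N) = cInf N := by
  rw [← (invEquiv N).finrank_eq, Module.finrank_fintype_fun_eq_card, cInf,
    Nat.card_eq_fintype_card]

/-- The sum-of-coordinates functional on the invariant vectors. -/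
def sumLin : invSp N →ₗ[ℂ] ℂ where
  toFun v := ∑ x : X0 N, v.1 x
  map_add' v w := by simp [Finset.sum_add_distrib]
  map_smul' c v := by simp [Finset.mul_sum]

theorem one_mem_invSp : (fun _ : X0 N => (1 : ℂ)) ∈ invSp N := by
  intro x
  simp

theorem sumLin_surjective : Function.Surjective (sumLin N) := by
  intro c
  have hcard : ((Fintype.card (X0 N) : ℕ) : ℂ) ≠ 0 := by
    have : Fintype.card (X0 N) ≠ 0 := Fintype.card_ne_zero
    exact_mod_cast this
  refine ⟨(c / (Fintype.card (X0 N) : ℂ)) • ⟨_, one_mem_invSp N⟩, ?_⟩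
  rw [map_smul]
  simp only [sumLin, LinearMap.coe_mk, AddHom.coe_mk, Finset.sum_const, Finset.card_univ,
    nsmul_eq_mul, mul_one, smul_eq_mul]
  field_simp

theorem finrank_ker_sumLin : Module.finrank ℂ (LinearMap.ker (sumLin N)) + 1 = cInf N := by
  have h := LinearMap.finrank_range_add_finrank_ker (sumLin N)
  rw [LinearMap.range_eq_top.mpr (sumLin_surjective N), finrank_top, Module.finrank_self,
    finrank_invSp] at h
  omega

/-- The "values at the cusps" map. -/
def cLin : MFs N 2 →ₗ[ℂ] invSp N where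
  toFun f := ⟨fun x => cval N 2 f.1 x, fun x => by
    rw [one_mul]
    exact cval_T f.2 x⟩
  map_add' f g := by
    ext x
    exact cval_add f.2 g.2 x
  map_smul' c f := by
    ext x
    exact cval_smul c f.2 x

theorem range_cLin_le : LinearMap.range (cLin N) ≤ LinearMap.ker (sumLin N) := by
  rintro _ ⟨f, rfl⟩
  rw [LinearMap.mem_ker]
  exact sum_cval_eq_zero f.2

/-- The kernel of `cLin` consists of cusp forms. -/
def kerToCFs : LinearMap.ker (cLin N) →ₗ[ℂ] CFs N 2 where
  toFun f := ⟨f.1.1, (isCF_iff_cval f.1.2).mpr (fun x => by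
    have h := f.2
    rw [LinearMap.mem_ker] at h
    have h2 := congrArg (fun v : invSp N => v.1 x) h
    exact h2)⟩
  map_add' f g := rfl
  map_smul' c f := rfl

theorem kerToCFs_injective : Function.Injective (kerToCFs N) := by
  intro f g h
  have h1 : f.1.1 = g.1.1 := congrArg (fun v : CFs N 2 => v.1) h
  exact Subtype.ext (Subtype.ext h1)

/-- **Residue relation**: `dim M_2(Γ₀(N)) + 1 ≤ dim S_2(Γ₀(N)) + #cusps`. -/
theorem finrank_M2_le (N : ℕ) [NeZero N] :
    Module.finrank ℂ (MFs N 2) + 1 ≤ Module.finrank ℂ (CFs N 2) + cInf N := by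
  have := helper87.finite_MFs N 2
  have := helper87.finite_CFs N 2
  have h1 := LinearMap.finrank_range_add_finrank_ker (cLin N)
  have h2 : Module.finrank ℂ (LinearMap.ker (cLin N)) ≤ Module.finrank ℂ (CFs N 2) :=
    LinearMap.finrank_le_finrank_of_injective (kerToCFs_injective N)
  have h3 : Module.finrank ℂ (LinearMap.range (cLin N)) ≤
      Module.finrank ℂ (LinearMap.ker (sumLin N)) :=
    Submodule.finrank_mono (range_cLin_le N)
  have h4 := finrank_ker_sumLin N
  omega

end linalg

end Fermat.Agent.S20.helper66
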