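import Fermat.Agent.S20.Defs
import Fermat.Agent.S21.Injective
import Fermat.Agent.S21.Period
import Fermat.Agent.S21.helper83_ParabolicBound

/-!
# S20: the upper bound `2 dim S₂(Γ₀(N)) ≤ dim H¹_par`, from the Eichler–Shimura injectivity
-/

set_option autoImplicit false

noncomputable section

open UpperHalfPlane ModularForm CongruenceSubgroup Matrix.SpecialLinearGroup
open scoped MatrixGroups Manifold

namespace Fermat.Agent.S20

/-- number of cusps = number of `T`-orbits on `X0 N` -/
def cInf (N : ℕ) : ℕ :=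
  Nat.card (MulAction.orbitRel.Quotient (Subgroup.zpowers ModularGroup.T) (X0 N))

/-- number of `S`-orbits on `X0 N` -/
def oS (N : ℕ) : ℕ :=
  Nat.card (MulAction.orbitRel.Quotient (Subgroup.zpowers ModularGroup.S) (X0 N))

/-- number of `S*T`-orbits on `X0 N` -/
def oST (N : ℕ) : ℕ :=
  Nat.card (MulAction.orbitRel.Quotient
    (Subgroup.zpowers (ModularGroup.S * ModularGroup.T)) (X0 N))

theorem finite_cuspForm_two (N : ℕ) [NeZero N] :
    Module.Finite ℂ (CuspForm (Gamma0 N) 2) := by
  obtain ⟨hfin, -⟩ := Fermat.Agent.S21.helper83.finrank_parabolicHoms_Gamma0_add_le N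
  have hinj := Fermat.Agent.S21.periodHomPair_injective N
  have hle := Fermat.Agent.S21.range_periodHomPair_le N
  let φ : (CuspForm (Gamma0 N) 2 × CuspForm (Gamma0 N) 2) →ₗ[ℂ]
      ModularCurve.Period.parabolicHoms ℂ (Gamma0 N) ℂ :=
    LinearMap.codRestrict _ (ModularCurve.periodHomPair N)
      (fun x => hle (LinearMap.mem_range_self _ x))
  have hφ : Function.Injective φ := fun a b h => hinj (congrArg Subtype.val h)
  haveI : Module.Finite ℂ (CuspForm (Gamma0 N) 2 × CuspForm (Gamma0 N) 2) :=
    Module.Finite.of_injective φ hφ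
  exact Module.Finite.of_surjective
    (LinearMap.fst ℂ (CuspForm (Gamma0 N) 2) (CuspForm (Gamma0 N) 2)) LinearMap.fst_surjective

theorem finrank_S2_le (N : ℕ) [NeZero N] :
    2 * Module.finrank ℂ (CuspForm (Gamma0 N) 2) + oS N + oST N + cInf N
      ≤ Nat.card (X0 N) + 2 := by
  obtain ⟨hfin, hb⟩ := Fermat.Agent.S21.helper83.finrank_parabolicHoms_Gamma0_add_le N
  have hinj := Fermat.Agent.S21.periodHomPair_injective N
  have hle := Fermat.Agent.S21.range_periodHomPair_le N
  let φ : (CuspForm (Gamma0 N) 2 × CuspForm (Gamma0 N) 2) →ₗ[ℂ]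
      ModularCurve.Period.parabolicHoms ℂ (Gamma0 N) ℂ :=
    LinearMap.codRestrict _ (ModularCurve.periodHomPair N)
      (fun x => hle (LinearMap.mem_range_self _ x))
  have hφ : Function.Injective φ := fun a b h => hinj (congrArg Subtype.val h)
  haveI := finite_cuspForm_two N
  have h1 : Module.finrank ℂ (CuspForm (Gamma0 N) 2 × CuspForm (Gamma0 N) 2)
      ≤ Module.finrank ℂ (ModularCurve.Period.parabolicHoms ℂ (Gamma0 N) ℂ) :=
    LinearMap.finrank_le_finrank_of_injective hφ
  rw [Module.finrank_prod] at h1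
  unfold oS oST cInf X0
  omega

end Fermat.Agent.S20
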