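import Fermat.Agent.S20.UpperBound
import Fermat.Agent.S24.helper37_IndexGamma0
import Fermat.Agent.S24.helper27_FixedPoints
import Fermat.Agent.S24.helper83_CuspCount

/-!
# S20: the final arithmetic
-/

set_option autoImplicit false

noncomputable section

open UpperHalfPlane ModularForm CongruenceSubgroup Matrix.SpecialLinearGroup
open scoped MatrixGroups Manifold

namespace Fermat.Agent.S20

/-- pointwise inequality for even weights -/
theorem arith_pointwise (d : ℕ) (hd : Even d) :
    6 * (if d % 4 = 0 then 0 else 1) + 8 * (if d % 6 = 2 then 1 else 0)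
      + 4 * (if d % 6 = 4 then 1 else 0) ≤ d + 12 * (if d = 2 then 1 else 0) := by
  obtain ⟨m, rfl⟩ := hd
  split_ifs <;> omega

theorem finrank_M2_ge_of (N : ℕ) [NeZero N] (G : GenData N)
    (hcard : Fintype.card G.J = Nat.card (X0 N))
    (heven : ∀ j, Even (G.d j))
    (h4 : (Finset.univ.filter fun j : G.J => G.d j % 4 = 0).card = oS N)
    (h6 : (Finset.univ.filter fun j : G.J => G.d j % 6 = 0).card = oST N ∧
      (Finset.univ.filter fun j : G.J => G.d j % 6 = 2).card =
        (Finset.univ.filter fun j : G.J => G.d j % 6 = 4).card)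
    (hsum : ∑ j, G.d j + 6 * cInf N ≤ 6 * Nat.card (X0 N))
    (hone : ∀ k : ℤ, Module.finrank ℂ (MFs 1 k) =
      if k < 0 ∨ Odd k then 0 else if k % 12 = 2 then (k / 12).toNat else (k / 12).toNat + 1) :
    Nat.card (X0 N) + cInf N ≤ 2 * Module.finrank ℂ (MFs N 2) + oS N + oST N := by
  classical
  -- dim M_2 = #{d_j = 2}
  have hM2 : Module.finrank ℂ (MFs N 2) = ∑ j : G.J, (if G.d j = 2 then 1 else 0) := by
    rw [G.count 2]
    refine Finset.sum_congr rfl fun j _ => ?_
    rw [hone]
    obtain ⟨m, hm⟩ := heven j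
    by_cases h2 : G.d j = 2
    · have : (2 : ℤ) - (G.d j : ℤ) = 0 := by rw [h2]; norm_num
      rw [this]; simp [h2]
    · rw [if_neg h2]
      by_cases h0 : G.d j = 0
      · have : (2 : ℤ) - (G.d j : ℤ) = 2 := by rw [h0]; norm_num
        rw [this]
        norm_num
      · have : (2 : ℤ) - (G.d j : ℤ) < 0 := by omega
        rw [if_pos (Or.inl this)]
  -- sum of the pointwise inequality
  have hpt := Finset.sum_le_sum (s := Finset.univ) fun (j : G.J) _ => arith_pointwise (G.d j) (heven j)
  simp only [Finset.sum_add_distrib, ← Finset.mul_sum] at hpt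
  -- counts
  have c4 : ∑ j : G.J, (if G.d j % 4 = 0 then 0 else 1) = Nat.card (X0 N) - oS N := by
    rw [← hcard, ← h4, ← Finset.card_univ (α := G.J)]
    have := Finset.card_filter_add_card_filter_not (s := (Finset.univ : Finset G.J))
      (fun j : G.J => G.d j % 4 = 0)
    rw [Finset.card_filter (fun j : G.J => ¬ G.d j % 4 = 0)] at this
    have e : ∑ j : G.J, (if ¬ G.d j % 4 = 0 then 1 else 0) =
        ∑ j : G.J, (if G.d j % 4 = 0 then 0 else 1) :=
      Finset.sum_congr rfl fun j _ => by split_ifs <;> simp_all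
    omega
  have c60 : (Finset.univ.filter fun j : G.J => G.d j % 6 = 0).card
      + (Finset.univ.filter fun j : G.J => G.d j % 6 = 2).card
      + (Finset.univ.filter fun j : G.J => G.d j % 6 = 4).card = Fintype.card G.J := by
    rw [← Finset.card_univ (α := G.J)]
    rw [← Finset.card_union_of_disjoint, ← Finset.card_union_of_disjoint]
    · congr 1
      ext j
      simp only [Finset.mem_union, Finset.mem_filter, Finset.mem_univ, true_and, iff_true]
      obtain ⟨m, hm⟩ := heven j
      omega
    · rw [Finset.disjoint_left]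
      intro j hj
      simp only [Finset.mem_union, Finset.mem_filter, Finset.mem_univ, true_and] at hj ⊢
      omega
    · rw [Finset.disjoint_left]
      intro j hj
      simp only [Finset.mem_filter, Finset.mem_univ, true_and] at hj ⊢
      omega
  have c62 : ∑ j : G.J, (if G.d j % 6 = 2 then 1 else 0)
      = (Finset.univ.filter fun j : G.J => G.d j % 6 = 2).card := by
    rw [Finset.card_filter]
  have c64 : ∑ j : G.J, (if G.d j % 6 = 4 then 1 else 0)
      = (Finset.univ.filter fun j : G.J => G.d j % 6 = 4).card := by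
    rw [Finset.card_filter]
  have hoS : oS N ≤ Nat.card (X0 N) := by
    rw [← hcard, ← h4, ← Finset.card_univ (α := G.J)]
    exact Finset.card_le_card (Finset.filter_subset _ _)
  rw [c4, c62, c64] at hpt
  rw [hM2]
  obtain ⟨h60, h624⟩ := h6
  omega

/-- The final arithmetic: the two bounds give the genus formula. -/
theorem result_of (N : ℕ) [NeZero N]
    (hge : Nat.card (X0 N) + cInf N ≤ 2 * Module.finrank ℂ (MFs N 2) + oS N + oST N)
    (hle : Module.finrank ℂ (MFs N 2) + 1 ≤ Module.finrank ℂ (CFs N 2) + cInf N) :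
    (Module.finrank ℂ (CuspForm (CongruenceSubgroup.Gamma0 N) 2) : ℚ)
      = ModularCurve.genusFormula N := by
  have hub := finrank_S2_le N
  have hs : Module.finrank ℂ (CuspForm (Gamma0 N) 2) = Module.finrank ℂ (CFs N 2) :=
    finrank_cuspForm_eq
  have h1 : Nat.card (X0 N) = ModularCurve.dedekindPsi N :=
    Fermat.Agent.S24.helper37.card_quotient_Gamma0 N
  have h2 : 2 * oS N = Nat.card (X0 N) + ModularCurve.nuTwo N :=
    Fermat.Agent.S24.helper27.two_mul_card_orbits_S N
  have h3 : 3 * oST N = Nat.card (X0 N) + 2 * ModularCurve.nuThree N :=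
    Fermat.Agent.S24.helper27.three_mul_card_orbits_ST N
  have h4 : cInf N = ModularCurve.cuspCount N :=
    Fermat.Agent.S24.helper83.card_orbits_T N
  have key : 2 * Module.finrank ℂ (CuspForm (Gamma0 N) 2) + oS N + oST N + cInf N
      = Nat.card (X0 N) + 2 := by
    rw [hs] at hub ⊢
    omega
  unfold ModularCurve.genusFormula
  have keyQ : (2 * Module.finrank ℂ (CuspForm (Gamma0 N) 2) + oS N + oST N + cInf N : ℚ)
      = Nat.card (X0 N) + 2 := by exact_mod_cast key
  have h2Q : (2 * oS N : ℚ) = Nat.card (X0 N) + ModularCurve.nuTwo N := by exact_mod_cast h2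
  have h3Q : (3 * oST N : ℚ) = Nat.card (X0 N) + 2 * ModularCurve.nuThree N := by
    exact_mod_cast h3
  rw [← h1, ← h4]
  linarith

end Fermat.Agent.S20
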