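import Fermat.Agent.S20.Defs
import Fermat.Agent.S20.helper85_Unified

/-!
# S20-INT `int_gen`: interpolation at a generic point

For `τ₀` with `E₄ τ₀ ≠ 0` and `E₆ τ₀ ≠ 0` and every large even weight `k`, every vector on
`SL(2, ℤ) ⧸ Γ₀(N)` is the vector of values at `τ₀` of the conjugates of a modular form of weight
`k` on `Γ₀(N)`.  This is the case `δ = -1`, `m = 2` of helper85's `interpolation_unified`
(whose Eisenstein/Dirichlet input is `helper41_EisGamma0` / `helper85_Span`).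
-/

set_option autoImplicit false

open UpperHalfPlane ModularForm CongruenceSubgroup Matrix.SpecialLinearGroup
open scoped MatrixGroups Manifold

namespace Fermat.Agent.S20.helper41

/-- Level-one multipliers of every even weight `≥ 4` not vanishing at a generic point. -/
theorem exists_levelOne_ne_zero (τ₀ : ℍ) (h4 : E₄ τ₀ ≠ 0) (h6 : E₆ τ₀ ≠ 0) :
    ∀ j : ℕ, 2 ≤ j → ∃ B : ModularForm 𝒮ℒ ((2 * j : ℕ) : ℤ), B τ₀ ≠ 0 := by
  have key : ∀ n : ℕ, (∃ B : ModularForm 𝒮ℒ ((2 * (n + 2) : ℕ) : ℤ), B τ₀ ≠ 0) ∧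
      (∃ B : ModularForm 𝒮ℒ ((2 * (n + 3) : ℕ) : ℤ), B τ₀ ≠ 0) := by
    intro n
    induction n with
    | zero =>
      refine ⟨⟨ModularForm.mcast (by norm_num) E₄, ?_⟩, ⟨ModularForm.mcast (by norm_num) E₆, ?_⟩⟩
      · simpa using h4
      · simpa using h6
    | succ n ih =>
      refine ⟨ih.2, ?_⟩
      obtain ⟨B, hB⟩ := ih.1
      refine ⟨ModularForm.mcast (by push_cast; ring) (B.mul E₄), ?_⟩
      simpa using ⟨hB, h4⟩
  intro j hj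
  obtain ⟨n, rfl⟩ : ∃ n, j = n + 2 := ⟨j - 2, by omega⟩
  exact (key n).1


lemma neg_one_smul_X0 (N : ℕ) (x : X0 N) : ((-1 : SL(2, ℤ))⁻¹) • x = x := by
  induction x using QuotientGroup.induction_on with
  | H g =>
    have h1 : ((-1 : SL(2, ℤ))⁻¹) • (QuotientGroup.mk g : X0 N)
        = QuotientGroup.mk ((-1 : SL(2, ℤ))⁻¹ * g) := rfl
    rw [h1, QuotientGroup.eq]
    have h2 : ((-1 : SL(2, ℤ))⁻¹ * g)⁻¹ * g = -1 := by
      rw [_root_.mul_inv_rev, inv_inv, mul_assoc]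
      simp
    rw [h2, Gamma0_mem]
    simp

lemma denom_neg_one (τ₀ : ℍ) : denom ((-1 : SL(2, ℤ)) : SL(2, ℤ)) τ₀ = -1 := by
  simp [denom]

lemma neg_one_smul_pt (τ₀ : ℍ) : (-1 : SL(2, ℤ)) • τ₀ = τ₀ := by
  rw [ModularGroup.SL_neg_smul, one_smul]

/-- **Interpolation at a generic point**, `ModularForm` shape: for all large even weights `k`
every vector on `SL(2, ℤ) ⧸ Γ₀(N)` is `(g ↦ (f ∣[k] g⁻¹)(τ₀))` for some `f ∈ M_k(Γ₀(N))`. -/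
theorem interpolation_generic_coset (N : ℕ) [NeZero N] (τ₀ : ℍ) (h4 : E₄ τ₀ ≠ 0)
    (h6 : E₆ τ₀ ≠ 0) :
    ∃ k₀ : ℕ, ∀ k : ℕ, k₀ ≤ k → Even k → ∀ v : X0 N → ℂ,
      ∃ f : ModularForm (Gamma0 N) (k : ℤ), ∀ g : SL(2, ℤ),
        ((f : ℍ → ℂ) ∣[(k : ℤ)] g⁻¹) τ₀ = v (QuotientGroup.mk g) := by
  obtain ⟨k₀, hk₀⟩ := helper85.interpolation_unified N τ₀ (-1) (neg_one_smul_pt τ₀) 2
    (by norm_num) (by
      rw [denom_neg_one]
      exact IsPrimitiveRoot.neg_one 0 (by norm_num))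
    (exists_levelOne_ne_zero τ₀ h4 h6)
  refine ⟨k₀, fun k hk hev v => ?_⟩
  have := hk₀ k hk v (fun x => by
    rw [neg_one_smul_X0, denom_neg_one, inv_neg, inv_one, hev.neg_one_pow, one_mul])
  exact (helper85.mem_realizable N).mp this

/-- **`int_gen`** (exact shape of task row S20-F2). -/
theorem int_gen (N : ℕ) [NeZero N] (τ₀ : ℍ) (h4 : E₄ τ₀ ≠ 0) (h6 : E₆ τ₀ ≠ 0) :
    ∃ k₀ : ℕ, ∀ k : ℕ, k₀ ≤ k → Even k → ∀ v : X0 N → ℂ,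
      ∃ f : ℍ → ℂ, IsMF N k f ∧ ∀ x, cj N k f x τ₀ = v x := by
  obtain ⟨k₀, hk₀⟩ := interpolation_generic_coset N τ₀ h4 h6
  refine ⟨k₀, fun k hk hev v => ?_⟩
  obtain ⟨f, hf⟩ := hk₀ k hk hev v
  refine ⟨f, isMF_coe f, fun x => ?_⟩
  induction x using QuotientGroup.induction_on with
  | H g =>
    rw [cj_mk (isMF_coe f).slash]
    exact hf g

/-- **Interpolation at a generic point**, shape of task 95 (A): functions on `SL(2, ℤ)`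
which are left `Γ₀(N)`-invariant. -/
theorem interpolation_generic (N : ℕ) [NeZero N] (τ₀ : ℍ) (h4 : E₄ τ₀ ≠ 0) (h6 : E₆ τ₀ ≠ 0) :
    ∃ k₀ : ℕ, ∀ k : ℕ, k₀ ≤ k → Even k → ∀ v : SL(2, ℤ) → ℂ,
      (∀ γ' ∈ Gamma0 N, ∀ γ, v (γ' * γ) = v γ) →
      ∃ f : ModularForm (Gamma0 N) (k : ℤ), ∀ γ : SL(2, ℤ),
        ((f : ℍ → ℂ) ∣[(k : ℤ)] γ) τ₀ = v γ := by
  obtain ⟨k₀, hk₀⟩ := interpolation_generic_coset N τ₀ h4 h6
  refine ⟨k₀, fun k hk hev v hv => ?_⟩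
  obtain ⟨f, hf⟩ := hk₀ k hk hev (fun x => v (Quotient.out x)⁻¹)
  refine ⟨f, fun γ => ?_⟩
  have h1 := hf γ⁻¹
  rw [inv_inv] at h1
  rw [h1]
  -- `out ⟦γ⁻¹⟧ = γ⁻¹ * β` with `β ∈ Γ₀(N)`
  obtain ⟨β, hβ⟩ := QuotientGroup.mk_out_eq_mul (Gamma0 N) γ⁻¹
  have h2 : (Quotient.out (QuotientGroup.mk γ⁻¹ : X0 N))⁻¹ = (β : SL(2, ℤ))⁻¹ * γ := by
    rw [hβ, _root_.mul_inv_rev, inv_inv]
  show v (Quotient.out (QuotientGroup.mk γ⁻¹ : X0 N))⁻¹ = v γ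
  rw [h2]
  exact hv _ (inv_mem β.2) γ

end Fermat.Agent.S20.helper41
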