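import Fermat.Agent.S20.Defs
import Fermat.Agent.S20.helper85_Elliptic
import Fermat.Agent.S20.helper41_IntGen

/-!
# S20: interpolation at the elliptic points, in the shape used by the core
-/

set_option autoImplicit false

noncomputable section

open UpperHalfPlane ModularForm CongruenceSubgroup Matrix.SpecialLinearGroup
open scoped MatrixGroups Manifold

namespace Fermat.Agent.S20

theorem denom_inv_of_fixed (σ : SL(2, ℤ)) (τ₀ : ℍ) (hτ : σ • τ₀ = τ₀) :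
    denom (σ⁻¹ : SL(2, ℤ)) τ₀ = (denom (σ : SL(2, ℤ)) τ₀)⁻¹ := by
  have h0 : ((1 : ℍ → ℂ) ∣[(1 : ℤ)] (σ⁻¹ * σ)) τ₀ = 1 := by
    rw [inv_mul_cancel, SlashAction.slash_one]; rfl
  rw [SlashAction.slash_mul, SL_slash_apply, SL_slash_apply, hτ] at h0
  simp only [Pi.one_apply, one_mul, zpow_neg, zpow_one] at h0
  have hne : denom ((σ : SL(2, ℤ)) : GL (Fin 2) ℝ) τ₀ ≠ 0 := denom_ne_zero _ _
  have hne' : denom ((σ⁻¹ : SL(2, ℤ)) : GL (Fin 2) ℝ) τ₀ ≠ 0 := denom_ne_zero _ _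
  field_simp at h0 ⊢
  linear_combination -h0

theorem int_fix (N : ℕ) [NeZero N] (σ : SL(2, ℤ))
    (hσ : σ = ModularGroup.S ∨ σ = ModularGroup.S * ModularGroup.T)
    (τ₀ : ℍ) (hτ : σ • τ₀ = τ₀) :
    ∃ k₀ : ℕ, ∀ k : ℕ, k₀ ≤ k → Even k → ∀ v : X0 N → ℂ,
      (∀ x, v (σ • x) = (denom (σ⁻¹ : SL(2, ℤ)) τ₀) ^ (-(k : ℤ)) * v x) →
      ∃ f : ℍ → ℂ, IsMF N k f ∧ ∀ x, cj N k f x τ₀ = v x := by
  have key : ∃ k₀ : ℕ, ∀ k : ℕ, k₀ ≤ k → ∀ w : X0 N → ℂ,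
      (∀ x, w (σ⁻¹ • x) = ((denom ((σ : SL(2, ℤ)) : GL (Fin 2) ℝ) τ₀)⁻¹) ^ k * w x) →
      w ∈ helper85.realizable N (k : ℤ) τ₀ := by
    rcases hσ with rfl | rfl
    · exact helper85.interpolation_at_S_coset N τ₀ hτ
    · exact helper85.interpolation_at_ST_coset N τ₀ hτ
  obtain ⟨k₀, hk₀⟩ := key
  refine ⟨k₀, fun k hk _ v hv => ?_⟩
  have hw : ∀ x, v (σ⁻¹ • x) = ((denom ((σ : SL(2, ℤ)) : GL (Fin 2) ℝ) τ₀)⁻¹) ^ k * v x := by
    intro x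
    have h1 := hv (σ⁻¹ • x)
    rw [smul_inv_smul] at h1
    rw [denom_inv_of_fixed σ τ₀ hτ] at h1
    have hne : denom ((σ : SL(2, ℤ)) : GL (Fin 2) ℝ) τ₀ ≠ 0 := denom_ne_zero _ _
    rw [h1, inv_zpow', neg_neg, zpow_natCast, inv_pow, ← mul_assoc,
      inv_mul_cancel₀ (pow_ne_zero _ hne), one_mul]
  obtain ⟨f, hf⟩ := (helper85.mem_realizable N).mp (hk₀ k hk v hw)
  refine ⟨f, isMF_coe f, fun x => ?_⟩
  induction x using QuotientGroup.induction_on with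
  | H g =>
    rw [cj_mk (isMF_coe f).slash]
    exact hf g

end Fermat.Agent.S20
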