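import Mathlib
import Fermat.Agent.S20.Defs

/-!
# S20-DET2: growth comparison

If `D ^ 2 = c₀ * Δ ^ n` on the upper half plane and `‖D τ‖` is bounded below by
`c * exp (-π μc im τ)` (with `c > 0`) for `im τ` large, then `n ≤ μc`.
-/

open UpperHalfPlane ModularForm CongruenceSubgroup Matrix.SpecialLinearGroup
open scoped MatrixGroups Manifold

namespace Fermat.Agent.S20.helper33

/-- Exponential decay of the discriminant in explicit form: there are `C > 0` and `A` with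
`‖Δ τ‖ ≤ C * exp (-(2 π im τ))` whenever `A ≤ im τ`. -/
theorem discriminant_norm_le_exp :
    ∃ C : ℝ, 0 < C ∧ ∃ A : ℝ, ∀ τ : ℍ, A ≤ τ.im →
      ‖discriminant τ‖ ≤ C * Real.exp (-(2 * Real.pi * τ.im)) := by
  have hO := CuspFormClass.exp_decay_atImInfty (h := 1) CuspForm.discriminant one_pos
    one_mem_strictPeriods_SL
  rw [Asymptotics.isBigO_iff] at hO
  obtain ⟨C, hC⟩ := hO
  rw [Filter.Eventually, UpperHalfPlane.atImInfty_mem] at hC
  obtain ⟨A, hA⟩ := hC
  refine ⟨max C 1, lt_of_lt_of_le one_pos (le_max_right _ _), A, fun τ hτ => ?_⟩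
  have h1 := hA τ hτ
  change ‖(CuspForm.discriminant : ℍ → ℂ) τ‖ ≤ C * ‖Real.exp (-2 * Real.pi * τ.im / 1)‖ at h1
  have h2 : ‖Real.exp (-2 * Real.pi * τ.im / 1)‖ = Real.exp (-(2 * Real.pi * τ.im)) := by
    rw [Real.norm_eq_abs, abs_of_pos (Real.exp_pos _)]
    congr 1
    ring
  rw [h2] at h1
  calc ‖discriminant τ‖ ≤ C * Real.exp (-(2 * Real.pi * τ.im)) := h1
    _ ≤ max C 1 * Real.exp (-(2 * Real.pi * τ.im)) :=
        mul_le_mul_of_nonneg_right (le_max_left _ _) (Real.exp_pos _).le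

theorem n_le_of_det_bounds (μc : ℝ) (n : ℕ) (D : ℍ → ℂ) (c₀ : ℂ)
    (hD : ∀ τ, D τ ^ 2 = c₀ * discriminant τ ^ n)
    (hlow : ∃ c : ℝ, 0 < c ∧ ∃ A : ℝ, ∀ τ : ℍ, A ≤ τ.im →
      c * Real.exp (-(Real.pi * μc * τ.im)) ≤ ‖D τ‖) :
    (n : ℝ) ≤ μc := by
  obtain ⟨c, hc, A, hA⟩ := hlow
  obtain ⟨C, hCpos, A', hA'⟩ := discriminant_norm_le_exp
  by_contra hlt
  rw [not_le] at hlt
  -- the positive gap
  set δ : ℝ := 2 * Real.pi * ((n : ℝ) - μc) with hδ
  have hδpos : 0 < δ := by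
    have : 0 < (n : ℝ) - μc := sub_pos.mpr hlt
    positivity
  set K : ℝ := ‖c₀‖ * C ^ n with hK
  have hKnn : 0 ≤ K := by positivity
  -- choose t large
  set x : ℝ := K / c ^ 2 with hx
  have hxnn : 0 ≤ x := by positivity
  set t : ℝ := max (max A A') (max 1 (x / δ)) with ht
  have htA : A ≤ t := le_trans (le_max_left _ _) (le_max_left _ _)
  have htA' : A' ≤ t := le_trans (le_max_right _ _) (le_max_left _ _)
  have ht1 : 1 ≤ t := le_trans (le_max_left _ _) (le_max_right _ _)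
  have htx : x / δ ≤ t := le_trans (le_max_right _ _) (le_max_right _ _)
  have htpos : 0 < t := lt_of_lt_of_le one_pos ht1
  let τ : ℍ := ⟨⟨0, t⟩, htpos⟩
  have hτim : τ.im = t := rfl
  have h1 := hA τ (by rw [hτim]; exact htA)
  have h2 := hA' τ (by rw [hτim]; exact htA')
  rw [hτim] at h1 h2
  -- square the lower bound
  have h3 : (c * Real.exp (-(Real.pi * μc * t))) ^ 2 ≤ ‖D τ‖ ^ 2 :=
    pow_le_pow_left₀ (by positivity) h1 2
  have h4 : ‖D τ‖ ^ 2 = ‖c₀‖ * ‖discriminant τ‖ ^ n := by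
    rw [← norm_pow, hD τ, norm_mul, norm_pow]
  have h5 : ‖discriminant τ‖ ^ n ≤ (C * Real.exp (-(2 * Real.pi * t))) ^ n :=
    pow_le_pow_left₀ (norm_nonneg _) h2 n
  have h6 : (c * Real.exp (-(Real.pi * μc * t))) ^ 2
      = c ^ 2 * Real.exp (-(2 * Real.pi * μc * t)) := by
    rw [mul_pow, ← Real.exp_nat_mul]
    congr 2
    push_cast
    ring
  have h7 : (C * Real.exp (-(2 * Real.pi * t))) ^ n
      = C ^ n * Real.exp (-(2 * Real.pi * n * t)) := by
    rw [mul_pow, ← Real.exp_nat_mul]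
    congr 2
    ring
  have h8 : c ^ 2 * Real.exp (-(2 * Real.pi * μc * t))
      ≤ K * Real.exp (-(2 * Real.pi * n * t)) := by
    rw [← h6]
    refine h3.trans ?_
    rw [h4, hK, mul_assoc, ← h7]
    exact mul_le_mul_of_nonneg_left h5 (norm_nonneg _)
  -- cancel exp (-(2 π n t))
  have h9 : c ^ 2 * Real.exp (δ * t) ≤ K := by
    have hE : 0 < Real.exp (-(2 * Real.pi * n * t)) := Real.exp_pos _
    have e1 : Real.exp (-(2 * Real.pi * μc * t))
        = Real.exp (δ * t) * Real.exp (-(2 * Real.pi * n * t)) := by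
      rw [← Real.exp_add]
      congr 1
      rw [hδ]; ring
    have h8' : (c ^ 2 * Real.exp (δ * t)) * Real.exp (-(2 * Real.pi * n * t))
        ≤ K * Real.exp (-(2 * Real.pi * n * t)) := by
      calc (c ^ 2 * Real.exp (δ * t)) * Real.exp (-(2 * Real.pi * n * t))
          = c ^ 2 * Real.exp (-(2 * Real.pi * μc * t)) := by rw [e1]; ring
        _ ≤ K * Real.exp (-(2 * Real.pi * n * t)) := h8
    exact le_of_mul_le_mul_right h8' hE
  -- but exp (δ t) ≥ δ t + 1 > x
  have h10 : x < Real.exp (δ * t) := by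
    have hle : x ≤ δ * t := by
      have := (div_le_iff₀ hδpos).mp htx
      linarith
    have := Real.add_one_le_exp (δ * t)
    linarith
  have hc2 : 0 < c ^ 2 := by positivity
  have h11 : K < c ^ 2 * Real.exp (δ * t) := by
    have : c ^ 2 * x = K := by
      rw [hx]; field_simp
    calc K = c ^ 2 * x := this.symm
      _ < c ^ 2 * Real.exp (δ * t) := mul_lt_mul_of_pos_left h10 hc2
  exact absurd h9 (not_le.mpr h11)

end Fermat.Agent.S20.helper33
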