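import Mathlib.Analysis.SpecificLimits.Normed
import Mathlib.Analysis.Normed.Group.InfiniteSum
import Mathlib.Topology.Algebra.InfiniteSum.Real
import Mathlib.Analysis.Complex.Basic

/-!
# A uniqueness lemma for generalized Dirichlet series (exponential sums)

If `∑' i, a i * z i ^ m = 0` for all large `m`, where the frequencies `z i` tend to zero
(along the cofinite filter) and the sum converges absolutely, then for every nonzero
frequency `w` the sum of the coefficients `a i` over the fibre `{i | z i = w}` vanishes.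
-/

set_option autoImplicit false

namespace Fermat.Agent.S20.helper41

open Finset Filter Topology

/-- A finite exponential sum `∑ c w * w ^ m` which is `O(ρ ^ m)` with `ρ` smaller than all
frequencies has all coefficients zero. -/
theorem finite_exp_sum_eq_zero (F : Finset ℂ) :
    ∀ (c : ℂ → ℂ) (ρ C : ℝ) (m₀ : ℕ), 0 ≤ ρ → (∀ w ∈ F, ρ < ‖w‖) →
      (∀ m ≥ m₀, ‖∑ w ∈ F, c w * w ^ m‖ ≤ C * ρ ^ m) → ∀ w ∈ F, c w = 0 := by
  classical
  induction F using Finset.induction_on with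
  | empty => intro c ρ C m₀ _ _ _ w hw; simp at hw
  | insert w₀ F hw₀ ih =>
    intro c ρ C m₀ hρ hF h
    -- first kill all coefficients on `F`
    have hF' : ∀ w ∈ F, ρ < ‖w‖ := fun w hw => hF w (mem_insert_of_mem hw)
    have key : ∀ w ∈ F, c w * (w - w₀) = 0 := by
      refine ih (fun w => c w * (w - w₀)) ρ (C * (ρ + ‖w₀‖)) m₀ hρ hF' ?_
      intro m hm
      have h1 := h (m + 1) (by omega)
      have h2 := h m hm
      have e : ∑ w ∈ F, c w * (w - w₀) * w ^ m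
          = (∑ w ∈ insert w₀ F, c w * w ^ (m + 1)) - w₀ * ∑ w ∈ insert w₀ F, c w * w ^ m := by
        rw [sum_insert hw₀, sum_insert hw₀, mul_add, mul_sum]
        have : ∑ w ∈ F, c w * (w - w₀) * w ^ m
            = ∑ w ∈ F, c w * w ^ (m + 1) - ∑ w ∈ F, w₀ * (c w * w ^ m) := by
          rw [← sum_sub_distrib]
          refine sum_congr rfl fun w _ => ?_
          ring
        rw [this]; ring
      rw [e]
      calc ‖(∑ w ∈ insert w₀ F, c w * w ^ (m + 1)) - w₀ * ∑ w ∈ insert w₀ F, c w * w ^ m‖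
          ≤ ‖∑ w ∈ insert w₀ F, c w * w ^ (m + 1)‖ + ‖w₀ * ∑ w ∈ insert w₀ F, c w * w ^ m‖ :=
            norm_sub_le _ _
        _ ≤ C * ρ ^ (m + 1) + ‖w₀‖ * (C * ρ ^ m) := by
            rw [norm_mul]
            exact add_le_add h1 (mul_le_mul_of_nonneg_left h2 (norm_nonneg _))
        _ = C * (ρ + ‖w₀‖) * ρ ^ m := by ring
    have hzero : ∀ w ∈ F, c w = 0 := by
      intro w hw
      have hne : w - w₀ ≠ 0 := by
        intro h0
        have : w = w₀ := sub_eq_zero.mp h0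
        exact hw₀ (this ▸ hw)
      rcases mul_eq_zero.mp (key w hw) with h0 | h0
      · exact h0
      · exact absurd h0 hne
    -- now the remaining coefficient
    have hw₀pos : 0 < ‖w₀‖ := lt_of_le_of_lt hρ (hF w₀ (mem_insert_self _ _))
    have hc₀ : c w₀ = 0 := by
      by_contra hc
      have hr : ρ / ‖w₀‖ < 1 := (div_lt_one hw₀pos).mpr (hF w₀ (mem_insert_self _ _))
      have hr0 : 0 ≤ ρ / ‖w₀‖ := div_nonneg hρ hw₀pos.le
      have hbound : ∀ m ≥ m₀, ‖c w₀‖ ≤ C * (ρ / ‖w₀‖) ^ m := by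
        intro m hm
        have h2 := h m hm
        rw [sum_insert hw₀] at h2
        have hs : ∑ w ∈ F, c w * w ^ m = 0 :=
          sum_eq_zero fun w hw => by rw [hzero w hw, zero_mul]
        rw [hs, add_zero, norm_mul, norm_pow] at h2
        have hpow : 0 < ‖w₀‖ ^ m := pow_pos hw₀pos m
        rw [div_pow, ← mul_div_assoc, le_div_iff₀ hpow]
        exact h2
      have hlim : Tendsto (fun m : ℕ => C * (ρ / ‖w₀‖) ^ m) atTop (𝓝 (C * 0)) :=
        (tendsto_pow_atTop_nhds_zero_of_lt_one hr0 hr).const_mul C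
      rw [mul_zero] at hlim
      have : ‖c w₀‖ ≤ 0 := by
        refine ge_of_tendsto hlim ?_
        filter_upwards [eventually_ge_atTop m₀] with m hm using hbound m hm
      exact hc (norm_le_zero_iff.mp this)
    intro w hw
    rcases mem_insert.mp hw with rfl | hw
    · exact hc₀
    · exact hzero w hw

/-- **Uniqueness for generalized Dirichlet series.** -/
theorem dirichlet_uniqueness {ι : Type*} (z a : ι → ℂ) (m₀ : ℕ)
    (hz : ∀ ε > 0, {i | ε ≤ ‖z i‖}.Finite)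
    (hsum : Summable fun i => ‖a i‖ * ‖z i‖ ^ m₀)
    (h : ∀ m ≥ m₀, ∑' i, a i * z i ^ m = 0)
    (w : ℂ) (hw : w ≠ 0) (s : Finset ι) (hs : ∀ i, i ∈ s ↔ z i = w) :
    ∑ i ∈ s, a i = 0 := by
  classical
  have hwpos : 0 < ‖w‖ := norm_pos_iff.mpr hw
  set S : Finset ι := (hz ‖w‖ hwpos).toFinset with hS
  have hSmem : ∀ i, i ∈ S ↔ ‖w‖ ≤ ‖z i‖ := fun i => by simp [hS]
  -- a radius `ρ < ‖w‖` bounding all smaller frequencies
  obtain ⟨ρ, hρ0, hρw, hρ⟩ : ∃ ρ : ℝ, 0 < ρ ∧ ρ < ‖w‖ ∧ ∀ i, ‖z i‖ < ‖w‖ → ‖z i‖ ≤ ρ := by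
    set T : Finset ι := ((hz (‖w‖ / 2) (half_pos hwpos)).toFinset).filter (fun i => ‖z i‖ < ‖w‖)
      with hT
    have hTmem : ∀ i, i ∈ T ↔ ‖w‖ / 2 ≤ ‖z i‖ ∧ ‖z i‖ < ‖w‖ := fun i => by simp [hT]
    by_cases hne : T.Nonempty
    · obtain ⟨i₀, hi₀, hmax⟩ := T.exists_max_image (fun i => ‖z i‖) hne
      refine ⟨‖z i₀‖, ?_, ((hTmem i₀).mp hi₀).2, ?_⟩
      · exact lt_of_lt_of_le (half_pos hwpos) ((hTmem i₀).mp hi₀).1
      · intro i hi
        by_cases hi2 : ‖w‖ / 2 ≤ ‖z i‖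
        · exact hmax i ((hTmem i).mpr ⟨hi2, hi⟩)
        · exact (not_le.mp hi2).le.trans ((hTmem i₀).mp hi₀).1
    · refine ⟨‖w‖ / 2, half_pos hwpos, half_lt_self hwpos, ?_⟩
      intro i hi
      by_contra hcon
      exact hne ⟨i, (hTmem i).mpr ⟨(not_le.mp hcon).le, hi⟩⟩
  -- a global bound for the frequencies
  obtain ⟨B, hB1, hB⟩ : ∃ B : ℝ, 1 ≤ B ∧ ∀ i, ‖z i‖ ≤ B := by
    set U : Finset ι := (hz 1 one_pos).toFinset with hU
    have hUmem : ∀ i, i ∈ U ↔ 1 ≤ ‖z i‖ := fun i => by simp [hU]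
    by_cases hne : U.Nonempty
    · obtain ⟨i₀, hi₀, hmax⟩ := U.exists_max_image (fun i => ‖z i‖) hne
      refine ⟨‖z i₀‖, (hUmem i₀).mp hi₀, fun i => ?_⟩
      by_cases hi : 1 ≤ ‖z i‖
      · exact hmax i ((hUmem i).mpr hi)
      · exact (not_le.mp hi).le.trans ((hUmem i₀).mp hi₀)
    · refine ⟨1, le_refl _, fun i => ?_⟩
      by_contra hcon
      exact hne ⟨i, (hUmem i).mpr (not_le.mp hcon).le⟩
  -- summability for all `m ≥ m₀`
  have hsummable : ∀ m ≥ m₀, Summable fun i => a i * z i ^ m := by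
    intro m hm
    refine Summable.of_norm_bounded (g := fun i => (‖a i‖ * ‖z i‖ ^ m₀) * B ^ (m - m₀))
      (hsum.mul_right _) fun i => ?_
    rw [norm_mul, norm_pow]
    have e : ‖z i‖ ^ m = ‖z i‖ ^ m₀ * ‖z i‖ ^ (m - m₀) := by
      rw [← pow_add]; congr 1; omega
    rw [e, ← mul_assoc]
    exact mul_le_mul_of_nonneg_left
      (pow_le_pow_left₀ (norm_nonneg _) (hB i) _)
      (mul_nonneg (norm_nonneg _) (pow_nonneg (norm_nonneg _) _))
  -- the tail estimate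
  set C : ℝ := (∑' i, ‖a i‖ * ‖z i‖ ^ m₀) / ρ ^ m₀ with hC
  have hfin : ∀ m ≥ m₀, ‖∑ i ∈ S, a i * z i ^ m‖ ≤ C * ρ ^ m := by
    intro m hm
    have hsm := hsummable m hm
    have hsplit := hsm.sum_add_tsum_compl (s := S)
    rw [h m hm] at hsplit
    have hfinEq : ∑ i ∈ S, a i * z i ^ m = - ∑' i : ↥(↑S : Set ι)ᶜ, a i * z i ^ m :=
      eq_neg_of_add_eq_zero_left hsplit
    rw [hfinEq, norm_neg]
    have hsub : Summable fun i : ↥(↑S : Set ι)ᶜ => ‖a i‖ * ‖z i‖ ^ m₀ :=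
      hsum.subtype _
    have hnn : ∀ i : ι, 0 ≤ ‖a i‖ * ‖z i‖ ^ m₀ := fun i =>
      mul_nonneg (norm_nonneg _) (pow_nonneg (norm_nonneg _) _)
    have hterm : ∀ i : ↥(↑S : Set ι)ᶜ,
        ‖a i * z i ^ m‖ ≤ (‖a i‖ * ‖z i‖ ^ m₀) * ρ ^ (m - m₀) := by
      intro i
      have hi : ‖z i‖ < ‖w‖ := by
        have := i.2
        simp only [Set.mem_compl_iff, Finset.mem_coe, hSmem, not_le] at this
        exact this
      rw [norm_mul, norm_pow]
      have e : ‖z i‖ ^ m = ‖z i‖ ^ m₀ * ‖z i‖ ^ (m - m₀) := by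
        rw [← pow_add]; congr 1; omega
      rw [e, ← mul_assoc]
      exact mul_le_mul_of_nonneg_left (pow_le_pow_left₀ (norm_nonneg _) (hρ i hi) _) (hnn i)
    have hle1 : ‖∑' i : ↥(↑S : Set ι)ᶜ, a i * z i ^ m‖
        ≤ ∑' i : ↥(↑S : Set ι)ᶜ, (‖a i‖ * ‖z i‖ ^ m₀) * ρ ^ (m - m₀) :=
      tsum_of_norm_bounded ((hsub.mul_right _).hasSum) hterm
    have hle2 : ∑' i : ↥(↑S : Set ι)ᶜ, (‖a i‖ * ‖z i‖ ^ m₀) * ρ ^ (m - m₀)
        ≤ (∑' i, ‖a i‖ * ‖z i‖ ^ m₀) * ρ ^ (m - m₀) := by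
      rw [tsum_mul_right]
      refine mul_le_mul_of_nonneg_right ?_ (pow_nonneg hρ0.le _)
      exact hsum.tsum_subtype_le (fun i => ‖a i‖ * ‖z i‖ ^ m₀) _ hnn
    refine hle1.trans (hle2.trans (le_of_eq ?_))
    rw [hC]
    have hρm : ρ ^ m = ρ ^ m₀ * ρ ^ (m - m₀) := by
      rw [← pow_add]; congr 1; omega
    rw [hρm]
    field_simp
  -- regroup by frequency
  set F : Finset ℂ := S.image z with hFdef
  set c : ℂ → ℂ := fun w' => ∑ i ∈ S.filter (fun i => z i = w'), a i with hc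
  have hregroup : ∀ m, ∑ i ∈ S, a i * z i ^ m = ∑ w' ∈ F, c w' * w' ^ m := by
    intro m
    rw [hFdef, ← Finset.sum_fiberwise_of_maps_to (g := z) (t := S.image z)
      (fun i hi => mem_image_of_mem z hi)]
    refine sum_congr rfl fun w' _ => ?_
    rw [hc, sum_mul]
    refine sum_congr rfl fun i hi => ?_
    rw [(mem_filter.mp hi).2]
  have hFnorm : ∀ w' ∈ F, ρ < ‖w'‖ := by
    intro w' hw'
    obtain ⟨i, hi, rfl⟩ := mem_image.mp hw'
    exact lt_of_lt_of_le hρw ((hSmem i).mp hi)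
  have hall := finite_exp_sum_eq_zero F c ρ C m₀ hρ0.le hFnorm
    (fun m hm => by rw [← hregroup m]; exact hfin m hm)
  -- conclude
  have hsS : s = S.filter (fun i => z i = w) := by
    ext i
    rw [hs, mem_filter, hSmem]
    constructor
    · intro hi; exact ⟨by rw [hi], hi⟩
    · exact fun hi => hi.2
  by_cases hne : s.Nonempty
  · obtain ⟨i, hi⟩ := hne
    have hwF : w ∈ F := by
      rw [hFdef, mem_image]
      refine ⟨i, ?_, (hs i).mp hi⟩
      rw [hSmem, (hs i).mp hi]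
    have := hall w hwF
    rw [hsS]; exact this
  · rw [Finset.not_nonempty_iff_eq_empty.mp hne, sum_empty]

end Fermat.Agent.S20.helper41
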