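import Fermat.Agent.S20.helper41_Functional

/-!
# Evaluation formula for the Eisenstein series of `Γ₀(N)` (interface for helper85)
-/

set_option autoImplicit false

namespace Fermat.Agent.S20.helper41

open UpperHalfPlane ModularForm EisensteinSeries CongruenceSubgroup Matrix
open scoped MatrixGroups

/-- The set of integer vectors over which `(E ∣ γ)(τ)` is summed: coprime vectors which are
congruent mod `N` to a unit multiple of the bottom row of `γ`. -/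
def EisClass (N : ℕ) (γ : SL(2, ℤ)) (v : Fin 2 → ℤ) : Prop :=
  IsCoprime (v 0) (v 1) ∧ ∃ u : (ZMod N)ˣ,
    ((v 0 : ℤ) : ZMod N) = u * ((γ 1 0 : ℤ) : ZMod N) ∧
    ((v 1 : ℤ) : ZMod N) = u * ((γ 1 1 : ℤ) : ZMod N)

lemma mem_gammaSet_rowOf_iff (N : ℕ) (d : (ZMod N)ˣ) (γ : SL(2, ℤ)) (v : Fin 2 → ℤ) :
    v ∈ gammaSet N 1 (rowOf N d γ) ↔ IsCoprime (v 0) (v 1) ∧
      ((v 0 : ℤ) : ZMod N) = d * ((γ 1 0 : ℤ) : ZMod N) ∧
      ((v 1 : ℤ) : ZMod N) = d * ((γ 1 1 : ℤ) : ZMod N) := by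
  constructor
  · rintro ⟨h1, h2⟩
    refine ⟨Int.isCoprime_iff_gcd_eq_one.mpr h2, ?_, ?_⟩
    · have := congrFun h1 0
      rw [rowOf_zero] at this
      exact this
    · have := congrFun h1 1
      rw [rowOf_one] at this
      exact this
  · rintro ⟨h1, h2, h3⟩
    refine ⟨?_, Int.isCoprime_iff_gcd_eq_one.mp h1⟩
    ext i
    fin_cases i
    · exact h2.trans (rowOf_zero N d γ).symm
    · exact h3.trans (rowOf_one N d γ).symm

lemma eisClass_iff (N : ℕ) (γ : SL(2, ℤ)) (v : Fin 2 → ℤ) :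
    EisClass N γ v ↔ ∃ d : (ZMod N)ˣ, v ∈ gammaSet N 1 (rowOf N d γ) := by
  simp only [mem_gammaSet_rowOf_iff, EisClass]
  constructor
  · rintro ⟨h, u, h0, h1⟩; exact ⟨u, h, h0, h1⟩
  · rintro ⟨u, h, h0, h1⟩; exact ⟨h, u, h0, h1⟩

lemma sum_indicator_gammaSet_rowOf (N : ℕ) [NeZero N] (γ : SL(2, ℤ)) (f : (Fin 2 → ℤ) → ℂ)
    (v : Fin 2 → ℤ) :
    ∑ d : (ZMod N)ˣ, (gammaSet N 1 (rowOf N d γ)).indicator f v =
      {v | EisClass N γ v}.indicator f v := by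
  classical
  by_cases hv : EisClass N γ v
  · rw [Set.indicator_of_mem (show v ∈ {v | EisClass N γ v} from hv)]
    obtain ⟨u, hu⟩ := (eisClass_iff N γ v).mp hv
    rw [Finset.sum_eq_single u, Set.indicator_of_mem hu]
    · intro d _ hd
      refine Set.indicator_of_notMem (fun hmem => hd ?_) _
      exact unit_eq_of_rowOf_eq N (hmem.1.symm.trans hu.1)
    · intro hi; exact absurd (Finset.mem_univ _) hi
  · rw [Set.indicator_of_notMem (show v ∉ {v | EisClass N γ v} from hv)]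
    refine Finset.sum_eq_zero fun d _ => Set.indicator_of_notMem (fun hmem => hv ?_) _
    exact (eisClass_iff N γ v).mpr ⟨d, hmem⟩

/-- Evaluation formula: `(E_k ∣ γ)(τ)` is the sum of `(v₀ τ + v₁)^{-k}` over the class of `γ`. -/
theorem eisFun_slash_apply_eisClass (N : ℕ) [NeZero N] {k : ℤ} (hk : 3 ≤ k) (γ : SL(2, ℤ))
    (τ : ℍ) :
    (eisFun N k ∣[k] γ) τ =
      ∑' v : {v : Fin 2 → ℤ // EisClass N γ v}, ((v.1 0 : ℂ) * τ + v.1 1) ^ (-k) := by
  rw [eisFun_slash_apply_tsum N hk]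
  simp_rw [sum_indicator_gammaSet_rowOf]
  exact (tsum_subtype {v | EisClass N γ v} (fun v => eisSummand k v τ)).symm

/-- **Interface (b)**: the Eisenstein series of `Γ₀(N)` with its evaluation formula. -/
theorem exists_eis (N : ℕ) [NeZero N] (k : ℕ) (hk : 3 ≤ k) :
    ∃ E : ModularForm (Gamma0 N) (k : ℤ), ∀ (γ : SL(2, ℤ)) (τ : ℍ),
      ((E : ℍ → ℂ) ∣[(k : ℤ)] γ) τ =
        ∑' v : {v : Fin 2 → ℤ // EisClass N γ v}, ((v.1 0 : ℂ) * τ + v.1 1) ^ (-(k : ℤ)) := by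
  have hk' : (3 : ℤ) ≤ (k : ℤ) := by exact_mod_cast hk
  refine ⟨eisGamma0 N hk', fun γ τ => ?_⟩
  rw [eisGamma0_coe]
  exact eisFun_slash_apply_eisClass N hk' γ τ

end Fermat.Agent.S20.helper41
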