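import Fermat.Agent.S20.helper41_Dirichlet
import Fermat.Agent.S20.helper41_EisGamma0

/-!
# Linear functionals killing all Eisenstein evaluation vectors vanish
-/

set_option autoImplicit false

namespace Fermat.Agent.S20.helper41

open UpperHalfPlane ModularForm EisensteinSeries CongruenceSubgroup Matrix
open scoped MatrixGroups

/-- The linear form `v ↦ v 0 * τ + v 1`. -/
noncomputable def lin (τ : ℍ) (v : Fin 2 → ℤ) : ℂ := (v 0 : ℂ) * (τ : ℂ) + (v 1 : ℂ)

lemma lin_injective (τ : ℍ) : Function.Injective (lin τ) := by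
  intro v v' h
  have him := congrArg Complex.im h
  have hre := congrArg Complex.re h
  simp only [lin, Complex.add_im, Complex.mul_im, Complex.intCast_re, Complex.intCast_im,
    zero_mul, add_zero, Complex.add_re, Complex.mul_re, sub_zero, UpperHalfPlane.coe_im,
    UpperHalfPlane.coe_re] at him hre
  have h0 : (v 0 : ℝ) = v' 0 := by
    have := τ.im_ne_zero
    exact mul_right_cancel₀ this him
  have h0' : v 0 = v' 0 := by exact_mod_cast h0
  have h1 : (v 1 : ℝ) = v' 1 := by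
    rw [h0] at hre
    linarith
  have h1' : v 1 = v' 1 := by exact_mod_cast h1
  ext i
  fin_cases i
  · exact h0'
  · exact h1'

lemma lin_neg (τ : ℍ) (v : Fin 2 → ℤ) : lin τ (-v) = - lin τ v := by
  simp [lin]; ring

lemma lin_zero (τ : ℍ) : lin τ 0 = 0 := by simp [lin]

lemma lin_ne_zero (τ : ℍ) {v : Fin 2 → ℤ} (hv : v ≠ 0) : lin τ v ≠ 0 := by
  intro h
  exact hv (lin_injective τ (h.trans (lin_zero τ).symm))

lemma eisSummand_eq_lin (k : ℤ) (v : Fin 2 → ℤ) (τ : ℍ) :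
    eisSummand k v τ = (lin τ v) ^ (-k) := rfl

/-- The frequency attached to an integer vector. -/
noncomputable def freq (τ : ℍ) (v : Fin 2 → ℤ) : ℂ := eisSummand 2 v τ

lemma freq_pow (τ : ℍ) (v : Fin 2 → ℤ) (m : ℕ) :
    freq τ v ^ m = eisSummand (2 * m) v τ := by
  simp only [freq, eisSummand_eq_lin]
  rw [← zpow_natCast, ← zpow_mul]
  congr 1

lemma freq_ne_zero (τ : ℍ) {v : Fin 2 → ℤ} (hv : v ≠ 0) : freq τ v ≠ 0 := by
  simp only [freq, eisSummand_eq_lin]
  exact zpow_ne_zero _ (lin_ne_zero τ hv)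

lemma freq_zero (τ : ℍ) : freq τ 0 = 0 := by
  simp [freq, eisSummand_eq_lin, lin_zero]

lemma freq_eq_iff (τ : ℍ) {v₀ : Fin 2 → ℤ} (hv₀ : v₀ ≠ 0) (v : Fin 2 → ℤ) :
    freq τ v = freq τ v₀ ↔ v = v₀ ∨ v = -v₀ := by
  constructor
  · intro h
    have hv : v ≠ 0 := by
      rintro rfl
      rw [freq_zero] at h
      exact freq_ne_zero τ hv₀ h.symm
    simp only [freq, eisSummand_eq_lin] at h
    have h2 : lin τ v ^ 2 = lin τ v₀ ^ 2 := by
      have := congrArg (fun x => x⁻¹) h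
      simp only [zpow_neg, inv_inv] at this
      exact_mod_cast this
    rcases sq_eq_sq_iff_eq_or_eq_neg.mp h2 with h3 | h3
    · exact Or.inl (lin_injective τ h3)
    · refine Or.inr (lin_injective τ ?_)
      rw [h3, lin_neg]
  · rintro (rfl | rfl)
    · rfl
    · simp only [freq, eisSummand_eq_lin, lin_neg]
      rw [show (-(2 : ℤ)) = -2 from rfl, zpow_neg, zpow_neg]
      congr 1
      exact_mod_cast neg_sq (lin τ v₀)

lemma norm_freq_sq (τ : ℍ) (v : Fin 2 → ℤ) : ‖freq τ v‖ ^ 2 = ‖eisSummand 4 v τ‖ := by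
  rw [← norm_pow, freq_pow]
  norm_num

lemma summable_norm_freq_sq (τ : ℍ) : Summable fun v : Fin 2 → ℤ => ‖freq τ v‖ ^ 2 := by
  simp_rw [norm_freq_sq]
  exact summable_norm_eisSummand (by norm_num) τ

lemma finite_le_norm_freq (τ : ℍ) (ε : ℝ) (hε : 0 < ε) :
    {v : Fin 2 → ℤ | ε ≤ ‖freq τ v‖}.Finite := by
  have h := (summable_norm_freq_sq τ).tendsto_cofinite_zero
  have hev : ∀ᶠ v in Filter.cofinite, ‖freq τ v‖ ^ 2 < ε ^ 2 :=
    h.eventually (gt_mem_nhds (pow_pos hε 2))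
  rw [Filter.eventually_cofinite] at hev
  refine hev.subset fun v hv => ?_
  simp only [Set.mem_ofPred_eq, not_lt] at hv ⊢
  exact pow_le_pow_left₀ hε.le hv 2


/-! ### Rows attached to cosets -/

variable (N : ℕ)

/-- The congruence class `(0, d) · γ mod N`. -/
def rowOf (d : (ZMod N)ˣ) (γ : SL(2, ℤ)) : Fin 2 → ZMod N :=
  unitRow N d ᵥ* (γ.map (Int.castRingHom (ZMod N))).1

lemma rowOf_zero (d : (ZMod N)ˣ) (γ : SL(2, ℤ)) :
    rowOf N d γ 0 = (d : ZMod N) * ((γ 1 0 : ℤ) : ZMod N) := by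
  simp [rowOf, unitRow, Matrix.vecMul, vecHead, vecTail]

lemma rowOf_one (d : (ZMod N)ˣ) (γ : SL(2, ℤ)) :
    rowOf N d γ 1 = (d : ZMod N) * ((γ 1 1 : ℤ) : ZMod N) := by
  simp [rowOf, unitRow, Matrix.vecMul, vecHead, vecTail]

lemma eisFun_slash' [NeZero N] (k : ℤ) (γ : SL(2, ℤ)) :
    eisFun N k ∣[k] γ = ∑ d : (ZMod N)ˣ, eisensteinSeries (rowOf N d γ) k :=
  eisFun_slash N k γ

/-- If two rows agree then the matrices lie in the same right `Γ₀(N)`-coset. -/
lemma mem_Gamma0_of_rowOf_eq {d d' : (ZMod N)ˣ} {γ γ' : SL(2, ℤ)}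
    (h : rowOf N d γ = rowOf N d' γ') : γ * γ'⁻¹ ∈ Gamma0 N := by
  have h0 := congrFun h 0
  have h1 := congrFun h 1
  rw [rowOf_zero, rowOf_zero] at h0
  rw [rowOf_one, rowOf_one] at h1
  rw [Gamma0_mem]
  have hentry : ((γ * γ'⁻¹ : SL(2, ℤ)) 1 0 : ℤ) = γ 1 0 * γ' 1 1 - γ 1 1 * γ' 1 0 := by
    rw [Matrix.SpecialLinearGroup.coe_mul, Matrix.SpecialLinearGroup.coe_inv,
      Matrix.adjugate_fin_two, Matrix.mul_apply, Fin.sum_univ_two]
    simp
    ring
  rw [hentry]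
  have hd : IsUnit (d : ZMod N) := d.isUnit
  apply hd.mul_left_cancel
  push_cast
  rw [mul_zero, mul_sub, ← mul_assoc, ← mul_assoc, h0, h1]
  ring

lemma unit_eq_of_rowOf_eq {d d' : (ZMod N)ˣ} {γ : SL(2, ℤ)}
    (h : rowOf N d γ = rowOf N d' γ) : d = d' := by
  have h0 := congrFun h 0
  have h1 := congrFun h 1
  rw [rowOf_zero, rowOf_zero] at h0
  rw [rowOf_one, rowOf_one] at h1
  have hdet := γ.det_coe
  rw [Matrix.det_fin_two] at hdet
  have hdet' := congrArg (fun x : ℤ => (x : ZMod N)) hdet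
  simp only [Int.cast_sub, Int.cast_mul, Int.cast_one] at hdet'
  ext
  calc (d : ZMod N) = d * (((γ 0 0 : ℤ) : ZMod N) * ((γ 1 1 : ℤ) : ZMod N)
          - ((γ 0 1 : ℤ) : ZMod N) * ((γ 1 0 : ℤ) : ZMod N)) := by rw [hdet', mul_one]
    _ = ((γ 0 0 : ℤ) : ZMod N) * (d * ((γ 1 1 : ℤ) : ZMod N))
          - ((γ 0 1 : ℤ) : ZMod N) * (d * ((γ 1 0 : ℤ) : ZMod N)) := by ring
    _ = ((γ 0 0 : ℤ) : ZMod N) * (d' * ((γ 1 1 : ℤ) : ZMod N))
          - ((γ 0 1 : ℤ) : ZMod N) * (d' * ((γ 1 0 : ℤ) : ZMod N)) := by rw [h0, h1]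
    _ = d' * (((γ 0 0 : ℤ) : ZMod N) * ((γ 1 1 : ℤ) : ZMod N)
          - ((γ 0 1 : ℤ) : ZMod N) * ((γ 1 0 : ℤ) : ZMod N)) := by ring
    _ = d' := by rw [hdet', mul_one]

/-- The bottom row of a matrix. -/
def botRow (γ : SL(2, ℤ)) : Fin 2 → ℤ := ![γ 1 0, γ 1 1]

lemma botRow_ne_zero (γ : SL(2, ℤ)) : botRow γ ≠ 0 := by
  intro h
  have h0 : γ 1 0 = 0 := by simpa [botRow] using congrFun h 0
  have h1 : γ 1 1 = 0 := by simpa [botRow] using congrFun h 1
  have hdet := γ.det_coe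
  rw [Matrix.det_fin_two, h0, h1] at hdet
  simp at hdet

lemma botRow_mem (γ : SL(2, ℤ)) : botRow γ ∈ gammaSet N 1 (rowOf N 1 γ) := by
  refine ⟨?_, ?_⟩
  · ext i
    fin_cases i
    · simp [botRow, rowOf_zero]
    · simp [botRow, rowOf_one]
  · have hdet := γ.det_coe
    rw [Matrix.det_fin_two] at hdet
    have hcop : IsCoprime (γ 1 0) (γ 1 1) := ⟨-γ 0 1, γ 0 0, by linarith⟩
    simpa [botRow] using Int.isCoprime_iff_gcd_eq_one.mp hcop

lemma neg_botRow_mem (γ : SL(2, ℤ)) : -botRow γ ∈ gammaSet N 1 (rowOf N (-1) γ) := by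
  refine ⟨?_, ?_⟩
  · ext i
    fin_cases i
    · simp [botRow, rowOf_zero]
    · simp [botRow, rowOf_one]
  · have hdet := γ.det_coe
    rw [Matrix.det_fin_two] at hdet
    have hcop : IsCoprime (γ 1 0) (γ 1 1) := ⟨-γ 0 1, γ 0 0, by linarith⟩
    simpa [botRow] using Int.isCoprime_iff_gcd_eq_one.mp hcop


/-! ### Evaluation of the slashed Eisenstein series as a sum over all integer vectors -/

lemma summable_eisSummand {k : ℤ} (hk : 3 ≤ k) (τ : ℍ) :
    Summable fun v : Fin 2 → ℤ => eisSummand k v τ :=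
  (summable_norm_eisSummand hk τ).of_norm

lemma eisFun_slash_apply_tsum [NeZero N] {k : ℤ} (hk : 3 ≤ k) (γ : SL(2, ℤ)) (τ : ℍ) :
    (eisFun N k ∣[k] γ) τ = ∑' v : Fin 2 → ℤ, ∑ d : (ZMod N)ˣ,
      (gammaSet N 1 (rowOf N d γ)).indicator (fun v => eisSummand k v τ) v := by
  rw [eisFun_slash', Finset.sum_apply, Summable.tsum_finsetSum]
  · refine Finset.sum_congr rfl fun d _ => ?_
    rw [eisensteinSeries]
    exact tsum_subtype (gammaSet N 1 (rowOf N d γ)) (fun v => eisSummand k v τ)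
  · intro d _
    exact (summable_eisSummand hk τ).indicator _

/-- The coefficient function attached to a functional. -/
noncomputable def coeffFun [NeZero N] {ι : Type*} [Fintype ι] (h : ι → SL(2, ℤ)) (lam : ι → ℂ)
    (v : Fin 2 → ℤ) : ℂ :=
  ∑ i, ∑ d : (ZMod N)ˣ, (gammaSet N 1 (rowOf N d (h i))).indicator (fun _ => lam i) v

lemma functional_eq_tsum [NeZero N] {ι : Type*} [Fintype ι] (h : ι → SL(2, ℤ)) (lam : ι → ℂ)
    {k : ℤ} (hk : 3 ≤ k) (τ : ℍ) :
    ∑ i, lam i * (eisFun N k ∣[k] h i) τ =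
      ∑' v : Fin 2 → ℤ, coeffFun N h lam v * eisSummand k v τ := by
  have hsum : ∀ i d, Summable fun v : Fin 2 → ℤ =>
      (gammaSet N 1 (rowOf N d (h i))).indicator (fun v => eisSummand k v τ) v :=
    fun i d => (summable_eisSummand hk τ).indicator _
  have hrw : ∀ v : Fin 2 → ℤ, coeffFun N h lam v * eisSummand k v τ =
      ∑ i, lam i * ∑ d : (ZMod N)ˣ,
        (gammaSet N 1 (rowOf N d (h i))).indicator (fun v => eisSummand k v τ) v := by
    intro v
    rw [coeffFun, Finset.sum_mul]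
    refine Finset.sum_congr rfl fun i _ => ?_
    rw [Finset.sum_mul, Finset.mul_sum]
    refine Finset.sum_congr rfl fun d _ => ?_
    by_cases hv : v ∈ gammaSet N 1 (rowOf N d (h i))
    · simp [Set.indicator_of_mem hv]
    · simp [Set.indicator_of_notMem hv]
  simp_rw [hrw]
  rw [Summable.tsum_finsetSum]
  · refine Finset.sum_congr rfl fun i _ => ?_
    rw [eisFun_slash_apply_tsum N hk, tsum_mul_left]
  · intro i _
    exact (summable_sum fun d _ => hsum i d).mul_left _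

lemma norm_coeffFun_le [NeZero N] {ι : Type*} [Fintype ι] (h : ι → SL(2, ℤ)) (lam : ι → ℂ)
    (v : Fin 2 → ℤ) :
    ‖coeffFun N h lam v‖ ≤ ∑ i : ι, ∑ _d : (ZMod N)ˣ, ‖lam i‖ := by
  rw [coeffFun]
  refine (norm_sum_le _ _).trans (Finset.sum_le_sum fun i _ => ?_)
  refine (norm_sum_le _ _).trans (Finset.sum_le_sum fun d _ => ?_)
  by_cases hv : v ∈ gammaSet N 1 (rowOf N d (h i))
  · simp [Set.indicator_of_mem hv]
  · simp [Set.indicator_of_notMem hv]

lemma coeffFun_botRow [NeZero N] {ι : Type*} [Fintype ι] (h : ι → SL(2, ℤ))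
    (hinj : ∀ i j, h i * (h j)⁻¹ ∈ Gamma0 N → i = j) (lam : ι → ℂ) (i₀ : ι) :
    coeffFun N h lam (botRow (h i₀)) = lam i₀ := by
  classical
  rw [coeffFun, Finset.sum_eq_single i₀, Finset.sum_eq_single (1 : (ZMod N)ˣ)]
  · exact Set.indicator_of_mem (botRow_mem N (h i₀)) _
  · intro d _ hd
    refine Set.indicator_of_notMem (fun hmem => hd ?_) _
    have : rowOf N d (h i₀) = rowOf N 1 (h i₀) :=
      hmem.1.symm.trans (botRow_mem N (h i₀)).1
    exact unit_eq_of_rowOf_eq N this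
  · intro hi; exact absurd (Finset.mem_univ _) hi
  · intro i _ hi
    refine Finset.sum_eq_zero fun d _ => ?_
    refine Set.indicator_of_notMem (fun hmem => hi ?_) _
    have : rowOf N d (h i) = rowOf N 1 (h i₀) :=
      hmem.1.symm.trans (botRow_mem N (h i₀)).1
    exact hinj _ _ (mem_Gamma0_of_rowOf_eq N this)
  · intro hi; exact absurd (Finset.mem_univ _) hi

lemma coeffFun_neg_botRow [NeZero N] {ι : Type*} [Fintype ι] (h : ι → SL(2, ℤ))
    (hinj : ∀ i j, h i * (h j)⁻¹ ∈ Gamma0 N → i = j) (lam : ι → ℂ) (i₀ : ι) :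
    coeffFun N h lam (-botRow (h i₀)) = lam i₀ := by
  classical
  rw [coeffFun, Finset.sum_eq_single i₀, Finset.sum_eq_single (-1 : (ZMod N)ˣ)]
  · exact Set.indicator_of_mem (neg_botRow_mem N (h i₀)) _
  · intro d _ hd
    refine Set.indicator_of_notMem (fun hmem => hd ?_) _
    have : rowOf N d (h i₀) = rowOf N (-1) (h i₀) :=
      hmem.1.symm.trans (neg_botRow_mem N (h i₀)).1
    exact unit_eq_of_rowOf_eq N this
  · intro hi; exact absurd (Finset.mem_univ _) hi
  · intro i _ hi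
    refine Finset.sum_eq_zero fun d _ => ?_
    refine Set.indicator_of_notMem (fun hmem => hi ?_) _
    have : rowOf N d (h i) = rowOf N (-1) (h i₀) :=
      hmem.1.symm.trans (neg_botRow_mem N (h i₀)).1
    exact hinj _ _ (mem_Gamma0_of_rowOf_eq N this)
  · intro hi; exact absurd (Finset.mem_univ _) hi

/-- **Functional lemma (generic form).** A linear functional on functions on a set of
distinct right cosets `Γ₀(N) h i` which kills the evaluation vectors
`((E_{2m} ∣ h i)(τ₀))_i` of the Eisenstein series of all weights `2m ≥ 4` is zero. -/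
theorem functional_eq_zero [NeZero N] (τ₀ : ℍ) {ι : Type*} [Fintype ι] (h : ι → SL(2, ℤ))
    (hinj : ∀ i j, h i * (h j)⁻¹ ∈ Gamma0 N → i = j) (lam : ι → ℂ)
    (H : ∀ m : ℕ, 2 ≤ m → ∑ i, lam i * (eisFun N (2 * m) ∣[(2 * m : ℤ)] h i) τ₀ = 0) :
    lam = 0 := by
  classical
  funext i₀
  set a := coeffFun N h lam with ha
  set C : ℝ := ∑ i : ι, ∑ _d : (ZMod N)ˣ, ‖lam i‖ with hC
  have hsum : Summable fun v : Fin 2 → ℤ => ‖a v‖ * ‖freq τ₀ v‖ ^ 2 := by
    refine Summable.of_nonneg_of_le (fun v => by positivity) (fun v => ?_)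
      ((summable_norm_freq_sq τ₀).mul_left C)
    exact mul_le_mul_of_nonneg_right (norm_coeffFun_le N h lam v) (by positivity)
  have hzero : ∀ m ≥ 2, ∑' v : Fin 2 → ℤ, a v * freq τ₀ v ^ m = 0 := by
    intro m hm
    have hk : (3 : ℤ) ≤ 2 * m := by omega
    have := functional_eq_tsum N h lam hk τ₀
    rw [H m hm] at this
    simp_rw [freq_pow]
    exact this.symm
  have hv₀ : botRow (h i₀) ≠ 0 := botRow_ne_zero (h i₀)
  have hne : botRow (h i₀) ≠ -botRow (h i₀) := by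
    intro hEq
    apply hv₀
    ext j
    have := congrFun hEq j
    simp only [Pi.neg_apply, Pi.zero_apply] at this ⊢
    omega
  have key := dirichlet_uniqueness (freq τ₀) a 2 (finite_le_norm_freq τ₀) hsum hzero
    (freq τ₀ (botRow (h i₀))) (freq_ne_zero τ₀ hv₀) {botRow (h i₀), -botRow (h i₀)}
    (fun v => by
      rw [Finset.mem_insert, Finset.mem_singleton]
      exact (freq_eq_iff τ₀ hv₀ v).symm)
  rw [Finset.sum_pair hne, ha, coeffFun_botRow N h hinj, coeffFun_neg_botRow N h hinj] at key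
  have : (2 : ℂ) * lam i₀ = 0 := by rw [two_mul]; exact key
  simpa using this

end Fermat.Agent.S20.helper41
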