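import Mathlib
import Fermat.Agent.S20.helper48_Det
import Fermat.Agent.S20.helper96_F2
import Fermat.Agent.S20.helper29_L1
import Fermat.Agent.S20.UpperBound

/-!
# S20-DET (helper48): final statements

The statements of task S20-DET with the inputs of F2 (helper96) and L1 (helper29) plugged in.
The determinant lower bound at the cusps (CuspB) is still an explicit hypothesis of `sum_d_le_of_cusp`.
-/

set_option autoImplicit false

noncomputable section

namespace Fermat.Agent.S20.helper48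

open UpperHalfPlane ModularForm CongruenceSubgroup Matrix.SpecialLinearGroup
open scoped MatrixGroups Manifold

theorem cInf_eq (N : ℕ) : cInf N = Fermat.Agent.S20.cInf N := rfl

theorem evDet_ne_zero_gen (N : ℕ) [NeZero N] (G : GenData N) (φ : G.J ≃ X0 N) (τ₀ : ℍ)
    (h4 : E₄ τ₀ ≠ 0) (h6 : E₆ τ₀ ≠ 0) : evDet N G φ τ₀ ≠ 0 :=
  evDet_ne_zero_of_span G φ τ₀ (helper96.span_ev_gen N G τ₀ h4 h6)

theorem evDet_ne_zero_fix (N : ℕ) [NeZero N] (G : GenData N) (φ : G.J ≃ X0 N) (σ : SL(2, ℤ))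
    (hσ : σ = ModularGroup.S ∨ σ = ModularGroup.S * ModularGroup.T) (τ₀ : ℍ)
    (hτ : σ • τ₀ = τ₀) : evDet N G φ τ₀ ≠ 0 :=
  evDet_ne_zero_of_span G φ τ₀ (helper96.span_ev_fix N G σ hσ τ₀ hτ)

theorem evDet_sq_eq (N : ℕ) [NeZero N] (G : GenData N) (φ : G.J ≃ X0 N) :
    ∃ (n : ℕ) (c : ℂ), c ≠ 0 ∧ ∑ j, G.d j = 6 * n ∧
      ∀ τ, evDet N G φ τ ^ 2 = c * discriminant τ ^ n :=
  evDet_sq_eq_of G φ helper29.levelOne_nonvanishing (helper96.span_ev_gen N G)
    (helper96.span_ev_fix N G)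

theorem exists_stab (N : ℕ) [NeZero N] (G : GenData N) :
    ∃ k₀ : ℕ, ∀ k : ℕ, k₀ ≤ k → Even k → Stab N k :=
  exists_stab_of G (helper96.card_J N G) (helper96.even_d N G) helper29.finrank_MFs_one

/-- `Σ d_j + 6 c_∞ ≤ 6 μ` with only the cusp determinant bound (CuspB) as hypothesis; stated with
the central `Fermat.Agent.S20.cInf`. -/
theorem sum_d_le_of_cusp (N : ℕ) [NeZero N] (G : GenData N)
    (hcusp : ∀ k : ℤ,
      Module.finrank ℂ (MFs N k) = Module.finrank ℂ (MFs N (k - 12)) + Nat.card (X0 N) →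
      ∃ w : X0 N → ℍ → ℂ, (∀ y, IsMF N k (w y)) ∧
      ∃ c : ℝ, 0 < c ∧ ∃ A : ℝ, ∀ τ : ℍ, A ≤ τ.im →
        c * Real.exp (-(Real.pi * ((Nat.card (X0 N) : ℝ) - Fermat.Agent.S20.cInf N) * τ.im))
          ≤ ‖Matrix.det (Matrix.of fun y x : X0 N => cj N k (w y) x τ)‖) :
    ∑ j, G.d j + 6 * Fermat.Agent.S20.cInf N ≤ 6 * Nat.card (X0 N) :=
  sum_d_le_of G (equivOfCard G (helper96.card_J N G)) (exists_stab N G) hcusp
    (evDet_sq_eq N G _)

end Fermat.Agent.S20.helper48
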