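import Mathlib
import Fermat.Agent.S20.Defs
import Fermat.Agent.S24.helper83_CuspCount
import Fermat.Agent.S20.helper87_F0
import Fermat.Agent.S20.helper87_CuspA
import Fermat.Agent.S20.helper90_LA
import Fermat.Agent.S20.helper61_CuspBCore

/-!
# S20-CuspB: consequences at the cusps (final statements)

`cusp_onto`, `cusp_count`, `cusp_det_lower`, `div_infty` in the exact shapes of the task board,
obtained from `helper61_CuspBCore.lean` by instantiating the bundles `CuspFacts0` / `CuspFacts`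
with the landed results of S20-CuspA (`helper87_CuspA`), S20-LA (`helper90_LA`) and
S20-F0 (`helper87_F0`).  Here `zetaN` is `Fermat.Agent.S20.helper87.zetaN`, and
`cInf`, `Stab` are `Fermat.Agent.S20.helper61.cInf`, `Fermat.Agent.S20.helper61.Stab`
(verbatim the task-board definitions).
-/

set_option autoImplicit false

noncomputable section

open UpperHalfPlane ModularForm CongruenceSubgroup Matrix.SpecialLinearGroup
open scoped MatrixGroups Manifold

namespace Fermat.Agent.S20.helper61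

open Fermat.Agent.S20 Fermat.Agent.S20.helper87

theorem Tinv_pow_N_smul (N : ℕ) (x : X0 N) : (ModularGroup.T⁻¹) ^ N • x = x := by
  rw [inv_pow, inv_smul_eq_iff]
  exact (Fermat.Agent.S24.helper83.T_pow_N_smul N x).symm

theorem card_orbits_Tinv (N : ℕ) :
    Nat.card (MulAction.orbitRel.Quotient (Subgroup.zpowers ModularGroup.T⁻¹) (X0 N)) =
      cInf N := by
  unfold cInf
  rw [Subgroup.zpowers_inv]

/-- The bundle of facts used by the core file (for `cusp_onto`, `cusp_det_lower`),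
instantiated. -/
theorem cuspFacts0 (N : ℕ) [NeZero N] : CuspFacts0 N (zetaN N) where
  coeff_T k f hf x n := cuspCoeff_T N k f hf x n
  mf_div k f hf h := isMF_div_Delta N k f hf h
  coeff_mul_Delta k f hf x n hn := cuspCoeff_mul_Delta N k f hf x n hn
  coeff_add k f g hf hg x n := cuspCoeff_add N k f g hf hg x n
  coeff_smul k c f hf x n := cuspCoeff_smul N k c f hf x n
  tendsto_exp k f hf x n h := tendsto_cj_mul_exp N k f hf x n h
  finite k := finite_MFs N k
  isMF_Delta := isMF_discriminant.of_one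
  la_one := (Fermat.Agent.S20.helper90.finrank_eigSp_one (X := X0 N) ModularGroup.T⁻¹).trans
      (card_orbits_Tinv N)
  la_sum := by
    rw [Fermat.Agent.S20.helper90.sum_finrank_eigSp (X := X0 N) ModularGroup.T⁻¹ N
      (Nat.pos_of_ne_zero (NeZero.ne N)) (Tinv_pow_N_smul N) (zetaN N)
      (zetaN_isPrimitiveRoot N), Nat.card_eq_fintype_card]
  la_sum_mul := by
    rw [Fermat.Agent.S20.helper90.sum_mul_finrank_eigSp (X := X0 N) ModularGroup.T⁻¹ N
      (Nat.pos_of_ne_zero (NeZero.ne N)) (Tinv_pow_N_smul N) (zetaN N)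
      (zetaN_isPrimitiveRoot N)]
    exact congrArg₂ (fun a b => N * (a - b)) (Nat.card_eq_fintype_card (α := X0 N)).symm
      (card_orbits_Tinv N)
  la_decomp v := Fermat.Agent.S20.helper90.exists_eig_decomp (X := X0 N) ModularGroup.T⁻¹ N
      (Nat.pos_of_ne_zero (NeZero.ne N)) (Tinv_pow_N_smul N) (zetaN N)
      (zetaN_isPrimitiveRoot N) v
  la_unique u hu h0 := Fermat.Agent.S20.helper90.eig_decomp_unique (X := X0 N) ModularGroup.T⁻¹ N
      (Nat.pos_of_ne_zero (NeZero.ne N)) (zetaN N)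
      (zetaN_isPrimitiveRoot N) u hu h0

/-- The full bundle, instantiated. -/
theorem cuspFacts (N : ℕ) [NeZero N] : CuspFacts N (zetaN N) where
  toCuspFacts0 := cuspFacts0 N
  pow_N := (zetaN_isPrimitiveRoot N).pow_eq_one
  norm_one := Complex.norm_eq_one_of_pow_eq_one (zetaN_isPrimitiveRoot N).pow_eq_one
    (NeZero.ne N)
  cf_div k f hf h := isCF_div_Delta N k f hf h
  cf_iff k f hf := isCF_iff_cuspCoeff_zero N k f hf
  tendsto_trace k k' w H hw hH := tendsto_trace_div_Delta N k k' w H hw hH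

theorem cusp_onto (N : ℕ) [NeZero N] (k : ℤ) (hk : Stab N k) (u : ℕ → X0 N → ℂ) (hu : ∀ n, u n ∈ eigSp (fun x : X0 N => ModularGroup.T⁻¹ • x) (zetaN N ^ n)) : ∃ f, IsMF N k f ∧ ∀ x, ∀ n < N, cuspCoeff N k f x n = u n x :=
  cusp_onto_of (cuspFacts0 N) k hk u hu

theorem cusp_count (N : ℕ) [NeZero N] (k : ℤ) (hk : Stab N k) : Module.finrank ℂ (CFs N k) + cInf N = Module.finrank ℂ (MFs N k) :=
  cusp_count_of (cuspFacts N) k hk

theorem cusp_det_lower (N : ℕ) [NeZero N] (k : ℤ) (hk : Stab N k) : ∃ w : X0 N → ℍ → ℂ, (∀ y, IsMF N k (w y)) ∧ ∃ c : ℝ, 0 < c ∧ ∃ A : ℝ, ∀ τ : ℍ, A ≤ τ.im → c * Real.exp (-(Real.pi * ((Nat.card (X0 N) : ℝ) - cInf N) * τ.im)) ≤ ‖Matrix.det (Matrix.of fun y x : X0 N => cj N k (w y) x τ)‖ :=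
  cusp_det_lower_of (cuspFacts0 N) k hk

theorem div_infty (N : ℕ) [NeZero N] (k k' : ℤ) (hk' : Stab N k') (H : ℍ → ℂ) (hH : IsCF N k H) (h : ∀ w, IsMF N k' w → Filter.Tendsto (fun τ : ℍ => (∑ x : X0 N, cj N k' w x τ * cj N k H x τ) / discriminant τ) atImInfty (nhds 0)) : IsCF N (k - 12) (H / discriminant) :=
  div_infty_of (cuspFacts N) k k' hk' H hH h

end Fermat.Agent.S20.helper61
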