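import Mathlib
import Fermat.Agent.S20.helper48_DetFinal
import Fermat.Agent.S20.helper61_CuspB

/-!
# S20-DET (helper48): the final inequality `Σ d_j + 6 c_∞ ≤ 6 μ`
-/

set_option autoImplicit false

noncomputable section

namespace Fermat.Agent.S20.helper48

open UpperHalfPlane ModularForm CongruenceSubgroup Matrix.SpecialLinearGroup
open scoped MatrixGroups Manifold

/-- `Σ d_j + 6 c_∞ ≤ 6 μ` (central `cInf` of `UpperBound.lean`). -/
theorem sum_d_le_central (N : ℕ) [NeZero N] (G : GenData N) :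
    ∑ j, G.d j + 6 * Fermat.Agent.S20.cInf N ≤ 6 * Nat.card (X0 N) :=
  sum_d_le_of_cusp N G (fun k hk => Fermat.Agent.S20.helper61.cusp_det_lower N k hk)

/-- `Σ d_j + 6 c_∞ ≤ 6 μ` (task-board statement). -/
theorem sum_d_le (N : ℕ) [NeZero N] (G : GenData N) :
    ∑ j, G.d j + 6 * cInf N ≤ 6 * Nat.card (X0 N) :=
  sum_d_le_central N G

end Fermat.Agent.S20.helper48
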