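import Mathlib
import Fermat.Agent.S20.Defs
import Fermat.Agent.S20.helper29_L1
import Fermat.Agent.S20.helper87_F0
import Fermat.Agent.S20.helper50_GenData

/-!
# S20-F1 (task 142, helper50): `exists_genData`

`⊕_k M_k(Γ₀(N))` is generated over the level-one forms by finitely many homogeneous elements,
with the dimension count `dim M_k(Γ₀(N)) = ∑_j dim M_{k - d_j}(SL₂(ℤ))`.
-/

set_option autoImplicit false

noncomputable section

open UpperHalfPlane ModularForm CongruenceSubgroup Matrix.SpecialLinearGroup
open scoped MatrixGroups Manifold

namespace Fermat.Agent.S20.helper50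

theorem exists_genData (N : ℕ) [NeZero N] : Nonempty (GenData N) :=
  exists_genData_of N (helper87.finite_MFs N) (helper87.finrank_MFs_le N) helper29.finrank_MFs_one
    (helper29.isMF_neg_weight N)

end Fermat.Agent.S20.helper50
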