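import Mathlib
import Fermat.Agent.S20.Defs
import Fermat.Agent.S20.helper29_L1

/-!
# S20-F1b (task 190, helper59): Hilbert-series arithmetic

* `a_recursion`: the level-one dimensions `a m = dim M_m(SL₂(ℤ))` satisfy
  `a m + a (m - 10) = a (m - 4) + a (m - 6) + [m = 0]`;
* `hilbert_count`: an abstract counting identity: if `d` satisfies the same recursion with
  inhomogeneous term `q`, then `d k = ∑ l ≤ k, q l * a (k - l)`;
* `twelve_a_ge`, `a_sub_twelve`: two elementary facts on the `a m`.
-/

set_option autoImplicit false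

noncomputable section

open UpperHalfPlane ModularForm CongruenceSubgroup Matrix.SpecialLinearGroup
open scoped MatrixGroups Manifold

namespace Fermat.Agent.S20.helper59

open Fermat.Agent.S20

/-- the closed formula for the level-one dimensions, as a function `ℤ → ℕ` -/
def aFun (k : ℤ) : ℕ :=
  if k < 0 ∨ Odd k then 0 else if k % 12 = 2 then (k / 12).toNat else (k / 12).toNat + 1

theorem finrank_MFs_one_eq_aFun (k : ℤ) : Module.finrank ℂ (MFs 1 k) = aFun k :=
  helper29.finrank_MFs_one k

theorem aFun_recursion (m : ℤ) :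
    aFun m + aFun (m - 10) = aFun (m - 4) + aFun (m - 6) + (if m = 0 then 1 else 0) := by
  unfold aFun
  simp only [Int.odd_iff]
  split_ifs <;> omega

theorem a_recursion (m : ℤ) :
    Module.finrank ℂ (MFs 1 m) + Module.finrank ℂ (MFs 1 (m - 10)) =
      Module.finrank ℂ (MFs 1 (m - 4)) + Module.finrank ℂ (MFs 1 (m - 6)) +
        (if m = 0 then 1 else 0) := by
  simp only [finrank_MFs_one_eq_aFun]
  exact aFun_recursion m

theorem twelve_a_ge (m : ℕ) (hm : Even m) :
    m ≤ 12 * Module.finrank ℂ (MFs 1 (m : ℤ)) + 2 := by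
  rw [finrank_MFs_one_eq_aFun]
  unfold aFun
  have hm' : ¬ Odd (m : ℤ) := by
    rw [Int.not_odd_iff_even]
    exact_mod_cast hm
  have h0 : ¬ ((m : ℤ) < 0) := by omega
  rw [if_neg (by tauto)]
  split_ifs <;> omega

theorem a_sub_twelve (m : ℤ) (hm : Even m) (h0 : 0 ≤ m) (h2 : m ≠ 2) :
    Module.finrank ℂ (MFs 1 m) = Module.finrank ℂ (MFs 1 (m - 12)) + 1 := by
  simp only [finrank_MFs_one_eq_aFun]
  unfold aFun
  rw [Int.even_iff] at hm
  simp only [Int.odd_iff]
  split_ifs <;> omega

section hilbert

variable (a q : ℤ → ℕ)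

/-- the convolution sum, with a free upper bound -/
def convSum (n : ℕ) (k : ℤ) : ℕ := ∑ l ∈ Finset.range n, q l * a (k - l)

variable {a q}

theorem convSum_eq_of_le (ha0 : ∀ k < 0, a k = 0) {n n' : ℕ} (k : ℤ) (h : n ≤ n')
    (hk : k.toNat + 1 ≤ n) : convSum a q n' k = convSum a q n k := by
  unfold convSum
  symm
  apply Finset.sum_subset (Finset.range_mono h)
  intro l _ hl
  rw [Finset.mem_range, not_lt] at hl
  have : k - (l : ℤ) < 0 := by omega
  rw [ha0 _ this, mul_zero]

theorem convSum_of_neg (ha0 : ∀ k < 0, a k = 0) (n : ℕ) {k : ℤ} (hk : k < 0) :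
    convSum a q n k = 0 := by
  unfold convSum
  apply Finset.sum_eq_zero
  intro l _
  have : k - (l : ℤ) < 0 := by omega
  rw [ha0 _ this, mul_zero]

theorem convSum_recursion
    (ha : ∀ m, a m + a (m - 10) = a (m - 4) + a (m - 6) + (if m = 0 then 1 else 0))
    {k : ℤ} (hk : 0 ≤ k) (n : ℕ) (hn : k.toNat + 1 ≤ n) :
    convSum a q n k + convSum a q n (k - 10) =
      convSum a q n (k - 4) + convSum a q n (k - 6) + q k := by
  unfold convSum
  rw [← Finset.sum_add_distrib, ← Finset.sum_add_distrib]
  have hterm : ∀ l ∈ Finset.range n,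
      q l * a (k - l) + q l * a (k - 10 - l) =
        (q l * a (k - 4 - l) + q l * a (k - 6 - l)) + (if l = k.toNat then q k else 0) := by
    intro l _
    have h := ha (k - l)
    have e1 : k - 10 - (l : ℤ) = k - l - 10 := by ring
    have e2 : k - 4 - (l : ℤ) = k - l - 4 := by ring
    have e3 : k - 6 - (l : ℤ) = k - l - 6 := by ring
    rw [e1, e2, e3, ← mul_add, ← mul_add, h]
    by_cases hl : l = k.toNat
    · have hl' : k - (l : ℤ) = 0 := by omega
      have hl'' : ((l : ℕ) : ℤ) = k := by omega
      rw [if_pos hl', if_pos hl, mul_add, mul_one, hl'']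
    · have hl' : ¬ (k - (l : ℤ) = 0) := by omega
      rw [if_neg hl', if_neg hl, add_zero, add_zero]
  rw [Finset.sum_congr rfl hterm, Finset.sum_add_distrib]
  congr 1
  rw [Finset.sum_ite_eq' (Finset.range n) k.toNat (fun _ => q k)]
  rw [if_pos (Finset.mem_range.mpr (by omega))]

end hilbert

theorem hilbert_count (d a : ℤ → ℕ) (q : ℤ → ℕ) (hd0 : ∀ k < 0, d k = 0)
    (ha0 : ∀ k < 0, a k = 0)
    (ha : ∀ m, a m + a (m - 10) = a (m - 4) + a (m - 6) + (if m = 0 then 1 else 0))
    (hq : ∀ k, d k + d (k - 10) = d (k - 4) + d (k - 6) + q k) (k : ℤ) :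
    d k = ∑ l ∈ Finset.range (k.toNat + 1), q l * a (k - l) := by
  -- main claim, by induction on a bound for `k`
  have key : ∀ n : ℕ, ∀ k : ℤ, k < n → d k = convSum a q (k.toNat + 1) k := by
    intro n
    induction n with
    | zero =>
      intro k hk
      have hk' : k < 0 := by exact_mod_cast hk
      rw [hd0 k hk', convSum_of_neg ha0 _ hk']
    | succ n ih =>
      intro k hk
      by_cases hkn : k < n
      · exact ih k hkn
      · have hk0 : 0 ≤ k := by
          have : (0 : ℤ) ≤ n := Int.natCast_nonneg n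
          omega
        have hkeq : k = n := by
          push_cast at hk
          omega
        have h4 := ih (k - 4) (by omega)
        have h6 := ih (k - 6) (by omega)
        have h10 := ih (k - 10) (by omega)
        have hrec := convSum_recursion (q := q) ha hk0 (k.toNat + 1) le_rfl
        rw [convSum_eq_of_le (q := q) ha0 (k - 4) (n := (k - 4).toNat + 1)
            (n' := k.toNat + 1) (by omega) le_rfl,
          convSum_eq_of_le (q := q) ha0 (k - 6) (n := (k - 6).toNat + 1)
            (n' := k.toNat + 1) (by omega) le_rfl,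
          convSum_eq_of_le (q := q) ha0 (k - 10) (n := (k - 10).toNat + 1)
            (n' := k.toNat + 1) (by omega) le_rfl,
          ← h4, ← h6, ← h10] at hrec
        have hd := hq k
        omega
  exact key (k.toNat + 1) k (by push_cast; omega)

end Fermat.Agent.S20.helper59
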