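import Mathlib
import Fermat.Agent.S20.Defs
import Fermat.Agent.S20.helper29_LevelOne
import Fermat.Agent.S20.helper29_LevelOneMF
import Fermat.Agent.S20.helper29_L1

/-!
# S20-F1a : regularity of `(E₄, E₆)` on modular forms for `Γ₀(N)`

* `E4_mul_injective` : multiplication by `E₄` is injective;
* `regular_E4_E6` : if `E₆ f = E₄ g` then `f = E₄ u`, `g = E₆ u` for a modular form `u`.
-/

set_option autoImplicit false

noncomputable section

open UpperHalfPlane ModularForm CongruenceSubgroup Matrix.SpecialLinearGroup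
open scoped MatrixGroups Manifold

namespace Fermat.Agent.S20.helper90

open Fermat.Agent.S20 Filter Topology

lemma E4_fun_ne_zero : (E₄ : ℍ → ℂ) ≠ 0 := fun h =>
  helper29.E₄_I_ne_zero (by rw [h]; rfl)

lemma E6_fun_ne_zero : (E₆ : ℍ → ℂ) ≠ 0 := by
  intro h
  have h1 : Tendsto (fun τ : ℍ => E₆ τ) atImInfty (𝓝 1) := helper29.tendsto_E₆
  have h2 : Tendsto (fun τ : ℍ => E₆ τ) atImInfty (𝓝 0) := by
    have : (fun τ : ℍ => E₆ τ) = fun _ => (0 : ℂ) := by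
      funext τ; exact congrFun h τ
    rw [this]; exact tendsto_const_nhds
  exact one_ne_zero (tendsto_nhds_unique h1 h2)

theorem E4_mul_injective (N : ℕ) [NeZero N] (k : ℤ) (f : ℍ → ℂ) (hf : IsMF N k f)
    (h : (E₄ : ℍ → ℂ) * f = 0) : f = 0 := by
  have hE : MDiff (E₄ : ℍ → ℂ) := helper29.isMF_E4.holo
  rcases (UpperHalfPlane.mul_eq_zero_iff hE hf.holo).mp h with h1 | h1
  · exact absurd h1 E4_fun_ne_zero
  · exact h1

theorem E6_mul_injective (N : ℕ) [NeZero N] (k : ℤ) (f : ℍ → ℂ) (hf : IsMF N k f)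
    (h : (E₆ : ℍ → ℂ) * f = 0) : f = 0 := by
  have hE : MDiff (E₆ : ℍ → ℂ) := helper29.isMF_E6.holo
  rcases (UpperHalfPlane.mul_eq_zero_iff hE hf.holo).mp h with h1 | h1
  · exact absurd h1 E6_fun_ne_zero
  · exact h1

/-- A function which is killed by both `E₄` and `E₆` vanishes. -/
lemma eq_zero_of_E4_mul_of_E6_mul {v : ℍ → ℂ} (h4 : (E₄ : ℍ → ℂ) * v = 0)
    (h6 : (E₆ : ℍ → ℂ) * v = 0) : v = 0 := by
  funext τ
  have e4 : E₄ τ * v τ = 0 := congrFun h4 τ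
  have e6 : E₆ τ * v τ = 0 := congrFun h6 τ
  rcases helper29.E₄_ne_zero_or_E₆_ne_zero τ with h | h
  · exact (mul_eq_zero.mp e4).resolve_left h
  · exact (mul_eq_zero.mp e6).resolve_left h

/-- The common quotient. -/
def quot (f g : ℍ → ℂ) : ℍ → ℂ := fun τ => if E₄ τ ≠ 0 then f τ / E₄ τ else g τ / E₆ τ

lemma E4_mul_quot {f g : ℍ → ℂ} (h : (E₆ : ℍ → ℂ) * f = (E₄ : ℍ → ℂ) * g) :
    (E₄ : ℍ → ℂ) * quot f g = f := by
  funext τ
  have e : E₆ τ * f τ = E₄ τ * g τ := congrFun h τ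
  simp only [Pi.mul_apply, quot]
  by_cases h4 : E₄ τ ≠ 0
  · rw [if_pos h4]; field_simp
  · rw [if_neg h4]
    rw [not_not] at h4
    have h6 := helper29.E₆_ne_zero_of_E₄_eq_zero h4
    rw [h4, zero_mul] at e ⊢
    exact ((mul_eq_zero.mp e).resolve_left h6).symm

lemma E6_mul_quot {f g : ℍ → ℂ} (h : (E₆ : ℍ → ℂ) * f = (E₄ : ℍ → ℂ) * g) :
    (E₆ : ℍ → ℂ) * quot f g = g := by
  funext τ
  have e : E₆ τ * f τ = E₄ τ * g τ := congrFun h τ
  simp only [Pi.mul_apply, quot]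
  by_cases h4 : E₄ τ ≠ 0
  · rw [if_pos h4]
    field_simp
    linear_combination e
  · rw [if_neg h4]
    rw [not_not] at h4
    have h6 := helper29.E₆_ne_zero_of_E₄_eq_zero h4
    field_simp

lemma quot_eq_div_E4 {f g : ℍ → ℂ} (h : (E₆ : ℍ → ℂ) * f = (E₄ : ℍ → ℂ) * g) {τ : ℍ}
    (h4 : E₄ τ ≠ 0) : quot f g τ = f τ / E₄ τ := by
  have := congrFun (E4_mul_quot h) τ
  simp only [Pi.mul_apply] at this
  rw [← this]; field_simp

lemma quot_eq_div_E6 {f g : ℍ → ℂ} (h : (E₆ : ℍ → ℂ) * f = (E₄ : ℍ → ℂ) * g) {τ : ℍ}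
    (h6 : E₆ τ ≠ 0) : quot f g τ = g τ / E₆ τ := by
  have := congrFun (E6_mul_quot h) τ
  simp only [Pi.mul_apply] at this
  rw [← this]; field_simp

lemma quot_holo {f g : ℍ → ℂ} (hf : MDiff f) (hg : MDiff g)
    (h : (E₆ : ℍ → ℂ) * f = (E₄ : ℍ → ℂ) * g) : MDiff (quot f g) := by
  have hE4 : MDiff (E₄ : ℍ → ℂ) := helper29.isMF_E4.holo
  have hE6 : MDiff (E₆ : ℍ → ℂ) := helper29.isMF_E6.holo
  intro τ
  rcases helper29.E₄_ne_zero_or_E₆_ne_zero τ with h4 | h6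
  · have hev : quot f g =ᶠ[𝓝 τ] (f / (E₄ : ℍ → ℂ)) := by
      have hopen : ∀ᶠ z in 𝓝 τ, E₄ z ≠ 0 :=
        (hE4.continuous.continuousAt (x := τ)).eventually_ne h4
      filter_upwards [hopen] with z hz
      rw [Pi.div_apply]
      exact quot_eq_div_E4 h hz
    exact ((hf τ).div (hE4 τ) h4).congr_of_eventuallyEq hev
  · have hev : quot f g =ᶠ[𝓝 τ] (g / (E₆ : ℍ → ℂ)) := by
      have hopen : ∀ᶠ z in 𝓝 τ, E₆ z ≠ 0 :=
        (hE6.continuous.continuousAt (x := τ)).eventually_ne h6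
      filter_upwards [hopen] with z hz
      rw [Pi.div_apply]
      exact quot_eq_div_E6 h hz
    exact ((hg τ).div (hE6 τ) h6).congr_of_eventuallyEq hev

/-- Slash of a product with `E₄`. -/
lemma E4_mul_slash (k : ℤ) (u : ℍ → ℂ) (γ : SL(2, ℤ)) :
    ((E₄ : ℍ → ℂ) * u) ∣[k - 6] γ = (E₄ : ℍ → ℂ) * (u ∣[k - 10] γ) := by
  have hk : k - 6 = 4 + (k - 10) := by ring
  rw [hk, mul_slash_SL2, helper29.isMF_E4.slash_one γ]

lemma E6_mul_slash (k : ℤ) (u : ℍ → ℂ) (γ : SL(2, ℤ)) :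
    ((E₆ : ℍ → ℂ) * u) ∣[k - 4] γ = (E₆ : ℍ → ℂ) * (u ∣[k - 10] γ) := by
  have hk : k - 4 = 6 + (k - 10) := by ring
  rw [hk, mul_slash_SL2, helper29.isMF_E6.slash_one γ]

theorem regular_E4_E6 (N : ℕ) [NeZero N] (k : ℤ) (f g : ℍ → ℂ) (hf : IsMF N (k - 6) f)
    (hg : IsMF N (k - 4) g) (h : (E₆ : ℍ → ℂ) * f = (E₄ : ℍ → ℂ) * g) :
    ∃ u : ℍ → ℂ, IsMF N (k - 10) u ∧ f = (E₄ : ℍ → ℂ) * u ∧ g = (E₆ : ℍ → ℂ) * u := by
  have h4 := E4_mul_quot h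
  have h6 := E6_mul_quot h
  refine ⟨quot f g, ⟨?_, quot_holo hf.holo hg.holo h, ?_⟩, h4.symm, h6.symm⟩
  · -- slash invariance
    intro γ hγ
    have e4 : (E₄ : ℍ → ℂ) * (quot f g ∣[k - 10] γ) = (E₄ : ℍ → ℂ) * quot f g := by
      rw [← E4_mul_slash, h4, hf.slash γ hγ]
    have e6 : (E₆ : ℍ → ℂ) * (quot f g ∣[k - 10] γ) = (E₆ : ℍ → ℂ) * quot f g := by
      rw [← E6_mul_slash, h6, hg.slash γ hγ]
    have := eq_zero_of_E4_mul_of_E6_mul (v := quot f g ∣[k - 10] γ - quot f g)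
      (by rw [mul_sub, e4, sub_self]) (by rw [mul_sub, e6, sub_self])
    exact sub_eq_zero.mp this
  · -- boundedness at the cusps
    intro γ
    have e4 : (E₄ : ℍ → ℂ) * (quot f g ∣[k - 10] γ) = f ∣[k - 6] γ := by
      rw [← E4_mul_slash, h4]
    have hb := hf.bdd γ
    have hE : Tendsto (fun τ : ℍ => (E₄ τ)⁻¹) atImInfty (𝓝 1) := by
      have := helper29.tendsto_E₄.inv₀ one_ne_zero
      simpa using this
    have hEb : IsBoundedAtImInfty (fun τ : ℍ => (E₄ τ)⁻¹) := hE.isBigO_one ℝ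
    have hne : ∀ᶠ τ in atImInfty, E₄ τ ≠ 0 :=
      helper29.tendsto_E₄.eventually_ne one_ne_zero
    have hprod : IsBoundedAtImInfty ((f ∣[k - 6] γ) * fun τ : ℍ => (E₄ τ)⁻¹) := hb.mul hEb
    refine Asymptotics.IsBigO.congr' hprod ?_ EventuallyEq.rfl
    filter_upwards [hne] with τ hτ
    have := congrFun e4 τ
    simp only [Pi.mul_apply] at this ⊢
    rw [← this]
    field_simp

end Fermat.Agent.S20.helper90
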